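/-
GATE-C / C4 (GH-w) WeightedReciprocity, helper55.  Mathlib only, abstract.

Relative norms for a representation `ρ` of a group `G`: for `H ≤ G` of finite index
`relNorm ρ H = ∑_{c ∈ G/H} ρ c` maps `H`-invariants to `G`-invariants (independent of the chosen
representatives), `relNormSub ρ H H'` is the relative norm `M^{H'} → M^H` for `H' ≤ H`, and
`relNorm ρ H ∘ relNormSub ρ H H' = relNorm ρ H'` on `H'`-invariants (transitivity).
-/
import Mathlib

set_option autoImplicit false

namespace Fermat.Agent.GC.Global.WRec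

section RelNorm

variable {k G M : Type*} [CommRing k] [Group G] [AddCommGroup M] [Module k M]
  (ρ : Representation k G M)

/-- `y` is invariant under the subgroup `H`. -/
def IsInv (H : Subgroup G) (y : M) : Prop := ∀ h ∈ H, ρ h y = y

variable {ρ}

theorem IsInv.mono {H H' : Subgroup G} (h : H' ≤ H) {y : M} (hy : IsInv ρ H y) : IsInv ρ H' y :=
  fun g hg => hy g (h hg)

theorem IsInv.add {H : Subgroup G} {y z : M} (hy : IsInv ρ H y) (hz : IsInv ρ H z) :
    IsInv ρ H (y + z) := fun g hg => by rw [map_add, hy g hg, hz g hg]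

theorem IsInv.rho_eq {H : Subgroup G} {y : M} (hy : IsInv ρ H y) {g g' : G}
    (h : g⁻¹ * g' ∈ H) : ρ g' y = ρ g y := by
  have : g' = g * (g⁻¹ * g') := by group
  rw [this, map_mul, Module.End.mul_apply, hy _ h]

theorem IsInv.rho_out {H : Subgroup G} {y : M} (hy : IsInv ρ H y) (g : G) :
    ρ (QuotientGroup.mk g : G ⧸ H).out y = ρ g y := by
  apply hy.rho_eq
  exact QuotientGroup.leftRel_apply.mp (Quotient.exact' (QuotientGroup.out_eq' (QuotientGroup.mk g : G ⧸ H)).symm)

variable (ρ)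

/-- The relative norm `∑_{c ∈ G/H} c`, an endomorphism of `M` mapping `M^H` to `M^G`. -/
noncomputable def relNorm (H : Subgroup G) [Finite (G ⧸ H)] : M →ₗ[k] M :=
  letI := Fintype.ofFinite (G ⧸ H)
  ∑ c : G ⧸ H, ρ c.out

theorem relNorm_apply (H : Subgroup G) [Fintype (G ⧸ H)] (y : M) :
    relNorm ρ H y = ∑ c : G ⧸ H, ρ c.out y := by
  have : (Fintype.ofFinite (G ⧸ H)) = ‹Fintype (G ⧸ H)› := Subsingleton.elim _ _
  simp only [relNorm, LinearMap.sum_apply]
  rw [this]

variable {ρ}

/-- For an `H`-invariant element the relative norm can be computed with any system of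
representatives. -/
theorem relNorm_eq_sum {H : Subgroup G} [Fintype (G ⧸ H)] {y : M} (hy : IsInv ρ H y)
    (r : G ⧸ H → G) (hr : ∀ c, (QuotientGroup.mk (r c) : G ⧸ H) = c) :
    relNorm ρ H y = ∑ c : G ⧸ H, ρ (r c) y := by
  rw [relNorm_apply]
  refine Finset.sum_congr rfl fun c _ => ?_
  conv_lhs => rw [← hr c]
  exact hy.rho_out (r c)

/-- The relative norm of an `H`-invariant element is `G`-invariant. -/
theorem rho_relNorm {H : Subgroup G} [Fintype (G ⧸ H)] {y : M} (hy : IsInv ρ H y) (g : G) :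
    ρ g (relNorm ρ H y) = relNorm ρ H y := by
  rw [relNorm_apply, map_sum]
  have h1 : ∀ c : G ⧸ H, ρ g (ρ c.out y) = ρ (g • c).out y := by
    intro c
    rw [← Module.End.mul_apply, ← map_mul]
    have : g • c = (QuotientGroup.mk (g * c.out) : G ⧸ H) := by
      conv_lhs => rw [← QuotientGroup.out_eq' c]
      rfl
    rw [this, hy.rho_out]
  simp_rw [h1]
  exact Fintype.sum_equiv (MulAction.toPerm g) _ _ (fun _ => rfl)

theorem isInv_relNorm {H : Subgroup G} [Fintype (G ⧸ H)] {y : M} (hy : IsInv ρ H y) :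
    IsInv ρ ⊤ (relNorm ρ H y) := fun g _ => rho_relNorm hy g

variable (ρ)

/-- The relative norm from `H'` to `H`, for `H' ≤ H`. -/
noncomputable def relNormSub (H H' : Subgroup G) [Finite (H ⧸ H'.subgroupOf H)] : M →ₗ[k] M :=
  letI := Fintype.ofFinite (H ⧸ H'.subgroupOf H)
  ∑ d : H ⧸ H'.subgroupOf H, ρ ((d.out : H) : G)

theorem relNormSub_apply (H H' : Subgroup G) [Fintype (H ⧸ H'.subgroupOf H)] (z : M) :
    relNormSub ρ H H' z = ∑ d : H ⧸ H'.subgroupOf H, ρ ((d.out : H) : G) z := by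
  have : (Fintype.ofFinite (H ⧸ H'.subgroupOf H)) = ‹Fintype (H ⧸ H'.subgroupOf H)› :=
    Subsingleton.elim _ _
  simp only [relNormSub, LinearMap.sum_apply]
  rw [this]

variable {ρ}

theorem relNormSub_eq_sum {H H' : Subgroup G} [Fintype (H ⧸ H'.subgroupOf H)] {z : M}
    (hz : IsInv ρ H' z) (r : H ⧸ H'.subgroupOf H → H)
    (hr : ∀ d, (QuotientGroup.mk (r d) : H ⧸ H'.subgroupOf H) = d) :
    relNormSub ρ H H' z = ∑ d : H ⧸ H'.subgroupOf H, ρ ((r d : H) : G) z := by
  rw [relNormSub_apply]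
  refine Finset.sum_congr rfl fun d _ => ?_
  apply hz.rho_eq
  have h1 : (QuotientGroup.mk (r d) : H ⧸ H'.subgroupOf H) = QuotientGroup.mk d.out := by
    rw [hr d, QuotientGroup.out_eq']
  have h2 := QuotientGroup.leftRel_apply.mp (Quotient.exact' h1)
  rw [Subgroup.mem_subgroupOf] at h2
  simpa using h2

/-- The relative norm from `H'` to `H` of an `H'`-invariant element is `H`-invariant. -/
theorem isInv_relNormSub {H H' : Subgroup G} [Fintype (H ⧸ H'.subgroupOf H)] {z : M}
    (hz : IsInv ρ H' z) : IsInv ρ H (relNormSub ρ H H' z) := by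
  intro g hg
  rw [relNormSub_apply, map_sum]
  have h1 : ∀ d : H ⧸ H'.subgroupOf H, ρ g (ρ ((d.out : H) : G) z)
      = ρ ((((⟨g, hg⟩ : H) • d).out : H) : G) z := by
    intro d
    rw [← Module.End.mul_apply, ← map_mul]
    apply hz.rho_eq
    have h2 : (⟨g, hg⟩ : H) • d = (QuotientGroup.mk ((⟨g, hg⟩ : H) * d.out) : H ⧸ H'.subgroupOf H) := by
      conv_lhs => rw [← QuotientGroup.out_eq' d]
      rfl
    have h3 : (QuotientGroup.mk (((⟨g, hg⟩ : H) • d).out) : H ⧸ H'.subgroupOf H)
        = QuotientGroup.mk ((⟨g, hg⟩ : H) * d.out) := by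
      rw [QuotientGroup.out_eq', h2]
    have h4 := QuotientGroup.leftRel_apply.mp (Quotient.exact' h3)
    rw [Subgroup.mem_subgroupOf] at h4
    have h5 : (((⟨g, hg⟩ : H) • d).out : G)⁻¹ * (g * ((d.out : H) : G)) ∈ H' := by
      simpa using h4
    exact h5
  simp_rw [h1]
  exact Fintype.sum_equiv (MulAction.toPerm (⟨g, hg⟩ : H)) _ _ (fun _ => rfl)

/-- **Transitivity of relative norms**: `N_{G/H} ∘ N_{H/H'} = N_{G/H'}` on `H'`-invariants. -/
theorem relNorm_relNormSub {H H' : Subgroup G} (hle : H' ≤ H) [Fintype (G ⧸ H)]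
    [Fintype (G ⧸ H')] [Fintype (H ⧸ H'.subgroupOf H)] {z : M} (hz : IsInv ρ H' z) :
    relNorm ρ H (relNormSub ρ H H' z) = relNorm ρ H' z := by
  rw [relNorm_apply, relNorm_apply]
  simp_rw [relNormSub_apply, map_sum]
  rw [← Finset.sum_product']
  symm
  refine Fintype.sum_equiv (Subgroup.quotientEquivProdOfLE hle) _ _ ?_
  intro c
  obtain ⟨⟨a, b⟩, rfl⟩ := (Subgroup.quotientEquivProdOfLE hle).symm.surjective c
  rw [Equiv.apply_symm_apply]
  simp only
  rw [← Module.End.mul_apply, ← map_mul]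
  apply hz.rho_eq
  have h1 : (Subgroup.quotientEquivProdOfLE hle).symm (a, b)
      = (QuotientGroup.mk (a.out * ((b.out : H) : G)) : G ⧸ H') := by
    conv_lhs => rw [← QuotientGroup.out_eq' b]
    rfl
  have h2 : (QuotientGroup.mk ((Subgroup.quotientEquivProdOfLE hle).symm (a, b)).out : G ⧸ H')
      = QuotientGroup.mk (a.out * ((b.out : H) : G)) := by
    rw [QuotientGroup.out_eq', h1]
  have h3 := QuotientGroup.leftRel_apply.mp (Quotient.exact' h2)
  have := H'.inv_mem h3
  simpa [mul_inv_rev] using this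

/-- On `H`-invariant elements the relative norm from `H'` to `H` is multiplication by the index. -/
theorem relNormSub_of_isInv {H H' : Subgroup G} [Fintype (H ⧸ H'.subgroupOf H)] {z : M}
    (hz : IsInv ρ H z) :
    relNormSub ρ H H' z = Fintype.card (H ⧸ H'.subgroupOf H) • z := by
  rw [relNormSub_apply, Finset.sum_congr rfl (fun d _ => hz _ (d.out : H).2)]
  simp

/-- On `G`-invariant elements the relative norm is multiplication by the index. -/
theorem relNorm_of_isInv_top {H : Subgroup G} [Fintype (G ⧸ H)] {y : M} (hy : IsInv ρ ⊤ y) :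
    relNorm ρ H y = Fintype.card (G ⧸ H) • y := by
  rw [relNorm_apply, Finset.sum_congr rfl (fun c _ => hy _ (Subgroup.mem_top _))]
  simp

end RelNorm

end Fermat.Agent.GC.Global.WRec
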