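/-
GATE-C / C4 (GH-w) WeightedReciprocity, helper55.  Mathlib only, pure algebra.

The bookkeeping behind the weighted product formula over `ℚ`: a family of "local symbols"
`s q : ℚˣ →* A` (`q` prime) which is given by the unramified formula `s q a = r q ^ (ε * v_q a)`
away from `p`, and which at `p` kills `p` and satisfies `s p q ^ c * r q ^ ε = 1` on the primes
`q ≠ p`, satisfies `(∏_{q ≠ p} s q a * s p a ^ c) ^ 2 = 1` for every `a ∈ ℚˣ`
(the square takes care of the sign `a = -1`, i.e. of the archimedean place, invisible for `p` odd).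
-/
import Mathlib

set_option autoImplicit false

namespace Fermat.Agent.GC.Global.WRec

/-- A natural number `n ≠ 0` as a unit of `ℚ`. -/
def natUnit (n : ℕ) (hn : n ≠ 0) : ℚˣ := Units.mk0 (n : ℚ) (by exact_mod_cast hn)

/-- A prime as a unit of `ℚ`. -/
def primeUnit (q : Nat.Primes) : ℚˣ := natUnit q q.2.ne_zero

@[simp] theorem coe_primeUnit (q : Nat.Primes) : ((primeUnit q : ℚˣ) : ℚ) = (q : ℕ) := rfl

theorem natUnit_mul (m n : ℕ) (hm : m ≠ 0) (hn : n ≠ 0) :
    natUnit (m * n) (mul_ne_zero hm hn) = natUnit m hm * natUnit n hn := by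
  ext; simp [natUnit]

/-- A homomorphism `ℚˣ → A` killing all primes kills all positive integers. -/
theorem map_natUnit_eq_one {A : Type*} [CommGroup A] (Φ : ℚˣ →* A)
    (h : ∀ q : Nat.Primes, Φ (primeUnit q) = 1) (n : ℕ) (hn : n ≠ 0) : Φ (natUnit n hn) = 1 := by
  induction n using induction_on_primes with
  | zero => exact absurd rfl hn
  | one =>
    have : natUnit 1 hn = 1 := by ext; simp [natUnit]
    rw [this, map_one]
  | prime_mul q a hq ih =>
    have ha : a ≠ 0 := fun h0 => hn (by rw [h0, mul_zero])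
    have hq0 : q ≠ 0 := hq.ne_zero
    have : natUnit (q * a) hn = primeUnit (⟨q, hq⟩ : Nat.Primes) * natUnit a ha := by
      ext; simp [natUnit, primeUnit]
    rw [this, map_mul, h (⟨q, hq⟩ : Nat.Primes), ih ha, one_mul]

/-- A homomorphism `ℚˣ → A` killing all primes takes values of exponent `2`. -/
theorem sq_eq_one_of_kills_primes {A : Type*} [CommGroup A] (Φ : ℚˣ →* A)
    (h : ∀ q : Nat.Primes, Φ (primeUnit q) = 1) (a : ℚˣ) : Φ a ^ 2 = 1 := by
  have hnum : (a : ℚ).num.natAbs ≠ 0 := by
    rw [Ne, Int.natAbs_eq_zero, Rat.num_eq_zero]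
    exact a.ne_zero
  have hden : (a : ℚ).den ≠ 0 := (a : ℚ).den_nz
  have key : a ^ 2 = (natUnit _ hnum * (natUnit _ hden)⁻¹) ^ 2 := by
    ext
    simp only [Units.val_pow_eq_pow_val, Units.val_mul, Units.val_inv_eq_inv_val, natUnit,
      Units.val_mk0]
    rw [← div_eq_mul_inv, div_pow]
    conv_lhs => rw [← Rat.num_div_den (a : ℚ), div_pow]
    congr 1
    rw [Nat.cast_natAbs, Int.cast_abs, sq_abs]
  rw [← map_pow, key, map_pow, map_mul, map_inv, map_natUnit_eq_one Φ h, map_natUnit_eq_one Φ h]
  simp

instance instFactPrimes (q : Nat.Primes) : Fact (q : ℕ).Prime := ⟨q.2⟩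

/-- The set of primes at which a nonzero rational has nonzero valuation is finite. -/
theorem finite_setOf_padicValRat_ne_zero (a : ℚ) (ha : a ≠ 0) :
    {q : Nat.Primes | padicValRat q a ≠ 0}.Finite := by
  have hnum : a.num.natAbs ≠ 0 := by
    rw [Ne, Int.natAbs_eq_zero, Rat.num_eq_zero]; exact ha
  have hsub : {q : Nat.Primes | padicValRat q a ≠ 0} ⊆
      (fun q : Nat.Primes => (q : ℕ)) ⁻¹' ((a.num.natAbs.primeFactors ∪ a.den.primeFactors : Finset ℕ)) := by
    intro q hq
    have hq' : padicValRat q a ≠ 0 := hq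
    simp only [Set.mem_preimage, Finset.coe_union, Set.mem_union, Finset.mem_coe,
      Nat.mem_primeFactors]
    by_contra hcon
    rw [not_or] at hcon
    apply hq'
    have h1 : ¬ (q : ℕ) ∣ a.num.natAbs := fun hd => hcon.1 ⟨q.2, hd, hnum⟩
    have h2 : ¬ (q : ℕ) ∣ a.den := fun hd => hcon.2 ⟨q.2, hd, a.den_nz⟩
    rw [padicValRat, padicValInt, padicValNat.eq_zero_of_not_dvd h1,
      padicValNat.eq_zero_of_not_dvd h2]
    simp
  exact Set.Finite.subset (Set.Finite.preimage (Nat.Primes.coe_nat_injective.injOn)
    (Finset.finite_toSet _)) hsub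

section Abstract

variable {A : Type*} [CommGroup A] (p : Nat.Primes) (r : Nat.Primes → A)
  (s : Nat.Primes → ℚˣ →* A) (ε : ℤ) (c : ℕ)

/-- **Abstract weighted product formula.** -/
theorem abstract_weighted_product_formula
    (hU : ∀ q : Nat.Primes, q ≠ p → ∀ a : ℚˣ, s q a = r q ^ (ε * padicValRat q (a : ℚ)))
    (hpp : s p (primeUnit p) = 1)
    (hpq : ∀ q : Nat.Primes, q ≠ p → s p (primeUnit q) ^ c * r q ^ ε = 1)
    (a : ℚˣ) (T : Finset Nat.Primes) (hT : ∀ q : Nat.Primes, q ∉ T → padicValRat q (a : ℚ) = 0) :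
    ((∏ q ∈ T.filter (· ≠ p), s q a) * s p a ^ c) ^ 2 = 1 := by
  classical
  -- the away-from-`p` factor
  let f : Nat.Primes → ℚˣ → A := fun q a => if q = p then 1 else s q a
  have hfsupp : ∀ a : ℚˣ, (Function.mulSupport fun q => f q a).Finite := by
    intro a
    refine (finite_setOf_padicValRat_ne_zero (a : ℚ) a.ne_zero).subset ?_
    intro q hq
    simp only [Function.mem_mulSupport, f] at hq
    show padicValRat q (a : ℚ) ≠ 0
    intro h0
    apply hq
    by_cases hqp : q = p
    · rw [if_pos hqp]
    · rw [if_neg hqp, hU q hqp a, h0, mul_zero, zpow_zero]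
  let Φ : ℚˣ →* A :=
    { toFun := fun a => (∏ᶠ q, f q a) * s p a ^ c
      map_one' := by
        have : ∀ q, f q 1 = 1 := fun q => by simp only [f]; split_ifs <;> simp
        simp [this]
      map_mul' := fun a b => by
        have : (fun q => f q (a * b)) = fun q => f q a * f q b := by
          funext q
          simp only [f]; split_ifs <;> simp
        rw [this, finprod_mul_distrib (hfsupp a) (hfsupp b), map_mul, mul_pow]
        exact mul_mul_mul_comm _ _ _ _ }
  have hΦ : ∀ a, Φ a = (∏ᶠ q, f q a) * s p a ^ c := fun _ => rfl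
  -- `Φ` kills every prime
  have hkill : ∀ q : Nat.Primes, Φ (primeUnit q) = 1 := by
    intro q
    rw [hΦ]
    by_cases hqp : q = p
    · subst hqp
      have : ∀ q', f q' (primeUnit q) = 1 := by
        intro q'
        simp only [f]
        split_ifs with h
        · rfl
        · rw [hU q' h, coe_primeUnit, padicValRat.of_nat, padicValNat_primes, Nat.cast_zero,
            mul_zero, zpow_zero]
          exact fun h' => h (Subtype.ext h')
      simp [this, hpp]
    · have hsingle : ∏ᶠ q', f q' (primeUnit q) = f q (primeUnit q) := by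
        apply finprod_eq_single
        intro q' hq'
        simp only [f]
        split_ifs with h
        · rfl
        · rw [hU q' h, coe_primeUnit, padicValRat.of_nat, padicValNat_primes, Nat.cast_zero,
            mul_zero, zpow_zero]
          exact fun h' => hq' (Subtype.ext h')
      rw [hsingle]
      simp only [f, if_neg hqp]
      rw [hU q hqp, coe_primeUnit, padicValRat.of_nat, padicValNat_self, Nat.cast_one, mul_one,
        mul_comm]
      exact hpq q hqp
  have hmain := sq_eq_one_of_kills_primes Φ hkill a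
  rw [hΦ] at hmain
  -- convert the finprod into the finite product over `T`
  have hconv : ∏ᶠ q, f q a = ∏ q ∈ T.filter (· ≠ p), s q a := by
    rw [finprod_eq_prod_of_mulSupport_subset (s := T.filter (· ≠ p))]
    · refine Finset.prod_congr rfl fun q hq => ?_
      simp only [Finset.mem_filter] at hq
      simp only [f, if_neg hq.2]
    · intro q hq
      simp only [Function.mem_mulSupport, f] at hq
      rw [Finset.mem_coe, Finset.mem_filter]
      by_cases hqp : q = p
      · rw [if_pos hqp] at hq; exact absurd rfl hq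
      · refine ⟨?_, hqp⟩
        by_contra hqT
        apply hq
        rw [if_neg hqp, hU q hqp a, hT q hqT, mul_zero, zpow_zero]
  rw [← hconv]
  exact hmain

end Abstract

end Fermat.Agent.GC.Global.WRec
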