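/-
GATE-C / C4 (GH-w) WeightedReciprocity, helper55.  Mathlib only.

The `p^(n+1)`-th cyclotomic polynomial is irreducible over `ℚ_[p]` (Eisenstein at `p` over `ℤ_[p]`).
Consequently `ℚ_p(ζ_{p^(n+1)})/ℚ_p` has full degree `φ(p^(n+1))`, its Galois group is
`(ℤ/p^(n+1))ˣ`, and `p = N(ζ - 1)` is a norm (for `p` odd).
-/
import Mathlib

set_option autoImplicit false

namespace Fermat.Agent.GC.Global.WRec

open Polynomial PadicInt

variable (p : ℕ) [hp : Fact p.Prime]

/-- `Φ_{p^(n+1)}(X+1)` is Eisenstein at `p` over `ℤ_[p]`. -/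
theorem cyclotomic_prime_pow_comp_X_add_one_isEisensteinAt_padicInt (n : ℕ) :
    ((cyclotomic (p ^ (n + 1)) ℤ_[p]).comp (X + 1)).IsEisensteinAt
      (Ideal.span {(p : ℤ_[p])}) := by
  have hE := cyclotomic_prime_pow_comp_X_add_one_isEisensteinAt p n
  set f : ℤ[X] := (cyclotomic (p ^ (n + 1)) ℤ).comp (X + 1) with hf
  have hfmonic : f.Monic := by
    rw [hf, show (X + 1 : ℤ[X]) = X + C 1 by simp]
    refine (cyclotomic.monic _ ℤ).comp (monic_X_add_C 1) fun h => ?_
    rw [natDegree_X_add_C] at h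
    exact zero_ne_one h.symm
  have hmap : (cyclotomic (p ^ (n + 1)) ℤ_[p]).comp (X + 1) = f.map (Int.castRingHom ℤ_[p]) := by
    rw [hf, map_comp, map_cyclotomic]
    simp
  rw [hmap]
  have hmonic : (f.map (Int.castRingHom ℤ_[p])).Monic := hfmonic.map _
  have hdeg : (f.map (Int.castRingHom ℤ_[p])).natDegree = f.natDegree :=
    hfmonic.natDegree_map _
  have hne : Ideal.span {(p : ℤ_[p])} ≠ ⊤ := by
    rw [← PadicInt.maximalIdeal_eq_span_p]
    exact Ideal.IsPrime.ne_top inferInstance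
  refine Monic.isEisensteinAt_of_mem_of_notMem hmonic hne (fun {i} hi => ?_) ?_
  · rw [hdeg] at hi
    have := hE.mem hi
    rw [Ideal.submodule_span_eq, Ideal.mem_span_singleton] at this
    obtain ⟨c, hc⟩ := this
    rw [coeff_map, hc, Ideal.mem_span_singleton]
    exact ⟨(c : ℤ_[p]), by simp⟩
  · have := hE.notMem
    rw [Ideal.submodule_span_eq, Ideal.span_singleton_pow, Ideal.mem_span_singleton] at this
    rw [coeff_map, Ideal.span_singleton_pow, eq_intCast, ← norm_le_pow_iff_mem_span_pow,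
      norm_int_le_pow_iff_dvd]
    exact_mod_cast this

/-- `Φ_{p^(n+1)}` is irreducible over `ℤ_[p]`. -/
theorem cyclotomic_prime_pow_irreducible_padicInt (n : ℕ) :
    Irreducible (cyclotomic (p ^ (n + 1)) ℤ_[p]) := by
  have hE := cyclotomic_prime_pow_comp_X_add_one_isEisensteinAt_padicInt p n
  have hmonic : ((cyclotomic (p ^ (n + 1)) ℤ_[p]).comp (X + 1)).Monic := by
    rw [show (X + 1 : ℤ_[p][X]) = X + C 1 by simp]
    refine (cyclotomic.monic _ _).comp (monic_X_add_C 1) fun h => ?_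
    rw [natDegree_X_add_C] at h
    exact zero_ne_one h.symm
  have hdeg : 0 < ((cyclotomic (p ^ (n + 1)) ℤ_[p]).comp (X + 1)).natDegree := by
    rw [natDegree_comp, show (X + 1 : ℤ_[p][X]) = X + C 1 by simp, natDegree_X_add_C, mul_one,
      natDegree_cyclotomic]
    exact Nat.totient_pos.mpr (pow_pos hp.out.pos _)
  have hprime : (Ideal.span {(p : ℤ_[p])}).IsPrime := by
    rw [← PadicInt.maximalIdeal_eq_span_p]
    infer_instance
  have hirr := hE.irreducible hprime hmonic.isPrimitive hdeg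
  have : (cyclotomic (p ^ (n + 1)) ℤ_[p]).comp (X + 1)
      = algEquivAevalXAddC (1 : ℤ_[p]) (cyclotomic (p ^ (n + 1)) ℤ_[p]) := by
    simp [algEquivAevalXAddC_apply, aeval_def, eval₂_eq_eval_map, comp]
  rw [this] at hirr
  exact (MulEquiv.irreducible_iff (algEquivAevalXAddC (1 : ℤ_[p])).toMulEquiv).mp hirr

/-- `Φ_{p^(n+1)}` is irreducible over `ℚ_[p]`. -/
theorem cyclotomic_prime_pow_irreducible_padic (n : ℕ) :
    Irreducible (cyclotomic (p ^ (n + 1)) ℚ_[p]) := by
  have h := cyclotomic_prime_pow_irreducible_padicInt p n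
  rw [(cyclotomic.monic _ ℤ_[p]).irreducible_iff_irreducible_map_fraction_map (K := ℚ_[p]),
    map_cyclotomic] at h
  exact h

end Fermat.Agent.GC.Global.WRec
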