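/-
GATE-C / C4 (GH-w) WeightedReciprocity, helper55.  Mathlib only.

`ℤ_[p]ˣ` (p odd) is "procyclic": every homomorphism to a finite group factors through the finite
cyclic group `(ZMod (p ^ N))ˣ` for `N` large (Hensel), hence two surjections of `ℤ_[p]ˣ` onto a
finite cyclic group differ by a unit exponent.  This is the soft argument which replaces the
explicit computation of the wild norm residue symbol of `ℚ_p(ζ_{p^n})/ℚ_p` (Lubin–Tate / Dwork).
-/
import Mathlib
import Fermat.Agent.GC.Global.WRec.CyclicQuot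

set_option autoImplicit false

namespace Fermat.Agent.GC.Global.WRec

open PadicInt Polynomial

variable {p : ℕ} [hp : Fact p.Prime]

/-- Hensel: an element of `ℤ_[p]` sufficiently close to `1` is an `m`-th power. -/
theorem exists_pow_eq_of_norm_sub_one_lt (m : ℕ) (a : ℤ_[p])
    (h : ‖a - 1‖ < ‖(m : ℤ_[p])‖ ^ 2) : ∃ z : ℤ_[p], z ^ m = a := by
  have hF : ‖aeval (1 : ℤ_[p]) (X ^ m - C a : ℤ_[p][X])‖ <
      ‖aeval (1 : ℤ_[p]) (derivative (X ^ m - C a : ℤ_[p][X]))‖ ^ 2 := by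
    have h1 : aeval (1 : ℤ_[p]) (X ^ m - C a : ℤ_[p][X]) = 1 - a := by simp
    have h2 : aeval (1 : ℤ_[p]) (derivative (X ^ m - C a : ℤ_[p][X])) = (m : ℤ_[p]) := by
      simp [derivative_X_pow]
    rw [h1, h2, norm_sub_rev]
    exact h
  obtain ⟨z, hz, -⟩ := hensels_lemma hF
  refine ⟨z, ?_⟩
  have : aeval z (X ^ m - C a : ℤ_[p][X]) = z ^ m - a := by simp
  rw [this, sub_eq_zero] at hz
  exact hz

/-- Reduction of units mod `p ^ N`. -/
noncomputable def redUnits (p : ℕ) [Fact p.Prime] (N : ℕ) : ℤ_[p]ˣ →* (ZMod (p ^ N))ˣ :=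
  Units.map ((toZModPow N : ℤ_[p] →+* ZMod (p ^ N)) : ℤ_[p] →* ZMod (p ^ N))

theorem mem_ker_redUnits_iff (N : ℕ) (u : ℤ_[p]ˣ) :
    u ∈ (redUnits p N).ker ↔ ‖(u : ℤ_[p]) - 1‖ ≤ (p : ℝ) ^ (-N : ℤ) := by
  rw [MonoidHom.mem_ker, norm_le_pow_iff_mem_span_pow, ← ker_toZModPow, RingHom.mem_ker,
    map_sub, map_one, sub_eq_zero, Units.ext_iff]
  rfl

theorem redUnits_surjective (N : ℕ) (hN : N ≠ 0) : Function.Surjective (redUnits p N) := by
  intro y
  have : NeZero (p ^ N) := ⟨pow_ne_zero _ hp.out.ne_zero⟩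
  set x : ℤ_[p] := (((y : ZMod (p ^ N)).val : ℕ) : ℤ_[p]) with hx
  have hxy : toZModPow N x = (y : ZMod (p ^ N)) := by
    rw [hx, map_natCast, ZMod.natCast_zmod_val]
  have hcop : p.Coprime (y : ZMod (p ^ N)).val := by
    have := ZMod.val_coe_unit_coprime y
    exact (Nat.Coprime.coprime_dvd_right (dvd_pow_self p hN) this).symm
  have hunit : IsUnit x := by
    rw [PadicInt.isUnit_iff, hx, norm_natCast_eq_one_iff]
    exact hcop
  refine ⟨hunit.unit, ?_⟩
  ext
  simp only [redUnits, Units.coe_map, MonoidHom.coe_coe, IsUnit.unit_spec]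
  exact hxy

/-- Every homomorphism from `ℤ_[p]ˣ` to a finite group factors through `(ZMod (p ^ N))ˣ` for a
suitable `N ≠ 0`. -/
theorem exists_ker_redUnits_le {G : Type*} [Group G] [Finite G] (f : ℤ_[p]ˣ →* G) :
    ∃ N : ℕ, N ≠ 0 ∧ (redUnits p N).ker ≤ f.ker := by
  set m := Nat.card G with hm
  have hm0 : m ≠ 0 := Nat.card_pos.ne'
  have hmpos : 0 < ‖(m : ℤ_[p])‖ ^ 2 := by
    apply pow_pos
    rw [norm_pos_iff]
    exact_mod_cast hm0
  -- choose `N` with `p ^ (-N) < ‖m‖ ^ 2`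
  have hp1 : (1 : ℝ) < p := by exact_mod_cast hp.out.one_lt
  obtain ⟨N, hN⟩ := exists_pow_lt_of_lt_one hmpos (inv_lt_one_of_one_lt₀ hp1)
  refine ⟨N + 1, Nat.succ_ne_zero N, fun u hu => ?_⟩
  rw [mem_ker_redUnits_iff] at hu
  have hlt : ‖(u : ℤ_[p]) - 1‖ < ‖(m : ℤ_[p])‖ ^ 2 := by
    refine lt_of_le_of_lt hu (lt_of_le_of_lt ?_ hN)
    rw [zpow_neg, zpow_natCast, ← inv_pow]
    exact pow_le_pow_of_le_one (by positivity) (inv_le_one_of_one_le₀ hp1.le) (Nat.le_succ N)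
  obtain ⟨z, hz⟩ := exists_pow_eq_of_norm_sub_one_lt m (u : ℤ_[p]) hlt
  have hzu : IsUnit z := by
    have : IsUnit (z ^ m) := hz ▸ u.isUnit
    exact (isUnit_pow_iff hm0).mp this
  have huz : u = hzu.unit ^ m := by
    ext
    simp [hz]
  rw [MonoidHom.mem_ker, huz, map_pow, hm]
  exact pow_card_eq_one'

/-- **Soft wild symbol lemma.** For `p` odd, two surjective homomorphisms from `ℤ_[p]ˣ` onto a
finite cyclic group differ by an exponent prime to the order of the group. -/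
theorem exists_pow_eq_of_surjective (hp2 : p ≠ 2) {G : Type*} [CommGroup G] [Finite G]
    [IsCyclic G] (f g : ℤ_[p]ˣ →* G) (hf : Function.Surjective f) (hg : Function.Surjective g) :
    ∃ e : ℕ, e.Coprime (Nat.card G) ∧ ∀ u, f u = g u ^ e := by
  obtain ⟨N₁, hN₁, h₁⟩ := exists_ker_redUnits_le f
  obtain ⟨N₂, hN₂, h₂⟩ := exists_ker_redUnits_le g
  -- a common level
  set N := max N₁ N₂ with hNdef
  have hN : N ≠ 0 := by
    have : N₁ ≤ N := le_max_left _ _
    omega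
  have hmono : ∀ {a b : ℕ}, a ≤ b → (redUnits p b).ker ≤ (redUnits p a).ker := by
    intro a b hab u hu
    rw [mem_ker_redUnits_iff] at hu ⊢
    refine hu.trans ?_
    have hp1 : (1 : ℝ) ≤ p := by exact_mod_cast hp.out.one_lt.le
    exact zpow_le_zpow_right₀ hp1 (by simpa using hab)
  have : IsCyclic (ZMod (p ^ N))ˣ := ZMod.isCyclic_units_of_prime_pow p hp.out hp2 N
  have : NeZero (p ^ N) := ⟨pow_ne_zero _ hp.out.ne_zero⟩
  exact exists_pow_eq_of_factor_through_cyclic (redUnits p N) (redUnits_surjective N hN) f g hf hg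
    ((hmono (le_max_left _ _)).trans h₁) ((hmono (le_max_right _ _)).trans h₂)

end Fermat.Agent.GC.Global.WRec
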