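/-
GATE-C / C4 (GH-w) WeightedReciprocity, helper55.

The cyclotomic layers `M_k = ℚ(ζ_{p^(k+1)}) ⊂ Qbar` as layers of helper14's model
(`GC/Global/Model.lean`), their cyclotomic characters, and the local layers
`locField q M_k = ℚ_q(ζ_{p^(k+1)})`.
-/
import Mathlib
import Fermat.Agent.GC.Global.Model
import Fermat.Agent.GC.Global.WRec.CycloPadic
import Fermat.Agent.GC.Global.WRec.ZpUnits

set_option autoImplicit false

open scoped Padic
open IntermediateField Polynomial

noncomputable section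

namespace Fermat.Agent.GC.Global.WRec

open Fermat.Agent.GC.Global

variable (p : ℕ) [hp : Fact p.Prime] (k : ℕ)

instance neZeroPow : NeZero (p ^ (k + 1)) := ⟨pow_ne_zero _ hp.out.ne_zero⟩

/-- A fixed primitive `p^(k+1)`-th root of unity in `Qbar`. -/
def zetaQb : Qb := (HasEnoughRootsOfUnity.exists_primitiveRoot Qb (p ^ (k + 1))).choose

theorem zetaQb_spec : IsPrimitiveRoot (zetaQb p k) (p ^ (k + 1)) :=
  (HasEnoughRootsOfUnity.exists_primitiveRoot Qb (p ^ (k + 1))).choose_spec

/-- The cyclotomic layer `M_k = ℚ(ζ_{p^(k+1)})`. -/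
def cycLayer : IntermediateField ℚ Qb := ℚ⟮zetaQb p k⟯

instance cycLayer_isCyclotomicExtension :
    IsCyclotomicExtension {p ^ (k + 1)} ℚ (cycLayer p k) :=
  haveI : Algebra.IsAlgebraic ℚ Qb := AlgebraicClosure.isAlgebraic ℚ
  haveI : Algebra.IsIntegral ℚ Qb := Algebra.IsAlgebraic.isIntegral
  (zetaQb_spec p k).intermediateField_adjoin_isCyclotomicExtension ℚ

instance cycLayer_finiteDimensional : FiniteDimensional ℚ (cycLayer p k) :=
  IsCyclotomicExtension.finiteDimensional {p ^ (k + 1)} ℚ (cycLayer p k)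

instance cycLayer_isGalois : IsGalois ℚ (cycLayer p k) :=
  IsCyclotomicExtension.isGalois {p ^ (k + 1)} ℚ (cycLayer p k)

instance cycLayer_normal : Normal ℚ (cycLayer p k) := IsGalois.to_normal

/-- `ζ` as an element of the layer. -/
def zetaL : cycLayer p k := ⟨zetaQb p k, mem_adjoin_simple_self ℚ _⟩

theorem zetaL_spec : IsPrimitiveRoot (zetaL p k) (p ^ (k + 1)) :=
  IsPrimitiveRoot.of_map_of_injective (f := (cycLayer p k).val) (zetaQb_spec p k)
    (cycLayer p k).val.injective

/-- The cyclotomic character of the layer `M_k`: `σ ζ = ζ ^ χ(σ)`. -/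
def chiG : (cycLayer p k ≃ₐ[ℚ] cycLayer p k) →* (ZMod (p ^ (k + 1)))ˣ :=
  (zetaL_spec p k).autToPow ℚ

theorem chiG_spec (σ : cycLayer p k ≃ₐ[ℚ] cycLayer p k) :
    zetaL p k ^ ((chiG p k σ : (ZMod (p ^ (k + 1)))ˣ) : ZMod (p ^ (k + 1))).val = σ (zetaL p k) :=
  (zetaL_spec p k).autToPow_spec ℚ σ

theorem chiG_injective : Function.Injective (chiG p k) :=
  (zetaL_spec p k).autToPow_injective ℚ

theorem chiG_bijective : Function.Bijective (chiG p k) := by
  refine (Nat.bijective_iff_injective_and_card _).mpr ⟨chiG_injective p k, ?_⟩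
  rw [IsGalois.card_aut_eq_finrank,
    IsCyclotomicExtension.finrank (cycLayer p k)
      (cyclotomic.irreducible_rat (NeZero.pos (p ^ (k + 1)))),
    Nat.card_eq_fintype_card, ZMod.card_units_eq_totient]

/-- `χ` as a group isomorphism. -/
def chiGEquiv : (cycLayer p k ≃ₐ[ℚ] cycLayer p k) ≃* (ZMod (p ^ (k + 1)))ˣ :=
  MulEquiv.ofBijective (chiG p k) (chiG_bijective p k)

end Fermat.Agent.GC.Global.WRec

namespace Fermat.Agent.GC.Global.WRec

open Fermat.Agent.GC.Global

variable (p : ℕ) [hp : Fact p.Prime] (k : ℕ) (q : ℕ) [hq : Fact q.Prime]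

/-- `ι ζ` in the local layer `ℚ_q(ζ)`. -/
def zetaLoc : locField q (cycLayer p k) := locEmb q (cycLayer p k) (zetaL p k)

theorem zetaLoc_spec : IsPrimitiveRoot (zetaLoc p k q) (p ^ (k + 1)) :=
  (zetaL_spec p k).map_of_injective (locEmb_injective q (cycLayer p k))

theorem coe_zetaLoc : ((zetaLoc p k q : locField q (cycLayer p k)) : PadicAlgCl q)
    = padicEmbedding q (zetaQb p k) := rfl

theorem padicEmbedding_zetaQb_spec :
    IsPrimitiveRoot (padicEmbedding q (zetaQb p k)) (p ^ (k + 1)) :=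
  (zetaQb_spec p k).map_of_injective (padicEmbedding q).toRingHom.injective

/-- The local layer is generated by `ι ζ`. -/
theorem locField_cycLayer_eq :
    locField q (cycLayer p k) = ℚ_[q]⟮padicEmbedding q (zetaQb p k)⟯ := by
  apply le_antisymm
  · rw [locField, adjoin_le_iff]
    rintro _ ⟨x, hx, rfl⟩
    change x ∈ ℚ⟮zetaQb p k⟯ at hx
    induction hx using IntermediateField.adjoin_induction with
    | mem z hz =>
      rw [Set.mem_singleton_iff] at hz
      subst hz
      exact mem_adjoin_simple_self _ _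
    | algebraMap r =>
      rw [AlgHom.commutes]
      have : algebraMap ℚ (PadicAlgCl q) r = algebraMap ℚ_[q] (PadicAlgCl q) (algebraMap ℚ ℚ_[q] r) :=
        IsScalarTower.algebraMap_apply ℚ ℚ_[q] (PadicAlgCl q) r
      rw [this]
      exact IntermediateField.algebraMap_mem _ _
    | add x y _ _ ihx ihy => rw [map_add]; exact add_mem ihx ihy
    | inv x _ ihx => rw [map_inv₀]; exact inv_mem ihx
    | mul x y _ _ ihx ihy => rw [map_mul]; exact mul_mem ihx ihy
  · rw [adjoin_simple_le_iff]
    exact padicEmbedding_mem_locField q (cycLayer p k) (zetaL p k)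

instance locField_isCyclotomicExtension :
    IsCyclotomicExtension {p ^ (k + 1)} ℚ_[q] (locField q (cycLayer p k)) := by
  have : Algebra.IsAlgebraic ℚ_[q] (PadicAlgCl q) := AlgebraicClosure.isAlgebraic ℚ_[q]
  have : Algebra.IsIntegral ℚ_[q] (PadicAlgCl q) := Algebra.IsAlgebraic.isIntegral
  rw [locField_cycLayer_eq]
  exact (padicEmbedding_zetaQb_spec p k q).intermediateField_adjoin_isCyclotomicExtension ℚ_[q]

instance locField_finiteDimensional : FiniteDimensional ℚ_[q] (locField q (cycLayer p k)) :=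
  IsCyclotomicExtension.finiteDimensional {p ^ (k + 1)} ℚ_[q] (locField q (cycLayer p k))

instance locField_isGalois : IsGalois ℚ_[q] (locField q (cycLayer p k)) :=
  IsCyclotomicExtension.isGalois {p ^ (k + 1)} ℚ_[q] (locField q (cycLayer p k))

/-- The local cyclotomic character `τ (ιζ) = (ιζ) ^ χ_q(τ)`. -/
def chiL : (locField q (cycLayer p k) ≃ₐ[ℚ_[q]] locField q (cycLayer p k)) →*
    (ZMod (p ^ (k + 1)))ˣ :=
  (zetaLoc_spec p k q).autToPow ℚ_[q]

theorem chiL_spec (τ : locField q (cycLayer p k) ≃ₐ[ℚ_[q]] locField q (cycLayer p k)) :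
    zetaLoc p k q ^ ((chiL p k q τ : (ZMod (p ^ (k + 1)))ˣ) : ZMod (p ^ (k + 1))).val
      = τ (zetaLoc p k q) :=
  (zetaLoc_spec p k q).autToPow_spec ℚ_[q] τ

theorem chiL_injective : Function.Injective (chiL p k q) :=
  (zetaLoc_spec p k q).autToPow_injective ℚ_[q]

/-- Local–global compatibility of the cyclotomic characters along the decomposition map. -/
theorem chiG_decHom (τ : locField q (cycLayer p k) ≃ₐ[ℚ_[q]] locField q (cycLayer p k)) :
    chiG p k (decHom q (cycLayer p k) τ) = chiL p k q τ := by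
  have h1 := locEmb_decHom q (cycLayer p k) τ (zetaL p k)
  rw [← chiG_spec p k, map_pow] at h1
  change zetaLoc p k q ^ _ = τ (zetaLoc p k q) at h1
  rw [← chiL_spec p k q τ] at h1
  have h2 := (zetaLoc_spec p k q).pow_inj (ZMod.val_lt _) (ZMod.val_lt _) h1
  exact Units.ext (ZMod.val_injective _ h2)

end Fermat.Agent.GC.Global.WRec
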