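/-
GATE-C / C4 (GH-w) WeightedReciprocity, helper55.

The unramified places `q ≠ p` of the cyclotomic layers: a Frobenius automorphism of
`ℚ_q(ζ_{p^(k+1)})/ℚ_q` (any `φ` with `φ x ≡ x^q` mod the maximal ideal on integers) has
cyclotomic character `q mod p^(k+1)`; hence its image under `decHom` is `σ_q : ζ ↦ ζ^q`.
-/
import Mathlib
import Fermat.Agent.GC.Global.WRec.CycloTower

set_option autoImplicit false

open scoped Padic
open IntermediateField Polynomial

noncomputable section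

namespace Fermat.Agent.GC.Global.WRec

open Fermat.Agent.GC.Global

section RootsOfUnity

variable (q : ℕ) [hq : Fact q.Prime]

/-- A root of unity `η ≠ 1` of order prime to `q` satisfies `‖η - 1‖ = 1` in `PadicAlgCl q`:
roots of unity of order prime to the residue characteristic are distinct in the residue field. -/
theorem norm_sub_one_of_pow_eq_one {n : ℕ} (hn : q.Coprime n) {η : PadicAlgCl q}
    (hη : η ^ n = 1) (hη1 : η ≠ 1) : ‖η - 1‖ = 1 := by
  have hn0 : n ≠ 0 := by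
    rintro rfl
    exact hq.out.ne_one (by simpa using hn)
  have hnorm : ‖η‖ = 1 := by
    have : ‖η‖ ^ n = 1 := by rw [← norm_pow, hη, norm_one]
    exact (pow_eq_one_iff_of_nonneg (norm_nonneg _) hn0).mp this
  -- geometric sums are integral
  have hgeom : ∀ i : ℕ, ‖∑ j ∈ Finset.range i, η ^ j‖ ≤ 1 := fun i =>
    IsUltrametricDist.norm_sum_le_of_forall_le_of_nonneg zero_le_one
      (fun j _ => by rw [norm_pow, hnorm, one_pow])
  have hpow : ∀ i : ℕ, ‖η ^ i - 1‖ ≤ ‖η - 1‖ := fun i => by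
    rw [← geom_sum_mul, norm_mul]
    exact mul_le_of_le_one_left (norm_nonneg _) (hgeom i)
  -- the full geometric sum vanishes
  have hsum : ∑ i ∈ Finset.range n, η ^ i = 0 := by
    have h := geom_sum_mul η n
    rw [hη, sub_self] at h
    exact (mul_eq_zero.mp h).resolve_right (sub_ne_zero.mpr hη1)
  have hn' : (n : PadicAlgCl q) = -∑ i ∈ Finset.range n, (η ^ i - 1) := by
    rw [Finset.sum_sub_distrib, hsum]
    simp
  have hnn : ‖(n : PadicAlgCl q)‖ = 1 := by
    rw [← map_natCast (algebraMap ℚ_[q] (PadicAlgCl q)), PadicAlgCl.norm_extends,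
      Padic.norm_natCast_eq_one_iff]
    exact hn
  have hle : (1 : ℝ) ≤ ‖η - 1‖ := by
    rw [← hnn, hn', norm_neg]
    exact IsUltrametricDist.norm_sum_le_of_forall_le_of_nonneg (norm_nonneg _)
      (fun i _ => hpow i)
  refine le_antisymm ?_ hle
  calc ‖η - 1‖ = ‖η + (-1)‖ := by rw [sub_eq_add_neg]
    _ ≤ max ‖η‖ ‖(-1 : PadicAlgCl q)‖ := IsUltrametricDist.norm_add_le_max _ _
    _ = 1 := by rw [hnorm, norm_neg, norm_one, max_self]

end RootsOfUnity

variable (p : ℕ) [hp : Fact p.Prime] (k : ℕ) (q : ℕ) [hq : Fact q.Prime]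

/-- **Frobenius has cyclotomic character `q`.** If `φ ∈ Gal(ℚ_q(ζ_{p^(k+1)})/ℚ_q)`, `q ≠ p`,
satisfies `‖φ x - x ^ q‖ < 1` for all integral `x`, then `χ_q(φ) = q mod p^(k+1)`. -/
theorem chiL_frobenius (hqp : q ≠ p)
    (φ : locField q (cycLayer p k) ≃ₐ[ℚ_[q]] locField q (cycLayer p k))
    (hφ : ∀ x : locField q (cycLayer p k), ‖(x : PadicAlgCl q)‖ ≤ 1 →
      ‖((φ x : locField q (cycLayer p k)) : PadicAlgCl q) - (x : PadicAlgCl q) ^ q‖ < 1) :
    ((chiL p k q φ : (ZMod (p ^ (k + 1)))ˣ) : ZMod (p ^ (k + 1))) = (q : ZMod (p ^ (k + 1))) := by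
  set n := p ^ (k + 1) with hn
  have hcop : q.Coprime n :=
    Nat.Coprime.pow_right _ ((Nat.coprime_primes hq.out hp.out).mpr hqp)
  set a : ℕ := ((chiL p k q φ : (ZMod n)ˣ) : ZMod n).val with ha
  set ζ : PadicAlgCl q := padicEmbedding q (zetaQb p k) with hζ
  have hprim : IsPrimitiveRoot ζ n := padicEmbedding_zetaQb_spec p k q
  have hζn : ζ ^ n = 1 := hprim.pow_eq_one
  have hζ0 : ζ ≠ 0 := hprim.ne_zero (NeZero.ne n)
  have hnormζ : ‖ζ‖ = 1 := by
    have : ‖ζ‖ ^ n = 1 := by rw [← norm_pow, hζn, norm_one]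
    exact (pow_eq_one_iff_of_nonneg (norm_nonneg _) (NeZero.ne n)).mp this
  -- `φ ζ = ζ ^ a`
  have hφζ : ((φ (zetaLoc p k q) : locField q (cycLayer p k)) : PadicAlgCl q) = ζ ^ a := by
    rw [← chiL_spec p k q φ]
    rfl
  have hlt := hφ (zetaLoc p k q) (by rw [coe_zetaLoc]; exact hnormζ.le)
  rw [hφζ, coe_zetaLoc] at hlt
  -- suppose `a ≢ q`
  by_contra hne
  have hne' : ζ ^ a ≠ ζ ^ q := by
    intro h
    apply hne
    have hu : IsUnit ζ := hprim.isUnit (NeZero.ne n)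
    have h3 : hu.unit ^ a = hu.unit ^ q := Units.ext (by simpa using h)
    have hord : orderOf hu.unit = n := by
      rw [← orderOf_units, IsUnit.unit_spec, ← hprim.eq_orderOf]
    have h2 := pow_eq_pow_iff_modEq.mp h3
    rw [hord, ← ZMod.natCast_eq_natCast_iff] at h2
    rw [← h2, ha, ZMod.natCast_val, ZMod.cast_id', id]
  set η : PadicAlgCl q := ζ ^ a * (ζ ^ q)⁻¹ with hηdef
  have hηn : η ^ n = 1 := by
    rw [hηdef, mul_pow, inv_pow, ← pow_mul, ← pow_mul, mul_comm a, mul_comm q, pow_mul, pow_mul,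
      hζn, one_pow, one_pow, inv_one, mul_one]
  have hη1 : η ≠ 1 := by
    intro h
    apply hne'
    rw [hηdef, mul_inv_eq_one₀ (pow_ne_zero _ hζ0)] at h
    exact h
  have h1 := norm_sub_one_of_pow_eq_one q hcop hηn hη1
  have h2 : ‖η - 1‖ = ‖ζ ^ a - ζ ^ q‖ := by
    have : η - 1 = (ζ ^ a - ζ ^ q) * (ζ ^ q)⁻¹ := by
      rw [hηdef, sub_mul, mul_inv_cancel₀ (pow_ne_zero _ hζ0)]
    rw [this, norm_mul, norm_inv, norm_pow, hnormζ, one_pow, inv_one, mul_one]
  rw [h2] at h1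
  exact absurd hlt (by rw [h1]; exact lt_irrefl _)

end Fermat.Agent.GC.Global.WRec
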