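/-
GATE-C / C4 (GH-w) WeightedReciprocity, helper55.

The local layer `E = ℚ_p(ζ_{p^(k+1)})` at `p` itself: full degree, `decHom` bijective, `p` is a norm,
and the SOFT WILD SYMBOL THEOREM: any surjective homomorphism `θ : ℚ_pˣ → Gal(E/ℚ_p)` killing the
norms from `E` (e.g. the norm residue symbol of local class field theory) satisfies
`χ(θ u) = (u mod p^(k+1)) ^ e` on `ℤ_pˣ` for some unit exponent `e` — with NO computation.
-/
import Mathlib
import Fermat.Agent.GC.Global.WRec.CycloTower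

set_option autoImplicit false

open scoped Padic
open IntermediateField Polynomial

noncomputable section

namespace Fermat.Agent.GC.Global.WRec

open Fermat.Agent.GC.Global

variable (p : ℕ) [hp : Fact p.Prime] (k : ℕ)

/-- the local layer at `p` -/
abbrev Ep : IntermediateField ℚ_[p] (PadicAlgCl p) := locField p (cycLayer p k)

theorem chiL_bijective_self : Function.Bijective (chiL p k p) := by
  refine (Nat.bijective_iff_injective_and_card _).mpr ⟨chiL_injective p k p, ?_⟩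
  rw [IsGalois.card_aut_eq_finrank,
    IsCyclotomicExtension.finrank (Ep p k) (cyclotomic_prime_pow_irreducible_padic p k),
    Nat.card_eq_fintype_card, ZMod.card_units_eq_totient]

/-- The local cyclotomic character at `p` as an isomorphism `Gal(E/ℚ_p) ≃* (ℤ/p^(k+1))ˣ`. -/
def chiLEquiv : (Ep p k ≃ₐ[ℚ_[p]] Ep p k) ≃* (ZMod (p ^ (k + 1)))ˣ :=
  MulEquiv.ofBijective (chiL p k p) (chiL_bijective_self p k)

/-- The decomposition group of `M_k` at `p` is everything. -/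
theorem decHom_bijective_self : Function.Bijective (decHom p (cycLayer p k)) := by
  have h : (chiG p k) ∘ (decHom p (cycLayer p k)) = chiL p k p := funext (chiG_decHom p k p)
  have hb : Function.Bijective ((chiG p k) ∘ (decHom p (cycLayer p k))) :=
    h ▸ chiL_bijective_self p k
  exact (Function.Bijective.of_comp_iff' (chiG_bijective p k) _).mp hb

/-- `p` is the norm of `ζ - 1` from `E = ℚ_p(ζ)` (for `p` odd). -/
theorem norm_zetaLoc_sub_one (hp2 : p ≠ 2) :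
    Algebra.norm ℚ_[p] (zetaLoc p k p - 1) = (p : ℚ_[p]) :=
  (zetaLoc_spec p k p).norm_sub_one_of_prime_ne_two (cyclotomic_prime_pow_irreducible_padic p k) hp2

/-- The inclusion `ℤ_pˣ → ℚ_pˣ`. -/
def unitsIncl : ℤ_[p]ˣ →* ℚ_[p]ˣ :=
  Units.map ((PadicInt.Coe.ringHom : ℤ_[p] →+* ℚ_[p]) : ℤ_[p] →* ℚ_[p])

@[simp] theorem coe_unitsIncl (u : ℤ_[p]ˣ) : ((unitsIncl p u : ℚ_[p]ˣ) : ℚ_[p]) = ((u : ℤ_[p]) : ℚ_[p]) :=
  rfl

/-- `p` as a unit of `ℚ_p`. -/
def pUnit : ℚ_[p]ˣ := Units.mk0 (p : ℚ_[p]) (by exact_mod_cast hp.out.ne_zero)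

/-- Every element of `ℚ_pˣ` is `p ^ m * u` with `u ∈ ℤ_pˣ`. -/
theorem exists_eq_pUnit_zpow_mul (x : ℚ_[p]ˣ) :
    ∃ (m : ℤ) (u : ℤ_[p]ˣ), x = pUnit p ^ m * unitsIncl p u := by
  have hx : (x : ℚ_[p]) ≠ 0 := x.ne_zero
  set v : ℤ := (x : ℚ_[p]).valuation with hv
  have hp0 : (p : ℚ_[p]) ≠ 0 := by exact_mod_cast hp.out.ne_zero
  have hpR : (0 : ℝ) < p := by exact_mod_cast hp.out.pos
  set y : ℚ_[p] := (x : ℚ_[p]) * ((p : ℚ_[p]) ^ v)⁻¹ with hy
  have hnorm : ‖y‖ = 1 := by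
    rw [hy, norm_mul, norm_inv, Padic.norm_p_zpow, Padic.norm_eq_zpow_neg_valuation hx, ← hv]
    exact mul_inv_cancel₀ (zpow_ne_zero _ hpR.ne')
  let y' : ℤ_[p] := ⟨y, hnorm.le⟩
  have hunit : IsUnit y' := by
    rw [PadicInt.isUnit_iff]
    exact hnorm
  refine ⟨v, hunit.unit, Units.ext ?_⟩
  have : (((pUnit p ^ v * unitsIncl p hunit.unit : ℚ_[p]ˣ)) : ℚ_[p]) = (p : ℚ_[p]) ^ v * y := by
    have h1 : ((hunit.unit : ℤ_[p]ˣ) : ℤ_[p]) = y' := hunit.unit_spec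
    simp only [Units.val_mul, Units.val_zpow_eq_zpow_val, pUnit, Units.val_mk0, coe_unitsIncl, h1]
    rfl
  rw [this, hy, mul_comm, mul_assoc, inv_mul_cancel₀ (zpow_ne_zero _ hp0), mul_one]

/-- **Soft wild symbol theorem.** Let `θ : ℚ_pˣ → Gal(E/ℚ_p)`, `E = ℚ_p(ζ_{p^(k+1)})`, be a
surjective homomorphism which kills `p` (e.g. because it kills all norms from `E`). Then there is
`e` prime to `φ(p^(k+1))` with `χ(θ u) = (u mod p^(k+1)) ^ e` for all `u ∈ ℤ_pˣ`. -/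
theorem exists_chiL_symbol_eq_pow (hp2 : p ≠ 2)
    (θ : ℚ_[p]ˣ →* (Ep p k ≃ₐ[ℚ_[p]] Ep p k)) (hθ : Function.Surjective θ)
    (hθp : θ (pUnit p) = 1) :
    ∃ e : ℕ, e.Coprime (Nat.totient (p ^ (k + 1))) ∧
      ∀ u : ℤ_[p]ˣ, chiL p k p (θ (unitsIncl p u)) = redUnits p (k + 1) u ^ e := by
  -- the two surjections `ℤ_pˣ → (ℤ/p^(k+1))ˣ`
  set f : ℤ_[p]ˣ →* (ZMod (p ^ (k + 1)))ˣ := ((chiL p k p).comp θ).comp (unitsIncl p) with hf
  have hfs : Function.Surjective f := by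
    intro a
    obtain ⟨τ, rfl⟩ := (chiL_bijective_self p k).2 a
    obtain ⟨x, rfl⟩ := hθ τ
    obtain ⟨m, u, rfl⟩ := exists_eq_pUnit_zpow_mul p x
    refine ⟨u, ?_⟩
    simp only [hf, MonoidHom.comp_apply, map_mul, map_zpow, hθp, one_zpow, one_mul]
  have hgs : Function.Surjective (redUnits p (k + 1)) :=
    redUnits_surjective (k + 1) (Nat.succ_ne_zero k)
  have : IsCyclic (ZMod (p ^ (k + 1)))ˣ := ZMod.isCyclic_units_of_prime_pow p hp.out hp2 (k + 1)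
  obtain ⟨e, he, hfe⟩ := exists_pow_eq_of_surjective hp2 f (redUnits p (k + 1)) hfs hgs
  refine ⟨e, ?_, fun u => hfe u⟩
  rwa [Nat.card_eq_fintype_card, ZMod.card_units_eq_totient] at he

/-- Variant with the hypothesis "`θ` kills norms". -/
theorem exists_chiL_symbol_eq_pow_of_norm (hp2 : p ≠ 2)
    (θ : ℚ_[p]ˣ →* (Ep p k ≃ₐ[ℚ_[p]] Ep p k)) (hθ : Function.Surjective θ)
    (hθN : ∀ (x : ℚ_[p]ˣ) (y : Ep p k), Algebra.norm ℚ_[p] y = (x : ℚ_[p]) → θ x = 1) :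
    ∃ e : ℕ, e.Coprime (Nat.totient (p ^ (k + 1))) ∧
      ∀ u : ℤ_[p]ˣ, chiL p k p (θ (unitsIncl p u)) = redUnits p (k + 1) u ^ e :=
  exists_chiL_symbol_eq_pow p k hp2 θ hθ
    (hθN (pUnit p) (zetaLoc p k p - 1) (norm_zetaLoc_sub_one p k hp2))

end Fermat.Agent.GC.Global.WRec
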