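/-
GATE-C / C4 (GH-w) WeightedReciprocity, helper55.

**(W2) The weighted product formula over `ℚ` for the cyclotomic layer `M_k = ℚ(ζ_{p^(k+1)})`**, in
hypothesis form against local class field theory (C3): given local symbols
`θ q : ℚ_qˣ →* Gal(ℚ_q(ζ)/ℚ_q)` which
* at `q ≠ p` are given by the unramified formula `θ q x = Frob_q ^ (ε * v_q x)`,
* at `p` are surjective and kill the norms from `ℚ_p(ζ)`,
there is a unit weight `c` such that for all `a ∈ ℚˣ`
`(∏_{q ≠ p} dec_q (θ_q a) * (dec_p (θ_p a)) ^ c) ^ 2 = 1` (read through the cyclotomic character).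
No computation of the wild symbol at `p` is used.
-/
import Mathlib
import Fermat.Agent.GC.Global.WRec.WildSymbol
import Fermat.Agent.GC.Global.WRec.UnramFrob
import Fermat.Agent.GC.Global.WRec.AbstractPF

set_option autoImplicit false

open scoped Padic
open IntermediateField Polynomial

noncomputable section

namespace Fermat.Agent.GC.Global.WRec

open Fermat.Agent.GC.Global

/-- `ℚˣ → ℚ_qˣ`. -/
def ratToPadicUnits (q : ℕ) [Fact q.Prime] : ℚˣ →* ℚ_[q]ˣ :=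
  Units.map ((algebraMap ℚ ℚ_[q] : ℚ →+* ℚ_[q]) : ℚ →* ℚ_[q])

@[simp] theorem coe_ratToPadicUnits (q : ℕ) [Fact q.Prime] (a : ℚˣ) :
    ((ratToPadicUnits q a : ℚ_[q]ˣ) : ℚ_[q]) = ((a : ℚ) : ℚ_[q]) := by
  simp [ratToPadicUnits]

/-- The number theory needed to choose the weight: `e c + ε ≡ 0 mod N`. -/
theorem exists_weight (N e : ℕ) (hN : 0 < N) (he : e.Coprime N) (ε : ℤ) (hε : ε = 1 ∨ ε = -1) :
    ∃ c : ℕ, c.Coprime N ∧ (N : ℤ) ∣ (e * c + ε) := by
  have : NeZero N := ⟨hN.ne'⟩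
  let u : (ZMod N)ˣ := ZMod.unitOfCoprime e he
  have hεu : IsUnit ((-ε : ℤ) : ZMod N) := by
    rcases hε with rfl | rfl <;> simp
  let w : (ZMod N)ˣ := hεu.unit * u⁻¹
  refine ⟨(w : ZMod N).val, ZMod.val_coe_unit_coprime w, ?_⟩
  rw [← ZMod.intCast_zmod_eq_zero_iff_dvd]
  push_cast
  rw [ZMod.natCast_val, ZMod.cast_id', id]
  have hu : ((u : (ZMod N)ˣ) : ZMod N) = (e : ZMod N) := ZMod.coe_unitOfCoprime e he
  have hw : ((w : (ZMod N)ˣ) : ZMod N) = ((-ε : ℤ) : ZMod N) * ((u⁻¹ : (ZMod N)ˣ) : ZMod N) := by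
    simp [w]
  rw [hw, ← hu, ← mul_assoc, mul_comm (u : ZMod N), mul_assoc, Units.mul_inv, mul_one]
  push_cast
  ring

variable (p : ℕ) [hp : Fact p.Prime] (k : ℕ)

/-- `φ ∈ Gal(ℚ_q(ζ)/ℚ_q)` is a Frobenius: `φ x ≡ x ^ q` modulo the maximal ideal, on integers. -/
def IsFrobAt (q : ℕ) [Fact q.Prime]
    (φ : locField q (cycLayer p k) ≃ₐ[ℚ_[q]] locField q (cycLayer p k)) : Prop :=
  ∀ x : locField q (cycLayer p k), ‖(x : PadicAlgCl q)‖ ≤ 1 →
    ‖((φ x : locField q (cycLayer p k)) : PadicAlgCl q) - (x : PadicAlgCl q) ^ q‖ < 1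

/-- `p` as an element of `Nat.Primes`. -/
def pp : Nat.Primes := ⟨p, hp.out⟩

/-- the residue of a prime `q` modulo `p^(k+1)` as a unit (junk value `1` at `q = p`). -/
def resUnit (q : Nat.Primes) : (ZMod (p ^ (k + 1)))ˣ :=
  if h : (q : ℕ) = p then 1 else
    ZMod.unitOfCoprime (q : ℕ) (Nat.Coprime.pow_right _ ((Nat.coprime_primes q.2 hp.out).mpr h))

theorem coe_resUnit (q : Nat.Primes) (h : (q : ℕ) ≠ p) :
    ((resUnit p k q : (ZMod (p ^ (k + 1)))ˣ) : ZMod (p ^ (k + 1))) = ((q : ℕ) : ZMod (p ^ (k + 1))) := by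
  rw [resUnit, dif_neg h, ZMod.coe_unitOfCoprime]

/-- A prime `q ≠ p` as a unit of `ℤ_p`. -/
theorem isUnit_prime_padicInt (q : Nat.Primes) (h : (q : ℕ) ≠ p) :
    IsUnit (((q : ℕ) : ℤ_[p])) := by
  rw [PadicInt.isUnit_iff, PadicInt.norm_natCast_eq_one_iff]
  exact (Nat.coprime_primes hp.out q.2).mpr (Ne.symm h)

/-- A prime `q ≠ p` as a unit of `ℤ_p`. -/
def primeToPadicIntUnit (q : Nat.Primes) (h : (q : ℕ) ≠ p) : ℤ_[p]ˣ :=
  (isUnit_prime_padicInt p q h).unit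

@[simp] theorem coe_primeToPadicIntUnit (q : Nat.Primes) (h : (q : ℕ) ≠ p) :
    ((primeToPadicIntUnit p q h : ℤ_[p]ˣ) : ℤ_[p]) = ((q : ℕ) : ℤ_[p]) :=
  (isUnit_prime_padicInt p q h).unit_spec

theorem unitsIncl_primeToPadicIntUnit (q : Nat.Primes) (h : (q : ℕ) ≠ p) :
    unitsIncl p (primeToPadicIntUnit p q h) = ratToPadicUnits p (primeUnit q) := by
  ext
  rw [coe_unitsIncl, coe_primeToPadicIntUnit, coe_ratToPadicUnits, coe_primeUnit]
  simp

theorem redUnits_primeToPadicIntUnit (q : Nat.Primes) (h : (q : ℕ) ≠ p) :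
    redUnits p (k + 1) (primeToPadicIntUnit p q h) = resUnit p k q := by
  ext
  rw [coe_resUnit p k q h]
  simp only [redUnits, Units.coe_map, MonoidHom.coe_coe, coe_primeToPadicIntUnit, map_natCast]

/-- **(W2) Weighted product formula over `ℚ` for the layer `ℚ(ζ_{p^(k+1)})`.** -/
theorem weighted_product_formula_Q (hp2 : p ≠ 2) (ε : ℤ) (hε : ε = 1 ∨ ε = -1)
    (θp : ℚ_[p]ˣ →* (Ep p k ≃ₐ[ℚ_[p]] Ep p k))
    (hθp : Function.Surjective θp)
    (hθN : ∀ (x : ℚ_[p]ˣ) (y : Ep p k), Algebra.norm ℚ_[p] y = (x : ℚ_[p]) → θp x = 1)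
    (θ : ∀ q : Nat.Primes, ℚ_[(q : ℕ)]ˣ →*
      (locField (q : ℕ) (cycLayer p k) ≃ₐ[ℚ_[(q : ℕ)]] locField (q : ℕ) (cycLayer p k)))
    (hθq : ∀ q : Nat.Primes, (q : ℕ) ≠ p → ∃ φ, IsFrobAt p k (q : ℕ) φ ∧
      ∀ x : ℚ_[(q : ℕ)]ˣ, θ q x = φ ^ (ε * (x : ℚ_[(q : ℕ)]).valuation)) :
    ∃ c : ℕ, c.Coprime (Nat.totient (p ^ (k + 1))) ∧
      ∀ (a : ℚˣ) (T : Finset Nat.Primes), (∀ q : Nat.Primes, q ∉ T → padicValRat q (a : ℚ) = 0) →
        ((∏ q ∈ T.filter (· ≠ pp p),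
            chiG p k (decHom (q : ℕ) (cycLayer p k) (θ q (ratToPadicUnits (q : ℕ) a)))) *
          chiG p k (decHom p (cycLayer p k) (θp (ratToPadicUnits p a))) ^ c) ^ 2 = 1 := by
  classical
  obtain ⟨e, he, hsym⟩ := exists_chiL_symbol_eq_pow_of_norm p k hp2 θp hθp hθN
  have hNpos : 0 < Nat.totient (p ^ (k + 1)) := Nat.totient_pos.mpr (pow_pos hp.out.pos _)
  obtain ⟨c, hc, hdvd⟩ := exists_weight _ e hNpos he ε hε
  refine ⟨c, hc, ?_⟩
  -- the abstract family of symbols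
  let s : Nat.Primes → ℚˣ →* (ZMod (p ^ (k + 1)))ˣ := fun q =>
    if h : q = pp p then ((chiL p k p).comp θp).comp (ratToPadicUnits p)
    else ((chiL p k (q : ℕ)).comp (θ q)).comp (ratToPadicUnits (q : ℕ))
  have hs_ne : ∀ q : Nat.Primes, q ≠ pp p → ∀ a, s q a =
      chiG p k (decHom (q : ℕ) (cycLayer p k) (θ q (ratToPadicUnits (q : ℕ) a))) := by
    intro q hq a
    simp only [s, dif_neg hq, MonoidHom.comp_apply]
    rw [chiG_decHom]
  have hs_p : ∀ a, s (pp p) a =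
      chiG p k (decHom p (cycLayer p k) (θp (ratToPadicUnits p a))) := by
    intro a
    simp only [s, dif_pos rfl, MonoidHom.comp_apply]
    rw [chiG_decHom]
  have hqp : ∀ q : Nat.Primes, q ≠ pp p → (q : ℕ) ≠ p := fun q hq h => hq (Subtype.ext h)
  -- (U)
  have hU : ∀ q : Nat.Primes, q ≠ pp p → ∀ a : ℚˣ,
      s q a = resUnit p k q ^ (ε * padicValRat q (a : ℚ)) := by
    intro q hq a
    obtain ⟨φ, hφ, hθ⟩ := hθq q (hqp q hq)
    simp only [s, dif_neg hq, MonoidHom.comp_apply]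
    rw [hθ, map_zpow, coe_ratToPadicUnits, Padic.valuation_ratCast]
    congr 1
    ext
    rw [chiL_frobenius p k (q : ℕ) (hqp q hq) φ hφ, coe_resUnit p k q (hqp q hq)]
  -- (P) at `p`
  have hpp : s (pp p) (primeUnit (pp p)) = 1 := by
    simp only [s, dif_pos rfl, MonoidHom.comp_apply]
    have : θp (ratToPadicUnits p (primeUnit (pp p))) = 1 := by
      apply hθN _ (zetaLoc p k p - 1)
      rw [norm_zetaLoc_sub_one p k hp2, coe_ratToPadicUnits, coe_primeUnit]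
      simp [pp]
    rw [this, map_one]
  -- (P) at the other primes
  have hpq : ∀ q : Nat.Primes, q ≠ pp p →
      s (pp p) (primeUnit q) ^ c * resUnit p k q ^ ε = 1 := by
    intro q hq
    simp only [s, dif_pos rfl, MonoidHom.comp_apply]
    rw [← unitsIncl_primeToPadicIntUnit p q (hqp q hq), hsym,
      redUnits_primeToPadicIntUnit p k q (hqp q hq), ← pow_mul, ← zpow_natCast, ← zpow_add]
    obtain ⟨t, ht⟩ := hdvd
    have : ((e * c : ℕ) : ℤ) + ε = (Nat.totient (p ^ (k + 1)) : ℤ) * t := by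
      rw [← ht]; push_cast; ring
    rw [this, zpow_mul, zpow_natCast]
    have hcard : resUnit p k q ^ Nat.totient (p ^ (k + 1)) = 1 := by
      rw [← ZMod.card_units_eq_totient]
      exact pow_card_eq_one
    rw [hcard, one_zpow]
  intro a T hT
  have hmain := abstract_weighted_product_formula (pp p) (resUnit p k) s ε c hU hpp hpq a T hT
  rw [hs_p] at hmain
  rw [← hmain]
  congr 2
  refine Finset.prod_congr rfl fun q hq => ?_
  rw [Finset.mem_filter] at hq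
  exact (hs_ne q hq.2 a).symm

end Fermat.Agent.GC.Global.WRec
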