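/-
GATE-C / C4 PERIOD-DICT (helper52): periodicity dictionary between Mathlib's `H²` of a cyclic
quotient and "invariants modulo relative norms" in helper55's coset-sum language (`RelNorm.lean`),
on top of helper3's explicit `CycH2.H2Equiv`.

`G` a group, `S ⊲ G` normal with `G ⧸ S` cyclic, generated by `σ` of order `m`
(`CycH2.IsGen σ m`), `A : Rep k G`, `A_Q := A.quotientToInvariants S : Rep k (G ⧸ S)`.

* (D1) `invEquiv`   : `(A_Q)^{G/S} ≃ₗ A^G`;
* (D2) `qVal_nrmLin` : the cyclic norm `∑_{i<m} σ^i` on `A^S` is the coset-sum norm `relNorm A.ρ S`;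
* (D3) `periodEquiv : H²(G ⧸ S, A^S) ≃ₗ A^G ⧸ N_{G/S}(A^S)`, `periodEquiv_H2π`,
       `H2π_eq_zero_iff_relNorm`;
* (D4) `periodEquiv_naturality` : naturality in `A`;
* (D5) `card_periodEquiv`.
* `relNorm_res_eq_relNormSub` : for `H' ≤ H ≤ G` the norm of the `H`-module `Res_H M` with respect
  to `H'.subgroupOf H` is helper55's `relNormSub ρ H H'`.
-/
import Mathlib
import Fermat.Agent.GC.Global.WRec.RelNorm
import Fermat.Agent.GC.Local.CycH2

set_option autoImplicit false
set_option linter.unusedSectionVars false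
set_option linter.style.haveILetI false

open CategoryTheory groupCohomology

noncomputable section

namespace Fermat.Agent.GC.Global.WRec.PeriodDict

open Fermat.Agent.GC.Global.WRec Fermat.Agent.GC.Local.CycH2

universe u

variable {k G : Type u} [CommRing k] [Group G] (A : Rep.{u} k G) (S : Subgroup G) [S.Normal]

/-- The underlying element of `A` of an element of `A^S`. -/
def qVal : (A.quotientToInvariants S).V →ₗ[k] A.V :=
  (Representation.invariants (A.ρ.comp S.subtype)).subtype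

theorem qVal_injective : Function.Injective (qVal A S) :=
  Submodule.injective_subtype _

theorem qVal_ρ_mk (g : G) (z : (A.quotientToInvariants S).V) :
    qVal A S ((A.quotientToInvariants S).ρ (QuotientGroup.mk g) z) = A.ρ g (qVal A S z) := rfl

theorem qVal_ρ_out (c : G ⧸ S) (z : (A.quotientToInvariants S).V) :
    qVal A S ((A.quotientToInvariants S).ρ c z) = A.ρ c.out (qVal A S z) := by
  conv_lhs => rw [← QuotientGroup.out_eq' c]
  exact qVal_ρ_mk A S c.out z

theorem isInv_qVal (z : (A.quotientToInvariants S).V) : IsInv A.ρ S (qVal A S z) :=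
  fun s hs => z.2 ⟨s, hs⟩

/-- Build an element of `A^S` from an `S`-invariant element of `A`. -/
def qMk (z : A.V) (hz : IsInv A.ρ S z) : (A.quotientToInvariants S).V :=
  ⟨z, fun s => hz s.1 s.2⟩

@[simp] theorem qVal_qMk (z : A.V) (hz : IsInv A.ρ S z) : qVal A S (qMk A S z hz) = z := rfl

/-- (D1) the `G ⧸ S`-invariants of `A^S` are the `G`-invariants of `A`. -/
def invEquiv : (A.quotientToInvariants S).ρ.invariants ≃ₗ[k] A.ρ.invariants where
  toFun y := ⟨qVal A S y.1, fun g => by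
    have := congrArg (qVal A S) (y.2 (QuotientGroup.mk g))
    exact this⟩
  map_add' _ _ := rfl
  map_smul' _ _ := rfl
  invFun y := ⟨qMk A S y.1 (fun s _ => y.2 s), fun c => by
    induction c using QuotientGroup.induction_on with
    | H g => exact qVal_injective A S (y.2 g)⟩
  left_inv _ := rfl
  right_inv _ := rfl

@[simp] theorem invEquiv_coe (y : (A.quotientToInvariants S).ρ.invariants) :
    ((invEquiv A S y : A.ρ.invariants) : A.V) = qVal A S y.1 := rfl

variable {σ : G ⧸ S} {m : ℕ}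

/-- (D2) the cyclic norm on `A^S` is the coset-sum norm. -/
theorem qVal_nrmLin [Fintype (G ⧸ S)] (h : IsGen σ m) (z : (A.quotientToInvariants S).V) :
    qVal A S (nrmLin (A.quotientToInvariants S) σ m z) = relNorm A.ρ S (qVal A S z) := by
  letI := repAction (A.quotientToInvariants S)
  rw [nrmLin_apply, h.nrm_eq_sum, map_sum, relNorm_apply]
  refine Finset.sum_congr rfl fun c _ => ?_
  exact qVal_ρ_out A S c z

/-- The relative norms `N_{G/S}(A^S)` inside `A^G`. -/
def normRange [Finite (G ⧸ S)] : Submodule k A.ρ.invariants :=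
  ((Representation.invariants (A.ρ.comp S.subtype)).map (relNorm A.ρ S)).comap
    A.ρ.invariants.subtype

theorem mem_normRange_iff [Finite (G ⧸ S)] (y : A.ρ.invariants) :
    y ∈ normRange A S ↔ ∃ z : A.V, IsInv A.ρ S z ∧ relNorm A.ρ S z = (y : A.V) := by
  constructor
  · rintro ⟨z, hz, hzy⟩
    exact ⟨z, fun s hs => hz ⟨s, hs⟩, hzy⟩
  · rintro ⟨z, hz, hzy⟩
    exact ⟨z, fun s => hz s.1 s.2, hzy⟩

theorem map_normSub [Fintype (G ⧸ S)] (h : IsGen σ m) :
    (normSub (A.quotientToInvariants S) σ m).map (invEquiv A S).toLinearMap = normRange A S := by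
  ext y
  rw [Submodule.mem_map, mem_normRange_iff]
  constructor
  · rintro ⟨γ, hγ, rfl⟩
    obtain ⟨b, hb⟩ := (mem_normSub_iff γ).1 hγ
    refine ⟨qVal A S b, isInv_qVal A S b, ?_⟩
    rw [← qVal_nrmLin A S h b, ← hb]
    rfl
  · rintro ⟨z, hz, hzy⟩
    refine ⟨(invEquiv A S).symm y, ?_, LinearEquiv.apply_symm_apply _ _⟩
    rw [mem_normSub_iff]
    refine ⟨qMk A S z hz, ?_⟩
    apply qVal_injective A S
    rw [qVal_nrmLin A S h, qVal_qMk, hzy]
    rfl

/-- (D3) **periodicity**: `H²(G ⧸ S, A^S) ≃ A^G ⧸ N_{G/S}(A^S)` for `G ⧸ S` cyclic. -/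
def periodEquiv [Fintype (G ⧸ S)] (h : IsGen σ m) :
    H2 (A.quotientToInvariants S) ≃ₗ[k] (A.ρ.invariants ⧸ normRange A S) :=
  (H2Equiv (A := A.quotientToInvariants S) h).trans
    (Submodule.Quotient.equiv _ _ (invEquiv A S) (map_normSub A S h))

theorem periodEquiv_H2π [Fintype (G ⧸ S)] (h : IsGen σ m)
    (f : cocycles₂ (A.quotientToInvariants S)) :
    periodEquiv A S h (H2π _ f) = Submodule.Quotient.mk (invEquiv A S (gamLin h f)) := by
  rw [periodEquiv, LinearEquiv.trans_apply, H2Equiv_H2π]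
  rfl

/-- A class of `H²(G ⧸ S, A^S)` vanishes iff the invariant `γ(f)` of a representing cocycle is a
relative norm `N_{G/S} z`, `z ∈ A^S`. -/
theorem H2π_eq_zero_iff_relNorm [Fintype (G ⧸ S)] (h : IsGen σ m)
    (f : cocycles₂ (A.quotientToInvariants S)) :
    H2π _ f = 0 ↔ ∃ z : A.V, IsInv A.ρ S z ∧
      relNorm A.ρ S z = qVal A S (gam σ m (f : (G ⧸ S) × (G ⧸ S) → _)) := by
  rw [← (periodEquiv A S h).map_eq_zero_iff, periodEquiv_H2π, Submodule.Quotient.mk_eq_zero,
    mem_normRange_iff]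
  rfl

/-- (D5) cardinality form. -/
theorem card_periodEquiv [Fintype (G ⧸ S)] (h : IsGen σ m) :
    Nat.card (A.ρ.invariants ⧸ normRange A S) = Nat.card (H2 (A.quotientToInvariants S)) :=
  Nat.card_congr (periodEquiv A S h).symm.toEquiv

/-! ### (D4) naturality in the module -/

section Generic

variable {Q : Type u} [Group Q] {X Y : Rep.{u} k Q} (ψ : X ⟶ Y)

theorem map_H2π (f : cocycles₂ X) :
    (groupCohomology.map (MonoidHom.id Q) ψ 2).hom (H2π X f) =
      H2π Y (mapCocycles₂ (MonoidHom.id Q) ψ f) :=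
  H2π_comp_map_apply (MonoidHom.id Q) ψ f

theorem coe_mapCocycles₂_id (f : cocycles₂ X) (p : Q × Q) :
    (mapCocycles₂ (MonoidHom.id Q) ψ f : Q × Q → Y.V) p = ψ.hom ((f : Q × Q → X.V) p) := rfl

end Generic

section Naturality

variable {A} {B : Rep.{u} k G} (φ : A ⟶ B)

/-- The map induced on `S`-invariants, as a morphism of `G ⧸ S`-modules. -/
abbrev mapQ : A.quotientToInvariants S ⟶ B.quotientToInvariants S :=
  (Rep.quotientToInvariantsFunctor k S).map φ

theorem qVal_mapQ (z : (A.quotientToInvariants S).V) :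
    qVal B S ((mapQ S φ).hom z) = φ.hom (qVal A S z) := rfl

/-- The map induced on `G`-invariants. -/
def invMap : A.ρ.invariants →ₗ[k] B.ρ.invariants :=
  ((Rep.invariantsFunctor k G).map φ).hom

@[simp] theorem invMap_coe (y : A.ρ.invariants) :
    ((invMap φ y : B.ρ.invariants) : B.V) = φ.hom (y : A.V) := rfl

theorem relNorm_hom [Fintype (G ⧸ S)] (z : A.V) :
    relNorm B.ρ S (φ.hom z) = φ.hom (relNorm A.ρ S z) := by
  rw [relNorm_apply, relNorm_apply, map_sum]
  refine Finset.sum_congr rfl fun c _ => ?_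
  exact (Rep.hom_comm_apply φ c.out z).symm

theorem isInv_hom {H : Subgroup G} {z : A.V} (hz : IsInv A.ρ H z) : IsInv B.ρ H (φ.hom z) :=
  fun g hg => by rw [← Rep.hom_comm_apply, hz g hg]

theorem normRange_le_comap [Fintype (G ⧸ S)] :
    normRange A S ≤ (normRange B S).comap (invMap φ) := by
  intro y hy
  obtain ⟨z, hz, hzy⟩ := (mem_normRange_iff A S y).1 hy
  rw [Submodule.mem_comap, mem_normRange_iff]
  exact ⟨φ.hom z, isInv_hom φ hz, by rw [relNorm_hom, hzy]; rfl⟩

/-- The map `A^G ⧸ N(A^S) → B^G ⧸ N(B^S)` induced by `φ`. -/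
def normQuotMap [Fintype (G ⧸ S)] :
    (A.ρ.invariants ⧸ normRange A S) →ₗ[k] (B.ρ.invariants ⧸ normRange B S) :=
  Submodule.mapQ _ _ (invMap φ) (normRange_le_comap S φ)

theorem gam_hom (f : (G ⧸ S) × (G ⧸ S) → (A.quotientToInvariants S).V) :
    gam σ m (fun p => (mapQ S φ).hom (f p)) = (mapQ S φ).hom (gam σ m f) := by
  simp only [gam, Fermat.Agent.GC.Local.CycH2.tsum, map_sum]

/-- (D4) **naturality of the periodicity isomorphism** in the module. -/
theorem periodEquiv_naturality [Fintype (G ⧸ S)] (h : IsGen σ m)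
    (x : H2 (A.quotientToInvariants S)) :
    periodEquiv B S h ((groupCohomology.map (MonoidHom.id (G ⧸ S)) (mapQ S φ) 2).hom x) =
      normQuotMap S φ (periodEquiv A S h x) := by
  induction x using H2_induction_on with
  | h f =>
    rw [map_H2π (mapQ S φ) f, periodEquiv_H2π, periodEquiv_H2π]
    show _ = Submodule.Quotient.mk (invMap φ (invEquiv A S (gamLin h f)))
    congr 1
    apply Subtype.ext
    show qVal B S (gam σ m _) = φ.hom (qVal A S (gam σ m _))
    rw [← qVal_mapQ, ← gam_hom]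
    rfl

end Naturality

/-! ### The `relNormSub` form: `H' ≤ H ≤ G` -/

section Sub

variable {M : Type u} [AddCommGroup M] [Module k M] (ρ : Representation k G M)
  (H H' : Subgroup G)

/-- For `H' ≤ H ≤ G`, the coset-sum norm of the `H`-module `Res_H M` with respect to
`H'.subgroupOf H` is helper55's `relNormSub ρ H H'`. -/
theorem relNorm_res_eq_relNormSub [Finite (H ⧸ H'.subgroupOf H)] :
    relNorm (Rep.res H.subtype (Rep.of ρ)).ρ (H'.subgroupOf H) = relNormSub ρ H H' := rfl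

theorem isInv_res_subgroupOf_iff (hle : H' ≤ H) (z : M) :
    IsInv (Rep.res H.subtype (Rep.of ρ)).ρ (H'.subgroupOf H) z ↔ IsInv ρ H' z := by
  constructor
  · intro hz g hg
    exact hz ⟨g, hle hg⟩ (Subgroup.mem_subgroupOf.2 hg)
  · intro hz g hg
    exact hz g (Subgroup.mem_subgroupOf.1 hg)

theorem isInv_res_top_iff (z : M) :
    (∀ g : H, (Rep.res H.subtype (Rep.of ρ)).ρ g z = z) ↔ IsInv ρ H z :=
  ⟨fun hz g hg => hz ⟨g, hg⟩, fun hz g => hz g g.2⟩

/-- Membership in the norm range, in helper55's `relNormSub` language. -/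
theorem mem_normRange_res_iff (hle : H' ≤ H) [(H'.subgroupOf H).Normal]
    [Finite (H ⧸ H'.subgroupOf H)]
    (y : (Rep.res H.subtype (Rep.of ρ)).ρ.invariants) :
    y ∈ normRange (Rep.res H.subtype (Rep.of ρ)) (H'.subgroupOf H) ↔
      ∃ z : M, IsInv ρ H' z ∧ relNormSub ρ H H' z = (y : M) := by
  rw [mem_normRange_iff]
  constructor
  · rintro ⟨z, hz, hzy⟩
    exact ⟨z, (isInv_res_subgroupOf_iff ρ H H' hle z).1 hz, hzy⟩
  · rintro ⟨z, hz, hzy⟩
    exact ⟨z, (isInv_res_subgroupOf_iff ρ H H' hle z).2 hz, hzy⟩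

/-- **Periodicity in `relNormSub` language**: for `H' ⊲ H ≤ G` with `H ⧸ H'` cyclic generated by
`σ` of order `m`, a 2-cocycle `f` of `H ⧸ H'` with values in `M^{H'}` is a coboundary iff
`γ(f) = N_{H/H'} z` for some `z ∈ M^{H'}`. -/
theorem H2π_eq_zero_iff_relNormSub (hle : H' ≤ H) [(H'.subgroupOf H).Normal]
    [Fintype (H ⧸ H'.subgroupOf H)] {σ : H ⧸ H'.subgroupOf H} {m : ℕ} (h : IsGen σ m)
    (f : cocycles₂ ((Rep.res H.subtype (Rep.of ρ)).quotientToInvariants (H'.subgroupOf H))) :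
    H2π _ f = 0 ↔ ∃ z : M, IsInv ρ H' z ∧
      relNormSub ρ H H' z = qVal (Rep.res H.subtype (Rep.of ρ)) (H'.subgroupOf H)
        (gam σ m (f : (H ⧸ H'.subgroupOf H) × (H ⧸ H'.subgroupOf H) → _)) := by
  rw [H2π_eq_zero_iff_relNorm _ _ h]
  constructor
  · rintro ⟨z, hz, hzy⟩
    exact ⟨z, (isInv_res_subgroupOf_iff ρ H H' hle z).1 hz, hzy⟩
  · rintro ⟨z, hz, hzy⟩
    exact ⟨z, (isInv_res_subgroupOf_iff ρ H H' hle z).2 hz, hzy⟩

/-- Cardinality form: `|M^H ⧸ N_{H/H'} M^{H'}| = |H²(H ⧸ H', M^{H'})|`. -/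
theorem card_periodEquiv_res [(H'.subgroupOf H).Normal]
    [Fintype (H ⧸ H'.subgroupOf H)] {σ : H ⧸ H'.subgroupOf H} {m : ℕ} (h : IsGen σ m) :
    Nat.card ((Rep.res H.subtype (Rep.of ρ)).ρ.invariants ⧸
        normRange (Rep.res H.subtype (Rep.of ρ)) (H'.subgroupOf H)) =
      Nat.card (H2 ((Rep.res H.subtype (Rep.of ρ)).quotientToInvariants (H'.subgroupOf H))) :=
  card_periodEquiv _ _ h

end Sub

end Fermat.Agent.GC.Global.WRec.PeriodDict
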