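/-
GATE-C / C4 (GH-w) WeightedReciprocity, helper55.

**The explicit local symbols of the layer `ℚ(ζ_{p^(k+1)})/ℚ`** and the explicit product formula.
* `psiQ p k q : ℚ_qˣ → (ℤ/p^(k+1))ˣ`, `x ↦ q ^ v_q(x)` (for `q ≠ p`);
* `psiP p k : ℚ_pˣ → (ℤ/p^(k+1))ˣ`, `p ^ m * u ↦ u⁻¹`;
* `explicit_product_formula`: `∏_{q ≠ p} psiQ q a * psiP a = ±1` for `a ∈ ℚˣ`
  (Artin reciprocity for the cyclotomic layer, in idelic form; elementary);
* `psiP_norm` : `psiP` kills the norms from `ℚ_p(ζ_{p^(k+1)})`  -- UNCONDITIONAL, from helper67's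
  local norm index theorem `norm_index_padic_of_isCyclic` + the procyclicity of `ℤ_pˣ`.
-/
import Mathlib
import Fermat.Agent.GC.Global.WRec.ProductFormulaQ
import Fermat.Agent.GC.Local.Herbrand.CyclicInput

set_option autoImplicit false

open scoped Padic
open IntermediateField Polynomial

noncomputable section

namespace Fermat.Agent.GC.Global.WRec

open Fermat.Agent.GC.Global

theorem index_map_ker_of_surjective {A C H : Type*} [CommGroup A] [CommGroup C] [Group H]
    [Finite H] (r : A →* C) (hr : Function.Surjective r) (φ : A →* H)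
    (hφ : Function.Surjective φ) (hle : r.ker ≤ φ.ker) : (φ.ker.map r).index = Nat.card H := by
  rw [Subgroup.index_map_eq _ hr hle, Subgroup.index_ker, MonoidHom.range_eq_top.mpr hφ]
  simp

theorem comap_map_ker_of_le {A C H : Type*} [CommGroup A] [CommGroup C] [Group H]
    (r : A →* C) (φ : A →* H) (hle : r.ker ≤ φ.ker) : (φ.ker.map r).comap r = φ.ker := by
  rw [Subgroup.comap_map_eq, sup_eq_left.mpr hle]

/-- If `f : A → G`, `g : A → G'` are surjective onto finite groups of the same order and both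
factor through a surjection `r : A → C` onto a finite cyclic group, then `ker f = ker g`. -/
theorem ker_eq_ker_of_card_eq {A C G G' : Type*} [CommGroup A] [CommGroup C] [Finite C]
    [IsCyclic C] [Group G] [Finite G] [Group G'] [Finite G'] (r : A →* C)
    (hr : Function.Surjective r)
    (f : A →* G) (g : A →* G') (hf : Function.Surjective f) (hg : Function.Surjective g)
    (hcard : Nat.card G = Nat.card G')
    (hrf : r.ker ≤ f.ker) (hrg : r.ker ≤ g.ker) : f.ker = g.ker := by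
  have h1 : f.ker.map r = g.ker.map r :=
    eq_of_index_eq_of_isCyclic _ _ (by
      rw [index_map_ker_of_surjective r hr f hf hrf, index_map_ker_of_surjective r hr g hg hrg,
        hcard])
  rw [← comap_map_ker_of_le r f hrf, ← comap_map_ker_of_le r g hrg, h1]

variable (p : ℕ) [hp : Fact p.Prime] (k : ℕ)

/-- The unit part `x / p ^ v(x)` of `x ∈ ℚ_pˣ`, as a function. -/
def unitPartFun (x : ℚ_[p]ˣ) : ℤ_[p]ˣ :=
  PadicInt.mkUnits (u := (x : ℚ_[p]) * ((p : ℚ_[p]) ^ (x : ℚ_[p]).valuation)⁻¹) (by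
    have hpR : (0 : ℝ) < p := by exact_mod_cast hp.out.pos
    rw [norm_mul, norm_inv, Padic.norm_p_zpow, Padic.norm_eq_zpow_neg_valuation x.ne_zero]
    exact mul_inv_cancel₀ (zpow_ne_zero _ hpR.ne'))

theorem coe_unitPartFun (x : ℚ_[p]ˣ) :
    (((unitPartFun p x : ℤ_[p]ˣ) : ℤ_[p]) : ℚ_[p]) =
      (x : ℚ_[p]) * ((p : ℚ_[p]) ^ (x : ℚ_[p]).valuation)⁻¹ := by
  simp [unitPartFun]

/-- The unit part `ℚ_pˣ → ℤ_pˣ`, `p ^ m * u ↦ u`. -/
def unitPart : ℚ_[p]ˣ →* ℤ_[p]ˣ :=
  MonoidHom.mk' (unitPartFun p) (fun x y => by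
    apply Units.ext
    apply Subtype.ext
    have hp0 : (p : ℚ_[p]) ≠ 0 := by exact_mod_cast hp.out.ne_zero
    rw [Units.val_mul, PadicInt.coe_mul, coe_unitPartFun, coe_unitPartFun, coe_unitPartFun,
      Units.val_mul, Padic.valuation_mul x.ne_zero y.ne_zero, zpow_add₀ hp0]
    field_simp)

theorem coe_unitPart (x : ℚ_[p]ˣ) :
    (((unitPart p x : ℤ_[p]ˣ) : ℤ_[p]) : ℚ_[p]) =
      (x : ℚ_[p]) * ((p : ℚ_[p]) ^ (x : ℚ_[p]).valuation)⁻¹ :=
  coe_unitPartFun p x

theorem eq_pUnit_zpow_mul_unitPart (x : ℚ_[p]ˣ) :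
    x = pUnit p ^ (x : ℚ_[p]).valuation * unitsIncl p (unitPart p x) := by
  apply Units.ext
  have hp0 : (p : ℚ_[p]) ≠ 0 := by exact_mod_cast hp.out.ne_zero
  rw [Units.val_mul, Units.val_zpow_eq_zpow_val, coe_unitsIncl, coe_unitPart]
  simp only [pUnit, Units.val_mk0]
  field_simp

theorem unitPart_unitsIncl (u : ℤ_[p]ˣ) : unitPart p (unitsIncl p u) = u := by
  apply Units.ext
  apply Subtype.ext
  rw [coe_unitPart, coe_unitsIncl]
  have : ((u : ℤ_[p]) : ℚ_[p]).valuation = 0 := by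
    have h1 : ‖((u : ℤ_[p]) : ℚ_[p])‖ = 1 := by
      rw [← PadicInt.norm_def]; exact PadicInt.norm_units u
    have hne : ((u : ℤ_[p]) : ℚ_[p]) ≠ 0 := by
      intro h0; rw [h0, norm_zero] at h1; exact zero_ne_one h1
    rw [Padic.norm_eq_zpow_neg_valuation hne] at h1
    have hp1 : (1 : ℝ) < p := by exact_mod_cast hp.out.one_lt
    have := zpow_right_injective₀ (by linarith : (0:ℝ) < p) hp1.ne' (h1.trans (zpow_zero _).symm)
    linarith
  rw [this, zpow_zero, inv_one, mul_one]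

theorem unitPart_pUnit : unitPart p (pUnit p) = 1 := by
  apply Units.ext
  apply Subtype.ext
  have hp0 : (p : ℚ_[p]) ≠ 0 := by exact_mod_cast hp.out.ne_zero
  rw [coe_unitPart]
  simp only [pUnit, Units.val_mk0, Padic.valuation_p, zpow_one, Units.val_one, PadicInt.coe_one]
  exact mul_inv_cancel₀ hp0


/-! ### The explicit local symbols -/

/-- The explicit symbol at `p`: `p ^ m * u ↦ (u mod p^(k+1))⁻¹`. -/
def psiP : ℚ_[p]ˣ →* (ZMod (p ^ (k + 1)))ˣ :=
  MonoidHom.mk' (fun x => (redUnits p (k + 1) (unitPart p x))⁻¹) (fun x y => by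
    rw [map_mul, map_mul, mul_inv])

theorem psiP_apply (x : ℚ_[p]ˣ) : psiP p k x = (redUnits p (k + 1) (unitPart p x))⁻¹ := rfl

theorem psiP_pUnit : psiP p k (pUnit p) = 1 := by
  rw [psiP_apply, unitPart_pUnit, map_one, inv_one]

theorem psiP_unitsIncl (u : ℤ_[p]ˣ) : psiP p k (unitsIncl p u) = (redUnits p (k + 1) u)⁻¹ := by
  rw [psiP_apply, unitPart_unitsIncl]

theorem psiP_surjective : Function.Surjective (psiP p k) := by
  intro a
  obtain ⟨u, hu⟩ := redUnits_surjective (p := p) (k + 1) (Nat.succ_ne_zero k) a⁻¹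
  exact ⟨unitsIncl p u, by rw [psiP_unitsIncl, hu, inv_inv]⟩

/-- The valuation as a homomorphism `ℚ_qˣ → ℤ`. -/
def valHom (q : ℕ) [Fact q.Prime] : ℚ_[q]ˣ →* Multiplicative ℤ :=
  MonoidHom.mk' (fun x => Multiplicative.ofAdd (x : ℚ_[q]).valuation) (fun x y => by
    rw [Units.val_mul, Padic.valuation_mul x.ne_zero y.ne_zero, ofAdd_add])

/-- The explicit symbol at `q ≠ p`: `x ↦ q ^ v_q(x) mod p^(k+1)` (trivial for `q = p`). -/
def psiQ (q : Nat.Primes) : ℚ_[(q : ℕ)]ˣ →* (ZMod (p ^ (k + 1)))ˣ :=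
  (zpowersHom _ (resUnit p k q)).comp (valHom (q : ℕ))

theorem psiQ_apply (q : Nat.Primes) (x : ℚ_[(q : ℕ)]ˣ) :
    psiQ p k q x = resUnit p k q ^ (x : ℚ_[(q : ℕ)]).valuation := rfl

/-- **Explicit product formula** (the reciprocity law of `ℚ(ζ_{p^(k+1)})/ℚ` in idelic form): for
`a ∈ ℚˣ` with support in `T`, `∏_{q ≠ p} q^{v_q(a)} * (a / p^{v_p(a)})⁻¹ = ±1` in
`(ℤ/p^(k+1))ˣ`. -/
theorem explicit_product_formula (a : ℚˣ) (T : Finset Nat.Primes)
    (hT : ∀ q : Nat.Primes, q ∉ T → padicValRat q (a : ℚ) = 0) :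
    ((∏ q ∈ T.filter (· ≠ pp p), psiQ p k q (ratToPadicUnits (q : ℕ) a)) *
      psiP p k (ratToPadicUnits p a)) ^ 2 = 1 := by
  classical
  let s : Nat.Primes → ℚˣ →* (ZMod (p ^ (k + 1)))ˣ := fun q =>
    if h : q = pp p then (psiP p k).comp (ratToPadicUnits p)
    else (psiQ p k q).comp (ratToPadicUnits (q : ℕ))
  have hs_ne : ∀ q : Nat.Primes, q ≠ pp p → ∀ a, s q a = psiQ p k q (ratToPadicUnits (q : ℕ) a) := by
    intro q hq a
    simp only [s, dif_neg hq, MonoidHom.comp_apply]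
  have hs_p : ∀ a, s (pp p) a = psiP p k (ratToPadicUnits p a) := by
    intro a
    simp only [s, dif_pos rfl, MonoidHom.comp_apply]
  have hqp : ∀ q : Nat.Primes, q ≠ pp p → (q : ℕ) ≠ p := fun q hq h => hq (Subtype.ext h)
  have hU : ∀ q : Nat.Primes, q ≠ pp p → ∀ a : ℚˣ,
      s q a = resUnit p k q ^ ((1 : ℤ) * padicValRat q (a : ℚ)) := by
    intro q hq a
    rw [hs_ne q hq, psiQ_apply, coe_ratToPadicUnits, Padic.valuation_ratCast, one_mul]
  have hpp : s (pp p) (primeUnit (pp p)) = 1 := by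
    rw [hs_p]
    have : ratToPadicUnits p (primeUnit (pp p)) = pUnit p := by
      ext
      rw [coe_ratToPadicUnits, coe_primeUnit]
      simp [pp, pUnit]
    rw [this, psiP_pUnit]
  have hpq : ∀ q : Nat.Primes, q ≠ pp p →
      s (pp p) (primeUnit q) ^ 1 * resUnit p k q ^ (1 : ℤ) = 1 := by
    intro q hq
    rw [hs_p, ← unitsIncl_primeToPadicIntUnit p q (hqp q hq), psiP_unitsIncl,
      redUnits_primeToPadicIntUnit p k q (hqp q hq), pow_one, zpow_one, inv_mul_cancel]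
  have hmain := abstract_weighted_product_formula (pp p) (resUnit p k) s 1 1 hU hpp hpq a T hT
  rw [hs_p, pow_one] at hmain
  rw [← hmain]
  congr 2
  refine Finset.prod_congr rfl fun q hq => ?_
  rw [Finset.mem_filter] at hq
  exact (hs_ne q hq.2 a).symm


/-! ### The explicit symbol at `p` kills the norms from `ℚ_p(ζ_{p^(k+1)})` -/

theorem ker_redUnits_mono {a b : ℕ} (hab : a ≤ b) : (redUnits p b).ker ≤ (redUnits p a).ker := by
  intro u hu
  rw [mem_ker_redUnits_iff] at hu ⊢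
  refine hu.trans ?_
  have hp1 : (1 : ℝ) ≤ p := by exact_mod_cast hp.out.one_lt.le
  exact zpow_le_zpow_right₀ hp1 (by simpa using hab)

theorem isCyclic_gal_Ep (hp2 : p ≠ 2) : IsCyclic (Ep p k ≃ₐ[ℚ_[p]] Ep p k) := by
  have : IsCyclic (ZMod (p ^ (k + 1)))ˣ :=
    ZMod.isCyclic_units_of_prime_pow p hp.out hp2 (k + 1)
  exact isCyclic_of_surjective (chiLEquiv p k).symm (chiLEquiv p k).symm.surjective

theorem finrank_Ep : Module.finrank ℚ_[p] (Ep p k) = Nat.totient (p ^ (k + 1)) := by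
  rw [← IsGalois.card_aut_eq_finrank, Nat.card_congr (chiLEquiv p k).toEquiv,
    Nat.card_eq_fintype_card, ZMod.card_units_eq_totient]

/-- The norm group of `ℚ_p(ζ_{p^(k+1)})/ℚ_p`. -/
def normGroupP : Subgroup ℚ_[p]ˣ :=
  MonoidHom.range (Units.map (Algebra.norm ℚ_[p] : Ep p k →* ℚ_[p]))

theorem index_normGroupP (hp2 : p ≠ 2) : (normGroupP p k).index = Nat.totient (p ^ (k + 1)) := by
  have := isCyclic_gal_Ep p k hp2
  rw [normGroupP, Fermat.Agent.GC.Local.Herbrand.norm_index_padic_of_isCyclic p ℚ_[p] (Ep p k),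
    finrank_Ep]

theorem pUnit_mem_normGroupP (hp2 : p ≠ 2) : pUnit p ∈ normGroupP p k := by
  have h := norm_zetaLoc_sub_one p k hp2
  have hne : (zetaLoc p k p - 1 : Ep p k) ≠ 0 := by
    intro h0
    rw [h0, Algebra.norm_zero] at h
    exact hp.out.ne_zero (by exact_mod_cast h.symm)
  refine ⟨Units.mk0 _ hne, ?_⟩
  ext
  simp only [Units.coe_map, Units.val_mk0, pUnit]
  exact h

/-- **A unit of `ℤ_p` is a norm from `ℚ_p(ζ_{p^(k+1)})` iff it is `≡ 1 mod p^(k+1)`** (the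
"only if" direction; from the local norm index theorem and the procyclicity of `ℤ_pˣ`). -/
theorem redUnits_eq_one_of_mem_normGroupP (hp2 : p ≠ 2) (u : ℤ_[p]ˣ)
    (hu : unitsIncl p u ∈ normGroupP p k) : redUnits p (k + 1) u = 1 := by
  have hidx := index_normGroupP p k hp2
  have hpos : 0 < Nat.totient (p ^ (k + 1)) := Nat.totient_pos.mpr (pow_pos hp.out.pos _)
  have : (normGroupP p k).FiniteIndex := ⟨by rw [hidx]; exact hpos.ne'⟩
  set R := normGroupP p k with hR
  let f : ℤ_[p]ˣ →* (ℚ_[p]ˣ ⧸ R) := (QuotientGroup.mk' R).comp (unitsIncl p)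
  have hf : Function.Surjective f := by
    intro c
    obtain ⟨x, rfl⟩ := QuotientGroup.mk'_surjective R c
    refine ⟨unitPart p x, ?_⟩
    simp only [f, MonoidHom.comp_apply, QuotientGroup.mk'_apply]
    rw [QuotientGroup.eq]
    have hx := eq_pUnit_zpow_mul_unitPart p x
    have key : ∀ a b y : ℚ_[p]ˣ, y = a * b → b⁻¹ * y = a := by
      intro a b y h
      rw [h, mul_comm a b, inv_mul_cancel_left]
    rw [key _ _ _ hx]
    exact R.zpow_mem (pUnit_mem_normGroupP p k hp2) _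
  have hg : Function.Surjective (redUnits p (k + 1)) :=
    redUnits_surjective (k + 1) (Nat.succ_ne_zero k)
  have hcard : Nat.card (ℚ_[p]ˣ ⧸ R) = Nat.card (ZMod (p ^ (k + 1)))ˣ := by
    rw [← Subgroup.index_eq_card, hidx, Nat.card_eq_fintype_card, ZMod.card_units_eq_totient]
  obtain ⟨N₁, hN₁, h₁⟩ := exists_ker_redUnits_le f
  set N := max N₁ (k + 1) with hNdef
  have hN : N ≠ 0 := by
    have : k + 1 ≤ N := le_max_right _ _
    omega
  have : IsCyclic (ZMod (p ^ N))ˣ := ZMod.isCyclic_units_of_prime_pow p hp.out hp2 N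
  have : NeZero (p ^ N) := ⟨pow_ne_zero _ hp.out.ne_zero⟩
  have hker := ker_eq_ker_of_card_eq (redUnits p N) (redUnits_surjective N hN) f
    (redUnits p (k + 1)) hf hg hcard
    ((ker_redUnits_mono p (le_max_left _ _)).trans h₁) (ker_redUnits_mono p (le_max_right _ _))
  have : u ∈ f.ker := by
    rw [MonoidHom.mem_ker]
    simp only [f, MonoidHom.comp_apply, QuotientGroup.mk'_apply]
    exact (QuotientGroup.eq_one_iff _).mpr hu
  rw [hker] at this
  exact this

/-- **The explicit symbol at `p` kills norms** from `ℚ_p(ζ_{p^(k+1)})`. -/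
theorem psiP_eq_one_of_mem_normGroupP (hp2 : p ≠ 2) (x : ℚ_[p]ˣ) (hx : x ∈ normGroupP p k) :
    psiP p k x = 1 := by
  rw [psiP_apply, inv_eq_one]
  apply redUnits_eq_one_of_mem_normGroupP p k hp2
  have h := eq_pUnit_zpow_mul_unitPart p x
  have key : ∀ a b y : ℚ_[p]ˣ, y = a * b → b = a⁻¹ * y := by
    intro a b y h
    rw [h, inv_mul_cancel_left]
  rw [key _ _ _ h]
  exact (normGroupP p k).mul_mem
    ((normGroupP p k).inv_mem ((normGroupP p k).zpow_mem (pUnit_mem_normGroupP p k hp2) _)) hx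

theorem psiP_norm (hp2 : p ≠ 2) (y : (Ep p k)ˣ) :
    psiP p k (Units.map (Algebra.norm ℚ_[p] : Ep p k →* ℚ_[p]) y) = 1 :=
  psiP_eq_one_of_mem_normGroupP p k hp2 _ ⟨y, rfl⟩

end Fermat.Agent.GC.Global.WRec
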