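/-
GATE-C / C4 (GH-w) WeightedReciprocity, helper55.

**The explicit reciprocity functional** of the layer `ℚ(ζ_{p^(k+1)})` on the `T`-idele model of
helper14:  `Theta p k L T hpT V : J(L,T) → (ℤ/p^(k+1))ˣ`,  `Θ_V := Θ_ℚ ∘ N_{K/ℚ}` (`K = L^V`), where
`Θ_ℚ = thetaQ` is the explicit idelic Artin map of `ℚ(ζ_{p^(k+1)})/ℚ` on `J(L,T)^G = ∏_{q ∈ T} ℚ_qˣ`.
* `Theta_add`          : additive on `J(L,T)^V`;
* `Theta_relNormSub`   : (S2) norm functoriality `Θ_V ∘ N_{V/V'} = Θ_{V'}`;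
* `Theta_diag_sq`      : (CL2a) `Θ_V(diag x)^2 = 1` for `x` a `T`-unit of `K = L^V`
  (the reciprocity law, ELEMENTARY: explicit product formula; the square is the real place).
-/
import Mathlib
import Fermat.Agent.GC.Global.Adapter.InvJ
import Fermat.Agent.GC.Global.WRec.ExplicitSymbol
import Fermat.Agent.GC.Global.WRec.RelNorm

set_option autoImplicit false
set_option linter.unusedSectionVars false

open scoped Padic
open IntermediateField

noncomputable section

namespace Fermat.Agent.GC.Global.WRec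

open Fermat.Agent.GC.Global Fermat.Agent.GC.Global.Adapter

section Descend

open scoped Classical

variable (q : ℕ) [Fact q.Prime] (E : IntermediateField ℚ_[q] (PadicAlgCl q))

/-- `ℚ_qˣ → Eˣ`. -/
def baseUnits : ℚ_[q]ˣ →* Eˣ := Units.map ((algebraMap ℚ_[q] E : ℚ_[q] →+* E) : ℚ_[q] →* E)

@[simp] theorem coe_baseUnits (a : ℚ_[q]ˣ) :
    ((baseUnits q E a : Eˣ) : E) = algebraMap ℚ_[q] E (a : ℚ_[q]) := rfl

theorem baseUnits_injective : Function.Injective (baseUnits q E) := by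
  intro a b h
  apply Units.ext
  have := congrArg (fun u : Eˣ => (u : E)) h
  exact (algebraMap ℚ_[q] E).injective this

/-- Descent of a Galois-fixed unit of `E` to `ℚ_q` (junk value `1` on non-fixed units). -/
def descend (x : Eˣ) : ℚ_[q]ˣ :=
  if h : ∃ a, baseUnits q E a = x then h.choose else 1

theorem descend_baseUnits (a : ℚ_[q]ˣ) : descend q E (baseUnits q E a) = a := by
  have h : ∃ b, baseUnits q E b = baseUnits q E a := ⟨a, rfl⟩
  rw [descend, dif_pos h]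
  exact baseUnits_injective q E h.choose_spec

variable [FiniteDimensional ℚ_[q] E] [IsGalois ℚ_[q] E]

theorem exists_baseUnits_eq_of_fixed (x : Eˣ) (hx : ∀ σ : E ≃ₐ[ℚ_[q]] E, σ (x : E) = x) :
    ∃ a, baseUnits q E a = x := by
  have h1 : (x : E) ∈ (⊥ : IntermediateField ℚ_[q] E) := (IsGalois.mem_bot_iff_fixed (x : E)).2 hx
  rw [IntermediateField.mem_bot] at h1
  obtain ⟨a, ha⟩ := h1
  have ha0 : a ≠ 0 := by
    rintro rfl
    rw [map_zero] at ha
    exact x.ne_zero ha.symm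
  exact ⟨Units.mk0 a ha0, Units.ext ha⟩

theorem baseUnits_descend (x : Eˣ) (hx : ∀ σ : E ≃ₐ[ℚ_[q]] E, σ (x : E) = x) :
    baseUnits q E (descend q E x) = x := by
  have h := exists_baseUnits_eq_of_fixed q E x hx
  rw [descend, dif_pos h]
  exact h.choose_spec

theorem descend_mul (x y : Eˣ) (hx : ∀ σ : E ≃ₐ[ℚ_[q]] E, σ (x : E) = x)
    (hy : ∀ σ : E ≃ₐ[ℚ_[q]] E, σ (y : E) = y) :
    descend q E (x * y) = descend q E x * descend q E y := by
  apply baseUnits_injective q E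
  rw [map_mul, baseUnits_descend q E x hx, baseUnits_descend q E y hy, baseUnits_descend]
  intro σ
  rw [Units.val_mul, map_mul, hx σ, hy σ]

theorem descend_one : descend q E 1 = 1 := by
  have := descend_baseUnits q E 1
  rwa [map_one] at this

end Descend


section TUnits

theorem padicValRat_Tprod (T : Finset Nat.Primes) (q : Nat.Primes) (hq : q ∉ T) :
    padicValRat q ((Tprod T : ℕ) : ℚ) = 0 := by
  rw [padicValRat.of_nat, Nat.cast_eq_zero]
  apply padicValNat.eq_zero_of_not_dvd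
  intro hdvd
  rw [Tprod, Prime.dvd_finsetProd_iff (Nat.Prime.prime q.2)] at hdvd
  obtain ⟨t, ht, hqt⟩ := hdvd
  have : (q : ℕ) = t := (Nat.prime_dvd_prime_iff_eq q.2 t.2).mp hqt
  exact hq (by rwa [Subtype.ext this])

theorem Tprod_ne_zero (T : Finset Nat.Primes) : Tprod T ≠ 0 := by
  rw [Tprod]
  exact Finset.prod_ne_zero_iff.mpr fun t _ => t.2.ne_zero

theorem padicValRat_nonneg_of_isIntegral (T : Finset Nat.Primes) (a : ℚ) (ha : a ≠ 0) (n : ℕ)
    (h : IsIntegral ℤ (((Tprod T : ℕ) : ℚ) ^ n * a)) (q : Nat.Primes) (hq : q ∉ T) :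
    0 ≤ padicValRat q a := by
  obtain ⟨z, hz⟩ := IsIntegrallyClosed.isIntegral_iff.mp h
  have hm : ((Tprod T : ℕ) : ℚ) ≠ 0 := by exact_mod_cast Tprod_ne_zero T
  have h1 : padicValRat q (((Tprod T : ℕ) : ℚ) ^ n * a) = padicValRat q a := by
    rw [padicValRat.mul (pow_ne_zero _ hm) ha, padicValRat.pow, padicValRat_Tprod T q hq]
    simp
  rw [← h1, ← hz]
  have : (algebraMap ℤ ℚ z) = (z : ℚ) := rfl
  rw [this, padicValRat.of_int]
  exact_mod_cast Nat.zero_le _

variable (L : IntermediateField ℚ Qb) [Normal ℚ L] (T : Finset Nat.Primes)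

/-- A rational number which is a `T`-unit of `L` has valuation `0` outside `T`. -/
theorem padicValRat_eq_zero_of_mem_tUnits (a : ℚˣ) (x : Lˣ) (hx : x ∈ tUnits L T)
    (hax : (x : L) = algebraMap ℚ L (a : ℚ)) (q : Nat.Primes) (hq : q ∉ T) :
    padicValRat q (a : ℚ) = 0 := by
  obtain ⟨⟨n, hn⟩, ⟨m, hm⟩⟩ := hx
  have h1 : IsIntegral ℤ (((Tprod T : ℕ) : ℚ) ^ n * (a : ℚ)) := by
    have : ((Tprod T : ℕ) : L) ^ n * (x : L) = algebraMap ℚ L (((Tprod T : ℕ) : ℚ) ^ n * (a : ℚ)) := by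
      rw [hax, map_mul, map_pow, map_natCast]
    rw [this] at hn
    exact (isIntegral_algebraMap_iff (algebraMap ℚ L).injective).mp hn
  have h2 : IsIntegral ℤ (((Tprod T : ℕ) : ℚ) ^ m * ((a : ℚ))⁻¹) := by
    have : ((Tprod T : ℕ) : L) ^ m * ((x⁻¹ : Lˣ) : L)
        = algebraMap ℚ L (((Tprod T : ℕ) : ℚ) ^ m * ((a : ℚ))⁻¹) := by
      rw [Units.val_inv_eq_inv_val, hax, map_mul, map_pow, map_natCast, map_inv₀]
    rw [this] at hm
    exact (isIntegral_algebraMap_iff (algebraMap ℚ L).injective).mp hm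
  have h3 := padicValRat_nonneg_of_isIntegral T (a : ℚ) a.ne_zero n h1 q hq
  have h4 := padicValRat_nonneg_of_isIntegral T ((a : ℚ))⁻¹ (inv_ne_zero a.ne_zero) m h2 q hq
  rw [padicValRat.inv] at h4
  omega


end TUnits

section Theta

open scoped Classical

variable (p : ℕ) [hp : Fact p.Prime] (k : ℕ)
variable (L : IntermediateField ℚ Qb) [FiniteDimensional ℚ L] [IsGalois ℚ L]
  (T : Finset Nat.Primes)

/-- Evaluation of a `T`-idele at the identity, descended to `∏_{q ∈ T} ℚ_qˣ`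
(meaningful on `G`-invariant ideles: this is the identification `J(L,T)^G = J(ℚ,T)`). -/
def evalTop (y : J L T) (q : T) : ℚ_[((q : Nat.Primes) : ℕ)]ˣ :=
  descend ((q : Nat.Primes) : ℕ) (locField ((q : Nat.Primes) : ℕ) L)
    (JqCarrier.val L q (y q) 1)

/-- The component at `p` of an element of `∏_{q ∈ T} ℚ_qˣ`. -/
def atP (hpT : pp p ∈ T) : (∀ q : T, ℚ_[((q : Nat.Primes) : ℕ)]ˣ) →* ℚ_[p]ˣ :=
  Pi.evalMonoidHom (fun q : T => ℚ_[((q : Nat.Primes) : ℕ)]ˣ) ⟨pp p, hpT⟩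

/-- The explicit idelic Artin map of `ℚ(ζ_{p^(k+1)})/ℚ` on `J(ℚ,T) = ∏_{q ∈ T} ℚ_qˣ`. -/
def thetaQ (hpT : pp p ∈ T) : (∀ q : T, ℚ_[((q : Nat.Primes) : ℕ)]ˣ) →* (ZMod (p ^ (k + 1)))ˣ :=
  (∏ q : T, (psiQ p k q).comp (Pi.evalMonoidHom (fun q : T => ℚ_[((q : Nat.Primes) : ℕ)]ˣ) q)) *
    (psiP p k).comp (atP p T hpT)

theorem thetaQ_apply (hpT : pp p ∈ T) (a : ∀ q : T, ℚ_[((q : Nat.Primes) : ℕ)]ˣ) :
    thetaQ p k T hpT a = (∏ q : T, psiQ p k q (a q)) * psiP p k (atP p T hpT a) := by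
  simp [thetaQ, MonoidHom.mul_apply]

/-- **The explicit reciprocity functional** `Θ_V = Θ_ℚ ∘ N_{K/ℚ}` on `J(L,T)` (meaningful on the
`V`-invariant ideles `J(L,T)^V = J(K,T)`, `K = L^V`). -/
def Theta (hpT : pp p ∈ T) (V : Subgroup (L ≃ₐ[ℚ] L)) (y : J L T) : (ZMod (p ^ (k + 1)))ˣ :=
  thetaQ p k T hpT (evalTop L T (relNorm (J L T).ρ V y))


variable {L T}

theorem isInv_iff_mem_JInv {V : Subgroup (L ≃ₐ[ℚ] L)} {y : J L T} :
    IsInv (J L T).ρ V y ↔ y ∈ JInv L V T := (mem_JInv_iff_rho L V T).symm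

/-- the value at `1` of a `G`-invariant idele is fixed by the local Galois group -/
theorem fixed_val_one {y : J L T} (hy : y ∈ JInv L ⊤ T) (q : T)
    (σ : locField ((q : Nat.Primes) : ℕ) L ≃ₐ[ℚ_[((q : Nat.Primes) : ℕ)]]
      locField ((q : Nat.Primes) : ℕ) L) :
    σ ((JqCarrier.val L q (y q) 1 : (locField ((q : Nat.Primes) : ℕ) L)ˣ) :
      locField ((q : Nat.Primes) : ℕ) L) = (JqCarrier.val L q (y q) 1 : (locField _ L)ˣ) := by
  have h1 := JqCarrier.val_decHom L q (y q) σ 1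
  have h2 : decHom ((q : Nat.Primes) : ℕ) L σ * 1 = 1 * decHom ((q : Nat.Primes) : ℕ) L σ := by
    rw [mul_one, one_mul]
  rw [h2, JqCarrier.val_mul_of_mem L q ⊤ (hy q) 1 _ (Subgroup.mem_top _)] at h1
  exact h1.symm

theorem baseUnits_evalTop {y : J L T} (hy : y ∈ JInv L ⊤ T) (q : T) :
    baseUnits ((q : Nat.Primes) : ℕ) (locField ((q : Nat.Primes) : ℕ) L) (evalTop L T y q)
      = JqCarrier.val L q (y q) 1 :=
  baseUnits_descend _ _ _ (fixed_val_one hy q)

theorem evalTop_add {y y' : J L T} (hy : y ∈ JInv L ⊤ T) (hy' : y' ∈ JInv L ⊤ T) :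
    evalTop L T (y + y') = evalTop L T y * evalTop L T y' := by
  funext q
  rw [Pi.mul_apply]
  unfold evalTop
  rw [← descend_mul _ _ _ _ (fixed_val_one hy q) (fixed_val_one hy' q)]
  rfl

variable (L T)

theorem Theta_add (hpT : pp p ∈ T) (V : Subgroup (L ≃ₐ[ℚ] L)) {y y' : J L T}
    (hy : y ∈ JInv L V T) (hy' : y' ∈ JInv L V T) :
    Theta p k L T hpT V (y + y') = Theta p k L T hpT V y * Theta p k L T hpT V y' := by
  unfold Theta
  rw [map_add, evalTop_add, map_mul]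
  · exact isInv_iff_mem_JInv.1 (isInv_relNorm (isInv_iff_mem_JInv.2 hy))
  · exact isInv_iff_mem_JInv.1 (isInv_relNorm (isInv_iff_mem_JInv.2 hy'))

/-- **(S2) norm functoriality**: `Θ_V ∘ N_{V/V'} = Θ_{V'}` on `J(L,T)^{V'}`. -/
theorem Theta_relNormSub (hpT : pp p ∈ T) {V V' : Subgroup (L ≃ₐ[ℚ] L)} (hle : V' ≤ V)
    {z : J L T} (hz : z ∈ JInv L V' T) :
    Theta p k L T hpT V (relNormSub (J L T).ρ V V' z) = Theta p k L T hpT V' z := by
  unfold Theta
  rw [relNorm_relNormSub hle (isInv_iff_mem_JInv.2 hz)]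


/-! ### `Θ_V` kills the `T`-units (up to sign) -/

theorem psiQ_pp (x : ℚ_[((pp p : Nat.Primes) : ℕ)]ˣ) : psiQ p k (pp p) x = 1 := by
  rw [psiQ_apply]
  have : resUnit p k (pp p) = 1 := by
    unfold resUnit
    exact dif_pos rfl
  rw [this, one_zpow]

theorem diag_rho (g : L ≃ₐ[ℚ] L) (x : Additive Lˣ) :
    (diag L T).hom ((globUnits L).ρ g x) = (J L T).ρ g ((diag L T).hom x) :=
  congrArg (fun f => f x) ((diag L T).hom.isIntertwining' g)

theorem relNorm_diag (V : Subgroup (L ≃ₐ[ℚ] L)) (x : Additive Lˣ) :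
    relNorm (J L T).ρ V ((diag L T).hom x) = (diag L T).hom (relNorm (globUnits L).ρ V x) := by
  have h2 : relNorm (globUnits L).ρ V x
      = ∑ c : (L ≃ₐ[ℚ] L) ⧸ V, (globUnits L).ρ c.out x := relNorm_apply _ _ _
  rw [relNorm_apply, h2, map_sum]
  exact Finset.sum_congr rfl fun c _ => (diag_rho L T _ x).symm

theorem evalTop_diag_rat (a : ℚˣ) (x : Additive Lˣ)
    (hx : ((Additive.toMul x : Lˣ) : L) = algebraMap ℚ L (a : ℚ)) (q : T) :
    evalTop L T ((diag L T).hom x) q = ratToPadicUnits ((q : Nat.Primes) : ℕ) a := by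
  unfold evalTop
  have : JqCarrier.val L q ((diag L T).hom x q) 1
      = baseUnits ((q : Nat.Primes) : ℕ) (locField ((q : Nat.Primes) : ℕ) L)
          (ratToPadicUnits ((q : Nat.Primes) : ℕ) a) := by
    apply Units.ext
    rw [diag_apply, JqCarrier.val_diagqLin, AlgEquiv.one_apply, hx, coe_baseUnits,
      coe_ratToPadicUnits, AlgHom.commutes,
      IsScalarTower.algebraMap_apply ℚ ℚ_[((q : Nat.Primes) : ℕ)]
        (locField ((q : Nat.Primes) : ℕ) L)]
    rfl
  rw [this, descend_baseUnits]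

/-- **(CL2a)** `Θ_V` kills the diagonal `T`-units of `K = L^V`, up to the sign at the real place:
`Θ_V(diag x) ^ 2 = 1`. ELEMENTARY (explicit product formula). -/
theorem Theta_diag_sq (hpT : pp p ∈ T) (V : Subgroup (L ≃ₐ[ℚ] L)) (x : Additive Lˣ)
    (hxV : ∀ h ∈ V, h ((Additive.toMul x : Lˣ) : L) = ((Additive.toMul x : Lˣ) : L))
    (hxT : Additive.toMul x ∈ tUnits L T) :
    Theta p k L T hpT V ((diag L T).hom x) ^ 2 = 1 := by
  have hxinv : IsInv (globUnits L).ρ V x := by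
    intro h hh
    apply Additive.toMul.injective
    apply Units.ext
    exact hxV h hh
  set w : Additive Lˣ := relNorm (globUnits L).ρ V x with hw
  have hwinv : ∀ g : L ≃ₐ[ℚ] L, (globUnits L).ρ g w = w := fun g => rho_relNorm hxinv g
  have hwT : w ∈ tUnitsSub L T := by
    have h2 : relNorm (globUnits L).ρ V x
        = ∑ c : (L ≃ₐ[ℚ] L) ⧸ V, (globUnits L).ρ c.out x := relNorm_apply _ _ _
    rw [hw, h2]
    refine Submodule.sum_mem (tUnitsSub L T) (fun c _ => ?_)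
    exact map_mem_tUnits L T hxT c.out
  -- `w` is rational
  have hfix : ∀ g : L ≃ₐ[ℚ] L, g ((Additive.toMul w : Lˣ) : L) = ((Additive.toMul w : Lˣ) : L) := by
    intro g
    have := congrArg (fun u : Additive Lˣ => ((Additive.toMul u : Lˣ) : L)) (hwinv g)
    exact this
  have h1 : ((Additive.toMul w : Lˣ) : L) ∈ (⊥ : IntermediateField ℚ L) :=
    (IsGalois.mem_bot_iff_fixed _).2 hfix
  rw [IntermediateField.mem_bot] at h1
  obtain ⟨a, ha⟩ := h1
  have ha0 : a ≠ 0 := by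
    rintro rfl
    rw [map_zero] at ha
    exact (Additive.toMul w : Lˣ).ne_zero ha.symm
  have hsupp : ∀ q : Nat.Primes, q ∉ T → padicValRat q ((Units.mk0 a ha0 : ℚˣ) : ℚ) = 0 :=
    fun q hq => padicValRat_eq_zero_of_mem_tUnits L T (Units.mk0 a ha0) (Additive.toMul w) hwT
      ha.symm q hq
  have hform := explicit_product_formula p k (Units.mk0 a ha0) T hsupp
  unfold Theta
  rw [relNorm_diag, ← hw]
  have hev : evalTop L T ((diag L T).hom w)
      = fun q : T => ratToPadicUnits ((q : Nat.Primes) : ℕ) (Units.mk0 a ha0) := by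
    funext q
    exact evalTop_diag_rat L T (Units.mk0 a ha0) w ha.symm q
  rw [hev, thetaQ_apply]
  rw [← hform]
  congr 2
  rw [Finset.prod_coe_sort T (fun q => psiQ p k q (ratToPadicUnits (q : ℕ) (Units.mk0 a ha0)))]
  symm
  apply Finset.prod_subset (Finset.filter_subset _ T)
  intro q hqT hq
  rw [Finset.mem_filter, not_and, not_not] at hq
  rw [hq hqT]
  exact psiQ_pp p k _

end Theta

end Fermat.Agent.GC.Global.WRec
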