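/-
GATE-C / C4 (GH-w) WeightedReciprocity, helper55.

**(CL2b)**: the explicit reciprocity functional `Θ_V` kills the norms from the cyclotomic layer.
* `prod_eq_prod_quotient_prod`, `exists_prod_val_eq_norm` : TOP-LAYER NORM FORMULA: for any layer
  `L` and `f ∈ Jq(L)`, `∏_{g ∈ G_L} f(g)` is a local norm from `L_q` (orbit decomposition);
* `UnramNormHyp p k` = hypothesis (N3): `psiQ` kills the norms from `ℚ_q(ζ_{p^(k+1)})`, `q ≠ p`;
* `Theta_cycLayer_bot` : `Θ` is trivial on `J(M_k,T)`, `M_k = ℚ(ζ_{p^(k+1)})` (uses `psiP_norm`,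
  unconditional at `p`);
* `relNorm_ker_inflJ`, `evalTop_inflJ` : compatibility with helper80's inflation `J(L,T) → J(L',T)`;
* `Theta_eq_one_of_le_ker` : for `L' ⊇ M_k` and `V' ≤ Gal(L'/M_k)`: `Θ_{V'} = 1` on `J(L',T)^{V'}`;
* `Theta_relNormSub_inf_ker` : **(CL2b)** `Θ_V (N_{V/V_k} z) = 1`, `V_k = V ⊓ Gal(L'/M_k)`.
-/
import Mathlib
import Fermat.Agent.GC.Global.WRec.Theta
import Fermat.Agent.GC.Global.Funct.ModelFunct

set_option autoImplicit false
set_option linter.unusedSectionVars false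

open scoped Padic
open IntermediateField

noncomputable section

namespace Fermat.Agent.GC.Global.WRec

open Fermat.Agent.GC.Global Fermat.Agent.GC.Global.Adapter

section TopNorm

open scoped Classical

/-- Abstract orbit decomposition: `G` a finite group, `φ : D →* G` injective, `F : G → X` into a
commutative monoid. Then `∏_{g ∈ G} F g = ∏_{t ∈ G/φ(D)} ∏_{d ∈ D} F (φ d * t.out⁻¹)`. -/
theorem prod_eq_prod_quotient_prod {G D X : Type*} [Group G] [Fintype G] [Group D] [Fintype D]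
    [CommMonoid X] (φ : D →* G) (hφ : Function.Injective φ) (F : G → X) :
    ∏ g : G, F g = ∏ t : G ⧸ φ.range, ∏ d : D, F (φ d * (t.out)⁻¹) := by
  rw [← Fintype.prod_prod_type']
  symm
  refine Fintype.prod_bijective (fun x : (G ⧸ φ.range) × D => φ x.2 * (x.1.out)⁻¹) ?_ _ _
    (fun _ => rfl)
  constructor
  · rintro ⟨t, d⟩ ⟨t', d'⟩ h
    simp only at h
    have h1 : (t.out)⁻¹ * t'.out = φ (d⁻¹ * d') := by
      have : t'.out = (φ d * (t.out)⁻¹)⁻¹ * φ d' := by rw [h]; group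
      rw [this, map_mul, map_inv]; group
    have h2 : t = t' := by
      rw [← QuotientGroup.out_eq' t, ← QuotientGroup.out_eq' t']
      exact QuotientGroup.eq.mpr (h1 ▸ ⟨d⁻¹ * d', rfl⟩)
    subst h2
    have h3 : φ d = φ d' := mul_right_cancel h
    rw [hφ h3]
  · intro g
    obtain ⟨d, hd⟩ : (QuotientGroup.mk (g⁻¹) : G ⧸ φ.range).out⁻¹ * g⁻¹ ∈ φ.range := by
      have := QuotientGroup.out_eq' (QuotientGroup.mk (g⁻¹) : G ⧸ φ.range)
      exact QuotientGroup.eq.mp this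
    refine ⟨(QuotientGroup.mk g⁻¹, d⁻¹), ?_⟩
    simp only
    rw [map_inv, hd]
    group

variable (L : IntermediateField ℚ Qb) [FiniteDimensional ℚ L] [IsGalois ℚ L] (q : Nat.Primes)

/-- **Top-layer norm formula**: the product over `G_L` of the values of an element of `Jq(L)`
is a local norm from `L_q`. -/
theorem exists_prod_val_eq_norm (f : JqCarrier L q) :
    ∃ w : (locField (q : ℕ) L)ˣ, ∏ g : L ≃ₐ[ℚ] L, JqCarrier.val L q f g
      = baseUnits (q : ℕ) (locField (q : ℕ) L)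
          (Units.map (Algebra.norm ℚ_[(q : ℕ)] : locField (q : ℕ) L →* ℚ_[(q : ℕ)]) w) := by
  refine ⟨∏ t : (L ≃ₐ[ℚ] L) ⧸ (decHom (q : ℕ) L).range, JqCarrier.val L q f (t.out)⁻¹, ?_⟩
  rw [prod_eq_prod_quotient_prod (decHom (q : ℕ) L) (decHom_injective (q : ℕ) L)
    (fun g => JqCarrier.val L q f g), map_prod, map_prod]
  refine Finset.prod_congr rfl fun t _ => ?_
  apply Units.ext
  rw [coe_baseUnits, Units.coe_map, Algebra.norm_eq_prod_automorphisms,
    Units.coe_prod]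
  refine Finset.prod_congr rfl fun d _ => ?_
  exact JqCarrier.val_decHom L q f d _


/-- the relative norm for the trivial subgroup is the full norm -/
theorem relNorm_bot {k G M : Type*} [CommRing k] [Group G] [Fintype G] [AddCommGroup M]
    [Module k M] (ρ : Representation k G M) [Fintype (G ⧸ (⊥ : Subgroup G))] (y : M) :
    relNorm ρ ⊥ y = ∑ g : G, ρ g y := by
  rw [relNorm_apply]
  refine Fintype.sum_bijective (fun c : G ⧸ (⊥ : Subgroup G) => c.out) ⟨Quotient.out_injective, ?_⟩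
    _ _ (fun _ => rfl)
  intro g
  refine ⟨QuotientGroup.mk g, ?_⟩
  have h := QuotientGroup.eq.mp (QuotientGroup.out_eq' (QuotientGroup.mk g : G ⧸ (⊥ : Subgroup G)))
  rw [Subgroup.mem_bot] at h
  exact (inv_mul_eq_one.mp h)

/-- evaluation at `g` as an additive map on `Jq`. -/
def valAddHom (g : L ≃ₐ[ℚ] L) : JqCarrier L q →+ Additive (locField (q : ℕ) L)ˣ where
  toFun f := f.1 g
  map_zero' := rfl
  map_add' _ _ := rfl

theorem val_sum {ι : Type*} (s : Finset ι) (F : ι → JqCarrier L q) (g : L ≃ₐ[ℚ] L) :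
    JqCarrier.val L q (∑ i ∈ s, F i) g = ∏ i ∈ s, JqCarrier.val L q (F i) g := by
  have h := map_sum (valAddHom L q g) F s
  have h2 := congrArg (Additive.toMul (α := (locField (q : ℕ) L)ˣ)) h
  rw [toMul_sum] at h2
  exact h2

end TopNorm

section Cyc

open scoped Classical

variable (p : ℕ) [hp : Fact p.Prime] (k : ℕ) (T : Finset Nat.Primes)

theorem psiQ_eq_one_of_eq (q : Nat.Primes) (hq : (q : ℕ) = p) (x : ℚ_[(q : ℕ)]ˣ) :
    psiQ p k q x = 1 := by
  rw [psiQ_apply]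
  have : resUnit p k q = 1 := by
    unfold resUnit
    exact dif_pos hq
  rw [this, one_zpow]

/-- The hypothesis **(N3)**: the explicit unramified symbols `psiQ` (`q ≠ p`) kill the norms
from `ℚ_q(ζ_{p^(k+1)})`. (`ℚ_q(ζ)/ℚ_q` is unramified of degree `ord(q mod p^(k+1))`.) -/
def UnramNormHyp : Prop :=
  ∀ q : Nat.Primes, (q : ℕ) ≠ p → ∀ w : (locField (q : ℕ) (cycLayer p k))ˣ,
    psiQ p k q (Units.map (Algebra.norm ℚ_[(q : ℕ)] :
      locField (q : ℕ) (cycLayer p k) →* ℚ_[(q : ℕ)]) w) = 1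

/-- **Top layer**: `Θ` is trivial on all of `J(M_k, T)`, `M_k = ℚ(ζ_{p^(k+1)})`: every norm from
`J(M_k,T)` is killed by the explicit idelic Artin map. -/
theorem Theta_cycLayer_bot (hp2 : p ≠ 2) (hN3 : UnramNormHyp p k) (hpT : pp p ∈ T)
    (z : J (cycLayer p k) T) :
    Theta p k (cycLayer p k) T hpT ⊥ z = 1 := by
  unfold Theta
  rw [relNorm_bot]
  -- the components of the full norm are local norms
  have hev : ∀ q : T, ∃ w : (locField ((q : Nat.Primes) : ℕ) (cycLayer p k))ˣ,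
      evalTop (cycLayer p k) T (∑ g : cycLayer p k ≃ₐ[ℚ] cycLayer p k,
        (J (cycLayer p k) T).ρ g z) q
        = Units.map (Algebra.norm ℚ_[((q : Nat.Primes) : ℕ)] :
            locField ((q : Nat.Primes) : ℕ) (cycLayer p k) →* ℚ_[((q : Nat.Primes) : ℕ)]) w := by
    intro q
    obtain ⟨w, hw⟩ := exists_prod_val_eq_norm (cycLayer p k) q (z q)
    refine ⟨w, ?_⟩
    unfold evalTop
    have h1 : (∑ g : cycLayer p k ≃ₐ[ℚ] cycLayer p k, (J (cycLayer p k) T).ρ g z) q
        = ∑ g : cycLayer p k ≃ₐ[ℚ] cycLayer p k, JqRep (cycLayer p k) q g (z q) := by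
      exact map_sum (LinearMap.proj (R := ℤ)
        (φ := fun q : T => JqCarrier (cycLayer p k) (q : Nat.Primes)) q) _ _
    rw [h1, val_sum]
    have h2 : ∀ g : cycLayer p k ≃ₐ[ℚ] cycLayer p k,
        JqCarrier.val (cycLayer p k) q (JqRep (cycLayer p k) q g (z q)) 1
          = JqCarrier.val (cycLayer p k) q (z q) g := by
      intro g
      have := Funct.val_JqRep (M := cycLayer p k) (q := (q : Nat.Primes)) g 1 (z q)
      rw [this, one_mul]
    rw [Finset.prod_congr rfl (fun g _ => h2 g), hw, descend_baseUnits]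
  choose w hw using hev
  rw [thetaQ_apply]
  have hQ : ∀ q : T, psiQ p k q (evalTop (cycLayer p k) T (∑ g : cycLayer p k ≃ₐ[ℚ] cycLayer p k,
        (J (cycLayer p k) T).ρ g z) q) = 1 := by
    intro q
    by_cases hq : ((q : Nat.Primes) : ℕ) = p
    · exact psiQ_eq_one_of_eq p k q hq _
    · rw [hw q]
      exact hN3 q hq (w q)
  rw [Finset.prod_congr rfl (fun q _ => hQ q), Finset.prod_const_one, one_mul]
  have hP := hw ⟨pp p, hpT⟩
  show psiP p k (evalTop (cycLayer p k) T _ ⟨pp p, hpT⟩) = 1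
  rw [hP]
  exact psiP_norm p k hp2 (w ⟨pp p, hpT⟩)

end Cyc

section Transfer

open scoped Classical

variable {L L' : IntermediateField ℚ Qb} [FiniteDimensional ℚ L] [IsGalois ℚ L]
  [FiniteDimensional ℚ L'] [IsGalois ℚ L'] (h : L ≤ L') (T : Finset Nat.Primes)

/-- `N_{G'/A} ∘ infl = infl ∘ N_G` for `A = ker (G_{L'} → G_L)`. -/
theorem relNorm_ker_inflJ (z : J L T) :
    relNorm (J L' T).ρ (Funct.gRes h).ker (Funct.inflJ h T z)
      = Funct.inflJ h T (∑ g : L ≃ₐ[ℚ] L, (J L T).ρ g z) := by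
  rw [relNorm_apply, map_sum]
  have h1 : ∀ c : (L' ≃ₐ[ℚ] L') ⧸ (Funct.gRes h).ker,
      (J L' T).ρ c.out (Funct.inflJ h T z)
        = Funct.inflJ h T ((J L T).ρ (Funct.gRes h c.out) z) :=
    fun c => (Funct.inflJ_rho h T c.out z).symm
  simp_rw [h1]
  refine Fintype.sum_bijective (fun c : (L' ≃ₐ[ℚ] L') ⧸ (Funct.gRes h).ker =>
    Funct.gRes h c.out) ⟨?_, ?_⟩ _ _ (fun _ => rfl)
  · intro c c' hcc
    simp only at hcc
    rw [← QuotientGroup.out_eq' c, ← QuotientGroup.out_eq' c']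
    apply QuotientGroup.eq.mpr
    rw [MonoidHom.mem_ker, map_mul, map_inv, hcc, inv_mul_cancel]
  · intro g
    obtain ⟨g', rfl⟩ := Funct.GalRes.res_surjective (Funct.gIncl h) g
    refine ⟨QuotientGroup.mk g', ?_⟩
    simp only
    have h2 := QuotientGroup.eq.mp
      (QuotientGroup.out_eq' (QuotientGroup.mk g' : (L' ≃ₐ[ℚ] L') ⧸ (Funct.gRes h).ker))
    rw [MonoidHom.mem_ker, map_mul, map_inv, inv_mul_eq_one] at h2
    exact h2

theorem lInclU_baseUnits (q : Nat.Primes) (a : ℚ_[(q : ℕ)]ˣ) :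
    Funct.lInclU h q (baseUnits (q : ℕ) (locField (q : ℕ) L) a)
      = baseUnits (q : ℕ) (locField (q : ℕ) L') a := by
  apply Units.ext
  exact (Funct.lIncl (q : ℕ) h).commutes (a : ℚ_[(q : ℕ)])

/-- on `G_L`-invariant ideles, `evalTop` commutes with inflation. -/
theorem evalTop_inflJ {w : J L T} (hw : w ∈ JInv L ⊤ T) :
    evalTop L' T (Funct.inflJ h T w) = evalTop L T w := by
  funext q
  have hb := baseUnits_evalTop hw q
  have h1 : JqCarrier.val L' q ((Funct.inflJ h T w) q) 1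
      = baseUnits ((q : Nat.Primes) : ℕ) (locField ((q : Nat.Primes) : ℕ) L') (evalTop L T w q) := by
    have h2 : JqCarrier.val L' q ((Funct.inflJ h T w) q) 1
        = Funct.lInclU h q (JqCarrier.val L q (w q) (Funct.gRes h 1)) := rfl
    rw [h2, map_one, ← hb, lInclU_baseUnits]
  show descend _ _ (JqCarrier.val L' q ((Funct.inflJ h T w) q) 1) = _
  rw [h1, descend_baseUnits]

end Transfer

section Main

open scoped Classical

variable (p : ℕ) [hp : Fact p.Prime] (k : ℕ) (T : Finset Nat.Primes)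
  {L' : IntermediateField ℚ Qb} [FiniteDimensional ℚ L'] [IsGalois ℚ L']

/-- **(CL2b), general form.** Let `L' ⊇ M_k = ℚ(ζ_{p^(k+1)})` and `V' ≤ Gal(L'/M_k)` (i.e. the
field `L'^{V'}` contains `M_k`). Then `Θ_{V'}` is trivial on `J(L',T)^{V'}`. -/
theorem Theta_eq_one_of_le_ker (hp2 : p ≠ 2) (hN3 : UnramNormHyp p k) (hpT : pp p ∈ T)
    (h : cycLayer p k ≤ L') {V' : Subgroup (L' ≃ₐ[ℚ] L')} (hV' : V' ≤ (Funct.gRes h).ker)
    {z : J L' T} (hz : z ∈ JInv L' V' T) :
    Theta p k L' T hpT V' z = 1 := by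
  rw [← Theta_relNormSub p k L' T hpT hV' hz]
  have hz1 : relNormSub (J L' T).ρ (Funct.gRes h).ker V' z ∈ JInv L' (Funct.gRes h).ker T :=
    isInv_iff_mem_JInv.1 (isInv_relNormSub (isInv_iff_mem_JInv.2 hz))
  obtain ⟨z₀, hz₀⟩ := Funct.exists_inflJ_eq h T hz1
  have key : Theta p k L' T hpT (Funct.gRes h).ker (Funct.inflJ h T z₀) = 1 := by
    unfold Theta
    rw [relNorm_ker_inflJ, evalTop_inflJ]
    · have := Theta_cycLayer_bot p k T hp2 hN3 hpT z₀
      unfold Theta at this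
      rwa [relNorm_bot] at this
    · have h0 : IsInv (J (cycLayer p k) T).ρ ⊥ z₀ := by
        intro g hg
        rw [Subgroup.mem_bot.1 hg, map_one]
        rfl
      have := isInv_relNorm h0
      rw [relNorm_bot] at this
      exact isInv_iff_mem_JInv.1 this
  rw [hz₀] at key
  convert key

/-- **(CL2b)** `Θ_V` kills the norms from the cyclotomic layer `K_k = K(ζ_{p^(k+1)})`,
`K = L'^V`, `K_k = L'^{V ⊓ A}`, `A = Gal(L'/M_k)`. -/
theorem Theta_relNormSub_inf_ker (hp2 : p ≠ 2) (hN3 : UnramNormHyp p k) (hpT : pp p ∈ T)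
    (h : cycLayer p k ≤ L') (V : Subgroup (L' ≃ₐ[ℚ] L')) {z : J L' T}
    (hz : z ∈ JInv L' (V ⊓ (Funct.gRes h).ker) T) :
    Theta p k L' T hpT V (relNormSub (J L' T).ρ V (V ⊓ (Funct.gRes h).ker) z) = 1 := by
  rw [Theta_relNormSub p k L' T hpT inf_le_left hz]
  exact Theta_eq_one_of_le_ker p k T hp2 hN3 hpT h inf_le_right hz

end Main

end Fermat.Agent.GC.Global.WRec
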