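/-
GATE-C / C4 (GH-w) WeightedReciprocity, helper55.

**(N3) PROVED**: for `q ≠ p` the explicit unramified symbol `psiQ` kills the norms from
`ℚ_q(ζ_{p^(k+1)})` -- from helper26's `cyclotomic_unram` (unramified of degree `ord(q mod p^(k+1))`)
and `mem_norm_range_iff_of_isUnram`.  Hence (CL2b) is UNCONDITIONAL:
`Theta_eq_one_of_le_ker_uncond`, `Theta_relNormSub_inf_ker_uncond`.
-/
import Mathlib
import Fermat.Agent.GC.Local.Unram.Cyclotomic
import Fermat.Agent.GC.Local.Unram.Main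
import Fermat.Agent.GC.Global.WRec.ThetaCyc

set_option autoImplicit false
set_option linter.unusedSectionVars false

open scoped Padic
open IntermediateField

noncomputable section

namespace Fermat.Agent.GC.Global.WRec

open Fermat.Agent.GC.Global Fermat.Agent.GC.Local Fermat.Agent.GC.Local.Unram

section Base

variable (q : ℕ) [Fact q.Prime]

theorem ramIdx_base : ramIdx q ℚ_[q] = 1 := by
  have h := ramIdx_mul_resDeg q ℚ_[q]
  rw [Module.finrank_self] at h
  exact Nat.eq_one_of_mul_eq_one_right h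

theorem resDeg_base : resDeg q ℚ_[q] = 1 := by
  have h := ramIdx_mul_resDeg q ℚ_[q]
  rw [Module.finrank_self] at h
  exact Nat.eq_one_of_mul_eq_one_left h

theorem resCard_base : resCard q ℚ_[q] = q := by
  rw [resCard_eq, resDeg_base, pow_one]

end Base

section Abstract

variable (q : ℕ) [Fact q.Prime] (L : Type*) [Field L] [Algebra ℚ_[q] L]
  [FiniteDimensional ℚ_[q] L] [IsGalois ℚ_[q] L]

/-- In an unramified Galois extension `L/ℚ_q` (a uniformiser `c` of `ℚ_q` stays a uniformiser),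
the valuation of a norm is divisible by the degree. -/
theorem finrank_dvd_valuation_norm (hram : ramIdx q L = 1) (c : ℚ_[q])
    (hcO : algebraMap ℚ_[q] L c ∈ padicVS q L)
    (hcirr : Irreducible (⟨algebraMap ℚ_[q] L c, hcO⟩ : padicVS q L)) (w : L) (hw : w ≠ 0) :
    (Module.finrank ℚ_[q] L : ℤ) ∣ (Algebra.norm ℚ_[q] w).valuation := by
  have hdvr := padicVS_isDiscreteValuationRing q L
  have hfr := padicVS_finite_residueField q L
  have hac := padicVS_isAdicComplete q L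
  have hO : ∀ (σ : L ≃ₐ[ℚ_[q]] L) (x : L), x ∈ padicVS q L → σ x ∈ padicVS q L :=
    fun σ x hx => padicVS_galStable q L ℚ_[q] σ x hx
  set x : ℚ_[q] := Algebra.norm ℚ_[q] w with hx
  have hx0 : x ≠ 0 := Algebra.norm_ne_zero_iff.mpr hw
  have hc0 : c ≠ 0 := by
    rintro rfl
    exact hcirr.ne_zero (Subtype.ext (map_zero _))
  have hy0 : algebraMap ℚ_[q] L x ≠ 0 := by
    rw [Ne, map_eq_zero]; exact hx0
  obtain ⟨j, v, hv0, hv, hv', e⟩ := exists_zpow_mul_unit (padicVS q L) hcO hcirr hy0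
  set u : ℚ_[q] := x / c ^ j with hu
  have hu0 : u ≠ 0 := div_ne_zero hx0 (zpow_ne_zero _ hc0)
  have huv : algebraMap ℚ_[q] L u = v := by
    have hcL : (algebraMap ℚ_[q] L c) ^ j ≠ 0 :=
      zpow_ne_zero _ (by rw [Ne, map_eq_zero]; exact hc0)
    rw [hu, map_div₀, map_zpow₀, e, mul_comm, mul_div_assoc, div_self hcL, mul_one]
  have hxu : x = c ^ j * u := by
    rw [hu]; field_simp
  have hdvd : (Module.finrank ℚ_[q] L : ℤ) ∣ j :=
    (mem_norm_range_iff_of_isUnram (padicVS q L) hO ⟨c, hcO, hcirr⟩ c hcO hcirr j u hu0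
      (by rw [huv]; exact hv) (by rw [map_inv₀, huv]; exact hv')).mp ⟨w, hxu⟩
  -- the valuation of `x` is `j`
  have hnc : ‖c‖ = (q : ℝ)⁻¹ := by
    have h1 := spectralNorm_irreducible_pow_ramIdx q L hcirr
    rw [hram, pow_one] at h1
    have h2 : spectralNorm ℚ_[q] L (algebraMap ℚ_[q] L c) = ‖c‖ := spectralNorm_extends c
    rw [← h2]; exact h1
  have hnu : ‖u‖ = 1 := by
    have h1 : spectralNorm ℚ_[q] L (algebraMap ℚ_[q] L u) ≤ 1 := by
      rw [huv]; exact (mem_padicVS_iff q L).mp hv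
    have h2 : spectralNorm ℚ_[q] L (algebraMap ℚ_[q] L u⁻¹) ≤ 1 := by
      rw [map_inv₀, huv]; exact (mem_padicVS_iff q L).mp hv'
    rw [spectralNorm_extends] at h1 h2
    rw [norm_inv] at h2
    have hpos : 0 < ‖u‖ := norm_pos_iff.mpr hu0
    have h3 : 1 ≤ ‖u‖ := by
      rw [inv_le_one₀ hpos] at h2; exact h2
    exact le_antisymm h1 h3
  have hval : x.valuation = j := by
    have h1 : ‖x‖ = (q : ℝ) ^ (-j) := by
      rw [hxu, norm_mul, norm_zpow, hnc, hnu, mul_one, inv_zpow, zpow_neg]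
    rw [Padic.norm_eq_zpow_neg_valuation hx0] at h1
    have hq1 : (1 : ℝ) < q := by exact_mod_cast (Fact.out : q.Prime).one_lt
    have := zpow_right_injective₀ (by linarith : (0 : ℝ) < q) hq1.ne' h1
    linarith
  rw [hval]
  exact hdvd

end Abstract

variable (p : ℕ) [hp : Fact p.Prime] (k : ℕ)

/-- **(N3)**: for `q ≠ p` the explicit symbol `psiQ` kills the norms from `ℚ_q(ζ_{p^(k+1)})`
(which is unramified of degree `ord(q mod p^(k+1))`: helper26's `cyclotomic_unram`). -/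
theorem unramNormHyp : UnramNormHyp p k := by
  intro q hqp w
  have hqP : (q : ℕ).Prime := q.2
  have hN : (p ^ (k + 1)).Coprime (q : ℕ) :=
    Nat.Coprime.pow_left _ ((Nat.coprime_primes hp.out hqP).mpr (Ne.symm hqp))
  obtain ⟨hfin, hram, c, hcO, hcirr⟩ :=
    cyclotomic_unram (q : ℕ) ℚ_[(q : ℕ)] (locField (q : ℕ) (cycLayer p k)) (p ^ (k + 1)) hN
  have hdvr := padicVS_isDiscreteValuationRing (q : ℕ) (locField (q : ℕ) (cycLayer p k))
  have hfr := padicVS_finite_residueField (q : ℕ) (locField (q : ℕ) (cycLayer p k))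
  have hac := padicVS_isAdicComplete (q : ℕ) (locField (q : ℕ) (cycLayer p k))
  have hO : ∀ (σ : locField (q : ℕ) (cycLayer p k) ≃ₐ[ℚ_[(q : ℕ)]] locField (q : ℕ) (cycLayer p k))
      (x : locField (q : ℕ) (cycLayer p k)),
      x ∈ padicVS (q : ℕ) (locField (q : ℕ) (cycLayer p k)) →
        σ x ∈ padicVS (q : ℕ) (locField (q : ℕ) (cycLayer p k)) :=
    fun σ x hx => padicVS_galStable (q : ℕ) (locField (q : ℕ) (cycLayer p k)) ℚ_[(q : ℕ)] σ x hx
  have hram1 : ramIdx (q : ℕ) (locField (q : ℕ) (cycLayer p k)) = 1 := by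
    rw [hram, ramIdx_base]
  have hdvd := finrank_dvd_valuation_norm (q : ℕ) (locField (q : ℕ) (cycLayer p k)) hram1 c hcO
    hcirr (w : locField (q : ℕ) (cycLayer p k)) w.ne_zero
  rw [hfin, resCard_base] at hdvd
  obtain ⟨t, ht⟩ := hdvd
  rw [psiQ_apply]
  have hcoe : ((Units.map (Algebra.norm ℚ_[(q : ℕ)] :
      locField (q : ℕ) (cycLayer p k) →* ℚ_[(q : ℕ)]) w : ℚ_[(q : ℕ)]ˣ) : ℚ_[(q : ℕ)])
      = Algebra.norm ℚ_[(q : ℕ)] (w : locField (q : ℕ) (cycLayer p k)) := rfl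
  rw [hcoe, ht, zpow_mul, zpow_natCast]
  have hord : resUnit p k q ^ orderOf (((q : ℕ) : ℕ) : ZMod (p ^ (k + 1))) = 1 := by
    have h1 : orderOf (resUnit p k q) = orderOf (((q : ℕ) : ℕ) : ZMod (p ^ (k + 1))) := by
      rw [← orderOf_units, coe_resUnit p k q hqp]
    rw [← h1]
    exact pow_orderOf_eq_one _
  rw [hord, one_zpow]

/-- **(CL2b), UNCONDITIONAL.** For `L' ⊇ M_k = ℚ(ζ_{p^(k+1)})` and `V' ≤ Gal(L'/M_k)`, the explicit
reciprocity functional `Θ_{V'}` is trivial on `J(L',T)^{V'}`. -/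
theorem Theta_eq_one_of_le_ker_uncond (T : Finset Nat.Primes)
    {L' : IntermediateField ℚ Qb} [FiniteDimensional ℚ L'] [IsGalois ℚ L'] (hp2 : p ≠ 2)
    (hpT : pp p ∈ T) (h : cycLayer p k ≤ L') {V' : Subgroup (L' ≃ₐ[ℚ] L')}
    (hV' : V' ≤ (Funct.gRes h).ker) {z : J L' T} (hz : z ∈ Adapter.JInv L' V' T) :
    Theta p k L' T hpT V' z = 1 :=
  Theta_eq_one_of_le_ker p k T hp2 (unramNormHyp p k) hpT h hV' hz

/-- **(CL2b), UNCONDITIONAL.** `Θ_V` kills the norms from the cyclotomic layer `K(ζ_{p^(k+1)})`,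
`K = L'^V`. -/
theorem Theta_relNormSub_inf_ker_uncond (T : Finset Nat.Primes)
    {L' : IntermediateField ℚ Qb} [FiniteDimensional ℚ L'] [IsGalois ℚ L'] (hp2 : p ≠ 2)
    (hpT : pp p ∈ T) (h : cycLayer p k ≤ L') (V : Subgroup (L' ≃ₐ[ℚ] L')) {z : J L' T}
    (hz : z ∈ Adapter.JInv L' (V ⊓ (Funct.gRes h).ker) T) :
    Theta p k L' T hpT V (relNormSub (J L' T).ρ V (V ⊓ (Funct.gRes h).ker) z) = 1 :=
  Theta_relNormSub_inf_ker p k T hp2 (unramNormHyp p k) hpT h V hz

end Fermat.Agent.GC.Global.WRec
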