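/-
GATE-C / C4 (GH-w) WeightedReciprocity, helper55.

**The kernels of the explicit local symbols are the norm groups** of `ℚ_q(ζ_{p^(k+1)})/ℚ_q`:
* `ker_psiP` : `ker psiP = normGroupP` (index count against helper67's norm index theorem);
* `exists_norm_eq_of_psiQ_eq_one` : `q ≠ p`, `psiQ x = 1 ⟹ x` is a norm (unramified theory, helper26).
This is (TAU-INJ) at the `Ĥ⁰` level over `ℚ_q`.
-/
import Mathlib
import Fermat.Agent.GC.Global.WRec.UnramNorm

set_option autoImplicit false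
set_option linter.unusedSectionVars false

open scoped Padic
open IntermediateField

noncomputable section

namespace Fermat.Agent.GC.Global.WRec

open Fermat.Agent.GC.Global Fermat.Agent.GC.Local Fermat.Agent.GC.Local.Unram

section Abstract

variable (q : ℕ) [Fact q.Prime] (L : Type*) [Field L] [Algebra ℚ_[q] L]
  [FiniteDimensional ℚ_[q] L] [IsGalois ℚ_[q] L]

/-- In an unramified Galois extension `L/ℚ_q`, an element of `ℚ_qˣ` whose valuation is divisible
by the degree is a norm. -/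
theorem exists_norm_eq_of_dvd_valuation (hram : ramIdx q L = 1) (c : ℚ_[q])
    (hcO : algebraMap ℚ_[q] L c ∈ padicVS q L)
    (hcirr : Irreducible (⟨algebraMap ℚ_[q] L c, hcO⟩ : padicVS q L)) (x : ℚ_[q]) (hx0 : x ≠ 0)
    (hdvd : (Module.finrank ℚ_[q] L : ℤ) ∣ x.valuation) :
    ∃ w : L, Algebra.norm ℚ_[q] w = x := by
  have hdvr := padicVS_isDiscreteValuationRing q L
  have hfr := padicVS_finite_residueField q L
  have hac := padicVS_isAdicComplete q L
  have hO : ∀ (σ : L ≃ₐ[ℚ_[q]] L) (x : L), x ∈ padicVS q L → σ x ∈ padicVS q L :=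
    fun σ x hx => padicVS_galStable q L ℚ_[q] σ x hx
  have hc0 : c ≠ 0 := by
    rintro rfl
    exact hcirr.ne_zero (Subtype.ext (map_zero _))
  have hnc : ‖c‖ = (q : ℝ)⁻¹ := by
    have h1 := spectralNorm_irreducible_pow_ramIdx q L hcirr
    rw [hram, pow_one] at h1
    have h2 : spectralNorm ℚ_[q] L (algebraMap ℚ_[q] L c) = ‖c‖ := spectralNorm_extends c
    rw [← h2]; exact h1
  set j : ℤ := x.valuation with hj
  set u : ℚ_[q] := x / c ^ j with hu
  have hu0 : u ≠ 0 := div_ne_zero hx0 (zpow_ne_zero _ hc0)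
  have hxu : x = c ^ j * u := by
    rw [hu]; field_simp
  have hnu : ‖u‖ = 1 := by
    have hqR : (0 : ℝ) < q := by exact_mod_cast (Fact.out : q.Prime).pos
    rw [hu, norm_div, norm_zpow, hnc, Padic.norm_eq_zpow_neg_valuation hx0, ← hj, inv_zpow,
      zpow_neg]
    exact div_self (inv_ne_zero (zpow_ne_zero _ hqR.ne'))
  have hu1 : algebraMap ℚ_[q] L u ∈ padicVS q L := by
    rw [mem_padicVS_iff, spectralNorm_extends, hnu]
  have hu2 : algebraMap ℚ_[q] L u⁻¹ ∈ padicVS q L := by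
    rw [mem_padicVS_iff, spectralNorm_extends, norm_inv, hnu, inv_one]
  obtain ⟨w, hw⟩ := (mem_norm_range_iff_of_isUnram (padicVS q L) hO ⟨c, hcO, hcirr⟩ c hcO hcirr j u
    hu0 hu1 hu2).mpr hdvd
  exact ⟨w, by rw [hw, ← hxu]⟩

end Abstract

variable (p : ℕ) [hp : Fact p.Prime] (k : ℕ)

/-- **`ker psiQ` = norm group**, `q ≠ p`. -/
theorem exists_norm_eq_of_psiQ_eq_one (q : Nat.Primes) (hqp : (q : ℕ) ≠ p) (x : ℚ_[(q : ℕ)]ˣ)
    (hx : psiQ p k q x = 1) :
    ∃ w : (locField (q : ℕ) (cycLayer p k))ˣ,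
      Units.map (Algebra.norm ℚ_[(q : ℕ)] :
        locField (q : ℕ) (cycLayer p k) →* ℚ_[(q : ℕ)]) w = x := by
  have hqP : (q : ℕ).Prime := q.2
  have hN : (p ^ (k + 1)).Coprime (q : ℕ) :=
    Nat.Coprime.pow_left _ ((Nat.coprime_primes hp.out hqP).mpr (Ne.symm hqp))
  obtain ⟨hfin, hram, c, hcO, hcirr⟩ :=
    cyclotomic_unram (q : ℕ) ℚ_[(q : ℕ)] (locField (q : ℕ) (cycLayer p k)) (p ^ (k + 1)) hN
  have hram1 : ramIdx (q : ℕ) (locField (q : ℕ) (cycLayer p k)) = 1 := by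
    rw [hram, ramIdx_base]
  rw [psiQ_apply] at hx
  have hdvd : (Module.finrank ℚ_[(q : ℕ)] (locField (q : ℕ) (cycLayer p k)) : ℤ)
      ∣ (x : ℚ_[(q : ℕ)]).valuation := by
    rw [hfin, resCard_base]
    have h1 : orderOf (resUnit p k q) = orderOf (((q : ℕ) : ℕ) : ZMod (p ^ (k + 1))) := by
      rw [← orderOf_units, coe_resUnit p k q hqp]
    rw [← h1]
    exact orderOf_dvd_iff_zpow_eq_one.mpr hx
  obtain ⟨w, hw⟩ := exists_norm_eq_of_dvd_valuation (q : ℕ) (locField (q : ℕ) (cycLayer p k))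
    hram1 c hcO hcirr (x : ℚ_[(q : ℕ)]) x.ne_zero hdvd
  have hw0 : w ≠ 0 := by
    rintro rfl
    rw [Algebra.norm_zero] at hw
    exact x.ne_zero hw.symm
  exact ⟨Units.mk0 w hw0, Units.ext hw⟩

/-- **`ker psiP` = norm group of `ℚ_p(ζ_{p^(k+1)})/ℚ_p`.** -/
theorem ker_psiP (hp2 : p ≠ 2) : (psiP p k).ker = normGroupP p k := by
  have hle : normGroupP p k ≤ (psiP p k).ker :=
    fun x hx => psiP_eq_one_of_mem_normGroupP p k hp2 x hx
  have hidx : (psiP p k).ker.index = (normGroupP p k).index := by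
    rw [index_normGroupP p k hp2, Subgroup.index_ker,
      MonoidHom.range_eq_top.mpr (psiP_surjective p k)]
    simp [Nat.card_eq_fintype_card, ZMod.card_units_eq_totient]
  have hpos : 0 < Nat.totient (p ^ (k + 1)) := Nat.totient_pos.mpr (pow_pos hp.out.pos _)
  have h1 := Subgroup.relIndex_mul_index hle
  rw [hidx] at h1
  have h2 : (normGroupP p k).relIndex (psiP p k).ker = 1 := by
    have hne : (normGroupP p k).index ≠ 0 := by rw [index_normGroupP p k hp2]; exact hpos.ne'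
    exact Nat.eq_of_mul_eq_mul_right (Nat.pos_of_ne_zero hne) (by rw [h1, one_mul])
  exact le_antisymm (Subgroup.relIndex_eq_one.mp h2) hle

theorem exists_norm_eq_of_psiP_eq_one (hp2 : p ≠ 2) (x : ℚ_[p]ˣ) (hx : psiP p k x = 1) :
    ∃ w : (Ep p k)ˣ, Units.map (Algebra.norm ℚ_[p] : Ep p k →* ℚ_[p]) w = x := by
  have : x ∈ (psiP p k).ker := hx
  rw [ker_psiP p k hp2] at this
  exact this

end Fermat.Agent.GC.Global.WRec
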