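/-
GATE-C / C4 (GH-w) WeightedReciprocity, helper55.

**Cyclic layers: (ii)_fin, (CL3), (CL4).**  `K = L'^V`, `K_k = K(ζ_{p^(k+1)}) = L'^{V_k}`,
`V_k = V ⊓ Gal(L'/M_k)`, `M_k = cycLayer p k ≤ L'`.
* `Theta_sq_eq_one_of_class_norm` : RECIPROCITY LAW at finite level (elementwise): if the class of
  `y ∈ J(L',T)^V` is a norm `N_{V/V_k} c`, `c ∈ C(L',T)^{V_k}`, then `Θ_V(y)² = 1`;
* `ofBase`, `Theta_ofBase` : `Θ_V` on the image of `J(ℚ,T)`: `Θ_V(a) = Θ_ℚ(a)^[K:ℚ]`;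
* `abstract_reciprocity_count` : the counting lemma;
* `ThetaSqHom`, `JInvToCInv`, `NormRes`, `JInvToNormRes` (helper52's `normRange` language);
* `cyclic_layer_reciprocity` : **(CL3)+(CL4)** in hypothesis form: from `hlift` (= `H¹(V_k,E)=0`),
  `hsurj` (local images generate, (CL-LOC)+(CL-NS)) and `hcard` ((CL-GOODQ) + PERIOD-DICT):
  `Θ_V(y)² = 1 ↔ [y] ∈ N_{V/V_k} C^{V_k}`, `J^V → C^V/N` onto, `|C^V/N C^{V_k}| = |χ(V)| = [K_k:K]`,
  `range Θ_V² = χ(V)`.
-/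
import Mathlib
import Fermat.Agent.GC.Global.WRec.SymbolKernel
import Fermat.Agent.GC.Global.WRec.PeriodDict

set_option autoImplicit false
set_option linter.unusedSectionVars false

open scoped Padic
open IntermediateField

noncomputable section

namespace Fermat.Agent.GC.Global.WRec

open Fermat.Agent.GC.Global Fermat.Agent.GC.Global.Adapter

section Rec

open scoped Classical

variable (p : ℕ) [hp : Fact p.Prime] (k : ℕ) (T : Finset Nat.Primes)
  {L' : IntermediateField ℚ Qb} [FiniteDimensional ℚ L'] [IsGalois ℚ L']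

theorem JtoC_rho (g : L' ≃ₐ[ℚ] L') (y : J L' T) :
    (JtoC L' T).hom ((J L' T).ρ g y) = (C L' T).ρ g ((JtoC L' T).hom y) :=
  congrArg (fun f => f y) ((JtoC L' T).hom.isIntertwining' g)

theorem JtoC_relNormSub (V V' : Subgroup (L' ≃ₐ[ℚ] L')) (z : J L' T) :
    (JtoC L' T).hom (relNormSub (J L' T).ρ V V' z)
      = relNormSub (C L' T).ρ V V' ((JtoC L' T).hom z) := by
  rw [relNormSub_apply, relNormSub_apply, map_sum]
  exact Finset.sum_congr rfl fun d _ => JtoC_rho T _ z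

/-- an element of `J` in the kernel of `J → C` is the diagonal image of a `T`-unit. -/
theorem exists_diag_eq_of_JtoC_eq_zero {y : J L' T} (hy : (JtoC L' T).hom y = 0) :
    ∃ x : Additive L'ˣ, Additive.toMul x ∈ tUnits L' T ∧ (diag L' T).hom x = y := by
  obtain ⟨x, hx, hxy⟩ := (Submodule.Quotient.mk_eq_zero _).1 hy
  exact ⟨x, hx, hxy⟩

/-- **RECIPROCITY LAW at finite level, elementwise form ((ii)_fin).**
Let `K = L'^V`, `K_k = K(ζ_{p^(k+1)}) = L'^{V_k}`, `V_k = V ⊓ Gal(L'/M_k)`. If the class in `C(L',T)`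
of a `V`-invariant idele `y` is the relative norm of a `V_k`-invariant class `c`, then
`Θ_V(y)^2 = 1`. The only hypothesis is that `V_k`-invariant classes lift to `V_k`-invariant ideles
(= `H¹(V_k, E(L',T)) = 0`, (LY-H1)). Uses (CL2a)+(CL2b) only. -/
theorem Theta_sq_eq_one_of_class_norm (hp2 : p ≠ 2) (hpT : pp p ∈ T) (h : cycLayer p k ≤ L')
    (V : Subgroup (L' ≃ₐ[ℚ] L'))
    (hlift : ∀ c : C L' T, IsInv (C L' T).ρ (V ⊓ (Funct.gRes h).ker) c →
      ∃ z : J L' T, z ∈ JInv L' (V ⊓ (Funct.gRes h).ker) T ∧ (JtoC L' T).hom z = c)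
    {y : J L' T} (hy : y ∈ JInv L' V T) (c : C L' T)
    (hc : IsInv (C L' T).ρ (V ⊓ (Funct.gRes h).ker) c)
    (hyc : (JtoC L' T).hom y = relNormSub (C L' T).ρ V (V ⊓ (Funct.gRes h).ker) c) :
    Theta p k L' T hpT V y ^ 2 = 1 := by
  obtain ⟨z, hz, hzc⟩ := hlift c hc
  set Nz := relNormSub (J L' T).ρ V (V ⊓ (Funct.gRes h).ker) z with hNz
  have hNzV : Nz ∈ JInv L' V T :=
    isInv_iff_mem_JInv.1 (isInv_relNormSub (isInv_iff_mem_JInv.2 hz))
  have hker : (JtoC L' T).hom (y - Nz) = 0 := by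
    rw [map_sub, hNz, JtoC_relNormSub, hzc, hyc, sub_self]
  obtain ⟨x, hxT, hxy⟩ := exists_diag_eq_of_JtoC_eq_zero T hker
  have hTne : T.Nonempty := ⟨pp p, hpT⟩
  have hdiffV : y - Nz ∈ JInv L' V T := (JInv L' V T).sub_mem hy hNzV
  -- `x` is `V`-invariant
  have hxV : ∀ g ∈ V, g ((Additive.toMul x : L'ˣ) : L') = ((Additive.toMul x : L'ˣ) : L') := by
    intro g hg
    have h1 : (diag L' T).hom ((globUnits L').ρ g x) = (diag L' T).hom x := by
      rw [diag_rho, hxy]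
      exact (mem_JInv_iff_rho L' V T).1 hdiffV g hg
    have h2 := diag_injective L' T hTne h1
    exact congrArg (fun u : Additive L'ˣ => ((Additive.toMul u : L'ˣ) : L')) h2
  have hdec : y = (diag L' T).hom x + Nz := by
    rw [hxy]; abel
  rw [hdec, Theta_add p k L' T hpT V (hxy ▸ hdiffV) hNzV, mul_pow,
    Theta_diag_sq p k L' T hpT V x hxV hxT, one_mul, hNz,
    Theta_relNormSub_inf_ker_uncond p k T hp2 hpT h V hz, one_pow]

end Rec

section Exist

open scoped Classical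

variable (p : ℕ) [hp : Fact p.Prime] (k : ℕ) (T : Finset Nat.Primes)
  (L' : IntermediateField ℚ Qb) [FiniteDimensional ℚ L'] [IsGalois ℚ L']

/-- The `G`-invariant idele with prescribed components in `∏_{q ∈ T} ℚ_qˣ`
(the inverse of `evalTop`: `J(ℚ,T) → J(L',T)^G`). -/
def ofBase (a : ∀ q : T, ℚ_[((q : Nat.Primes) : ℕ)]ˣ) : J L' T := fun q =>
  JqCarrier.ofFamily L' q
    (fun _ => baseUnits ((q : Nat.Primes) : ℕ) (locField ((q : Nat.Primes) : ℕ) L') (a q))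
    (by
      intro d g
      apply Units.ext
      exact (d.commutes ((a q : ℚ_[((q : Nat.Primes) : ℕ)]ˣ) : ℚ_[((q : Nat.Primes) : ℕ)])).symm)

theorem ofBase_mem_JInv (a : ∀ q : T, ℚ_[((q : Nat.Primes) : ℕ)]ˣ)
    (V : Subgroup (L' ≃ₐ[ℚ] L')) : ofBase T L' a ∈ JInv L' V T := by
  intro q
  exact JqCarrier.ofFamily_mem L' q V _ _ (fun _ _ _ => rfl)

theorem evalTop_ofBase (a : ∀ q : T, ℚ_[((q : Nat.Primes) : ℕ)]ˣ) :
    evalTop L' T (ofBase T L' a) = a := by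
  funext q
  unfold evalTop
  have : JqCarrier.val L' q (ofBase T L' a q) 1
      = baseUnits ((q : Nat.Primes) : ℕ) (locField ((q : Nat.Primes) : ℕ) L') (a q) := rfl
  rw [this, descend_baseUnits]

theorem evalTop_nsmul {y : J L' T} (hy : y ∈ JInv L' ⊤ T) (n : ℕ) :
    evalTop L' T (n • y) = evalTop L' T y ^ n := by
  induction n with
  | zero =>
    rw [zero_smul, pow_zero]
    funext q
    unfold evalTop
    have : JqCarrier.val L' q ((0 : J L' T) q) 1 = 1 := rfl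
    rw [this]
    exact descend_one _ _
  | succ n ih =>
    rw [succ_nsmul, pow_succ, evalTop_add ((JInv L' ⊤ T).smul_of_tower_mem n hy) hy, ih]

/-- `Θ_V` on the image of `J(ℚ,T)`: `Θ_V(a) = Θ_ℚ(a)^[K:ℚ]`. -/
theorem Theta_ofBase (hpT : pp p ∈ T) (V : Subgroup (L' ≃ₐ[ℚ] L'))
    (a : ∀ q : T, ℚ_[((q : Nat.Primes) : ℕ)]ˣ) :
    Theta p k L' T hpT V (ofBase T L' a) = thetaQ p k T hpT a ^ V.index := by
  unfold Theta
  have hinv : IsInv (J L' T).ρ ⊤ (ofBase T L' a) :=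
    isInv_iff_mem_JInv.2 (ofBase_mem_JInv T L' a ⊤)
  rw [relNorm_of_isInv_top hinv, evalTop_nsmul T L' (ofBase_mem_JInv T L' a ⊤), evalTop_ofBase,
    map_pow, Subgroup.index, Nat.card_eq_fintype_card]

end Exist

/-- **Abstract reciprocity count.** `f : A → U` (the reciprocity functional), `π : A → Q` (the
projection to the norm residue group), `f` trivial on `ker π`, `Γ ⊆ range f`, `|Q| ≤ |Γ|`. Then
`ker f = ker π`, `π` is onto, `|Q| = |Γ|` and `range f = Γ`. -/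
theorem abstract_reciprocity_count {A Q U : Type*} [AddCommGroup A] [AddCommGroup Q] [CommGroup U]
    (f : A →+ Additive U) (π : A →+ Q) (hπf : ∀ a, π a = 0 → f a = 0) [Finite Q]
    (Γ : Subgroup U) [Finite Γ] (hΓ : ∀ γ ∈ Γ, ∃ a, f a = Additive.ofMul γ)
    (hcard : Nat.card Q ≤ Nat.card Γ) :
    (∀ a, f a = 0 → π a = 0) ∧ Function.Surjective π ∧ Nat.card Q = Nat.card Γ ∧
      ∀ a, Additive.toMul (f a) ∈ Γ := by
  classical
  choose s hs using hΓ
  let φ : Γ → Q := fun γ => π (s γ.1 γ.2)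
  have hφinj : Function.Injective φ := by
    intro γ γ' h
    have h1 : π (s γ.1 γ.2 - s γ'.1 γ'.2) = 0 := by
      rw [map_sub, sub_eq_zero]; exact h
    have h2 := hπf _ h1
    rw [map_sub, hs, hs, sub_eq_zero] at h2
    exact Subtype.ext (Additive.ofMul.injective h2)
  have hφbij : Function.Bijective φ := hφinj.bijective_of_nat_card_le hcard
  have key : ∀ a, ∃ γ : Γ, π a = π (s γ.1 γ.2) ∧ f a = Additive.ofMul γ.1 := by
    intro a
    obtain ⟨γ, hγ⟩ := hφbij.2 (π a)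
    refine ⟨γ, hγ.symm, ?_⟩
    have h1 : π (a - s γ.1 γ.2) = 0 := by
      rw [map_sub, sub_eq_zero]; exact hγ.symm
    have h2 := hπf _ h1
    rw [map_sub, hs, sub_eq_zero] at h2
    exact h2
  have hone : π (s 1 Γ.one_mem) = 0 := by
    obtain ⟨γ, h1, h2⟩ := key 0
    rw [map_zero] at h1 h2
    have h3 : γ.1 = 1 := (Additive.ofMul.injective (h2.symm.trans ofMul_one.symm)).symm ▸ rfl
    have h4 : γ = ⟨1, Γ.one_mem⟩ := Subtype.ext h3
    subst h4
    exact h1.symm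
  refine ⟨?_, ?_, ?_, ?_⟩
  · intro a ha
    obtain ⟨γ, h1, h2⟩ := key a
    rw [ha] at h2
    have h3 : γ.1 = 1 := (Additive.ofMul.injective (h2.symm.trans ofMul_one.symm)).symm ▸ rfl
    have h4 : γ = ⟨1, Γ.one_mem⟩ := Subtype.ext h3
    subst h4
    rw [h1]; exact hone
  · intro q
    obtain ⟨γ, hγ⟩ := hφbij.2 q
    exact ⟨_, hγ⟩
  · exact (Nat.card_eq_of_bijective φ hφbij).symm
  · intro a
    obtain ⟨γ, _, h2⟩ := key a
    rw [h2]
    exact γ.2

section CL34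

open scoped Classical

variable (p : ℕ) [hp : Fact p.Prime] (k : ℕ) (T : Finset Nat.Primes)
  {L' : IntermediateField ℚ Qb} [FiniteDimensional ℚ L'] [IsGalois ℚ L']

theorem Theta_zero (hpT : pp p ∈ T) (V : Subgroup (L' ≃ₐ[ℚ] L')) :
    Theta p k L' T hpT V 0 = 1 := by
  have h := Theta_add p k L' T hpT V (JInv L' V T).zero_mem (JInv L' V T).zero_mem
  rw [add_zero] at h
  exact (mul_eq_left.1 h.symm)

/-- `y ↦ Θ_V(y)²` as an additive homomorphism on `J(L',T)^V`. -/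
def ThetaSqHom (hpT : pp p ∈ T) (V : Subgroup (L' ≃ₐ[ℚ] L')) :
    ↥(JInv L' V T) →+ Additive (ZMod (p ^ (k + 1)))ˣ where
  toFun y := Additive.ofMul (Theta p k L' T hpT V (y : J L' T) ^ 2)
  map_zero' := by
    show Additive.ofMul (Theta p k L' T hpT V (0 : J L' T) ^ 2) = 0
    rw [Theta_zero, one_pow]; rfl
  map_add' y y' := by
    show Additive.ofMul (Theta p k L' T hpT V ((y : J L' T) + (y' : J L' T)) ^ 2) = _
    rw [Theta_add p k L' T hpT V y.2 y'.2, mul_pow]; rfl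

theorem ThetaSqHom_apply (hpT : pp p ∈ T) (V : Subgroup (L' ≃ₐ[ℚ] L')) (y : ↥(JInv L' V T)) :
    ThetaSqHom p k T hpT V y = Additive.ofMul (Theta p k L' T hpT V (y : J L' T) ^ 2) := rfl

/-- the restriction to `V` of the class module, in helper52's `Rep.of` form. -/
abbrev CV (V : Subgroup (L' ≃ₐ[ℚ] L')) : Rep ℤ V := Rep.res V.subtype (Rep.of (C L' T).ρ)

theorem JtoC_mem_invariants (V : Subgroup (L' ≃ₐ[ℚ] L')) (y : ↥(JInv L' V T)) :
    (JtoC L' T).hom (y : J L' T) ∈ (CV T V).ρ.invariants := by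
  intro g
  show (C L' T).ρ (g : L' ≃ₐ[ℚ] L') ((JtoC L' T).hom (y : J L' T)) = _
  rw [← JtoC_rho T, (mem_JInv_iff_rho L' V T).1 y.2 g g.2]

/-- `J(L',T)^V → C(L',T)^V`. -/
def JInvToCInv (V : Subgroup (L' ≃ₐ[ℚ] L')) : ↥(JInv L' V T) →+ (CV T V).ρ.invariants where
  toFun y := ⟨(JtoC L' T).hom (y : J L' T), JtoC_mem_invariants T V y⟩
  map_zero' := by
    apply Subtype.ext
    show (JtoC L' T).hom (0 : J L' T) = 0
    exact map_zero _
  map_add' y y' := by
    apply Subtype.ext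
    show (JtoC L' T).hom ((y : J L' T) + (y' : J L' T)) = _
    exact map_add _ _ _

/-- the norm residue group `C^V / N_{V/V'} C^{V'}` (helper52's `normRange` form). -/
abbrev NormRes (V V' : Subgroup (L' ≃ₐ[ℚ] L')) [(V'.subgroupOf V).Normal] : Type :=
  (CV T V).ρ.invariants ⧸ PeriodDict.normRange (CV T V) (V'.subgroupOf V)

/-- `J(L',T)^V → C^V / N_{V/V'} C^{V'}`. -/
def JInvToNormRes (V V' : Subgroup (L' ≃ₐ[ℚ] L')) [(V'.subgroupOf V).Normal] :
    ↥(JInv L' V T) →+ NormRes T V V' :=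
  (QuotientAddGroup.mk' (PeriodDict.normRange (CV T V) (V'.subgroupOf V)).toAddSubgroup).comp
    (JInvToCInv T V)

theorem JInvToNormRes_eq_zero_iff (V V' : Subgroup (L' ≃ₐ[ℚ] L')) (hle : V' ≤ V)
    [(V'.subgroupOf V).Normal] (y : ↥(JInv L' V T)) :
    JInvToNormRes T V V' y = 0 ↔ ∃ c : C L' T, IsInv (C L' T).ρ V' c ∧
      relNormSub (C L' T).ρ V V' c = (JtoC L' T).hom (y : J L' T) := by
  have h1 : JInvToNormRes T V V' y = 0 ↔
      JInvToCInv T V y ∈ PeriodDict.normRange (CV T V) (V'.subgroupOf V) := by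
    show (QuotientAddGroup.mk (JInvToCInv T V y) : _ ⧸ _) = 0 ↔ _
    rw [QuotientAddGroup.eq_zero_iff]
    rfl
  rw [h1, PeriodDict.mem_normRange_res_iff (C L' T).ρ V V' hle]
  rfl


/-- **(CL3)+(CL4), hypothesis form.** -/
theorem cyclic_layer_reciprocity (hp2 : p ≠ 2) (hpT : pp p ∈ T) (h : cycLayer p k ≤ L')
    (V : Subgroup (L' ≃ₐ[ℚ] L')) [((V ⊓ (Funct.gRes h).ker).subgroupOf V).Normal]
    (hlift : ∀ c : C L' T, IsInv (C L' T).ρ (V ⊓ (Funct.gRes h).ker) c →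
      ∃ z : J L' T, z ∈ JInv L' (V ⊓ (Funct.gRes h).ker) T ∧ (JtoC L' T).hom z = c)
    (hVp : ∀ v ∈ V, ((chiG p k).comp (Funct.gRes h)) v ^ (p ^ k) = 1)
    (hsurj : ∀ v ∈ V, ∃ y ∈ JInv L' V T,
      Theta p k L' T hpT V y = ((chiG p k).comp (Funct.gRes h)) v)
    [Finite (NormRes T V (V ⊓ (Funct.gRes h).ker))]
    (hcard : Nat.card (NormRes T V (V ⊓ (Funct.gRes h).ker)) ≤
      Nat.card (V.map ((chiG p k).comp (Funct.gRes h)))) :
    (∀ y ∈ JInv L' V T, Theta p k L' T hpT V y ^ 2 = 1 →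
        ∃ c : C L' T, IsInv (C L' T).ρ (V ⊓ (Funct.gRes h).ker) c ∧
          relNormSub (C L' T).ρ V (V ⊓ (Funct.gRes h).ker) c = (JtoC L' T).hom y) ∧
      Function.Surjective (JInvToNormRes T V (V ⊓ (Funct.gRes h).ker)) ∧
      Nat.card (NormRes T V (V ⊓ (Funct.gRes h).ker)) =
        Nat.card (V.map ((chiG p k).comp (Funct.gRes h))) ∧
      ∀ y ∈ JInv L' V T,
        Theta p k L' T hpT V y ^ 2 ∈ V.map ((chiG p k).comp (Funct.gRes h)) := by
  set χ := (chiG p k).comp (Funct.gRes h) with hχ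
  have hpodd : Odd (p ^ k) := (hp.out.odd_of_ne_two hp2).pow
  obtain ⟨e, he⟩ := hpodd
  have key := abstract_reciprocity_count (ThetaSqHom p k T hpT V)
    (JInvToNormRes T V (V ⊓ (Funct.gRes h).ker))
    (by
      intro y hy
      obtain ⟨c, hc, hcy⟩ := (JInvToNormRes_eq_zero_iff T V _ inf_le_left y).1 hy
      rw [ThetaSqHom_apply,
        Theta_sq_eq_one_of_class_norm p k T hp2 hpT h V hlift y.2 c hc hcy.symm]
      rfl)
    (V.map χ)
    (by
      rintro γ ⟨v, hv, rfl⟩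
      obtain ⟨y, hy, hyv⟩ := hsurj (v ^ (e + 1)) (V.pow_mem hv _)
      refine ⟨⟨y, hy⟩, ?_⟩
      rw [ThetaSqHom_apply]
      congr 1
      show Theta p k L' T hpT V y ^ 2 = χ v
      rw [hyv, map_pow, ← pow_mul]
      have : (e + 1) * 2 = p ^ k + 1 := by omega
      rw [this, pow_succ (χ v) (p ^ k), hVp v hv, one_mul])
    hcard
  obtain ⟨k1, k2, k3, k4⟩ := key
  refine ⟨?_, k2, k3, ?_⟩
  · intro y hy hy1
    have := k1 ⟨y, hy⟩ (by
      rw [ThetaSqHom_apply]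
      show Additive.ofMul (Theta p k L' T hpT V y ^ 2) = 0
      rw [hy1]; rfl)
    exact (JInvToNormRes_eq_zero_iff T V _ inf_le_left ⟨y, hy⟩).1 this
  · intro y hy
    exact k4 ⟨y, hy⟩

end CL34

end Fermat.Agent.GC.Global.WRec
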