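/-
GATE-C / C4 (CL-CARD), helper97 (per helper55 board 2156).

The `hcard` hypothesis of helper55's `cyclic_layer_reciprocity`, UNCONDITIONALLY for a good set `T`
and `V ≤ Gal(L'/ℚ)` fixing `ζ_p`:  with `V_k = V ⊓ Gal(L'/M_k)`, `χ = chiG ∘ gRes`,
`Finite (NormRes T V V_k)` and `|C^V / N_{V/V_k} C^{V_k}| ∣ |χ(V)|`.

Route: (CL-GOODQ) `|H²(V/V_k, C^{V_k})| ∣ [V : V_k]` (`Adapter/GoodQuotZeta.lean`), helper52's
`PeriodDict.card_periodEquiv_res`, and `[V : V_k] = |χ(V)|` (`chiG` injective).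
-/
import Mathlib
import Fermat.Agent.GC.Global.WRec.CyclicLayer
import Fermat.Agent.GC.Global.Adapter.GoodQuotZeta

set_option autoImplicit false
set_option linter.unusedSectionVars false

open scoped Padic
open IntermediateField CategoryTheory groupCohomology

noncomputable section

namespace Fermat.Agent.GC.Global.WRec.LayerCard

open Fermat.Agent.GC.Global Fermat.Agent.GC.Global.Adapter Fermat.Agent.GC.Global.WRec
open Fermat.Agent.GC.Global.Devissage Fermat.Agent.GC.Global.GoodQuot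
open Fermat.Agent.GC.Local.CycH2

/-! ### Group theory: `V ⧸ (V ⊓ ker χ) ≃ χ(V)` -/

section Grp

variable {G U : Type*} [Group G] [Group U] (χ : G →* U) (V : Subgroup G)

theorem subgroupOf_inf_ker_eq_ker :
    (V ⊓ χ.ker).subgroupOf V = (χ.comp V.subtype).ker := by
  ext x
  rw [Subgroup.mem_subgroupOf, MonoidHom.mem_ker, Subgroup.mem_inf, MonoidHom.mem_ker]
  simp

theorem range_comp_subtype : (χ.comp V.subtype).range = V.map χ := by
  rw [MonoidHom.range_comp, Subgroup.range_subtype]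

/-- `[V : V ⊓ ker χ] = |χ(V)|`. -/
theorem relIndex_inf_ker : (V ⊓ χ.ker).relIndex V = Nat.card (V.map χ) := by
  rw [Subgroup.relIndex, subgroupOf_inf_ker_eq_ker, Subgroup.index_ker, range_comp_subtype]

/-- `V ⧸ (V ⊓ ker χ)` is cyclic when the target is. -/
theorem isCyclic_quotient_inf_ker' [IsCyclic U] [((V ⊓ χ.ker).subgroupOf V).Normal] :
    IsCyclic (V ⧸ (V ⊓ χ.ker).subgroupOf V) := by
  have e1 : (V ⧸ (V ⊓ χ.ker).subgroupOf V) ≃* (V ⧸ (χ.comp V.subtype).ker) :=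
    QuotientGroup.quotientMulEquivOfEq (subgroupOf_inf_ker_eq_ker χ V)
  have e2 : (V ⧸ (χ.comp V.subtype).ker) ≃* (χ.comp V.subtype).range :=
    QuotientGroup.quotientKerEquivRange _
  have : IsCyclic (χ.comp V.subtype).range := inferInstance
  exact isCyclic_of_surjective (e1.trans e2).symm (e1.trans e2).symm.surjective

/-- The same for any `W = V ⊓ ker χ`. -/
theorem isCyclic_quotient_of_eq [IsCyclic U] (W : Subgroup G) (hW : W = V ⊓ χ.ker)
    [(W.subgroupOf V).Normal] : IsCyclic (V ⧸ W.subgroupOf V) := by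
  subst hW
  exact isCyclic_quotient_inf_ker' χ V

/-- `χ(V)` is a `p`-group when every `χ v` is killed by `p ^ k`. -/
theorem isPGroup_map_of_pow (p k : ℕ) (h : ∀ v ∈ V, χ v ^ (p ^ k) = 1) :
    IsPGroup p (V.map χ) := by
  rintro ⟨_, ⟨v, hv, rfl⟩⟩
  exact ⟨k, Subtype.ext (h v hv)⟩

end Grp

section Main

variable (p : ℕ) [hp : Fact p.Prime] (k : ℕ) (T : Finset Nat.Primes)
  {L' : IntermediateField ℚ Qb} [FiniteDimensional ℚ L'] [IsGalois ℚ L']

/-- `V ⊓ ker gRes = V ⊓ ker χ` (`chiG` is injective). -/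
theorem ker_chi_eq (h : cycLayer p k ≤ L') :
    ((chiG p k).comp (Funct.gRes h)).ker = (Funct.gRes h).ker := by
  ext g
  rw [MonoidHom.mem_ker, MonoidHom.mem_ker, MonoidHom.comp_apply]
  constructor
  · intro hg
    exact chiG_injective p k (by rw [hg, map_one])
  · intro hg
    rw [hg, map_one]

/-- `[V : V_k] = |χ(V)|`. -/
theorem relIndex_Vk (h : cycLayer p k ≤ L') (V : Subgroup (L' ≃ₐ[ℚ] L')) :
    (V ⊓ (Funct.gRes h).ker).relIndex V =
      Nat.card (V.map ((chiG p k).comp (Funct.gRes h))) := by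
  rw [← ker_chi_eq p k h]
  exact relIndex_inf_ker _ V

/-- `V ⧸ V_k` is cyclic (`p` odd). -/
theorem isCyclic_quotient_Vk (hp2 : p ≠ 2) (h : cycLayer p k ≤ L')
    (V : Subgroup (L' ≃ₐ[ℚ] L')) [((V ⊓ (Funct.gRes h).ker).subgroupOf V).Normal] :
    IsCyclic (V ⧸ (V ⊓ (Funct.gRes h).ker).subgroupOf V) := by
  have : IsCyclic (ZMod (p ^ (k + 1)))ˣ := ZMod.isCyclic_units_of_prime_pow p hp.out hp2 (k + 1)
  exact isCyclic_quotient_of_eq ((chiG p k).comp (Funct.gRes h)) V _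
    (by rw [ker_chi_eq p k h])

/-- **(CL-CARD)**: the `hcard` input of `cyclic_layer_reciprocity`, unconditionally:
`C^V / N_{V/V_k} C^{V_k}` is finite of order dividing `|χ(V)| = [K_k : K]`. -/
theorem finite_card_normRes_dvd (hg : GoodT L' T p) (hp2 : p ≠ 2) (ζ : L')
    (hζ : IsPrimitiveRoot ζ p) (h : cycLayer p k ≤ L') (V : Subgroup (L' ≃ₐ[ℚ] L'))
    [((V ⊓ (Funct.gRes h).ker).subgroupOf V).Normal] (hVζ : ∀ v ∈ V, v ζ = ζ)
    (hVp : ∀ v ∈ V, ((chiG p k).comp (Funct.gRes h)) v ^ (p ^ k) = 1) :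
    Finite (NormRes T V (V ⊓ (Funct.gRes h).ker)) ∧
      Nat.card (NormRes T V (V ⊓ (Funct.gRes h).ker)) ∣
        Nat.card (V.map ((chiG p k).comp (Funct.gRes h))) := by
  -- `[V : V_k]` is a power of `p`
  obtain ⟨n, hn⟩ := IsPGroup.iff_card.mp
    (isPGroup_map_of_pow ((chiG p k).comp (Funct.gRes h)) V p k hVp)
  have hidx : (V ⊓ (Funct.gRes h).ker).relIndex V = p ^ n := by
    rw [relIndex_Vk p k h V, hn]
  -- the layer is good
  have hgood : Good (layerQ (C L' T) V (V ⊓ (Funct.gRes h).ker)) :=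
    GoodQuotZeta.good_layerQ_zeta L' T hg hp.out hp2 ζ hζ hVζ n hidx
  -- periodicity
  have hcyc := isCyclic_quotient_Vk p k hp2 h V
  obtain ⟨σ, hσ⟩ := hcyc.exists_generator
  let _ := Fintype.ofFinite (V ⧸ (V ⊓ (Funct.gRes h).ker).subgroupOf V)
  have hgen : IsGen σ (orderOf σ) := ⟨orderOf_pos σ, rfl, hσ⟩
  have hcard : Nat.card (NormRes T V (V ⊓ (Funct.gRes h).ker)) =
      Nat.card (groupCohomology (layerQ (C L' T) V (V ⊓ (Funct.gRes h).ker)) 2) :=
    PeriodDict.card_periodEquiv_res (C L' T).ρ V (V ⊓ (Funct.gRes h).ker) hgen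
  have hfin2 : Finite (groupCohomology (layerQ (C L' T) V (V ⊓ (Funct.gRes h).ker)) 2) :=
    hgood.2.1
  have hdvd : Nat.card (groupCohomology (layerQ (C L' T) V (V ⊓ (Funct.gRes h).ker)) 2) ∣
      Nat.card (V ⧸ (V ⊓ (Funct.gRes h).ker).subgroupOf V) := hgood.2.2
  refine ⟨?_, ?_⟩
  · apply Nat.finite_of_card_ne_zero
    rw [hcard]
    exact Nat.card_pos.ne'
  · rw [hcard, ← relIndex_Vk p k h V]
    exact hdvd

end Main

end Fermat.Agent.GC.Global.WRec.LayerCard
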