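/-
GATE-C / C4 (CL-CARD), second part (helper97): `hVp` of helper55's `cyclic_layer_reciprocity`
from "`V` fixes `ζ_p`", and the `hVp`-free form of `finite_card_normRes_dvd`.

* `units_pow_eq_one_of_unitsMap_eq_one` : a unit of `ℤ/p^(k+1)` which is `≡ 1 mod p` is killed by
  `p ^ k` (the kernel of `(ℤ/p^(k+1))ˣ → (ℤ/p)ˣ` has order `p ^ k`);
* `chi_pow_eq_one_of_zeta` : `v ∈ Gal(L'/ℚ)` fixes a primitive `p`-th root of unity of `L'`
  ⟹ `χ(v) ^ (p ^ k) = 1`, `χ = chiG ∘ gRes`;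
* `finite_card_normRes_dvd_zeta` : (CL-CARD) with hypotheses `GoodT`, `p` odd, `V` fixes `ζ_p` only.
-/
import Mathlib
import Fermat.Agent.GC.Global.WRec.LayerCard

set_option autoImplicit false
set_option linter.unusedSectionVars false

open scoped Padic
open IntermediateField

noncomputable section

namespace Fermat.Agent.GC.Global.WRec.LayerCard

open Fermat.Agent.GC.Global Fermat.Agent.GC.Global.Adapter Fermat.Agent.GC.Global.WRec

section ZModUnits

variable (p : ℕ) [hp : Fact p.Prime] (k : ℕ)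

/-- The kernel of `(ℤ/p^(k+1))ˣ → (ℤ/p)ˣ` has order `p ^ k`. -/
theorem card_ker_unitsMap :
    Nat.card (ZMod.unitsMap (dvd_pow_self p (Nat.succ_ne_zero k))).ker = p ^ k := by
  set f := ZMod.unitsMap (dvd_pow_self p (Nat.succ_ne_zero k)) with hf
  have hsurj : Function.Surjective f := ZMod.unitsMap_surjective _
  have h1 : Nat.card f.ker * f.ker.index = Nat.card (ZMod (p ^ (k + 1)))ˣ :=
    f.ker.card_mul_index
  have h2 : f.ker.index = p - 1 := by
    rw [Subgroup.index_ker, MonoidHom.range_eq_top.mpr hsurj, Subgroup.card_top,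
      Nat.card_eq_fintype_card, ZMod.card_units_eq_totient, Nat.totient_prime hp.out]
  have h3 : Nat.card (ZMod (p ^ (k + 1)))ˣ = p ^ k * (p - 1) := by
    rw [Nat.card_eq_fintype_card, ZMod.card_units_eq_totient,
      Nat.totient_prime_pow_succ hp.out]
  rw [h2, h3] at h1
  exact Nat.eq_of_mul_eq_mul_right (Nat.sub_pos_of_lt hp.out.one_lt) h1

theorem units_pow_eq_one_of_unitsMap_eq_one (u : (ZMod (p ^ (k + 1)))ˣ)
    (hu : ZMod.unitsMap (dvd_pow_self p (Nat.succ_ne_zero k)) u = 1) : u ^ (p ^ k) = 1 := by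
  have h := pow_card_eq_one' (G := (ZMod.unitsMap (dvd_pow_self p (Nat.succ_ne_zero k))).ker)
    (x := ⟨u, hu⟩)
  rw [card_ker_unitsMap] at h
  exact congrArg Subtype.val h

/-- the same with the congruence on `val`. -/
theorem units_pow_eq_one_of_val_modEq (u : (ZMod (p ^ (k + 1)))ˣ)
    (hu : (u : ZMod (p ^ (k + 1))).val ≡ 1 [MOD p]) : u ^ (p ^ k) = 1 := by
  apply units_pow_eq_one_of_unitsMap_eq_one
  apply Units.ext
  rw [ZMod.unitsMap_val, Units.val_one, ← ZMod.natCast_val]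
  have := (ZMod.natCast_eq_natCast_iff _ _ p).mpr hu
  rw [Nat.cast_one] at this
  exact this

end ZModUnits

section Field

variable (p : ℕ) [hp : Fact p.Prime] (k : ℕ) (T : Finset Nat.Primes)
  {L' : IntermediateField ℚ Qb} [FiniteDimensional ℚ L'] [IsGalois ℚ L']

/-- An automorphism of `L' ⊇ M_k` fixing a primitive `p`-th root of unity has
`χ(v) ^ (p ^ k) = 1`. -/
theorem chi_pow_eq_one_of_zeta (h : cycLayer p k ≤ L') (ζ : L') (hζ : IsPrimitiveRoot ζ p)
    (v : L' ≃ₐ[ℚ] L') (hv : v ζ = ζ) :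
    ((chiG p k).comp (Funct.gRes h)) v ^ (p ^ k) = 1 := by
  rw [MonoidHom.comp_apply]
  set σ := Funct.gRes h v with hσ
  apply units_pow_eq_one_of_val_modEq
  set a := ((chiG p k σ : (ZMod (p ^ (k + 1)))ˣ) : ZMod (p ^ (k + 1))).val with ha
  have hz := zetaL_spec p k
  have hspec : zetaL p k ^ a = σ (zetaL p k) := chiG_spec p k σ
  -- `w = z ^ (p ^ k)` is a primitive `p`-th root of unity
  have hw : IsPrimitiveRoot (zetaL p k ^ (p ^ k)) p :=
    hz.pow (pow_pos hp.out.pos _) (pow_succ p k)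
  -- `σ w = w`
  have hσw : σ (zetaL p k ^ (p ^ k)) = zetaL p k ^ (p ^ k) := by
    apply (Funct.gIncl h).toRingHom.injective
    change Funct.gIncl h (σ (zetaL p k ^ (p ^ k))) = Funct.gIncl h (zetaL p k ^ (p ^ k))
    rw [hσ, Funct.gRes, Funct.GalRes.apply_res]
    have hw' : (Funct.gIncl h (zetaL p k ^ (p ^ k))) ^ p = 1 := by
      rw [← map_pow, hw.pow_eq_one, map_one]
    obtain ⟨i, -, hi⟩ := hζ.eq_pow_of_pow_eq_one hw'
    rw [← hi, map_pow, hv]
  -- hence `w ^ a = w`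
  have hwa : (zetaL p k ^ (p ^ k)) ^ a = (zetaL p k ^ (p ^ k)) ^ 1 := by
    rw [pow_one, ← pow_mul, mul_comm, pow_mul, hspec, ← map_pow, hσw]
  have hw0 : zetaL p k ^ (p ^ k) ≠ 0 := hw.ne_zero hp.out.ne_zero
  rcases Nat.eq_zero_or_pos a with h0 | hpos
  · exfalso
    rw [h0, pow_zero, pow_one] at hwa
    exact hw.ne_one hp.out.one_lt hwa.symm
  · have h1 : (zetaL p k ^ (p ^ k)) ^ (a - 1) = 1 := by
      have h2 : zetaL p k ^ (p ^ k) * (zetaL p k ^ (p ^ k)) ^ (a - 1) =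
          zetaL p k ^ (p ^ k) * 1 := by
        rw [← pow_succ', Nat.sub_add_cancel hpos, mul_one, hwa, pow_one]
      exact mul_left_cancel₀ hw0 h2
    have hd : p ∣ a - 1 := (hw.pow_eq_one_iff_dvd _).mp h1
    exact ((Nat.modEq_iff_dvd' hpos).mpr hd).symm

/-- `hVp` of `cyclic_layer_reciprocity` from "`V` fixes `ζ_p`". -/
theorem hVp_of_zeta (h : cycLayer p k ≤ L') (ζ : L') (hζ : IsPrimitiveRoot ζ p)
    (V : Subgroup (L' ≃ₐ[ℚ] L')) (hVζ : ∀ v ∈ V, v ζ = ζ) :
    ∀ v ∈ V, ((chiG p k).comp (Funct.gRes h)) v ^ (p ^ k) = 1 :=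
  fun v hv => chi_pow_eq_one_of_zeta p k h ζ hζ v (hVζ v hv)

/-- **(CL-CARD)**, final form: for a good `T`, `p` odd and `V` fixing `ζ_p`,
`C^V / N_{V/V_k} C^{V_k}` is finite of order dividing `|χ(V)|`. -/
theorem finite_card_normRes_dvd_zeta (hg : GoodT L' T p) (hp2 : p ≠ 2) (ζ : L')
    (hζ : IsPrimitiveRoot ζ p) (h : cycLayer p k ≤ L') (V : Subgroup (L' ≃ₐ[ℚ] L'))
    [((V ⊓ (Funct.gRes h).ker).subgroupOf V).Normal] (hVζ : ∀ v ∈ V, v ζ = ζ) :
    Finite (NormRes T V (V ⊓ (Funct.gRes h).ker)) ∧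
      Nat.card (NormRes T V (V ⊓ (Funct.gRes h).ker)) ∣
        Nat.card (V.map ((chiG p k).comp (Funct.gRes h))) :=
  finite_card_normRes_dvd p k T hg hp2 ζ hζ h V hVζ (hVp_of_zeta p k h ζ hζ V hVζ)

/-- `V_k` is normal in `V` (kernel of `χ` restricted to `V`): the instance argument of
`cyclic_layer_reciprocity`. -/
theorem normal_Vk_subgroupOf (h : cycLayer p k ≤ L') (V : Subgroup (L' ≃ₐ[ℚ] L')) :
    ((V ⊓ (Funct.gRes h).ker).subgroupOf V).Normal := by
  rw [Subgroup.inf_subgroupOf_left]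
  infer_instance

end Field

end Fermat.Agent.GC.Global.WRec.LayerCard
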