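/-
GATE-C / C4 (CL-LOC) LOCAL IMAGE, part 2 (helper67): ideles supported at a single place.

`L` a layer, `V ≤ G_L` (`K = L^V`), `q` a prime, `s ∈ G_L`.  The place of `K` cut out by `ι ∘ s`
has decomposition data `D_s = {d ∈ Gal(L_q/ℚ_q) | s⁻¹ dec(d) s ∈ V}`.  For `b ∈ (L_qˣ)^{D_s}`
(= the completion of `K` at that place) `singleJq` is the `V`-invariant element of `Jq(L)` with
value `d • b` at `dec(d) s v` (`v ∈ V`) and `1` outside the double coset `dec(D) s V`, and

  `∏_{c ∈ G_L/V} (singleJq b)(c.out) = ∏_{e ∈ D/D_s} e.out • b = N_{K_w/ℚ_q} b`   (`prod_singleFam`).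
-/
import Mathlib
import Fermat.Agent.GC.Global.WRec.ThetaCyc

set_option autoImplicit false
set_option linter.unusedSectionVars false

open scoped Padic
open IntermediateField

noncomputable section

namespace Fermat.Agent.GC.Global.WRec

open Fermat.Agent.GC.Global Fermat.Agent.GC.Global.Adapter

section Single

open scoped Classical

variable (L : IntermediateField ℚ Qb) [FiniteDimensional ℚ L] [IsGalois ℚ L] (q : Nat.Primes)
  (V : Subgroup (L ≃ₐ[ℚ] L)) (s : L ≃ₐ[ℚ] L)

/-- the local Galois group `Gal(L_q/ℚ_q)`. -/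
abbrev LocGal : Type := locField (q : ℕ) L ≃ₐ[ℚ_[(q : ℕ)]] locField (q : ℕ) L

/-- the stabiliser `D_s = {d | s⁻¹ dec(d) s ∈ V}` of the place `ι ∘ s` of `K = L^V`. -/
def decSub : Subgroup (LocGal L q) where
  carrier := {d | s⁻¹ * decHom (q : ℕ) L d * s ∈ V}
  one_mem' := by
    change s⁻¹ * decHom (q : ℕ) L 1 * s ∈ V
    rw [map_one, mul_one, inv_mul_cancel]
    exact V.one_mem
  mul_mem' := by
    intro a b ha hb
    change s⁻¹ * decHom (q : ℕ) L (a * b) * s ∈ V
    have : s⁻¹ * decHom (q : ℕ) L (a * b) * s =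
        (s⁻¹ * decHom (q : ℕ) L a * s) * (s⁻¹ * decHom (q : ℕ) L b * s) := by
      rw [map_mul]; group
    rw [this]
    exact V.mul_mem ha hb
  inv_mem' := by
    intro a ha
    change s⁻¹ * decHom (q : ℕ) L a⁻¹ * s ∈ V
    have : s⁻¹ * decHom (q : ℕ) L a⁻¹ * s = (s⁻¹ * decHom (q : ℕ) L a * s)⁻¹ := by
      rw [map_inv]; group
    rw [this]
    exact V.inv_mem ha

theorem mem_decSub {d : LocGal L q} :
    d ∈ decSub L q V s ↔ s⁻¹ * decHom (q : ℕ) L d * s ∈ V := Iff.rfl

/-- the double coset `dec(D) s V`. -/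
def InDC (g : L ≃ₐ[ℚ] L) : Prop :=
  ∃ d : LocGal L q, ∃ v : L ≃ₐ[ℚ] L, v ∈ V ∧ g = decHom (q : ℕ) L d * s * v

/-- the family `dec(d) s v ↦ d • b`, `1` outside the double coset. -/
def singleFam (b : (locField (q : ℕ) L)ˣ) (g : L ≃ₐ[ℚ] L) : (locField (q : ℕ) L)ˣ :=
  if hg : InDC L q V s g then
    Units.map ((hg.choose : LocGal L q) : locField (q : ℕ) L →* locField (q : ℕ) L) b
  else 1

variable {L q V s}

theorem singleFam_of_not {b : (locField (q : ℕ) L)ˣ} {g : L ≃ₐ[ℚ] L} (hg : ¬ InDC L q V s g) :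
    singleFam L q V s b g = 1 := dif_neg hg

theorem singleFam_eq {b : (locField (q : ℕ) L)ˣ}
    (hb : ∀ d ∈ decSub L q V s,
      Units.map ((d : LocGal L q) : locField (q : ℕ) L →* locField (q : ℕ) L) b = b)
    (d : LocGal L q) {v : L ≃ₐ[ℚ] L} (hv : v ∈ V) :
    singleFam L q V s b (decHom (q : ℕ) L d * s * v) =
      Units.map ((d : LocGal L q) : locField (q : ℕ) L →* locField (q : ℕ) L) b := by
  have hg : InDC L q V s (decHom (q : ℕ) L d * s * v) := ⟨d, v, hv, rfl⟩
  unfold singleFam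
  rw [dif_pos hg]
  obtain ⟨v₁, hv₁, h1⟩ := hg.choose_spec
  set d₁ := hg.choose with hd₁
  have hmem : d₁⁻¹ * d ∈ decSub L q V s := by
    rw [mem_decSub]
    have : s⁻¹ * decHom (q : ℕ) L (d₁⁻¹ * d) * s = v₁ * v⁻¹ := by
      rw [map_mul, map_inv]
      have h2 : decHom (q : ℕ) L d = decHom (q : ℕ) L d₁ * s * v₁ * v⁻¹ * s⁻¹ := by
        rw [← h1]; group
      rw [h2]; group
    rw [this]
    exact V.mul_mem hv₁ (V.inv_mem hv)
  have h3 := hb _ hmem
  apply Units.ext
  have h4 := congrArg (fun u : (locField (q : ℕ) L)ˣ => d₁ (u : locField (q : ℕ) L)) h3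
  simp only [Units.coe_map, MonoidHom.coe_coe, AlgEquiv.mul_apply] at h4
  change d₁ (b : locField (q : ℕ) L) = d (b : locField (q : ℕ) L)
  rw [← h4]
  change d₁ (d₁⁻¹ (d (b : locField (q : ℕ) L))) = _
  exact AlgEquiv.apply_symm_apply d₁ _


theorem inDC_decHom_mul_iff (d₀ : LocGal L q) (g : L ≃ₐ[ℚ] L) :
    InDC L q V s (decHom (q : ℕ) L d₀ * g) ↔ InDC L q V s g := by
  constructor
  · rintro ⟨d, v, hv, h⟩
    refine ⟨d₀⁻¹ * d, v, hv, ?_⟩
    rw [map_mul, map_inv, mul_assoc, mul_assoc, ← mul_assoc _ s v, ← h]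
    group
  · rintro ⟨d, v, hv, h⟩
    refine ⟨d₀ * d, v, hv, ?_⟩
    rw [h, map_mul]
    group

theorem inDC_mul_iff (g : L ≃ₐ[ℚ] L) {h : L ≃ₐ[ℚ] L} (hh : h ∈ V) :
    InDC L q V s (g * h) ↔ InDC L q V s g := by
  constructor
  · rintro ⟨d, v, hv, e⟩
    refine ⟨d, v * h⁻¹, V.mul_mem hv (V.inv_mem hh), ?_⟩
    rw [← mul_assoc, ← e]
    group
  · rintro ⟨d, v, hv, e⟩
    refine ⟨d, v * h, V.mul_mem hv hh, ?_⟩
    rw [e]
    group

/-- equivariance of `singleFam` under the decomposition group. -/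
theorem singleFam_decHom_mul {b : (locField (q : ℕ) L)ˣ}
    (hb : ∀ d ∈ decSub L q V s,
      Units.map ((d : LocGal L q) : locField (q : ℕ) L →* locField (q : ℕ) L) b = b)
    (d₀ : LocGal L q) (g : L ≃ₐ[ℚ] L) :
    singleFam L q V s b (decHom (q : ℕ) L d₀ * g) =
      Units.map ((d₀ : LocGal L q) : locField (q : ℕ) L →* locField (q : ℕ) L)
        (singleFam L q V s b g) := by
  by_cases hg : InDC L q V s g
  · obtain ⟨d, v, hv, rfl⟩ := hg
    have e : decHom (q : ℕ) L d₀ * (decHom (q : ℕ) L d * s * v)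
        = decHom (q : ℕ) L (d₀ * d) * s * v := by
      rw [map_mul]; group
    rw [e, singleFam_eq hb _ hv, singleFam_eq hb _ hv]
    apply Units.ext
    rfl
  · rw [singleFam_of_not hg, singleFam_of_not (fun h => hg ((inDC_decHom_mul_iff d₀ g).1 h)),
      map_one]

/-- right `V`-invariance of `singleFam`. -/
theorem singleFam_mul {b : (locField (q : ℕ) L)ˣ}
    (hb : ∀ d ∈ decSub L q V s,
      Units.map ((d : LocGal L q) : locField (q : ℕ) L →* locField (q : ℕ) L) b = b)
    (g : L ≃ₐ[ℚ] L) {h : L ≃ₐ[ℚ] L} (hh : h ∈ V) :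
    singleFam L q V s b (g * h) = singleFam L q V s b g := by
  by_cases hg : InDC L q V s g
  · obtain ⟨d, v, hv, rfl⟩ := hg
    rw [mul_assoc, singleFam_eq hb _ (V.mul_mem hv hh), singleFam_eq hb _ hv]
  · rw [singleFam_of_not hg, singleFam_of_not (fun h' => hg ((inDC_mul_iff g hh).1 h'))]

variable (L q V s)

/-- the `V`-invariant element of `Jq(L)` supported on the double coset `dec(D) s V` with value
`b` at `s`. -/
def singleJq (b : (locField (q : ℕ) L)ˣ)
    (hb : ∀ d ∈ decSub L q V s,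
      Units.map ((d : LocGal L q) : locField (q : ℕ) L →* locField (q : ℕ) L) b = b) :
    JqCarrier L q :=
  JqCarrier.ofFamily L q (singleFam L q V s b) (fun d g => singleFam_decHom_mul hb d g)

theorem val_singleJq (b : (locField (q : ℕ) L)ˣ) (hb) (g : L ≃ₐ[ℚ] L) :
    JqCarrier.val L q (singleJq L q V s b hb) g = singleFam L q V s b g := rfl

theorem singleJq_mem (b : (locField (q : ℕ) L)ˣ) (hb) :
    singleJq L q V s b hb ∈ JqInv L q V :=
  JqCarrier.ofFamily_mem L q V _ _ (fun g _ hh => singleFam_mul hb g hh)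

/-- the orbit map `D/D_s → G/V`, `e ↦ dec(e) s V`. -/
def orbitMap (e : LocGal L q ⧸ decSub L q V s) : (L ≃ₐ[ℚ] L) ⧸ V :=
  QuotientGroup.mk (decHom (q : ℕ) L e.out * s)

theorem orbitMap_injective : Function.Injective (orbitMap L q V s) := by
  intro e e' h
  have h1 : (decHom (q : ℕ) L e.out * s)⁻¹ * (decHom (q : ℕ) L e'.out * s) ∈ V :=
    QuotientGroup.eq.mp h
  have h2 : e.out⁻¹ * e'.out ∈ decSub L q V s := by
    rw [mem_decSub, map_mul, map_inv]
    have : s⁻¹ * ((decHom (q : ℕ) L e.out)⁻¹ * decHom (q : ℕ) L e'.out) * s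
        = (decHom (q : ℕ) L e.out * s)⁻¹ * (decHom (q : ℕ) L e'.out * s) := by group
    rw [this]
    exact h1
  rw [← QuotientGroup.out_eq' e, ← QuotientGroup.out_eq' e']
  exact QuotientGroup.eq.mpr h2

theorem out_orbitMap (e : LocGal L q ⧸ decSub L q V s) :
    ∃ v ∈ V, (orbitMap L q V s e).out = decHom (q : ℕ) L e.out * s * v := by
  have h := QuotientGroup.eq.mp
    (QuotientGroup.out_eq' (orbitMap L q V s e)).symm
  exact ⟨_, h, by group⟩

theorem mem_range_orbitMap {c : (L ≃ₐ[ℚ] L) ⧸ V} (hc : InDC L q V s c.out) :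
    c ∈ Set.range (orbitMap L q V s) := by
  obtain ⟨d, v, hv, h⟩ := hc
  refine ⟨QuotientGroup.mk d, ?_⟩
  have h1 : d⁻¹ * (QuotientGroup.mk d : LocGal L q ⧸ decSub L q V s).out ∈ decSub L q V s :=
    QuotientGroup.eq.mp (QuotientGroup.out_eq' (QuotientGroup.mk d : LocGal L q ⧸ decSub L q V s)).symm
  rw [mem_decSub, map_mul, map_inv] at h1
  rw [← QuotientGroup.out_eq' c, h]
  unfold orbitMap
  apply QuotientGroup.eq.mpr
  set t := (QuotientGroup.mk d : LocGal L q ⧸ decSub L q V s).out with ht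
  have : (decHom (q : ℕ) L t * s)⁻¹ * (decHom (q : ℕ) L d * s * v)
      = (s⁻¹ * ((decHom (q : ℕ) L d)⁻¹ * decHom (q : ℕ) L t) * s)⁻¹ * v := by group
  rw [this]
  exact V.mul_mem (V.inv_mem h1) hv

/-- **the local norm formula**: the product of `singleFam b` over `G/V` is the product of the
conjugates `e • b`, `e ∈ D/D_s`, i.e. the norm of `b` from `K_w = L_q^{D_s}` to `ℚ_q`. -/
theorem prod_singleFam [Fintype ((L ≃ₐ[ℚ] L) ⧸ V)] [Fintype (LocGal L q ⧸ decSub L q V s)]
    {b : (locField (q : ℕ) L)ˣ}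
    (hb : ∀ d ∈ decSub L q V s,
      Units.map ((d : LocGal L q) : locField (q : ℕ) L →* locField (q : ℕ) L) b = b) :
    ∏ c : (L ≃ₐ[ℚ] L) ⧸ V, singleFam L q V s b c.out
      = ∏ e : LocGal L q ⧸ decSub L q V s,
          Units.map ((e.out : LocGal L q) : locField (q : ℕ) L →* locField (q : ℕ) L) b := by
  symm
  refine Fintype.prod_of_injective (orbitMap L q V s) (orbitMap_injective L q V s) _ _ ?_ ?_
  · intro c hc
    by_contra h
    apply hc
    apply mem_range_orbitMap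
    by_contra h'
    exact h (singleFam_of_not h')
  · intro e
    obtain ⟨v, hv, h⟩ := out_orbitMap L q V s e
    rw [h, singleFam_eq hb _ hv]

end Single


section Idele

open scoped Classical

variable (p : ℕ) [hp : Fact p.Prime] (k : ℕ)
variable (L : IntermediateField ℚ Qb) [FiniteDimensional ℚ L] [IsGalois ℚ L]
  (T : Finset Nat.Primes) (V : Subgroup (L ≃ₐ[ℚ] L)) (q : T) (s : L ≃ₐ[ℚ] L)

/-- the `V`-invariant `T`-idele supported at the single place `ι ∘ s` of `K = L^V` over `q`,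
with component `b ∈ K_w = L_q^{D_s}` there. -/
def singleIdele (b : (locField ((q : Nat.Primes) : ℕ) L)ˣ)
    (hb : ∀ d ∈ decSub L (q : Nat.Primes) V s,
      Units.map ((d : LocGal L (q : Nat.Primes)) :
        locField ((q : Nat.Primes) : ℕ) L →* locField ((q : Nat.Primes) : ℕ) L) b = b) :
    J L T :=
  Pi.single (M := fun q' : T => JqCarrier L (q' : Nat.Primes)) q
    (singleJq L (q : Nat.Primes) V s b hb)

theorem singleIdele_same (b : (locField ((q : Nat.Primes) : ℕ) L)ˣ) (hb) :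
    singleIdele L T V q s b hb q = singleJq L (q : Nat.Primes) V s b hb :=
  Pi.single_eq_same (M := fun q' : T => JqCarrier L (q' : Nat.Primes)) q _

theorem singleIdele_of_ne (b : (locField ((q : Nat.Primes) : ℕ) L)ˣ) (hb) {q' : T} (h : q' ≠ q) :
    singleIdele L T V q s b hb q' = 0 :=
  Pi.single_eq_of_ne (M := fun q' : T => JqCarrier L (q' : Nat.Primes)) h _

theorem singleIdele_mem_JInv (b : (locField ((q : Nat.Primes) : ℕ) L)ˣ) (hb) :
    singleIdele L T V q s b hb ∈ JInv L V T := by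
  intro q'
  by_cases h : q' = q
  · subst h
    rw [singleIdele_same]
    exact singleJq_mem L (q' : Nat.Primes) V s b hb
  · rw [singleIdele_of_ne L T V q s b hb h]
    exact (JqInv L (q' : Nat.Primes) V).zero_mem

/-- the `q'`-component of the relative norm, evaluated at `1`, is the product over `G/V` of the
values. -/
theorem val_relNorm_one (y : J L T) (q' : T) :
    JqCarrier.val L q' ((relNorm (J L T).ρ V y) q') 1
      = letI := Fintype.ofFinite ((L ≃ₐ[ℚ] L) ⧸ V)
        ∏ c : (L ≃ₐ[ℚ] L) ⧸ V, JqCarrier.val L q' (y q') c.out := by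
  let _ : Fintype ((L ≃ₐ[ℚ] L) ⧸ V) := Fintype.ofFinite _
  rw [relNorm_apply]
  have h1 : (∑ c : (L ≃ₐ[ℚ] L) ⧸ V, (J L T).ρ c.out y) q'
      = ∑ c : (L ≃ₐ[ℚ] L) ⧸ V, JqRep L q' c.out (y q') := by
    exact map_sum (LinearMap.proj (R := ℤ)
      (φ := fun q : T => JqCarrier L (q : Nat.Primes)) q') _ _
  rw [h1, val_sum]
  refine Finset.prod_congr rfl fun c _ => ?_
  have := Funct.val_JqRep (M := L) (q := (q' : Nat.Primes)) c.out 1 (y q')
  rw [this, one_mul]

/-- **the norm of a single-place idele**: `N_{K/ℚ}` of the idele supported at the place `ι ∘ s`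
with component `b` is the idele of `ℚ` supported at `q` with component `N_{K_w/ℚ_q} b`. -/
theorem evalTop_relNorm_singleIdele [Fintype (LocGal L (q : Nat.Primes) ⧸ decSub L (q : Nat.Primes) V s)]
    (b : (locField ((q : Nat.Primes) : ℕ) L)ˣ) (hb) :
    evalTop L T (relNorm (J L T).ρ V (singleIdele L T V q s b hb))
      = Pi.mulSingle (M := fun q' : T => ℚ_[((q' : Nat.Primes) : ℕ)]ˣ) q
          (descend ((q : Nat.Primes) : ℕ) (locField ((q : Nat.Primes) : ℕ) L)
            (∏ e : LocGal L (q : Nat.Primes) ⧸ decSub L (q : Nat.Primes) V s,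
              Units.map ((e.out : LocGal L (q : Nat.Primes)) :
                locField ((q : Nat.Primes) : ℕ) L →* locField ((q : Nat.Primes) : ℕ) L) b)) := by
  funext q'
  unfold evalTop
  rw [val_relNorm_one]
  by_cases h : q' = q
  · subst h
    rw [Pi.mulSingle_eq_same, singleIdele_same]
    congr 1
    let _ : Fintype ((L ≃ₐ[ℚ] L) ⧸ V) := Fintype.ofFinite _
    exact prod_singleFam L (q' : Nat.Primes) V s hb
  · rw [Pi.mulSingle_eq_of_ne h, singleIdele_of_ne L T V q s b hb h]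
    have : ∀ c : (L ≃ₐ[ℚ] L) ⧸ V, JqCarrier.val L (q' : Nat.Primes) 0 c.out = 1 := fun _ => rfl
    simp only [this, Finset.prod_const_one]
    exact descend_one _ _

/-- the local component at `q` of the explicit idelic Artin map of `ℚ(ζ_{p^(k+1)})/ℚ`. -/
def psiLoc (hpT : pp p ∈ T) : ℚ_[((q : Nat.Primes) : ℕ)]ˣ →* (ZMod (p ^ (k + 1)))ˣ :=
  (thetaQ p k T hpT).comp (MonoidHom.mulSingle (fun q' : T => ℚ_[((q' : Nat.Primes) : ℕ)]ˣ) q)

/-- **`Θ_V` of a single-place idele** is the local symbol of the local norm. -/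
theorem Theta_singleIdele (hpT : pp p ∈ T)
    [Fintype (LocGal L (q : Nat.Primes) ⧸ decSub L (q : Nat.Primes) V s)]
    (b : (locField ((q : Nat.Primes) : ℕ) L)ˣ) (hb) :
    Theta p k L T hpT V (singleIdele L T V q s b hb)
      = psiLoc p k T q hpT
          (descend ((q : Nat.Primes) : ℕ) (locField ((q : Nat.Primes) : ℕ) L)
            (∏ e : LocGal L (q : Nat.Primes) ⧸ decSub L (q : Nat.Primes) V s,
              Units.map ((e.out : LocGal L (q : Nat.Primes)) :
                locField ((q : Nat.Primes) : ℕ) L →* locField ((q : Nat.Primes) : ℕ) L) b)) := by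
  unfold Theta
  rw [evalTop_relNorm_singleIdele]
  rfl

end Idele

end Fermat.Agent.GC.Global.WRec
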