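/-
GATE-C / C4 (CL-LOC) LOCAL IMAGE, part 1 (helper67): the local theorem.

`L/K` finite Galois extension of `q`-adic fields, `D = Gal(L/K)`, `M/K` a finite Galois
subextension (`i : M →ₐ[K] L`) with an injective character `χ : Gal(M/K) →* C` into a finite
cyclic group `C`, `ψ : Kˣ →* C` a "symbol" whose kernel consists of norms from `M`.
For every subgroup `Ds ≤ D` (`E = L^{Ds}`) and every `d ∈ Ds`:

  `χ(d|_M) = ψ(N_{E/K} b)` for some `b ∈ Eˣ = (Lˣ)^{Ds}`      (`exists_symbol_eq_chi`).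

Proof: `b ↦ ψ(N_{E/K} b)` has kernel inside `{b | N_{E/K} b ∈ N_{M/K} Mˣ}`, of index
`[Ds : Ds ⊓ Gal(L/M)]` in `Eˣ` by (N1)+(N2) (`local_relIndex_normPre`); so the order of
`χ(Ds|_M)` divides the order of the image, and subgroups of a finite cyclic group are ordered by
divisibility of their orders.
-/
import Mathlib
import Fermat.Agent.GC.Local.NormLim.NormIndex
import Fermat.Agent.GC.Global.Funct.GalRes

set_option autoImplicit false
set_option linter.unusedSectionVars false

open scoped Padic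
open Fermat.Agent.GC.Local.NormLim Fermat.Agent.GC.Global.Funct

noncomputable section

namespace Fermat.Agent.GC.Global.WRec

section Cyclic

/-- In a finite cyclic group, a subgroup whose order divides the order of another subgroup is
contained in it. -/
@[to_additive]
theorem le_of_card_dvd_of_isCyclic {C : Type*} [Group C] [Finite C] [IsCyclic C]
    (H₁ H₂ : Subgroup C) (h : Nat.card H₁ ∣ Nat.card H₂) : H₁ ≤ H₂ := by
  classical
  have := Fintype.ofFinite C
  have hnpos : 0 < Nat.card H₂ := Nat.card_pos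
  have hS : (Finset.univ.filter fun x : C => x ^ Nat.card H₂ = 1).card ≤ Nat.card H₂ :=
    IsCyclic.card_pow_eq_one_le hnpos
  have hsub : (Finset.univ.filter fun x : C => x ∈ H₂) ⊆
      Finset.univ.filter fun x : C => x ^ Nat.card H₂ = 1 := by
    intro x hx
    simp only [Finset.mem_filter, Finset.mem_univ, true_and] at hx ⊢
    have h1 : (⟨x, hx⟩ : H₂) ^ Nat.card H₂ = 1 := pow_card_eq_one'
    exact congrArg Subtype.val h1
  have hcard : (Finset.univ.filter fun x : C => x ∈ H₂).card = Nat.card H₂ := by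
    rw [Nat.card_eq_fintype_card, Fintype.card_subtype]
  have heq := Finset.eq_of_subset_of_card_le hsub (by rw [hcard]; exact hS)
  intro x hx
  have hx1 : x ^ Nat.card H₂ = 1 := by
    obtain ⟨m, hm⟩ := h
    have h1 : (⟨x, hx⟩ : H₁) ^ Nat.card H₁ = 1 := pow_card_eq_one'
    have h2 : x ^ Nat.card H₁ = 1 := congrArg Subtype.val h1
    rw [hm, pow_mul, h2, one_pow]
  have hmem : x ∈ Finset.univ.filter fun x : C => x ^ Nat.card H₂ = 1 :=
    Finset.mem_filter.2 ⟨Finset.mem_univ _, hx1⟩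
  rw [← heq] at hmem
  exact (Finset.mem_filter.1 hmem).2

end Cyclic

section Base

variable (K L : Type) [Field K] [Field L] [Algebra K L] [FiniteDimensional K L] [IsGalois K L]

/-- `Kˣ → (Lˣ)^G`, additively. -/
def baseAdd : Additive Kˣ →+ invAdd (Rep.ofAlgebraAutOnUnits K L).ρ ⊤ where
  toFun x := ⟨Additive.ofMul (Units.map (algebraMap K L : K →* L) (Additive.toMul x)),
    fun g _ => by
      apply Additive.toMul.injective
      apply Units.ext
      exact g.commutes _⟩
  map_zero' := by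
    apply Subtype.ext
    change Additive.ofMul (Units.map (algebraMap K L : K →* L) 1) = 0
    rw [map_one]
    rfl
  map_add' x y := by
    apply Subtype.ext
    change Additive.ofMul (Units.map (algebraMap K L : K →* L)
      (Additive.toMul x * Additive.toMul y)) = _
    rw [map_mul]
    rfl

lemma coe_baseAdd (x : Additive Kˣ) :
    ((Additive.toMul (α := Lˣ) (baseAdd K L x).1 : Lˣ) : L) =
      algebraMap K L ((Additive.toMul x : Kˣ) : K) := rfl

lemma baseAdd_bijective : Function.Bijective (baseAdd K L) := by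
  constructor
  · intro x y hxy
    apply Additive.toMul.injective
    apply Units.ext
    apply (algebraMap K L).injective
    rw [← coe_baseAdd, ← coe_baseAdd, hxy]
  · intro y
    have hfix : ∀ g : L ≃ₐ[K] L, g ((Additive.toMul (α := Lˣ) y.1 : Lˣ) : L) =
        ((Additive.toMul (α := Lˣ) y.1 : Lˣ) : L) := by
      intro g
      have := y.2 g (Subgroup.mem_top g)
      exact congrArg (fun u : Additive Lˣ => ((Additive.toMul u : Lˣ) : L)) this
    have h1 : ((Additive.toMul (α := Lˣ) y.1 : Lˣ) : L) ∈ (⊥ : IntermediateField K L) :=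
      (IsGalois.mem_bot_iff_fixed _).2 hfix
    rw [IntermediateField.mem_bot] at h1
    obtain ⟨a, ha⟩ := h1
    have ha0 : a ≠ 0 := by
      rintro rfl
      rw [map_zero] at ha
      exact (Additive.toMul (α := Lˣ) y.1 : Lˣ).ne_zero ha.symm
    refine ⟨Additive.ofMul (Units.mk0 a ha0), ?_⟩
    apply Subtype.ext
    apply Additive.toMul.injective
    apply Units.ext
    exact ha

/-- `Kˣ ≃ (Lˣ)^G`. -/
def baseEquiv : Additive Kˣ ≃+ invAdd (Rep.ofAlgebraAutOnUnits K L).ρ ⊤ :=
  AddEquiv.ofBijective (baseAdd K L) (baseAdd_bijective K L)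

lemma baseEquiv_apply (x : Additive Kˣ) : baseEquiv K L x = baseAdd K L x := rfl

/-- a sum of translates in `Additive Lˣ` is a product of conjugates in `L`. -/
lemma coe_toMul_sum_rho_finset {ι : Type*} (s : Finset ι) (g : ι → L ≃ₐ[K] L) (u : Lˣ) :
    ((Additive.toMul (α := Lˣ)
      (∑ c ∈ s, (Rep.ofAlgebraAutOnUnits K L).ρ (g c) (Additive.ofMul (α := Lˣ) u)) : Lˣ) : L) =
      ∏ c ∈ s, g c (u : L) := by
  change ((Additive.toMul (∑ c ∈ s, Additive.ofMul (g c • u)) : Lˣ) : L) = _
  rw [toMul_sum, Units.coe_prod]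
  rfl

end Base

section Main

variable (q : ℕ) [Fact q.Prime] (K L : Type) [Field K] [Field L]
  [Algebra ℚ_[q] K] [Algebra ℚ_[q] L] [Algebra K L] [IsScalarTower ℚ_[q] K L]
  [FiniteDimensional ℚ_[q] L] [FiniteDimensional K L] [IsGalois K L]
  {M : Type} [Field M] [Algebra K M] [FiniteDimensional K M] [IsGalois K M] (i : M →ₐ[K] L)
  {C : Type*} [CommGroup C] [Finite C] [IsCyclic C]
  (ψ : Kˣ →* C) (χ : (M ≃ₐ[K] M) →* C)
  (Ds : Subgroup (L ≃ₐ[K] L))

/-- `N_{E/K} : (Lˣ)^{Ds} → (Lˣ)^G`. -/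
def normToTop : invAdd (Rep.ofAlgebraAutOnUnits K L).ρ Ds →+
    invAdd (Rep.ofAlgebraAutOnUnits K L).ρ ⊤ where
  toFun b := ⟨relNorm (Rep.ofAlgebraAutOnUnits K L).ρ Ds b.1, fun g _ => by
    let _ : Fintype ((L ≃ₐ[K] L) ⧸ Ds) := Fintype.ofFinite _
    exact rho_relNorm b.2 g⟩
  map_zero' := Subtype.ext (map_zero _)
  map_add' x y := Subtype.ext (map_add _ _ _)

/-- the symbol of the norm: `b ↦ ψ(N_{E/K} b)` on `(Lˣ)^{Ds}`. -/
def symbolNorm : invAdd (Rep.ofAlgebraAutOnUnits K L).ρ Ds →+ Additive C :=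
  (MonoidHom.toAdditive ψ).comp
    ((baseEquiv K L).symm.toAddMonoidHom.comp (normToTop K L Ds))

/-- the element of `Kˣ` with image `N_{E/K} b`. -/
def normBase (b : invAdd (Rep.ofAlgebraAutOnUnits K L).ρ Ds) : Kˣ :=
  Additive.toMul ((baseEquiv K L).symm (normToTop K L Ds b))

lemma symbolNorm_apply (b : invAdd (Rep.ofAlgebraAutOnUnits K L).ρ Ds) :
    symbolNorm K L ψ Ds b = Additive.ofMul (ψ (normBase K L Ds b)) := rfl

lemma coe_normBase (b : invAdd (Rep.ofAlgebraAutOnUnits K L).ρ Ds) :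
    Additive.ofMul (α := Lˣ) (Units.map (algebraMap K L : K →* L) (normBase K L Ds b)) =
      relNorm (Rep.ofAlgebraAutOnUnits K L).ρ Ds b.1 := by
  have h := (baseEquiv K L).apply_symm_apply (normToTop K L Ds b)
  exact congrArg Subtype.val h

/-- norms from `M` are norms from `(Lˣ)^{Gal(L/M)}` in coset form. -/
lemma base_norm_mem_normTop (w : Mˣ) :
    Additive.ofMul (α := Lˣ) (Units.map (algebraMap K L : K →* L)
      (Units.map (Algebra.norm K : M →* K) w)) ∈
      normTop (Rep.ofAlgebraAutOnUnits K L).ρ (GalRes.res i).ker := by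
  classical
  let _ : Fintype ((L ≃ₐ[K] L) ⧸ (GalRes.res i).ker) := Fintype.ofFinite _
  refine (mem_normTop (Rep.ofAlgebraAutOnUnits K L).ρ).2
    ⟨Additive.ofMul (α := Lˣ) (Units.map (i : M →* L) w), ?_, ?_⟩
  · intro d hd
    apply Additive.toMul.injective
    apply Units.ext
    change d (i (w : M)) = i (w : M)
    rw [← GalRes.apply_res i d, MonoidHom.mem_ker.1 hd]
    rfl
  · rw [relNorm_apply]
    apply Additive.toMul.injective
    apply Units.ext
    refine (coe_toMul_sum_rho_finset K L Finset.univ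
      (fun c : (L ≃ₐ[K] L) ⧸ (GalRes.res i).ker => (c.out : L ≃ₐ[K] L))
      (Units.map (i : M →* L) w)).trans ?_
    change ∏ c : (L ≃ₐ[K] L) ⧸ (GalRes.res i).ker, (c.out : L ≃ₐ[K] L) (i (w : M)) =
      algebraMap K L (Algebra.norm K (w : M))
    have h1 : ∀ c : (L ≃ₐ[K] L) ⧸ (GalRes.res i).ker,
        (c.out : L ≃ₐ[K] L) (i (w : M)) = i (GalRes.res i c.out (w : M)) :=
      fun c => (GalRes.apply_res i c.out _).symm
    simp_rw [h1]
    rw [← map_prod]
    have h2 : ∏ c : (L ≃ₐ[K] L) ⧸ (GalRes.res i).ker, GalRes.res i c.out (w : M) =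
        ∏ σ : M ≃ₐ[K] M, σ (w : M) := by
      refine Fintype.prod_bijective (fun c : (L ≃ₐ[K] L) ⧸ (GalRes.res i).ker =>
        GalRes.res i c.out) ⟨?_, ?_⟩ _ _ (fun _ => rfl)
      · intro c c' hcc
        simp only at hcc
        rw [← QuotientGroup.out_eq' c, ← QuotientGroup.out_eq' c']
        apply QuotientGroup.eq.mpr
        rw [MonoidHom.mem_ker, map_mul, map_inv, hcc, inv_mul_cancel]
      · intro σ
        obtain ⟨g, rfl⟩ := GalRes.res_surjective i σ
        refine ⟨QuotientGroup.mk g, ?_⟩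
        simp only
        have h3 := QuotientGroup.eq.mp
          (QuotientGroup.out_eq' (QuotientGroup.mk g : (L ≃ₐ[K] L) ⧸ (GalRes.res i).ker))
        rw [MonoidHom.mem_ker, map_mul, map_inv, inv_mul_eq_one] at h3
        exact h3
    rw [h2, ← Algebra.norm_eq_prod_automorphisms, AlgHom.commutes]

variable (hψ : ∀ x, ψ x = 1 → ∃ w : Mˣ, Units.map (Algebra.norm K : M →* K) w = x)
  (hχ : Function.Injective χ)

include hψ in
/-- the kernel of the symbol of the norm consists of elements whose norm is a norm from `M`. -/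
lemma ker_symbolNorm_le :
    (symbolNorm K L ψ Ds).ker ≤
      ((normTop (Rep.ofAlgebraAutOnUnits K L).ρ (GalRes.res i).ker).comap
        (relNorm (Rep.ofAlgebraAutOnUnits K L).ρ Ds).toAddMonoidHom).addSubgroupOf
        (invAdd (Rep.ofAlgebraAutOnUnits K L).ρ Ds) := by
  intro b hb
  rw [AddMonoidHom.mem_ker, symbolNorm_apply] at hb
  have hb1 : ψ (normBase K L Ds b) = 1 := hb
  obtain ⟨w, hw⟩ := hψ _ hb1
  rw [AddSubgroup.mem_addSubgroupOf, AddSubgroup.mem_comap]
  change relNorm (Rep.ofAlgebraAutOnUnits K L).ρ Ds b.1 ∈ _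
  rw [← coe_normBase, ← hw]
  exact base_norm_mem_normTop K L i w

include q hψ hχ in
/-- **Local image theorem**: for `d ∈ Ds`, `χ(d|_M)` is the symbol of the norm of some
`b ∈ (Lˣ)^{Ds}`. -/
theorem exists_symbol_eq_chi (d : L ≃ₐ[K] L) (hd : d ∈ Ds) :
    ∃ b : invAdd (Rep.ofAlgebraAutOnUnits K L).ρ Ds,
      ψ (normBase K L Ds b) = χ (GalRes.res i d) := by
  set N : Subgroup (L ≃ₐ[K] L) := (GalRes.res i).ker with hN
  have hcycQ : IsCyclic ((L ≃ₐ[K] L) ⧸ N) :=
    isCyclic_of_injective (χ.comp (QuotientGroup.kerLift (GalRes.res i)))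
      (hχ.comp (QuotientGroup.kerLift_injective (GalRes.res i)))
  -- index of the kernel
  have hidx := local_relIndex_normPre q K L Ds N
  have hker := ker_symbolNorm_le K L i ψ Ds hψ
  have h1 : ((Ds ⊓ N).subgroupOf Ds).index ∣ Nat.card (symbolNorm K L ψ Ds).range := by
    rw [← AddSubgroup.index_ker, ← hidx]
    exact AddSubgroup.index_dvd_of_le hker
  -- the character on `Ds`
  let X : Ds →* C := (χ.comp (GalRes.res i)).comp Ds.subtype
  have hXker : X.ker = (Ds ⊓ N).subgroupOf Ds := by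
    ext v
    rw [MonoidHom.mem_ker, Subgroup.inf_subgroupOf_left, Subgroup.mem_subgroupOf, hN,
      MonoidHom.mem_ker]
    change χ (GalRes.res i v) = 1 ↔ _
    rw [← map_one χ, hχ.eq_iff]
  have h2 : Nat.card X.range ∣ Nat.card (symbolNorm K L ψ Ds).range := by
    rw [← Subgroup.index_ker, hXker]
    exact h1
  have h3 : Nat.card (Subgroup.toAddSubgroup X.range) = Nat.card X.range :=
    Nat.card_congr (Equiv.subtypeEquiv Additive.toMul (fun _ => Iff.rfl))
  have h4 := le_of_card_dvd_of_isAddCyclic (Subgroup.toAddSubgroup X.range)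
    (symbolNorm K L ψ Ds).range (by rw [h3]; exact h2)
  have h5 : Additive.ofMul (χ (GalRes.res i d)) ∈ Subgroup.toAddSubgroup X.range :=
    ⟨⟨d, hd⟩, rfl⟩
  obtain ⟨b, hb⟩ := h4 h5
  exact ⟨b, Additive.ofMul.injective hb⟩

end Main

end Fermat.Agent.GC.Global.WRec
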