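/-
GATE-C / C4 (CL-LOC) LOCAL IMAGE, part 3 (helper67): the decomposition groups lie in the image of
the explicit reciprocity functional.

`L'` a layer containing `M_k = ℚ(ζ_{p^(k+1)})`, `V ≤ G_{L'}` (`K = L'^V`), `q ∈ T`, `s ∈ G_{L'}`,
`d ∈ Gal(L'_q/ℚ_q)` with `s⁻¹ dec(d) s ∈ V` (i.e. `d` lies in the decomposition group `D_s` of
the place `ι ∘ s` of `K`).  Then there is a `V`-invariant `T`-idele `y`, supported at the single
place `ι ∘ s` (in particular with trivial components at all `q' ≠ q`), with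

  `Θ_V(y) = χ_cyc(dec(d))`.

Proof: `Θ_V(y) = ψ_q(N_{K_w/ℚ_q} b)` for the single-place idele with component `b ∈ K_wˣ`
(`LocImageIdele`), the kernel of `ψ_q` is the norm group of `ℚ_q(ζ)/ℚ_q` (`SymbolKernel`), and the
local norm index theorem (`LocImageLocal.exists_symbol_eq_chi`).
-/
import Mathlib
import Fermat.Agent.GC.Global.WRec.LocImageIdele
import Fermat.Agent.GC.Global.WRec.LocImageLocal
import Fermat.Agent.GC.Global.WRec.SymbolKernel

set_option autoImplicit false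
set_option linter.unusedSectionVars false

open scoped Padic
open IntermediateField

noncomputable section

namespace Fermat.Agent.GC.Global.WRec

open Fermat.Agent.GC.Global Fermat.Agent.GC.Global.Adapter Fermat.Agent.GC.Local.NormLim

section LocImage

open scoped Classical

variable (p : ℕ) [hp : Fact p.Prime] (k : ℕ) (T : Finset Nat.Primes)

/-- `ψ_q` at the prime `p` is the wild symbol. -/
theorem psiLoc_pp (hpT : pp p ∈ T) (x : ℚ_[p]ˣ) :
    psiLoc p k T ⟨pp p, hpT⟩ hpT x = psiP p k x := by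
  unfold psiLoc
  rw [MonoidHom.comp_apply, thetaQ_apply]
  have h1 : ∀ q' : T, psiQ p k q'
      (MonoidHom.mulSingle (fun q' : T => ℚ_[((q' : Nat.Primes) : ℕ)]ˣ) ⟨pp p, hpT⟩ x q') = 1 := by
    intro q'
    by_cases h : q' = ⟨pp p, hpT⟩
    · subst h
      exact psiQ_pp p k _
    · rw [MonoidHom.mulSingle_apply, Pi.mulSingle_eq_of_ne h, map_one]
  rw [Finset.prod_congr rfl (fun q' _ => h1 q'), Finset.prod_const_one, one_mul]
  congr 1
  exact Pi.mulSingle_eq_same (M := fun q' : T => ℚ_[((q' : Nat.Primes) : ℕ)]ˣ) _ _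

/-- `ψ_q` at a prime `q ≠ p` is the tame (unramified) symbol. -/
theorem psiLoc_of_ne (hpT : pp p ∈ T) (q : T) (hq : q ≠ ⟨pp p, hpT⟩)
    (x : ℚ_[((q : Nat.Primes) : ℕ)]ˣ) :
    psiLoc p k T q hpT x = psiQ p k q x := by
  unfold psiLoc
  rw [MonoidHom.comp_apply, thetaQ_apply]
  have h1 : ∏ q' : T, psiQ p k q'
      (MonoidHom.mulSingle (fun q' : T => ℚ_[((q' : Nat.Primes) : ℕ)]ˣ) q x q')
      = psiQ p k q x := by
    rw [Finset.prod_eq_single q]
    · rw [MonoidHom.mulSingle_apply, Pi.mulSingle_eq_same]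
    · intro q' _ h
      rw [MonoidHom.mulSingle_apply, Pi.mulSingle_eq_of_ne h, map_one]
    · intro h
      exact absurd (Finset.mem_univ q) h
  rw [h1]
  have h2 : atP p T hpT (MonoidHom.mulSingle (fun q' : T => ℚ_[((q' : Nat.Primes) : ℕ)]ˣ) q x)
      = 1 := by
    change (MonoidHom.mulSingle (fun q' : T => ℚ_[((q' : Nat.Primes) : ℕ)]ˣ) q x) ⟨pp p, hpT⟩ = 1
    rw [MonoidHom.mulSingle_apply, Pi.mulSingle_eq_of_ne (Ne.symm hq)]
  rw [h2, map_one, mul_one]

/-- **the kernel of `ψ_q` consists of norms** from `ℚ_q(ζ_{p^(k+1)})`. -/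
theorem exists_norm_eq_of_psiLoc_eq_one (hp2 : p ≠ 2) (hpT : pp p ∈ T) (q : T)
    (x : ℚ_[((q : Nat.Primes) : ℕ)]ˣ) (hx : psiLoc p k T q hpT x = 1) :
    ∃ w : (locField ((q : Nat.Primes) : ℕ) (cycLayer p k))ˣ,
      Units.map (Algebra.norm ℚ_[((q : Nat.Primes) : ℕ)] :
        locField ((q : Nat.Primes) : ℕ) (cycLayer p k) →* ℚ_[((q : Nat.Primes) : ℕ)]) w = x := by
  by_cases hq : q = ⟨pp p, hpT⟩
  · subst hq
    rw [psiLoc_pp] at hx
    exact exists_norm_eq_of_psiP_eq_one p k hp2 x hx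
  · rw [psiLoc_of_ne p k T hpT q hq] at hx
    refine exists_norm_eq_of_psiQ_eq_one p k q ?_ x hx
    intro h
    apply hq
    apply Subtype.ext
    apply Subtype.ext
    exact h

variable {L' : IntermediateField ℚ Qb} [FiniteDimensional ℚ L'] [IsGalois ℚ L']

/-- the cyclotomic character `χ : Gal(L'/ℚ) → (ℤ/p^(k+1))ˣ` of a layer `L' ⊇ ℚ(ζ_{p^(k+1)})`. -/
def chiLayer (h : cycLayer p k ≤ L') : (L' ≃ₐ[ℚ] L') →* (ZMod (p ^ (k + 1)))ˣ :=
  (chiG p k).comp (Funct.gRes h)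

theorem chiLayer_apply (h : cycLayer p k ≤ L') (g : L' ≃ₐ[ℚ] L') :
    chiLayer p k h g = chiG p k (Funct.gRes h g) := rfl

/-- local-global compatibility: `χ(dec(d)) = χ_q(d|_{ℚ_q(ζ)})`. -/
theorem chiLayer_decHom (h : cycLayer p k ≤ L') (q : Nat.Primes) (d : LocGal L' q) :
    chiLayer p k h (decHom (q : ℕ) L' d) = chiL p k (q : ℕ) (Funct.lRes (q : ℕ) h d) := by
  rw [chiLayer_apply, ← Funct.decHom_lRes, chiG_decHom]


/-- **(CL-LOC) LOCAL IMAGE, with the single-place idele explicit**: for `d` in the decomposition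
group `D_s` there is `b ∈ (L'_qˣ)^{D_s}` such that the single-place idele with component `b` has
`Θ_V = χ(dec(d))`. -/
theorem exists_Theta_singleIdele_eq_chiLayer (hp2 : p ≠ 2) (hpT : pp p ∈ T)
    (h : cycLayer p k ≤ L') (V : Subgroup (L' ≃ₐ[ℚ] L')) (q : T) (s : L' ≃ₐ[ℚ] L')
    (d : LocGal L' (q : Nat.Primes)) (hd : s⁻¹ * decHom ((q : Nat.Primes) : ℕ) L' d * s ∈ V) :
    ∃ (b : (locField ((q : Nat.Primes) : ℕ) L')ˣ)
      (hb : ∀ d' ∈ decSub L' (q : Nat.Primes) V s,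
        Units.map ((d' : LocGal L' (q : Nat.Primes)) :
          locField ((q : Nat.Primes) : ℕ) L' →* locField ((q : Nat.Primes) : ℕ) L') b = b),
      Theta p k L' T hpT V (singleIdele L' T V q s b hb)
        = chiLayer p k h (decHom ((q : Nat.Primes) : ℕ) L' d) := by
  have hcyc : IsCyclic (ZMod (p ^ (k + 1)))ˣ :=
    ZMod.isCyclic_units_of_prime_pow p hp.out hp2 (k + 1)
  let _ : Fintype (LocGal L' (q : Nat.Primes) ⧸ decSub L' (q : Nat.Primes) V s) :=
    Fintype.ofFinite _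
  obtain ⟨b, hb⟩ := exists_symbol_eq_chi ((q : Nat.Primes) : ℕ) ℚ_[((q : Nat.Primes) : ℕ)]
    (locField ((q : Nat.Primes) : ℕ) L') (Funct.lIncl ((q : Nat.Primes) : ℕ) h)
    (psiLoc p k T q hpT) (chiL p k ((q : Nat.Primes) : ℕ)) (decSub L' (q : Nat.Primes) V s)
    (exists_norm_eq_of_psiLoc_eq_one p k T hp2 hpT q) (chiL_injective p k _) d hd
  set b' : (locField ((q : Nat.Primes) : ℕ) L')ˣ :=
    Additive.toMul (α := (locField ((q : Nat.Primes) : ℕ) L')ˣ) b.1 with hb'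
  have hfix : ∀ d' ∈ decSub L' (q : Nat.Primes) V s,
      Units.map ((d' : LocGal L' (q : Nat.Primes)) :
        locField ((q : Nat.Primes) : ℕ) L' →* locField ((q : Nat.Primes) : ℕ) L') b' = b' := by
    intro d' hd'
    apply Units.ext
    have := b.2 d' hd'
    exact congrArg (fun u : Additive (locField ((q : Nat.Primes) : ℕ) L')ˣ =>
      ((Additive.toMul u : (locField ((q : Nat.Primes) : ℕ) L')ˣ) :
        locField ((q : Nat.Primes) : ℕ) L')) this
  refine ⟨b', hfix, ?_⟩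
  rw [Theta_singleIdele, chiLayer_decHom, ← hb]
  congr 1
  have key : (∏ e : LocGal L' (q : Nat.Primes) ⧸ decSub L' (q : Nat.Primes) V s,
      Units.map ((e.out : LocGal L' (q : Nat.Primes)) :
        locField ((q : Nat.Primes) : ℕ) L' →* locField ((q : Nat.Primes) : ℕ) L') b')
      = baseUnits ((q : Nat.Primes) : ℕ) (locField ((q : Nat.Primes) : ℕ) L')
          (normBase ℚ_[((q : Nat.Primes) : ℕ)] (locField ((q : Nat.Primes) : ℕ) L')
            (decSub L' (q : Nat.Primes) V s) b) := by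
    apply Units.ext
    have h1 := coe_normBase ℚ_[((q : Nat.Primes) : ℕ)] (locField ((q : Nat.Primes) : ℕ) L')
      (decSub L' (q : Nat.Primes) V s) b
    rw [relNorm_apply] at h1
    have h2 := congrArg (fun u : Additive (locField ((q : Nat.Primes) : ℕ) L')ˣ =>
      ((Additive.toMul u : (locField ((q : Nat.Primes) : ℕ) L')ˣ) :
        locField ((q : Nat.Primes) : ℕ) L')) h1
    rw [Units.coe_prod]
    refine Eq.trans ?_ h2.symm
    exact (coe_toMul_sum_rho_finset ℚ_[((q : Nat.Primes) : ℕ)]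
      (locField ((q : Nat.Primes) : ℕ) L') Finset.univ
      (fun c : LocGal L' (q : Nat.Primes) ⧸ decSub L' (q : Nat.Primes) V s =>
        (c.out : LocGal L' (q : Nat.Primes))) b').symm
  rw [key, descend_baseUnits]

/-- **(CL-LOC) LOCAL IMAGE**: every element `χ(dec(d))`, `d` in the decomposition group of the
place `ι ∘ s` of `K = L'^V` over `q ∈ T`, is a value of the explicit reciprocity functional `Θ_V`
on a `V`-invariant `T`-idele whose components at all `q' ≠ q` vanish. -/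
theorem exists_Theta_eq_chiLayer (hp2 : p ≠ 2) (hpT : pp p ∈ T)
    (h : cycLayer p k ≤ L') (V : Subgroup (L' ≃ₐ[ℚ] L')) (q : T) (s : L' ≃ₐ[ℚ] L')
    (d : LocGal L' (q : Nat.Primes)) (hd : s⁻¹ * decHom ((q : Nat.Primes) : ℕ) L' d * s ∈ V) :
    ∃ y ∈ JInv L' V T, (∀ q' : T, q' ≠ q → y q' = 0) ∧
      Theta p k L' T hpT V y = chiLayer p k h (decHom ((q : Nat.Primes) : ℕ) L' d) := by
  obtain ⟨b, hb, hΘ⟩ := exists_Theta_singleIdele_eq_chiLayer p k T hp2 hpT h V q s d hd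
  exact ⟨singleIdele L' T V q s b hb, singleIdele_mem_JInv L' T V q s b hb,
    fun q' hq' => singleIdele_of_ne L' T V q s b hb hq', hΘ⟩

/-- (CL-LOC) in the shape consumed by `LayerSurj.hsurj_of_loc_ns`. -/
theorem exists_Theta_eq_chiLayer' (hp2 : p ≠ 2) (hpT : pp p ∈ T)
    (h : cycLayer p k ≤ L') (V : Subgroup (L' ≃ₐ[ℚ] L')) (q : T) (s : L' ≃ₐ[ℚ] L')
    (d : locField ((q : Nat.Primes) : ℕ) L' ≃ₐ[ℚ_[((q : Nat.Primes) : ℕ)]]
      locField ((q : Nat.Primes) : ℕ) L')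
    (hd : s⁻¹ * decHom ((q : Nat.Primes) : ℕ) L' d * s ∈ V) :
    ∃ y ∈ JInv L' V T, Theta p k L' T hpT V y
      = (chiG p k).comp (Funct.gRes h) (decHom ((q : Nat.Primes) : ℕ) L' d) := by
  obtain ⟨y, hy, -, hΘ⟩ := exists_Theta_eq_chiLayer p k T hp2 hpT h V q s d hd
  exact ⟨y, hy, hΘ⟩

end LocImage

end Fermat.Agent.GC.Global.WRec
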