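/-
GATE-C / C4 leaf (M2) DEG-GROW (helper68, per helper14 RULING 8): growth of the cyclotomic image.

For a layer `L`, `V ≤ Gal(L/ℚ)` and `a : ℕ` there is `k₀` such that for all `k ≥ k₀` and every layer
`L' ⊇ L, M_k = ℚ(ζ_{p^(k+1)})`, the image `χ(V')` of `V' = upV h₁ V` (the preimage of `V` in
`Gal(L'/ℚ)`) under the cyclotomic character `χ = chiLayer p k h` has at least `p ^ a · [G_L : V]`
elements; if `V` fixes `ζ_p ∈ L` it is a `p`-group and `p ^ a ∣ |χ(V')|`.
-/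
import Mathlib
import Fermat.Agent.GC.Global.WRec.LayerCardZeta
import Fermat.Agent.GC.Global.WRec.LocImage
import Fermat.Agent.GC.Global.Funct.StageIso

set_option autoImplicit false
set_option linter.unusedSectionVars false

open scoped Padic
open IntermediateField

noncomputable section

namespace Fermat.Agent.GC.Global.WRec.DegGrow

open Fermat.Agent.GC.Global Fermat.Agent.GC.Global.Adapter Fermat.Agent.GC.Global.WRec
open Fermat.Agent.GC.Global.Funct

/-! ### Group theory: the image of a subgroup of small index is large -/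

section Grp

variable {G H : Type*} [Group G] [Group H]

/-- for a surjective `f : G → H` onto a finite group and `W ≤ G` of finite index,
`|H| ≤ |f(W)| · [G : W]`. -/
theorem card_le_card_map_mul_index [Finite H] (f : G →* H) (hf : Function.Surjective f)
    (W : Subgroup G) (hW : W.index ≠ 0) :
    Nat.card H ≤ Nat.card (W.map f) * W.index := by
  have h1 : Nat.card (W.map f) * (W.map f).index = Nat.card H := (W.map f).card_mul_index
  have h2 : (W.map f).index ∣ W.index := Subgroup.index_map_dvd W hf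
  have h3 : (W.map f).index ≤ W.index := Nat.le_of_dvd (Nat.pos_of_ne_zero hW) h2
  calc Nat.card H = Nat.card (W.map f) * (W.map f).index := h1.symm
    _ ≤ Nat.card (W.map f) * W.index := Nat.mul_le_mul_left _ h3

/-- numerical core: `c · n ≥ N ≥ m · n²`, `n > 0` ⟹ `c ≥ m · n`. -/
theorem le_of_mul_sq_le {c n N m : ℕ} (hn : 0 < n) (h1 : N ≤ c * n) (h2 : m * n ^ 2 ≤ N) :
    m * n ≤ c := by
  by_contra hlt
  rw [not_le] at hlt
  have h3 : c * n < m * n * n := Nat.mul_lt_mul_of_pos_right hlt hn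
  have h4 : m * n * n = m * n ^ 2 := by ring
  omega

end Grp

variable (p : ℕ) [hp : Fact p.Prime]

/-- `|(ℤ/p^(k+1))ˣ| ≥ p^k`. -/
theorem pow_le_card_units (k : ℕ) : p ^ k ≤ Nat.card (ZMod (p ^ (k + 1)))ˣ := by
  rw [Nat.card_eq_fintype_card, ZMod.card_units_eq_totient, Nat.totient_prime_pow_succ hp.out]
  exact Nat.le_mul_of_pos_right _ (Nat.sub_pos_of_lt hp.out.one_lt)

variable {L : IntermediateField ℚ Qb} [FiniteDimensional ℚ L] [IsGalois ℚ L]

/-- the cyclotomic character of a layer `L' ⊇ M_k` is surjective -/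
theorem chiLayer_surjective (k : ℕ) {L' : IntermediateField ℚ Qb} [FiniteDimensional ℚ L']
    [IsGalois ℚ L'] (h : cycLayer p k ≤ L') : Function.Surjective (chiLayer p k h) := by
  unfold chiLayer
  rw [MonoidHom.coe_comp]
  exact (chiG_bijective p k).surjective.comp (GalRes.res_surjective (gIncl h))

/-- the index of `V' = upV h₁ V` in `Gal(L'/ℚ)` is the index of `V` in `Gal(L/ℚ)` -/
theorem index_upV {L' : IntermediateField ℚ Qb} [FiniteDimensional ℚ L'] [IsGalois ℚ L']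
    (h₁ : L ≤ L') (V : Subgroup (L ≃ₐ[ℚ] L)) : (upV h₁ V).index = V.index :=
  Subgroup.index_comap_of_surjective V (GalRes.res_surjective (gIncl h₁))

/-- basic bound: `p ^ k ≤ |χ(V')| · [G_L : V]` for every layer `L' ⊇ L · M_k` -/
theorem pow_le_card_map_chiLayer_mul_index (k : ℕ) {L' : IntermediateField ℚ Qb}
    [FiniteDimensional ℚ L'] [IsGalois ℚ L'] (h₁ : L ≤ L') (h : cycLayer p k ≤ L')
    (V : Subgroup (L ≃ₐ[ℚ] L)) :
    p ^ k ≤ Nat.card ((upV h₁ V).map (chiLayer p k h)) * V.index := by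
  have hidx' : (upV h₁ V).index ≠ 0 := by
    rw [index_upV]; exact Subgroup.index_ne_zero_of_finite
  have h1 := card_le_card_map_mul_index (chiLayer p k h) (chiLayer_surjective p k h)
    (upV h₁ V) hidx'
  rw [index_upV] at h1
  exact le_trans (pow_le_card_units p k) h1

/-- **(M2) DEG-GROW**: for `k` large, the cyclotomic image of `V' = Gal(L'/K)` has at least
`p ^ a · [G_L : V]` elements, uniformly in the layer `L' ⊇ L · M_k`. -/
theorem exists_le_card_map_chiLayer (V : Subgroup (L ≃ₐ[ℚ] L)) (a : ℕ) :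
    ∃ k₀ : ℕ, ∀ k : ℕ, k₀ ≤ k → ∀ (L' : IntermediateField ℚ Qb) [FiniteDimensional ℚ L']
      [IsGalois ℚ L'] (h₁ : L ≤ L') (h : cycLayer p k ≤ L'),
      p ^ a * V.index ≤ Nat.card ((upV h₁ V).map (chiLayer p k h)) := by
  have hidx : V.index ≠ 0 := Subgroup.index_ne_zero_of_finite
  refine ⟨a + V.index ^ 2, fun k hk L' _ _ h₁ h => ?_⟩
  have hidx' : (upV h₁ V).index ≠ 0 := by rw [index_upV]; exact hidx
  have h1 := card_le_card_map_mul_index (chiLayer p k h) (chiLayer_surjective p k h)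
    (upV h₁ V) hidx'
  rw [index_upV] at h1
  have h2 : p ^ a * V.index ^ 2 ≤ Nat.card (ZMod (p ^ (k + 1)))ˣ := by
    calc p ^ a * V.index ^ 2 ≤ p ^ a * p ^ (V.index ^ 2) := by
          apply Nat.mul_le_mul_left
          exact (Nat.lt_pow_self hp.out.one_lt).le
      _ = p ^ (a + V.index ^ 2) := (pow_add _ _ _).symm
      _ ≤ p ^ k := Nat.pow_le_pow_right hp.out.pos hk
      _ ≤ _ := pow_le_card_units p k
  exact le_of_mul_sq_le (Nat.pos_of_ne_zero hidx) h1 h2

/-- divisibility form: if moreover `χ(V')` is a `p`-group, `p ^ a` divides its order -/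
theorem exists_pow_dvd_card_map_chiLayer (V : Subgroup (L ≃ₐ[ℚ] L)) (a : ℕ) :
    ∃ k₀ : ℕ, ∀ k : ℕ, k₀ ≤ k → ∀ (L' : IntermediateField ℚ Qb) [FiniteDimensional ℚ L']
      [IsGalois ℚ L'] (h₁ : L ≤ L') (h : cycLayer p k ≤ L'),
      IsPGroup p ((upV h₁ V).map (chiLayer p k h)) →
      p ^ a ∣ Nat.card ((upV h₁ V).map (chiLayer p k h)) := by
  obtain ⟨k₀, hk₀⟩ := exists_le_card_map_chiLayer p V a
  refine ⟨k₀, fun k hk L' _ _ h₁ h hP => ?_⟩
  obtain ⟨n, hn⟩ := hP.exists_card_eq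
  have h1 := hk₀ k hk L' h₁ h
  rw [hn] at h1 ⊢
  have hidx : 0 < V.index := Nat.pos_of_ne_zero Subgroup.index_ne_zero_of_finite
  have h2 : p ^ a ≤ p ^ n := le_trans (Nat.le_mul_of_pos_right _ hidx) h1
  exact pow_dvd_pow p ((Nat.pow_le_pow_iff_right hp.out.one_lt).1 h2)

/-- an element of `V' = upV h₁ V` fixes `ζ ∈ L ⊆ L'` as soon as `V` does -/
theorem upV_fixes {L' : IntermediateField ℚ Qb} [FiniteDimensional ℚ L'] [IsGalois ℚ L']
    (h₁ : L ≤ L') (V : Subgroup (L ≃ₐ[ℚ] L)) (ζ : L) (hVζ : ∀ v ∈ V, v ζ = ζ) :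
    ∀ v' ∈ upV h₁ V, v' (gIncl h₁ ζ) = gIncl h₁ ζ := by
  intro v' hv'
  rw [← GalRes.apply_res (gIncl h₁) v' ζ]
  exact congrArg (gIncl h₁) (hVζ _ hv')

/-- `χ(V')` is a `p`-group when `V` fixes a primitive `p`-th root of unity of `L` -/
theorem isPGroup_map_chiLayer_of_zeta (k : ℕ) {L' : IntermediateField ℚ Qb}
    [FiniteDimensional ℚ L'] [IsGalois ℚ L'] (h₁ : L ≤ L') (h : cycLayer p k ≤ L')
    (V : Subgroup (L ≃ₐ[ℚ] L)) (ζ : L) (hζ : IsPrimitiveRoot ζ p) (hVζ : ∀ v ∈ V, v ζ = ζ) :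
    IsPGroup p ((upV h₁ V).map (chiLayer p k h)) := by
  apply LayerCard.isPGroup_map_of_pow (V := upV h₁ V) (χ := chiLayer p k h) p k
  exact LayerCard.hVp_of_zeta p k h (gIncl h₁ ζ)
    (hζ.map_of_injective (gIncl h₁).toRingHom.injective) (upV h₁ V)
    (upV_fixes h₁ V ζ hVζ)

/-- **(M2) DEG-GROW, ζ-form**: if `V` fixes `ζ_p ∈ L`, then for `k` large `p ^ a` divides
`|χ(V')|`, uniformly in `L' ⊇ L · M_k`. -/
theorem exists_pow_dvd_card_map_chiLayer_of_zeta (V : Subgroup (L ≃ₐ[ℚ] L)) (a : ℕ) (ζ : L)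
    (hζ : IsPrimitiveRoot ζ p) (hVζ : ∀ v ∈ V, v ζ = ζ) :
    ∃ k₀ : ℕ, ∀ k : ℕ, k₀ ≤ k → ∀ (L' : IntermediateField ℚ Qb) [FiniteDimensional ℚ L']
      [IsGalois ℚ L'] (h₁ : L ≤ L') (h : cycLayer p k ≤ L'),
      p ^ a ∣ Nat.card ((upV h₁ V).map (chiLayer p k h)) := by
  obtain ⟨k₀, hk₀⟩ := exists_pow_dvd_card_map_chiLayer p V a
  exact ⟨k₀, fun k hk L' _ _ h₁ h =>
    hk₀ k hk L' h₁ h (isPGroup_map_chiLayer_of_zeta p k h₁ h V ζ hζ hVζ)⟩

end Fermat.Agent.GC.Global.WRec.DegGrow
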