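/-
GATE-C / C4 leaf (FC-nz) (helper68, per helper14 2394): a finite `K ∋ ζ_p`, unramified outside
`S ∋ p`, has layers `L ⊇ K` (finite Galois over `ℚ`, unramified outside `S`) with `p ∣ [L : K]`
— cofinally many, in helper12's `LayerTower.Layer S K` language: `∃ ℓ, p ∣ Nat.card (Q ℓ)`.
The layer is `ℓ₁.L · ℚ(ζ_{p^(k+1)})` with `p ^ k > [Gal(ℓ₁.L/ℚ) : Gal(ℓ₁.L/K)]`.
-/
import Mathlib
import Fermat.Agent.GC.Global.WRec.DegGrow
import Fermat.Agent.GC.Global.Funct.LayerSup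
import Fermat.Agent.GC.Global.Limit.LayerTower

set_option autoImplicit false
set_option linter.unusedSectionVars false

open scoped Padic
open IntermediateField

noncomputable section

namespace Fermat.Agent.GC.Global.WRec.DegGrow

open Fermat.Agent.GC.Global Fermat.Agent.GC.Global.Adapter Fermat.Agent.GC.Global.WRec
open Fermat.Agent.GC.Global.Funct Fermat.Agent.GC.Global.Limit.LayerTower

variable (p : ℕ) [hp : Fact p.Prime]

/-- `upV h₁ (Gal(L/K)) ≤ Gal(L'/K)` for `K ≤ L ≤ L'` -/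
theorem upV_galK_le {K L L' : IntermediateField ℚ Qb} [FiniteDimensional ℚ L] [IsGalois ℚ L]
    [FiniteDimensional ℚ L'] [IsGalois ℚ L'] (hKL : K ≤ L) (h₁ : L ≤ L') :
    upV h₁ (galK K L) ≤ galK K L' := by
  intro σ hσ x hx
  have hσ' : gRes h₁ σ ∈ galK K L := hσ
  have hy := hσ' ⟨(x : Qb), hKL hx⟩ hx
  have hxy : x = gIncl h₁ ⟨(x : Qb), hKL hx⟩ := Subtype.ext rfl
  rw [hxy, ← GalRes.apply_res (gIncl h₁) σ, hy]

variable {S : Finset Nat.Primes} {K : IntermediateField ℚ Qb}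

/-- the transition maps `Gal(L'/K) → Gal(L/K)` of the stage groups are surjective -/
theorem tau_surjective {ℓ ℓ' : Layer S K} (h : ℓ ≤ ℓ') : Function.Surjective (tau h) := by
  intro σ
  obtain ⟨g, rfl⟩ := piK_surjective K ℓ.L ℓ.le σ
  exact ⟨piK K ℓ'.L g, tau_piK h g⟩

/-- `[L : K] ∣ [L' : K]` for layers `L ≤ L'` -/
theorem card_Q_dvd_of_le {ℓ ℓ' : Layer S K} (h : ℓ ≤ ℓ') :
    Nat.card (Q ℓ) ∣ Nat.card (Q ℓ') :=
  Subgroup.card_dvd_of_surjective (tau h) (tau_surjective h)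

/-- **(FC-nz), cofinal form**: above every layer `ℓ₁` of a finite `K ∋ ζ_p` (unramified outside
`S ∋ p`) there is a layer `ℓ` with `p ∣ [ℓ.L : K]`, namely `ℓ₁.L · ℚ(ζ_{p^(k+1)})`, `k` large. -/
theorem exists_layer_ge_dvd_card (hpS : pp p ∈ S) {ζ : Qb} (hζ : IsPrimitiveRoot ζ p)
    (hζK : ζ ∈ K) (ℓ₁ : Layer S K) : ∃ ℓ : Layer S K, ℓ₁ ≤ ℓ ∧ p ∣ Nat.card (Q ℓ) := by
  set V : Subgroup (ℓ₁.L ≃ₐ[ℚ] ℓ₁.L) := galK K ℓ₁.L with hV
  set k : ℕ := V.index with hk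
  -- the compositum with the cyclotomic layer
  have hu := ℓ₁.unram.sup (isUnramifiedOutside_cycLayer p k S hpS)
  obtain ⟨ℓ', hℓ'⟩ : ∃ ℓ' : Layer S K, ℓ'.L = ℓ₁.L ⊔ cycLayer p k :=
    ⟨{ L := ℓ₁.L ⊔ cycLayer p k
       unram := hu
       gal := isGalois_sup_of_isGalois
       le := ℓ₁.le.trans le_sup_left }, rfl⟩
  have h₁ : ℓ₁.L ≤ ℓ'.L := hℓ' ▸ le_sup_left
  have h : cycLayer p k ≤ ℓ'.L := hℓ' ▸ le_sup_right
  refine ⟨ℓ', h₁, ?_⟩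
  -- `χ(V')` is a nontrivial `p`-group
  let ζ₀ : ℓ₁.L := ⟨ζ, ℓ₁.le hζK⟩
  have hζ₀ : IsPrimitiveRoot ζ₀ p :=
    IsPrimitiveRoot.of_map_of_injective (f := ℓ₁.L.val) hζ ℓ₁.L.val.injective
  have hVζ : ∀ v ∈ V, v ζ₀ = ζ₀ := fun v hv => hv ζ₀ hζK
  have hP := isPGroup_map_chiLayer_of_zeta p k h₁ h V ζ₀ hζ₀ hVζ
  have hbound := pow_le_card_map_chiLayer_mul_index p k h₁ h V
  obtain ⟨n, hn⟩ := hP.exists_card_eq
  have hn0 : n ≠ 0 := by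
    rintro rfl
    rw [hn, pow_zero, one_mul] at hbound
    exact absurd hbound (not_le.2 (Nat.lt_pow_self hp.out.one_lt))
  have hdvd1 : p ∣ Nat.card ((upV h₁ V).map (chiLayer p k h)) := by
    rw [hn]; exact dvd_pow_self p hn0
  -- `|χ(V')|` divides `|V'|`, which divides `|Gal(L'/K)|`
  have hdvd2 : Nat.card ((upV h₁ V).map (chiLayer p k h)) ∣ Nat.card (upV h₁ V) :=
    Subgroup.card_map_dvd _ _
  have hdvd3 : Nat.card (upV h₁ V) ∣ Nat.card (galK K ℓ'.L) :=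
    Subgroup.card_dvd_of_le (upV_galK_le ℓ₁.le h₁)
  exact hdvd1.trans (hdvd2.trans hdvd3)

/-- **(FC-nz)**: a finite `K ∋ ζ_p` unramified outside `S ∋ p` has a layer `L ⊇ K` with
`p ∣ [L : K]`. -/
theorem exists_layer_dvd_card (hK : K.IsUnramifiedOutside S) (hpS : pp p ∈ S) {ζ : Qb}
    (hζ : IsPrimitiveRoot ζ p) (hζK : ζ ∈ K) : ∃ ℓ : Layer S K, p ∣ Nat.card (Q ℓ) := by
  obtain ⟨ℓ, -, hℓ⟩ := exists_layer_ge_dvd_card p hpS hζ hζK (Layer.ofField hK K hK)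
  exact ⟨ℓ, hℓ⟩

/-- the layers `ℓ` with `p ∣ [ℓ.L : K]` are cofinal and upward closed -/
theorem dvd_card_Q_of_le {ℓ ℓ' : Layer S K} (h : ℓ ≤ ℓ') (hℓ : p ∣ Nat.card (Q ℓ)) :
    p ∣ Nat.card (Q ℓ') :=
  hℓ.trans (card_Q_dvd_of_le h)

end Fermat.Agent.GC.Global.WRec.DegGrow
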