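/-
GATE-C / C4 (GH-w) WeightedReciprocity, helper55.

**(CL-FINAL)**: the hypotheses of `cyclic_layer_reciprocity` discharged for a good `T` and
`V ≤ Gal(L'/ℚ)` fixing `ζ_p`; the only remaining input is `hsurj` ((CL-SURJ) = (CL-LOC)+(CL-NS)).
* `exists_JInv_lift`, `exists_JInv_lift_of_goodT` : `U`-invariant classes lift to `U`-invariant ideles
  (`H¹(U, E(L',T)) = 0`);
* `units_pow_eq_one_of_val_modEq_one`, `chi_pow_eq_one_of_fixes_zeta` : `v ζ_p = ζ_p ⟹ χ(v)^(p^k) = 1`;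
* `normal_inf_subgroupOf` (instance);
* `cyclic_layer_final` : (CL3)+(CL4) from `GoodT`, `ζ_p`, `hsurj`.
-/
import Mathlib
import Fermat.Agent.GC.Global.WRec.CyclicLayer
import Fermat.Agent.GC.Global.WRec.LayerCard
import Fermat.Agent.GC.Global.Adapter.H1UnitsGood

set_option autoImplicit false
set_option linter.unusedSectionVars false

open scoped Padic
open IntermediateField

noncomputable section

namespace Fermat.Agent.GC.Global.WRec

open Fermat.Agent.GC.Global Fermat.Agent.GC.Global.Adapter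

/-- `(V ⊓ N).subgroupOf V` is normal in `V` for `N` normal. -/
instance normal_inf_subgroupOf {G : Type*} [Group G] (V N : Subgroup G) [N.Normal] :
    ((V ⊓ N).subgroupOf V).Normal := by
  rw [Subgroup.inf_subgroupOf_left]
  infer_instance

section Lift

open scoped Classical

variable (T : Finset Nat.Primes)
  {L' : IntermediateField ℚ Qb} [FiniteDimensional ℚ L'] [IsGalois ℚ L']

/-- `U`-invariant classes of `C(L',T)` lift to `U`-invariant ideles when `H¹(U, E(L',T)) = 0`. -/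
theorem exists_JInv_lift (hT : T.Nonempty) (U : Subgroup (L' ≃ₐ[ℚ] L'))
    (hH1 : Fermat.Agent.GC.Tate.InfRes2.H1Vanishes (E L' T) U)
    (c' : C L' T) (hc' : IsInv (C L' T).ρ U c') :
    ∃ z : J L' T, z ∈ JInv L' U T ∧ (JtoC L' T).hom z = c' := by
  obtain ⟨y', rfl⟩ := JtoC_surjective L' T c'
  have hdef : ∀ n : L' ≃ₐ[ℚ] L', n ∈ U →
      ∃ u : E L' T, (diag L' T).hom (u.1 : Additive L'ˣ) = (J L' T).ρ n y' - y' := by
    intro n hn
    have h1 : (JtoC L' T).hom ((J L' T).ρ n y' - y') = 0 := by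
      rw [map_sub, sub_eq_zero, JtoC_rho]
      exact hc' n hn
    obtain ⟨u, hu, hu'⟩ := (Submodule.Quotient.mk_eq_zero _).1 h1
    exact ⟨⟨u, hu⟩, hu'⟩
  let cc : (L' ≃ₐ[ℚ] L') → E L' T := fun n =>
    if hn : n ∈ U then Classical.choose (hdef n hn) else 0
  have hcc : ∀ n (hn : n ∈ U),
      (diag L' T).hom ((cc n).1 : Additive L'ˣ) = (J L' T).ρ n y' - y' := by
    intro n hn
    simp only [cc, dif_pos hn]
    exact Classical.choose_spec (hdef n hn)
  have hEinj : ∀ a b : E L' T, (diag L' T).hom (a.1 : Additive L'ˣ)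
      = (diag L' T).hom (b.1 : Additive L'ˣ) → a = b :=
    fun a b hab => Subtype.ext (diag_injective L' T hT hab)
  obtain ⟨a, ha⟩ := hH1 cc (by
    intro s hs t ht
    apply hEinj
    have e : (((E L' T).ρ s (cc t) + cc s : E L' T).1 : Additive L'ˣ)
        = (globUnits L').ρ s ((cc t).1 : Additive L'ˣ) + ((cc s).1 : Additive L'ˣ) := rfl
    rw [e, map_add, diag_rho L' T s (cc t).1, hcc _ (mul_mem hs ht), hcc t ht, hcc s hs, map_mul,
      map_sub]
    simp only [Module.End.mul_apply]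
    abel)
  set y'' : J L' T := y' - (diag L' T).hom (a.1 : Additive L'ˣ) with hy''
  have hinv : y'' ∈ JInv L' U T := by
    rw [mem_JInv_iff_rho]
    intro n hn
    have h1 := ha n hn
    have h2 : (diag L' T).hom ((cc n).1 : Additive L'ˣ)
        = (J L' T).ρ n ((diag L' T).hom (a.1 : Additive L'ˣ))
          - (diag L' T).hom (a.1 : Additive L'ˣ) := by
      rw [h1]
      have e : (((E L' T).ρ n a - a : E L' T).1 : Additive L'ˣ)
          = (globUnits L').ρ n (a.1 : Additive L'ˣ) - (a.1 : Additive L'ˣ) := rfl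
      rw [e, map_sub, diag_rho L' T n a.1]
    rw [hcc n hn] at h2
    rw [hy'', map_sub]
    have h3 : (J L' T).ρ n y' = y' + ((J L' T).ρ n ((diag L' T).hom (a.1 : Additive L'ˣ))
        - (diag L' T).hom (a.1 : Additive L'ˣ)) := by
      rw [← h2]
      abel
    rw [h3]
    abel
  refine ⟨y'', hinv, ?_⟩
  rw [hy'', map_sub, sub_eq_self]
  exact (Submodule.Quotient.mk_eq_zero _).2 ⟨a.1, a.2, rfl⟩

/-- the lifting hypothesis of `cyclic_layer_reciprocity` for good `T`. -/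
theorem exists_JInv_lift_of_goodT {p : ℕ} (hg : GoodT L' T p) (hT : T.Nonempty)
    (U : Subgroup (L' ≃ₐ[ℚ] L')) (c' : C L' T) (hc' : IsInv (C L' T).ρ U c') :
    ∃ z : J L' T, z ∈ JInv L' U T ∧ (JtoC L' T).hom z = c' :=
  exists_JInv_lift T hT U (H1U.h1Vanishes_E_of_goodT L' T hg U) c' hc'

end Lift

section ChiP

variable (p : ℕ) [hp : Fact p.Prime] (k : ℕ)
  {L' : IntermediateField ℚ Qb} [FiniteDimensional ℚ L'] [IsGalois ℚ L']

/-- units of `ℤ/p^(k+1)` congruent to `1` mod `p` have order dividing `p^k`. -/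
theorem units_pow_eq_one_of_val_modEq_one (x : (ZMod (p ^ (k + 1)))ˣ)
    (hx : ((x : ZMod (p ^ (k + 1))).val : ℤ) ≡ 1 [ZMOD p]) : x ^ (p ^ k) = 1 := by
  have h1 : ((p : ℕ) : ℤ) ∣ ((x : ZMod (p ^ (k + 1))).val : ℤ) - 1 := (Int.modEq_iff_dvd.1 hx.symm)
  have h2 := dvd_sub_pow_of_dvd_sub h1 k
  rw [one_pow] at h2
  apply Units.ext
  rw [Units.val_pow_eq_pow_val, Units.val_one]
  have h3 : (((((x : ZMod (p ^ (k + 1))).val : ℤ) ^ p ^ k - 1 : ℤ)) : ZMod (p ^ (k + 1))) = 0 := by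
    rw [ZMod.intCast_zmod_eq_zero_iff_dvd]
    exact_mod_cast h2
  push_cast at h3
  rw [ZMod.natCast_zmod_val] at h3
  exact sub_eq_zero.1 h3

/-- an automorphism of `L' ⊇ ℚ(ζ_{p^(k+1)})` fixing a primitive `p`-th root of unity has
cyclotomic character `≡ 1 mod p`, hence of order dividing `p^k`. -/
theorem chi_pow_eq_one_of_fixes_zeta (h : cycLayer p k ≤ L') (ζ : L') (hζ : IsPrimitiveRoot ζ p)
    (v : L' ≃ₐ[ℚ] L') (hv : v ζ = ζ) :
    ((chiG p k).comp (Funct.gRes h)) v ^ (p ^ k) = 1 := by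
  set ξ : L' := Funct.gIncl h (zetaL p k) with hξ
  have hξp : IsPrimitiveRoot ξ (p ^ (k + 1)) :=
    (zetaL_spec p k).map_of_injective (Funct.gIncl h).toRingHom.injective
  set χ := ((chiG p k).comp (Funct.gRes h)) v with hχ
  have hvξ : v ξ = ξ ^ (χ : ZMod (p ^ (k + 1))).val := by
    rw [hξ, ← Funct.GalRes.apply_res (Funct.gIncl h) v (zetaL p k), ← map_pow]
    congr 1
    exact (chiG_spec p k (Funct.gRes h v)).symm
  -- `ξ^(p^k)` is a primitive `p`-th root, hence a power of `ζ`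
  have hξk : IsPrimitiveRoot (ξ ^ (p ^ k)) p :=
    hξp.pow (pow_pos hp.out.pos _) (by rw [pow_succ, mul_comm])
  obtain ⟨i, -, hi⟩ := hζ.eq_pow_of_pow_eq_one (hξk.pow_eq_one)
  have hfix : v (ξ ^ (p ^ k)) = ξ ^ (p ^ k) := by
    rw [← hi, map_pow, hv]
  rw [map_pow, hvξ, ← pow_mul] at hfix
  have hξ0 : ξ ≠ 0 := hξp.ne_zero (pow_ne_zero _ hp.out.ne_zero)
  have hz : ξ ^ ((((χ : ZMod (p ^ (k + 1))).val : ℤ) - 1) * ((p : ℤ) ^ k)) = 1 := by
    have e : (((χ : ZMod (p ^ (k + 1))).val : ℤ) - 1) * ((p : ℤ) ^ k)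
        = (((χ : ZMod (p ^ (k + 1))).val * p ^ k : ℕ) : ℤ) - ((p ^ k : ℕ) : ℤ) := by
      push_cast; ring
    rw [e, zpow_sub₀ hξ0, zpow_natCast, zpow_natCast, hfix]
    exact div_self (pow_ne_zero _ hξ0)
  have hdvd := (hξp.zpow_eq_one_iff_dvd _).1 hz
  have hdvd' : (p : ℤ) ∣ ((χ : ZMod (p ^ (k + 1))).val : ℤ) - 1 := by
    have e2 : ((p ^ (k + 1) : ℕ) : ℤ) = (p : ℤ) * (p : ℤ) ^ k := by push_cast; ring
    rw [e2] at hdvd
    exact Int.dvd_of_mul_dvd_mul_right (pow_ne_zero k (by exact_mod_cast hp.out.ne_zero)) hdvd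
  apply units_pow_eq_one_of_val_modEq_one
  exact (Int.modEq_iff_dvd.2 hdvd').symm

end ChiP


section Final

open scoped Classical

variable (p : ℕ) [hp : Fact p.Prime] (k : ℕ) (T : Finset Nat.Primes)
  {L' : IntermediateField ℚ Qb} [FiniteDimensional ℚ L'] [IsGalois ℚ L']

/-- **(CL3)+(CL4)** for good `T` and `V` fixing `ζ_p`; remaining input: `hsurj`. -/
theorem cyclic_layer_final (hg : GoodT L' T p) (hp2 : p ≠ 2) (hpT : pp p ∈ T) (ζ : L')
    (hζ : IsPrimitiveRoot ζ p) (h : cycLayer p k ≤ L') (V : Subgroup (L' ≃ₐ[ℚ] L'))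
    (hVζ : ∀ v ∈ V, v ζ = ζ)
    (hsurj : ∀ v ∈ V, ∃ y ∈ JInv L' V T,
      Theta p k L' T hpT V y = ((chiG p k).comp (Funct.gRes h)) v) :
    (∀ y ∈ JInv L' V T, Theta p k L' T hpT V y ^ 2 = 1 →
        ∃ c : C L' T, IsInv (C L' T).ρ (V ⊓ (Funct.gRes h).ker) c ∧
          relNormSub (C L' T).ρ V (V ⊓ (Funct.gRes h).ker) c = (JtoC L' T).hom y) ∧
      Function.Surjective (JInvToNormRes T V (V ⊓ (Funct.gRes h).ker)) ∧
      Nat.card (NormRes T V (V ⊓ (Funct.gRes h).ker)) =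
        Nat.card (V.map ((chiG p k).comp (Funct.gRes h))) ∧
      ∀ y ∈ JInv L' V T,
        Theta p k L' T hpT V y ^ 2 ∈ V.map ((chiG p k).comp (Funct.gRes h)) := by
  have hVp : ∀ v ∈ V, ((chiG p k).comp (Funct.gRes h)) v ^ (p ^ k) = 1 :=
    fun v hv => chi_pow_eq_one_of_fixes_zeta p k h ζ hζ v (hVζ v hv)
  obtain ⟨hfin, hdvd⟩ := LayerCard.finite_card_normRes_dvd p k T hg hp2 ζ hζ h V hVζ hVp
  have hpos : 0 < Nat.card (V.map ((chiG p k).comp (Funct.gRes h))) := Nat.card_pos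
  exact cyclic_layer_reciprocity p k T hp2 hpT h V
    (fun c hc => exists_JInv_lift_of_goodT T hg ⟨pp p, hpT⟩ _ c hc) hVp hsurj
    (Nat.le_of_dvd hpos hdvd)

end Final

end Fermat.Agent.GC.Global.WRec
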