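/-
GATE-C / C4 (GH-w) WeightedReciprocity, helper55.

**(CL-COH)**: the cyclic cyclotomic layer in COHOMOLOGICAL form (helper14 RULING 8).
`V ≤ Gal(L'/ℚ)` fixing `ζ_p`, `T` good for `L'`, `V_k = V ⊓ Gal(L'/M_k)`, `A = CV T V`,
`Mm = V_k.subgroupOf V`, `H2 = H²(V ⧸ V_k, C(L',T)^{V_k})`, `χ = chiG ∘ gRes`:
* `normRes_eq_zero_iff` : `[JtoC β] = 0` in `C^V/N C^{V_k}` iff `Θ_V(β)² = 1`;
* `isAddCyclic_normRes`, `isAddCyclic_H2_layer` : `C^V/N` and `H2` are cyclic;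
* `card_H2_layer` : `Finite H2 ∧ |H2| = |χ(V)|`;
* `exists_JInv_periodEquiv_eq` : every class of `H2` is `periodEquiv⁻¹ [JtoC β]`, `β ∈ J(L',T)^V`;
* `periodEquiv_eq_zero_iff` : for such a class, `y = 0 ↔ Θ_V(β)² = 1`.
Everything from `cyclic_layer_final`; the remaining input is `hsurj` ((CL-SURJ)).
-/
import Mathlib
import Fermat.Agent.GC.Global.WRec.CyclicLayerFinal

set_option autoImplicit false
set_option linter.unusedSectionVars false

open scoped Padic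
open IntermediateField

noncomputable section

namespace Fermat.Agent.GC.Global.WRec

open Fermat.Agent.GC.Global Fermat.Agent.GC.Global.Adapter
open Fermat.Agent.GC.Local.CycH2
open CategoryTheory groupCohomology

section Coh

open scoped Classical

variable (p : ℕ) [hp : Fact p.Prime] (k : ℕ) (T : Finset Nat.Primes)
  {L' : IntermediateField ℚ Qb} [FiniteDimensional ℚ L'] [IsGalois ℚ L']

/-- the hypothesis (CL-SURJ): `Θ_V` maps `J(L',T)^V` onto `χ(V)`. -/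
def ThetaSurj (hpT : pp p ∈ T) (h : cycLayer p k ≤ L') (V : Subgroup (L' ≃ₐ[ℚ] L')) : Prop :=
  ∀ v ∈ V, ∃ y ∈ JInv L' V T,
    Theta p k L' T hpT V y = ((chiG p k).comp (Funct.gRes h)) v

variable (hg : GoodT L' T p) (hp2 : p ≠ 2) (hpT : pp p ∈ T) (ζ : L')
  (hζ : IsPrimitiveRoot ζ p) (h : cycLayer p k ≤ L') (V : Subgroup (L' ≃ₐ[ℚ] L'))
  (hVζ : ∀ v ∈ V, v ζ = ζ) (hsurj : ThetaSurj p k T hpT h V)

include hg hp2 hζ hVζ hsurj in
/-- `[JtoC β] = 0` in `C^V / N_{V/V_k} C^{V_k}` iff `Θ_V(β)² = 1`. -/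
theorem normRes_eq_zero_iff (β : ↥(JInv L' V T)) :
    JInvToNormRes T V (V ⊓ (Funct.gRes h).ker) β = 0 ↔
      Theta p k L' T hpT V (β : J L' T) ^ 2 = 1 := by
  obtain ⟨k1, -, -, -⟩ := cyclic_layer_final p k T hg hp2 hpT ζ hζ h V hVζ hsurj
  constructor
  · intro h0
    obtain ⟨c, hc, hcy⟩ := (JInvToNormRes_eq_zero_iff T V _ inf_le_left β).1 h0
    exact Theta_sq_eq_one_of_class_norm p k T hp2 hpT h V
      (fun c hc => exists_JInv_lift_of_goodT T hg ⟨pp p, hpT⟩ _ c hc) β.2 c hc hcy.symm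
  · intro h1
    exact (JInvToNormRes_eq_zero_iff T V _ inf_le_left β).2 (k1 β.1 β.2 h1)

include hg hp2 hζ hVζ hsurj in
/-- `C^V / N_{V/V_k} C^{V_k}` is cyclic. -/
theorem isAddCyclic_normRes : IsAddCyclic (NormRes T V (V ⊓ (Funct.gRes h).ker)) := by
  obtain ⟨-, k2, -, -⟩ := cyclic_layer_final p k T hg hp2 hpT ζ hζ h V hVζ hsurj
  set π := JInvToNormRes T V (V ⊓ (Funct.gRes h).ker) with hπ
  set f := ThetaSqHom p k T hpT V with hf
  have hker : π.ker = f.ker := by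
    ext β
    rw [AddMonoidHom.mem_ker, AddMonoidHom.mem_ker, hπ,
      normRes_eq_zero_iff p k T hg hp2 hpT ζ hζ h V hVζ hsurj β, hf, ThetaSqHom_apply]
    constructor
    · intro h1; rw [h1]; rfl
    · intro h1; exact Additive.ofMul.injective h1
  have hU : IsCyclic (ZMod (p ^ (k + 1)))ˣ :=
    ZMod.isCyclic_units_of_prime_pow p hp.out hp2 (k + 1)
  have hR : IsAddCyclic f.range := inferInstance
  have e1 : (↥(JInv L' V T) ⧸ π.ker) ≃+ NormRes T V (V ⊓ (Funct.gRes h).ker) :=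
    QuotientAddGroup.quotientKerEquivOfSurjective π k2
  have e2 : (↥(JInv L' V T) ⧸ f.ker) ≃+ f.range := QuotientAddGroup.quotientKerEquivRange f
  have e3 : (↥(JInv L' V T) ⧸ π.ker) ≃+ (↥(JInv L' V T) ⧸ f.ker) :=
    QuotientAddGroup.quotientAddEquivOfEq hker
  exact isAddCyclic_of_surjective (e1.symm.trans (e3.trans e2)).symm
    (e1.symm.trans (e3.trans e2)).symm.surjective

variable [Fintype (V ⧸ (V ⊓ (Funct.gRes h).ker).subgroupOf V)]
  {σ : V ⧸ (V ⊓ (Funct.gRes h).ker).subgroupOf V} {m : ℕ} (hσ : IsGen σ m)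

include hg hp2 hζ hVζ hsurj hσ in
/-- `H²(V ⧸ V_k, C(L',T)^{V_k})` is cyclic. -/
theorem isAddCyclic_H2_layer :
    IsAddCyclic (H2 ((CV T V).quotientToInvariants ((V ⊓ (Funct.gRes h).ker).subgroupOf V))) := by
  have := isAddCyclic_normRes p k T hg hp2 hpT ζ hζ h V hVζ hsurj
  let e := (PeriodDict.periodEquiv (CV T V) ((V ⊓ (Funct.gRes h).ker).subgroupOf V) hσ)
  exact isAddCyclic_of_surjective e.symm.toAddEquiv e.symm.surjective

include hg hp2 hζ hVζ hsurj hσ in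
/-- `|H²(V ⧸ V_k, C(L',T)^{V_k})| = |χ(V)| = [K_k : K]`. -/
theorem card_H2_layer :
    Finite (H2 ((CV T V).quotientToInvariants ((V ⊓ (Funct.gRes h).ker).subgroupOf V))) ∧
      Nat.card (H2 ((CV T V).quotientToInvariants ((V ⊓ (Funct.gRes h).ker).subgroupOf V))) =
        Nat.card (V.map ((chiG p k).comp (Funct.gRes h))) := by
  obtain ⟨-, -, k3, -⟩ := cyclic_layer_final p k T hg hp2 hpT ζ hζ h V hVζ hsurj
  let e := (PeriodDict.periodEquiv (CV T V) ((V ⊓ (Funct.gRes h).ker).subgroupOf V) hσ)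
  have hc : Nat.card (H2 ((CV T V).quotientToInvariants
      ((V ⊓ (Funct.gRes h).ker).subgroupOf V))) =
      Nat.card (NormRes T V (V ⊓ (Funct.gRes h).ker)) := Nat.card_congr e.toEquiv
  refine ⟨?_, hc.trans k3⟩
  apply Nat.finite_of_card_ne_zero
  rw [hc, k3]
  exact Nat.card_pos.ne'

include hg hp2 hζ hVζ hsurj hσ in
/-- every class of `H²(V ⧸ V_k, C^{V_k})` corresponds under periodicity to `[JtoC β]`,
`β ∈ J(L',T)^V`. -/
theorem exists_JInv_periodEquiv_eq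
    (y : H2 ((CV T V).quotientToInvariants ((V ⊓ (Funct.gRes h).ker).subgroupOf V))) :
    ∃ β : ↥(JInv L' V T),
      PeriodDict.periodEquiv (CV T V) ((V ⊓ (Funct.gRes h).ker).subgroupOf V) hσ y =
        JInvToNormRes T V (V ⊓ (Funct.gRes h).ker) β := by
  have k2 : Function.Surjective (JInvToNormRes T V (V ⊓ (Funct.gRes h).ker)) :=
    (cyclic_layer_final p k T hg hp2 hpT ζ hζ h V hVζ hsurj).2.1
  exact (k2 _).imp fun β hβ => hβ.symm

include hg hp2 hζ hVζ hsurj hσ in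
/-- a class `y ↔ [JtoC β]` vanishes iff `Θ_V(β)² = 1`. -/
theorem periodEquiv_eq_zero_iff
    (y : H2 ((CV T V).quotientToInvariants ((V ⊓ (Funct.gRes h).ker).subgroupOf V)))
    (β : ↥(JInv L' V T))
    (hy : PeriodDict.periodEquiv (CV T V) ((V ⊓ (Funct.gRes h).ker).subgroupOf V) hσ y =
      JInvToNormRes T V (V ⊓ (Funct.gRes h).ker) β) :
    y = 0 ↔ Theta p k L' T hpT V (β : J L' T) ^ 2 = 1 := by
  rw [← normRes_eq_zero_iff p k T hg hp2 hpT ζ hζ h V hVζ hsurj β, ← hy,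
    LinearEquiv.map_eq_zero_iff]

include hg hp2 hζ hVζ hsurj hσ in
/-- multiples: `n • y ↔ [JtoC (n • β)]`, so `n • y = 0 ↔ Θ_V(β)^(2n) = 1`. -/
theorem nsmul_eq_zero_iff
    (y : H2 ((CV T V).quotientToInvariants ((V ⊓ (Funct.gRes h).ker).subgroupOf V)))
    (β : ↥(JInv L' V T))
    (hy : PeriodDict.periodEquiv (CV T V) ((V ⊓ (Funct.gRes h).ker).subgroupOf V) hσ y =
      JInvToNormRes T V (V ⊓ (Funct.gRes h).ker) β) (n : ℕ) :
    n • y = 0 ↔ (Theta p k L' T hpT V (β : J L' T) ^ 2) ^ n = 1 := by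
  have hy' : PeriodDict.periodEquiv (CV T V) ((V ⊓ (Funct.gRes h).ker).subgroupOf V) hσ (n • y) =
      JInvToNormRes T V (V ⊓ (Funct.gRes h).ker) (n • β) :=
    (map_nsmul (PeriodDict.periodEquiv (CV T V) ((V ⊓ (Funct.gRes h).ker).subgroupOf V) hσ)
      n y).trans ((congrArg (n • ·) hy).trans
        ((JInvToNormRes T V (V ⊓ (Funct.gRes h).ker)).map_nsmul n β).symm)
  rw [periodEquiv_eq_zero_iff p k T hg hp2 hpT ζ hζ h V hVζ hsurj hσ (n • y) (n • β) hy']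
  have h1 : ThetaSqHom p k T hpT V (n • β) = n • ThetaSqHom p k T hpT V β := map_nsmul _ _ _
  rw [ThetaSqHom_apply, ThetaSqHom_apply] at h1
  have h2 : Theta p k L' T hpT V ((n • β : ↥(JInv L' V T)) : J L' T) ^ 2 =
      (Theta p k L' T hpT V (β : J L' T) ^ 2) ^ n := Additive.ofMul.injective h1
  rw [h2]

end Coh

end Fermat.Agent.GC.Global.WRec
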