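/-
GATE-C / C4 (GH-w), leaf (CL-SURJ) (helper60, per helper55 board 2156): the hypothesis `hsurj` of
`cyclic_layer_reciprocity` from the LOCAL IMAGE statement (CL-LOC, helper67
`exists_Theta_eq_chiLayer`) and the NON-SPLIT PLACE statement (CL-NS, helper14
`exists_conjSub_sup_eq_top`), both taken as hypotheses in their exact shapes.

* `LayerSurj.exists_normal_index_prime_ge`, `LayerSurj.forall_map_mem_of_generate` : the abstract
  group theory (a proper normal subgroup with `p`-power-exponent quotient lies in a normal subgroup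
  of index `p`);
* `thetaImage` : the image of `Θ_V` on `J(L',T)^V`, a subgroup of `(ℤ/p^(k+1))ˣ`;
* `hsurj_of_loc_ns` : (CL-SURJ).
-/
import Mathlib
import Fermat.Agent.GC.Global.WRec.CyclicLayer
import Fermat.Agent.GC.Global.Mackey

set_option autoImplicit false
set_option linter.unusedSectionVars false

open scoped Padic

namespace Fermat.Agent.GC.Global.WRec.LayerSurj

/-- In a finite group `V`, a proper normal subgroup `I` with `V ⧸ I` of `p`-power exponent lies in
a normal subgroup of index `p`. -/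
theorem exists_normal_index_prime_ge {V : Type*} [Group V] [Finite V] {p : ℕ} (hp : p.Prime)
    (k : ℕ) (I : Subgroup V) [I.Normal] (hI : I ≠ ⊤) (hpow : ∀ v : V, v ^ (p ^ k) ∈ I) :
    ∃ U' : Subgroup V, U'.Normal ∧ U'.index = p ∧ I ≤ U' := by
  have : Fact p.Prime := ⟨hp⟩
  have hPG : IsPGroup p (V ⧸ I) := by
    intro x
    obtain ⟨v, rfl⟩ := QuotientGroup.mk_surjective x
    refine ⟨k, ?_⟩
    rw [← QuotientGroup.mk_pow]
    exact (QuotientGroup.eq_one_iff _).2 (hpow v)
  obtain ⟨m, hm⟩ := IsPGroup.iff_card.1 hPG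
  have hm0 : m ≠ 0 := by
    rintro rfl
    rw [pow_zero] at hm
    apply hI
    exact Subgroup.index_eq_one.1 (by rw [Subgroup.index]; exact hm)
  obtain ⟨K, hK⟩ := Sylow.exists_subgroup_card_pow_prime (G := V ⧸ I) p (n := m - 1)
    (by rw [hm]; exact pow_dvd_pow p (Nat.sub_le m 1))
  have hKidx : K.index = p := by
    have h1 := K.card_mul_index
    rw [hK, hm] at h1
    have h2 : p ^ m = p ^ (m - 1) * p := by
      rw [← pow_succ]; congr 1; omega
    rw [h2] at h1
    exact Nat.eq_of_mul_eq_mul_left (pow_pos hp.pos _) h1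
  have hKn : K.Normal := by
    apply Subgroup.normal_of_index_eq_minFac_card
    rw [hKidx, hm, Nat.Prime.pow_minFac hp hm0]
  refine ⟨K.comap (QuotientGroup.mk' I), hKn.comap _, ?_, ?_⟩
  · rw [Subgroup.index_comap_of_surjective K (QuotientGroup.mk'_surjective I), hKidx]
  · intro i hi
    rw [Subgroup.mem_comap]
    have : QuotientGroup.mk' I i = 1 := (QuotientGroup.eq_one_iff _).2 hi
    rw [this]
    exact K.one_mem

/-- **Abstract (CL-SURJ).** `χ : V →* U` (`U` commutative) with `χ(V)` of `p`-power exponent,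
`R ≤ U`; subgroups `C i ≤ V` with `χ (C i) ⊆ R`, such that for every normal `U' ⊲ V` of index `p`
some `C i` generates `V` together with `U'`.  Then `χ(V) ⊆ R`. -/
theorem forall_map_mem_of_generate {V U ι : Type*} [Group V] [Finite V] [CommGroup U] {p : ℕ}
    (hp : p.Prime) (k : ℕ) (χ : V →* U) (R : Subgroup U) (hVp : ∀ v : V, χ v ^ (p ^ k) = 1)
    (C : ι → Subgroup V) (hC : ∀ i, ∀ h ∈ C i, χ h ∈ R)
    (hns : ∀ (U' : Subgroup V) [U'.Normal], U'.index = p → ∃ i, C i ⊔ U' = ⊤) :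
    ∀ v : V, χ v ∈ R := by
  set I : Subgroup V := R.comap χ with hIdef
  have : I.Normal := (inferInstance : R.Normal).comap χ
  by_contra hcon
  have hI : I ≠ ⊤ := by
    intro htop
    apply hcon
    intro v
    have : v ∈ I := htop ▸ Subgroup.mem_top v
    exact this
  have hpow : ∀ v : V, v ^ (p ^ k) ∈ I := by
    intro v
    show χ (v ^ (p ^ k)) ∈ R
    rw [map_pow, hVp]
    exact R.one_mem
  obtain ⟨U', hU'n, hU'idx, hIU'⟩ := exists_normal_index_prime_ge hp k I hI hpow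
  obtain ⟨i, hi⟩ := @hns U' hU'n hU'idx
  have hle : C i ≤ U' := fun h hh => hIU' (hC i h hh)
  rw [sup_eq_right.2 hle] at hi
  rw [hi, Subgroup.index_top] at hU'idx
  exact hp.one_lt.ne hU'idx

end Fermat.Agent.GC.Global.WRec.LayerSurj


noncomputable section

namespace Fermat.Agent.GC.Global.WRec

open Fermat.Agent.GC.Global Fermat.Agent.GC.Global.Adapter Fermat.Agent.GC.Global.Mackey

variable (p : ℕ) [hp : Fact p.Prime] (k : ℕ) (T : Finset Nat.Primes)
  {L' : IntermediateField ℚ Qb} [FiniteDimensional ℚ L'] [IsGalois ℚ L']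

theorem Theta_neg (hpT : pp p ∈ T) (V : Subgroup (L' ≃ₐ[ℚ] L')) {y : J L' T}
    (hy : y ∈ JInv L' V T) :
    Theta p k L' T hpT V (-y) = (Theta p k L' T hpT V y)⁻¹ := by
  have h := Theta_add p k L' T hpT V hy ((JInv L' V T).neg_mem hy)
  rw [add_neg_cancel, Theta_zero] at h
  exact eq_inv_of_mul_eq_one_right h.symm

/-- The image of `Θ_V` on the `V`-invariant ideles, as a subgroup of `(ℤ/p^(k+1))ˣ`. -/
def thetaImage (hpT : pp p ∈ T) (V : Subgroup (L' ≃ₐ[ℚ] L')) :
    Subgroup (ZMod (p ^ (k + 1)))ˣ where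
  carrier := {u | ∃ y ∈ JInv L' V T, Theta p k L' T hpT V y = u}
  one_mem' := ⟨0, (JInv L' V T).zero_mem, Theta_zero p k T hpT V⟩
  mul_mem' := by
    rintro _ _ ⟨y, hy, rfl⟩ ⟨y', hy', rfl⟩
    exact ⟨y + y', (JInv L' V T).add_mem hy hy', Theta_add p k L' T hpT V hy hy'⟩
  inv_mem' := by
    rintro _ ⟨y, hy, rfl⟩
    exact ⟨-y, (JInv L' V T).neg_mem hy, Theta_neg p k T hpT V hy⟩

theorem mem_thetaImage (hpT : pp p ∈ T) (V : Subgroup (L' ≃ₐ[ℚ] L'))
    {u : (ZMod (p ^ (k + 1)))ˣ} :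
    u ∈ thetaImage p k T hpT V ↔ ∃ y ∈ JInv L' V T, Theta p k L' T hpT V y = u := Iff.rfl

/-- **(CL-SURJ).** The local images (CL-LOC) at the places of `K = L'^V` above `T` together with
the existence of a non-split place for every index-`p` layer (CL-NS) give: every value `χ v`,
`v ∈ V`, of the cyclotomic character of the layer is `Θ_V y` for a `V`-invariant idele `y`. -/
theorem hsurj_of_loc_ns (hpT : pp p ∈ T) (h : cycLayer p k ≤ L') (V : Subgroup (L' ≃ₐ[ℚ] L'))
    (hVp : ∀ v ∈ V, ((chiG p k).comp (Funct.gRes h)) v ^ (p ^ k) = 1)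
    (hloc : ∀ (q : T) (s : L' ≃ₐ[ℚ] L')
      (d : locField ((q : Nat.Primes) : ℕ) L' ≃ₐ[ℚ_[((q : Nat.Primes) : ℕ)]]
        locField ((q : Nat.Primes) : ℕ) L'),
      s⁻¹ * decHom ((q : Nat.Primes) : ℕ) L' d * s ∈ V →
        ∃ y ∈ JInv L' V T, Theta p k L' T hpT V y =
          ((chiG p k).comp (Funct.gRes h)) (decHom ((q : Nat.Primes) : ℕ) L' d))
    (hns : ∀ (U' : Subgroup V) [U'.Normal], U'.index = p →
      ∃ q : T, ∃ c : DC (decHom ((q : Nat.Primes) : ℕ) L') V,
        conjSub (decHom ((q : Nat.Primes) : ℕ) L') V (rep c) ⊔ U' = ⊤) :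
    ∀ v ∈ V, ∃ y ∈ JInv L' V T,
      Theta p k L' T hpT V y = ((chiG p k).comp (Funct.gRes h)) v := by
  set χ := (chiG p k).comp (Funct.gRes h) with hχ
  have key := LayerSurj.forall_map_mem_of_generate (V := V) (p := p) hp.out k
    (χ.comp V.subtype) (thetaImage p k T hpT V) (fun v => hVp v v.2)
    (fun i : Σ q : T, DC (decHom ((q : Nat.Primes) : ℕ) L') V =>
      conjSub (decHom ((i.1 : Nat.Primes) : ℕ) L') V (rep i.2))
    (by
      rintro ⟨q, c⟩ v hv
      obtain ⟨d, hd⟩ := mem_conjSub.1 hv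
      have hmem : (rep c)⁻¹ * decHom ((q : Nat.Primes) : ℕ) L' d * rep c ∈ V := by
        rw [hd]
        have : (rep c)⁻¹ * (rep c * (v : L' ≃ₐ[ℚ] L') * (rep c)⁻¹) * rep c = v := by group
        rw [this]
        exact v.2
      obtain ⟨y, hy, hΘ⟩ := hloc q (rep c) d hmem
      refine ⟨y, hy, ?_⟩
      rw [hΘ, hd]
      show χ (rep c * (v : L' ≃ₐ[ℚ] L') * (rep c)⁻¹) = χ (v : L' ≃ₐ[ℚ] L')
      rw [map_mul, map_mul, map_inv, mul_comm (χ (rep c)), mul_inv_cancel_right])
    (fun U' hU' hidx => by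
      obtain ⟨q, c, hqc⟩ := @hns U' hU' hidx
      exact ⟨⟨q, c⟩, hqc⟩)
  intro v hv
  exact key ⟨v, hv⟩

end Fermat.Agent.GC.Global.WRec
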