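/-
GATE-C / C4, (CL-SURJ) closing step (helper60): the `ζ_p`-form of (CL-NS) and the unconditional
surjectivity input `hsurj` of `cyclic_layer_reciprocity`.

* `exists_conjSub_sup_eq_top_of_zeta` : for `T` good for `L`, `p` odd, `V ≤ Gal(L/ℚ)` ANY subgroup
  fixing `ζ_p` (not necessarily a `p`-group) and `U' ⊲ V` of index `p`, some place of `K = L^V`
  above `T` has decomposition group surjecting onto `V ⧸ U'`.  (Same proof as helper14's
  `Adapter.exists_conjSub_sup_eq_top`, with `one_le_quotNonsplitCount_of_zeta`.)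
* `hsurj_of_goodT_zeta` : for `GoodT L' T p`, `p` odd, `p ∈ T`, `cycLayer p k ≤ L'`, `V` fixing
  `ζ_p`: every `χ v`, `v ∈ V`, is `Θ_V y` for a `V`-invariant idele `y`
  (= `hsurj` of `cyclic_layer_reciprocity`, VERBATIM).
-/
import Mathlib
import Fermat.Agent.GC.Global.Adapter.LayerZeta
import Fermat.Agent.GC.Global.WRec.LayerSurj
import Fermat.Agent.GC.Global.WRec.LocImage
import Fermat.Agent.GC.Global.WRec.LayerCardZeta

set_option autoImplicit false
set_option linter.unusedSectionVars false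

open scoped Padic

noncomputable section

namespace Fermat.Agent.GC.Global.Adapter

open Fermat.Agent.GC.Global.Mackey

variable (L : IntermediateField ℚ Qb) [FiniteDimensional ℚ L] [IsGalois ℚ L]
  (T : Finset Nat.Primes)

/-- **(CL-NS), group form, `ζ_p`-version**: `V` any subgroup fixing `ζ_p`. There are `q ∈ T` and a
double coset `c` (a place of `K = L^V` above `q`) with `D_{q,c} ⊔ U' = ⊤`. -/
theorem exists_conjSub_sup_eq_top_of_zeta {p : ℕ} (hg : GoodT L T p) (hp : p.Prime) (hp2 : p ≠ 2)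
    (ζ : L) (hζ : IsPrimitiveRoot ζ p) (V : Subgroup (L ≃ₐ[ℚ] L)) (hVζ : ∀ h ∈ V, h ζ = ζ)
    (U' : Subgroup V) [U'.Normal] (hidx : U'.index = p) :
    ∃ q : T, ∃ c : DC (decHom ((q : Nat.Primes) : ℕ) L) V,
      conjSub (decHom ((q : Nat.Primes) : ℕ) L) V (rep c) ⊔ U' = ⊤ := by
  classical
  let _ : ∀ q : Nat.Primes, Fintype (PlacesAbove L V q) := fun q => Fintype.ofFinite _
  have h1 := one_le_quotNonsplitCount_of_zeta L T hg hp hp2 ζ hζ V hVζ U' hidx
  rw [quotNonsplitCount_eq_ncard L T V U' hp hidx] at h1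
  by_contra hno
  have hzero : ∀ q : T, {c : DC (decHom ((q : Nat.Primes) : ℕ) L) V |
      conjSub (decHom ((q : Nat.Primes) : ℕ) L) V (rep c) ⊔ U' = ⊤}.ncard = 0 := by
    intro q
    have : {c : DC (decHom ((q : Nat.Primes) : ℕ) L) V |
        conjSub (decHom ((q : Nat.Primes) : ℕ) L) V (rep c) ⊔ U' = ⊤} = ∅ := by
      ext c
      simp only [Set.mem_ofPred_eq, Set.mem_empty_iff_false, iff_false]
      exact fun hc => hno ⟨q, c, hc⟩
    rw [this, Set.ncard_empty]
  rw [Finset.sum_eq_zero fun q _ => hzero q] at h1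
  exact Nat.not_succ_le_zero 0 h1

end Fermat.Agent.GC.Global.Adapter

namespace Fermat.Agent.GC.Global.WRec

open Fermat.Agent.GC.Global Fermat.Agent.GC.Global.Adapter Fermat.Agent.GC.Global.Mackey

variable (p : ℕ) [hp : Fact p.Prime] (k : ℕ) (T : Finset Nat.Primes)
  {L' : IntermediateField ℚ Qb} [FiniteDimensional ℚ L'] [IsGalois ℚ L']

/-- **(CL-SURJ), unconditional.** `T` good for `L'`, `p` odd, `p ∈ T`, `cycLayer p k ≤ L'`, `V`
fixing `ζ_p`: every value `χ v`, `v ∈ V`, of the cyclotomic character of the layer is `Θ_V y` for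
a `V`-invariant idele `y`.  This is `hsurj` of `cyclic_layer_reciprocity` verbatim. -/
theorem hsurj_of_goodT_zeta (hg : GoodT L' T p) (hp2 : p ≠ 2) (hpT : pp p ∈ T)
    (ζ : L') (hζ : IsPrimitiveRoot ζ p) (h : cycLayer p k ≤ L') (V : Subgroup (L' ≃ₐ[ℚ] L'))
    (hVζ : ∀ v ∈ V, v ζ = ζ) :
    ∀ v ∈ V, ∃ y ∈ JInv L' V T,
      Theta p k L' T hpT V y = ((chiG p k).comp (Funct.gRes h)) v :=
  hsurj_of_loc_ns p k T hpT h V (LayerCard.hVp_of_zeta p k h ζ hζ V hVζ)
    (fun q s d hd => exists_Theta_eq_chiLayer' p k T hp2 hpT h V q s d hd)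
    (fun U' _ hidx =>
      exists_conjSub_sup_eq_top_of_zeta L' T hg hp.out hp2 ζ hζ V hVζ U' hidx)

end Fermat.Agent.GC.Global.WRec
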