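/-
GATE-C / C4 (GH-w) WeightedReciprocity, helper55.

**(CL3)+(CL4)+(CL-COH), UNCONDITIONAL**: `T` good for `L'`, `p` odd, `p ∈ T`, `cycLayer p k ≤ L'`,
`V ≤ Gal(L'/ℚ)` fixing `ζ_p`. `hsurj` is helper60's `hsurj_of_goodT_zeta` ((CL-LOC) helper67 +
(CL-NS) helper14). Notation `V_k = V ⊓ (Funct.gRes h).ker`, `χ = chiG ∘ gRes`.
* `thetaSurj` : `ThetaSurj p k T hpT h V`;
* `cyclic_layer` : (CL4) `Θ_V(y)² = 1 → [y] ∈ N_{V/V_k} C^{V_k}`, `J^V → C^V/N` onto,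
  `|C^V/N C^{V_k}| = |χ(V)|`, `Θ_V(y)² ∈ χ(V)`;
* `normRes_eq_zero_iff'`, `isAddCyclic_H2_layer'`, `card_H2_layer'`, `exists_JInv_periodEquiv_eq'`,
  `periodEquiv_eq_zero_iff'`, `nsmul_eq_zero_iff'` : the (CL-COH) statements.
-/
import Mathlib
import Fermat.Agent.GC.Global.WRec.CyclicLayerCoh
import Fermat.Agent.GC.Global.WRec.LayerSurjZeta

set_option autoImplicit false
set_option linter.unusedSectionVars false

open scoped Padic
open IntermediateField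

noncomputable section

namespace Fermat.Agent.GC.Global.WRec

open Fermat.Agent.GC.Global Fermat.Agent.GC.Global.Adapter
open Fermat.Agent.GC.Local.CycH2
open CategoryTheory groupCohomology

section Uncond

open scoped Classical

variable (p : ℕ) [hp : Fact p.Prime] (k : ℕ) (T : Finset Nat.Primes)
  {L' : IntermediateField ℚ Qb} [FiniteDimensional ℚ L'] [IsGalois ℚ L']
  (hg : GoodT L' T p) (hp2 : p ≠ 2) (hpT : pp p ∈ T) (ζ : L')
  (hζ : IsPrimitiveRoot ζ p) (h : cycLayer p k ≤ L') (V : Subgroup (L' ≃ₐ[ℚ] L'))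
  (hVζ : ∀ v ∈ V, v ζ = ζ)

include hg hp2 hζ hVζ in
/-- (CL-SURJ), as `ThetaSurj`. -/
theorem thetaSurj : ThetaSurj p k T hpT h V :=
  hsurj_of_goodT_zeta p k T hg hp2 hpT ζ hζ h V hVζ

include hg hp2 hζ hVζ in
/-- **(CL3)+(CL4), unconditional.** -/
theorem cyclic_layer :
    (∀ y ∈ JInv L' V T, Theta p k L' T hpT V y ^ 2 = 1 →
        ∃ c : C L' T, IsInv (C L' T).ρ (V ⊓ (Funct.gRes h).ker) c ∧
          relNormSub (C L' T).ρ V (V ⊓ (Funct.gRes h).ker) c = (JtoC L' T).hom y) ∧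
      Function.Surjective (JInvToNormRes T V (V ⊓ (Funct.gRes h).ker)) ∧
      Nat.card (NormRes T V (V ⊓ (Funct.gRes h).ker)) =
        Nat.card (V.map ((chiG p k).comp (Funct.gRes h))) ∧
      ∀ y ∈ JInv L' V T,
        Theta p k L' T hpT V y ^ 2 ∈ V.map ((chiG p k).comp (Funct.gRes h)) :=
  cyclic_layer_final p k T hg hp2 hpT ζ hζ h V hVζ
    (thetaSurj p k T hg hp2 hpT ζ hζ h V hVζ)

include hg hp2 hζ hVζ in
theorem normRes_eq_zero_iff' (β : ↥(JInv L' V T)) :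
    JInvToNormRes T V (V ⊓ (Funct.gRes h).ker) β = 0 ↔
      Theta p k L' T hpT V (β : J L' T) ^ 2 = 1 :=
  normRes_eq_zero_iff p k T hg hp2 hpT ζ hζ h V hVζ
    (thetaSurj p k T hg hp2 hpT ζ hζ h V hVζ) β

variable [Fintype (V ⧸ (V ⊓ (Funct.gRes h).ker).subgroupOf V)]
  {σ : V ⧸ (V ⊓ (Funct.gRes h).ker).subgroupOf V} {m : ℕ} (hσ : IsGen σ m)

include hg hp2 hpT hζ hVζ hσ in
theorem isAddCyclic_H2_layer' :
    IsAddCyclic (H2 ((CV T V).quotientToInvariants ((V ⊓ (Funct.gRes h).ker).subgroupOf V))) :=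
  isAddCyclic_H2_layer p k T hg hp2 hpT ζ hζ h V hVζ
    (thetaSurj p k T hg hp2 hpT ζ hζ h V hVζ) hσ

include hg hp2 hpT hζ hVζ hσ in
theorem card_H2_layer' :
    Finite (H2 ((CV T V).quotientToInvariants ((V ⊓ (Funct.gRes h).ker).subgroupOf V))) ∧
      Nat.card (H2 ((CV T V).quotientToInvariants ((V ⊓ (Funct.gRes h).ker).subgroupOf V))) =
        Nat.card (V.map ((chiG p k).comp (Funct.gRes h))) :=
  card_H2_layer p k T hg hp2 hpT ζ hζ h V hVζ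
    (thetaSurj p k T hg hp2 hpT ζ hζ h V hVζ) hσ

include hg hp2 hpT hζ hVζ hσ in
theorem exists_JInv_periodEquiv_eq'
    (y : H2 ((CV T V).quotientToInvariants ((V ⊓ (Funct.gRes h).ker).subgroupOf V))) :
    ∃ β : ↥(JInv L' V T),
      PeriodDict.periodEquiv (CV T V) ((V ⊓ (Funct.gRes h).ker).subgroupOf V) hσ y =
        JInvToNormRes T V (V ⊓ (Funct.gRes h).ker) β :=
  exists_JInv_periodEquiv_eq p k T hg hp2 hpT ζ hζ h V hVζ
    (thetaSurj p k T hg hp2 hpT ζ hζ h V hVζ) hσ y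

include hg hp2 hζ hVζ hσ in
theorem periodEquiv_eq_zero_iff'
    (y : H2 ((CV T V).quotientToInvariants ((V ⊓ (Funct.gRes h).ker).subgroupOf V)))
    (β : ↥(JInv L' V T))
    (hy : PeriodDict.periodEquiv (CV T V) ((V ⊓ (Funct.gRes h).ker).subgroupOf V) hσ y =
      JInvToNormRes T V (V ⊓ (Funct.gRes h).ker) β) :
    y = 0 ↔ Theta p k L' T hpT V (β : J L' T) ^ 2 = 1 :=
  periodEquiv_eq_zero_iff p k T hg hp2 hpT ζ hζ h V hVζ
    (thetaSurj p k T hg hp2 hpT ζ hζ h V hVζ) hσ y β hy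

include hg hp2 hζ hVζ hσ in
theorem nsmul_eq_zero_iff'
    (y : H2 ((CV T V).quotientToInvariants ((V ⊓ (Funct.gRes h).ker).subgroupOf V)))
    (β : ↥(JInv L' V T))
    (hy : PeriodDict.periodEquiv (CV T V) ((V ⊓ (Funct.gRes h).ker).subgroupOf V) hσ y =
      JInvToNormRes T V (V ⊓ (Funct.gRes h).ker) β) (n : ℕ) :
    n • y = 0 ↔ (Theta p k L' T hpT V (β : J L' T) ^ 2) ^ n = 1 :=
  nsmul_eq_zero_iff p k T hg hp2 hpT ζ hζ h V hVζ
    (thetaSurj p k T hg hp2 hpT ζ hζ h V hVζ) hσ y β hy n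

end Uncond

end Fermat.Agent.GC.Global.WRec
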