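/-
GATE-C / C4 (GH-w) WeightedReciprocity, helper55.

**(h4)-model** (helper14 RULING 8): the arithmetic input of `res_N ∘ infl_M = 0` on the
`p^a`-torsion of the cyclic cyclotomic layer.
* `JInv_mono`, `Theta_nsmul`, `Theta_of_le` : `Θ_{N'}(β) = Θ_V(β)^[V:N']` for `β ∈ J^V`, `N' ≤ V`;
* `relNormSub_eq_sum_of_eq_bot` : `N_{H/H'} z = ∑_{n ∈ H} n z` when `H' ∩ H = 1`;
* `exists_sum_eq_of_pow_nsmul_eq_zero` : `V` fixing `ζ_p`, `N' ≤ V` with `N' ⊓ Gal(L'/M_k) = ⊥` and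
  `p^a ∣ [V:N']`, `y ∈ H²(V/V_k, C^{V_k})` with `p^a • y = 0`: `y ↔ [JtoC β]` with
  `JtoC β = ∑_{n ∈ N'} n z` for some `z ∈ C(L',T)`;
* `exists_sum_eq_of_pow_nsmul_eq_zero'` : the same for `Nn : Subgroup ↥V` (input shape of (R)).
-/
import Mathlib
import Fermat.Agent.GC.Global.WRec.CyclicLayerUncond

set_option autoImplicit false
set_option linter.unusedSectionVars false

open scoped Padic
open IntermediateField

noncomputable section

namespace Fermat.Agent.GC.Global.WRec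

open Fermat.Agent.GC.Global Fermat.Agent.GC.Global.Adapter
open Fermat.Agent.GC.Local.CycH2
open CategoryTheory groupCohomology

section RelNormBot

variable {k G M : Type*} [CommRing k] [Group G] [AddCommGroup M] [Module k M]
  (ρ : Representation k G M)

/-- `N_{H/H'} z = ∑_{n ∈ H} n z` when `H' ∩ H` is trivial. -/
theorem relNormSub_eq_sum_of_eq_bot {H H' : Subgroup G} [Fintype H]
    [Fintype (H ⧸ H'.subgroupOf H)] (hbot : H'.subgroupOf H = ⊥) (z : M) :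
    relNormSub ρ H H' z = ∑ n : H, ρ (n : G) z := by
  rw [relNormSub_apply]
  refine Fintype.sum_bijective (fun c : H ⧸ H'.subgroupOf H => c.out)
    ⟨Quotient.out_injective, ?_⟩ _ _ (fun _ => rfl)
  intro g
  refine ⟨QuotientGroup.mk g, ?_⟩
  have h := QuotientGroup.eq.mp
    (QuotientGroup.out_eq' (QuotientGroup.mk g : H ⧸ H'.subgroupOf H))
  have h2 : ((QuotientGroup.mk g : H ⧸ H'.subgroupOf H).out)⁻¹ * g ∈ (⊥ : Subgroup H) := by
    rw [← hbot]; exact h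
  change (QuotientGroup.mk g : H ⧸ H'.subgroupOf H).out = g
  exact (inv_mul_eq_one.mp (Subgroup.mem_bot.1 h2))

end RelNormBot

section ThetaLe

open scoped Classical

variable (p : ℕ) [hp : Fact p.Prime] (k : ℕ) (T : Finset Nat.Primes)
  {L' : IntermediateField ℚ Qb} [FiniteDimensional ℚ L'] [IsGalois ℚ L']

theorem JInv_mono {V N' : Subgroup (L' ≃ₐ[ℚ] L')} (hle : N' ≤ V) :
    JInv L' V T ≤ JInv L' N' T := by
  intro y hy
  rw [mem_JInv_iff_rho] at hy ⊢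
  exact fun g hg => hy g (hle hg)

theorem Theta_nsmul (hpT : pp p ∈ T) (V : Subgroup (L' ≃ₐ[ℚ] L')) {β : J L' T}
    (hβ : β ∈ JInv L' V T) (n : ℕ) :
    Theta p k L' T hpT V (n • β) = Theta p k L' T hpT V β ^ n := by
  induction n with
  | zero => rw [zero_smul, pow_zero, Theta_zero]
  | succ n ih =>
    rw [succ_nsmul, Theta_add p k L' T hpT V ((JInv L' V T).smul_of_tower_mem n hβ) hβ, ih]
    exact (pow_succ _ n).symm

/-- `Θ_{N'}(β) = Θ_V(β)^[V:N']` for `β ∈ J^V`, `N' ≤ V` (`K' = L'^{N'} ⊇ K = L'^V`: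
`N_{K'/ℚ} β = N_{K/ℚ}(β^[K':K])`). -/
theorem Theta_of_le (hpT : pp p ∈ T) {V N' : Subgroup (L' ≃ₐ[ℚ] L')} (hle : N' ≤ V)
    {β : J L' T} (hβ : β ∈ JInv L' V T) :
    Theta p k L' T hpT N' β = Theta p k L' T hpT V β ^ (N'.relIndex V) := by
  have h1 := Theta_relNormSub p k L' T hpT hle (JInv_mono T hle hβ)
  let _ := Fintype.ofFinite (V ⧸ N'.subgroupOf V)
  rw [relNormSub_of_isInv (isInv_iff_mem_JInv.2 hβ), Theta_nsmul p k T hpT V hβ] at h1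
  rw [← h1, Subgroup.relIndex, Subgroup.index, Nat.card_eq_fintype_card]

end ThetaLe

section H4

open scoped Classical

variable (p : ℕ) [hp : Fact p.Prime] (k : ℕ) (T : Finset Nat.Primes)
  {L' : IntermediateField ℚ Qb} [FiniteDimensional ℚ L'] [IsGalois ℚ L']
  (hg : GoodT L' T p) (hp2 : p ≠ 2) (hpT : pp p ∈ T) (ζ : L')
  (hζ : IsPrimitiveRoot ζ p) (h : cycLayer p k ≤ L') (V : Subgroup (L' ≃ₐ[ℚ] L'))
  (hVζ : ∀ v ∈ V, v ζ = ζ)
  [Fintype (V ⧸ (V ⊓ (Funct.gRes h).ker).subgroupOf V)]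
  {σ : V ⧸ (V ⊓ (Funct.gRes h).ker).subgroupOf V} {m : ℕ} (hσ : IsGen σ m)

include hg hp2 hpT hζ hVζ hσ in
/-- **(h4)-model**, `N' ≤ V` as a subgroup of `Gal(L'/ℚ)`. -/
theorem exists_sum_eq_of_pow_nsmul_eq_zero (N' : Subgroup (L' ≃ₐ[ℚ] L')) (hle : N' ≤ V)
    (hNk : N' ⊓ (Funct.gRes h).ker = ⊥) (a : ℕ) (hdvd : p ^ a ∣ N'.relIndex V)
    (y : H2 ((CV T V).quotientToInvariants ((V ⊓ (Funct.gRes h).ker).subgroupOf V)))
    (hy : p ^ a • y = 0) :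
    ∃ β : ↥(JInv L' V T),
      PeriodDict.periodEquiv (CV T V) ((V ⊓ (Funct.gRes h).ker).subgroupOf V) hσ y =
        JInvToNormRes T V (V ⊓ (Funct.gRes h).ker) β ∧
      ∃ z : C L' T, ∑ n : N', (C L' T).ρ (n : L' ≃ₐ[ℚ] L') z = (JtoC L' T).hom (β : J L' T) := by
  obtain ⟨β, hβ⟩ := exists_JInv_periodEquiv_eq' p k T hg hp2 hpT ζ hζ h V hVζ hσ y
  refine ⟨β, hβ, ?_⟩
  have h1 : (Theta p k L' T hpT V (β : J L' T) ^ 2) ^ (p ^ a) = 1 :=
    (nsmul_eq_zero_iff' p k T hg hp2 hpT ζ hζ h V hVζ hσ y β hβ (p ^ a)).1 hy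
  obtain ⟨e, he⟩ := hdvd
  have h2 : Theta p k L' T hpT N' (β : J L' T) ^ 2 = 1 := by
    rw [Theta_of_le p k T hpT hle β.2, ← pow_mul, mul_comm, pow_mul, he, pow_mul, h1, one_pow]
  have hN'ζ : ∀ v ∈ N', v ζ = ζ := fun v hv => hVζ v (hle hv)
  obtain ⟨k1, -, -, -⟩ := cyclic_layer p k T hg hp2 hpT ζ hζ h N' hN'ζ
  obtain ⟨c, -, hc⟩ := k1 (β : J L' T) (JInv_mono T hle β.2) h2
  refine ⟨c, ?_⟩
  rw [← hc]
  let _ := Fintype.ofFinite (N' ⧸ (N' ⊓ (Funct.gRes h).ker).subgroupOf N')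
  exact (relNormSub_eq_sum_of_eq_bot (C L' T).ρ (by rw [hNk, Subgroup.bot_subgroupOf]) c).symm

set_option maxHeartbeats 800000 in
include hg hp2 hpT hζ hVζ hσ in
/-- **(h4)-model**, `Nn : Subgroup ↥V` (input shape of `res_infl_eq_zero_of_norm`). -/
theorem exists_sum_eq_of_pow_nsmul_eq_zero' (Nn : Subgroup ↥V)
    (hNM : Nn ⊓ (V ⊓ (Funct.gRes h).ker).subgroupOf V = ⊥) (a : ℕ) (hdvd : p ^ a ∣ Nn.index)
    (y : H2 ((CV T V).quotientToInvariants ((V ⊓ (Funct.gRes h).ker).subgroupOf V)))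
    (hy : p ^ a • y = 0) :
    ∃ β : ↥(JInv L' V T),
      PeriodDict.periodEquiv (CV T V) ((V ⊓ (Funct.gRes h).ker).subgroupOf V) hσ y =
        JInvToNormRes T V (V ⊓ (Funct.gRes h).ker) β ∧
      ∃ z : C L' T, ∑ n : Nn, (CV T V).ρ (n : ↥V) z = (JtoC L' T).hom (β : J L' T) := by
  set N' : Subgroup (L' ≃ₐ[ℚ] L') := Nn.map V.subtype with hN'
  have hle : N' ≤ V := Subgroup.map_subtype_le Nn
  have hsub : N'.subgroupOf V = Nn := by
    rw [hN', Subgroup.subgroupOf, Subgroup.comap_map_eq_self_of_injective V.subtype_injective]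
  have hNk : N' ⊓ (Funct.gRes h).ker = ⊥ := by
    rw [eq_bot_iff]
    rintro x ⟨⟨n, hn, rfl⟩, hx2⟩
    have : n ∈ Nn ⊓ (V ⊓ (Funct.gRes h).ker).subgroupOf V :=
      ⟨hn, Subgroup.mem_subgroupOf.2 ⟨n.2, hx2⟩⟩
    rw [hNM, Subgroup.mem_bot] at this
    rw [this]
    exact Subgroup.mem_bot.2 rfl
  have hdvd' : p ^ a ∣ N'.relIndex V := by
    rw [Subgroup.relIndex, hsub]; exact hdvd
  obtain ⟨β, hβ, z, hz⟩ := exists_sum_eq_of_pow_nsmul_eq_zero p k T hg hp2 hpT ζ hζ h V hVζ hσ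
    N' hle hNk a hdvd' y hy
  refine ⟨β, hβ, z, ?_⟩
  rw [← hz]
  let e : Nn ≃ N' := (Nn.equivMapOfInjective V.subtype V.subtype_injective).toEquiv
  exact Fintype.sum_equiv e _ _ (fun n => rfl)

end H4

end Fermat.Agent.GC.Global.WRec
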