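/-
GATE-C / C4 GLOBAL-COH, [B']-FIN (helper14): `cyc_abs_tors` (helper74) at the model.

`V ≤ Gal(L'/ℚ)` fixing `ζ_p`, `Nn ◁ V` with `Nn ∩ V_k = 1` (`V_k = V ∩ Gal(L'/M_k)`), `A = Res_V C(L',T)`,
`T` good for `L'`, `p^a ∥ [V : Nn]`, `p^a ∣ |χ(V)|`.  Then the `p`-primary part of `H²(V/Nn, A^{Nn})` is
cyclic of order `p^a` and consists, after inflation to `V`, of inflated classes of the cyclic layer
`H²(V/V_k, A^{V_k})` (same torsion exponent).

Inputs: helper97 `CycAbsInputs` (h1,h2,h3), helper55 `CyclicLayerUncond` + `ResInflHyp`, helper3 `ResCyc`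
(R), helper74 `CycAbsTors` (Y).
-/
import Mathlib
import Fermat.Agent.GC.Global.WRec.ResInflHyp
import Fermat.Agent.GC.Global.Adapter.CycAbsInputs
import Fermat.Agent.GC.Tate.CycAbsTors
import Fermat.Agent.GC.Tate.ResCyc

set_option autoImplicit false
set_option linter.unusedSectionVars false
set_option linter.style.haveILetI false

open scoped Padic
open IntermediateField CategoryTheory

noncomputable section

namespace Fermat.Agent.GC.Global.WRec.FinLevel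

open Fermat.Agent.GC.Global Fermat.Agent.GC.Global.Adapter Fermat.Agent.GC.Global.WRec
open Fermat.Agent.GC.Local.CycH2 groupCohomology
open Fermat.Agent.GC.Global.Devissage Fermat.Agent.GC.Tate.InfRes2

open scoped Classical

variable (p : ℕ) [hp : Fact p.Prime] (k : ℕ) (T : Finset Nat.Primes)
  {L' : IntermediateField ℚ Qb} [FiniteDimensional ℚ L'] [IsGalois ℚ L']

/-- a generator of the cyclic group `V / V_k`. -/
theorem exists_isGen_Vk (hp2 : p ≠ 2) (h : cycLayer p k ≤ L')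
    (V : Subgroup (L' ≃ₐ[ℚ] L')) :
    ∃ (σ : V ⧸ (V ⊓ (Funct.gRes h).ker).subgroupOf V) (m : ℕ), IsGen σ m := by
  haveI := LayerCard.isCyclic_quotient_Vk p k hp2 h V
  obtain ⟨g, hg⟩ := IsCyclic.exists_generator (α := V ⧸ (V ⊓ (Funct.gRes h).ker).subgroupOf V)
  exact ⟨g, Nat.card (V ⧸ (V ⊓ (Funct.gRes h).ker).subgroupOf V), Nat.card_pos,
    orderOf_eq_card_of_forall_mem_zpowers hg, hg⟩

/-- a subgroup of `V` meeting `V_k` trivially is a `p`-group (`V` fixes `ζ_p`). -/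
theorem isPGroup_of_inf_Vk_eq_bot (h : cycLayer p k ≤ L') (ζ : L') (hζ : IsPrimitiveRoot ζ p)
    (V : Subgroup (L' ≃ₐ[ℚ] L')) (hVζ : ∀ v ∈ V, v ζ = ζ) (Nn : Subgroup ↥V)
    (hNM : Nn ⊓ (V ⊓ (Funct.gRes h).ker).subgroupOf V = ⊥) : IsPGroup p Nn := by
  intro n
  refine ⟨k, ?_⟩
  have h1 : ((chiG p k).comp (Funct.gRes h)) ((n : ↥V) : L' ≃ₐ[ℚ] L') ^ (p ^ k) = 1 :=
    LayerCard.hVp_of_zeta p k h ζ hζ V hVζ _ (n : ↥V).2
  have h2 : (((n : ↥V) : L' ≃ₐ[ℚ] L') ^ (p ^ k)) ∈ (Funct.gRes h).ker := by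
    rw [← LayerCard.ker_chi_eq p k h, MonoidHom.mem_ker, map_pow]
    exact h1
  have h3 : (n ^ (p ^ k) : Nn) ∈ (⊥ : Subgroup Nn) := by
    have : ((n ^ (p ^ k) : Nn) : ↥V) ∈ Nn ⊓ (V ⊓ (Funct.gRes h).ker).subgroupOf V := by
      refine Subgroup.mem_inf.2 ⟨(n ^ (p ^ k) : Nn).2, ?_⟩
      refine Subgroup.mem_subgroupOf.2 (Subgroup.mem_inf.2 ⟨((n ^ (p ^ k) : Nn) : ↥V).2, ?_⟩)
      simpa using h2
    rw [hNM, Subgroup.mem_bot] at this
    rw [Subgroup.mem_bot]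
    exact Subtype.ext this
  exact Subgroup.mem_bot.1 h3

/-- **`cyc_abs_tors` at the model.** -/
theorem cyc_abs_model (hg : GoodT L' T p) (hp2 : p ≠ 2) (hpT : pp p ∈ T) (ζ : L')
    (hζ : IsPrimitiveRoot ζ p) (h : cycLayer p k ≤ L') (V : Subgroup (L' ≃ₐ[ℚ] L'))
    (hVζ : ∀ v ∈ V, v ζ = ζ) (Nn : Subgroup ↥V) [Nn.Normal]
    (hNM : Nn ⊓ (V ⊓ (Funct.gRes h).ker).subgroupOf V = ⊥)
    (hk : p ^ (Nat.card (↥V ⧸ Nn)).factorization p ∣
      Nat.card (V.map ((chiG p k).comp (Funct.gRes h)))) :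
    (∀ (z : groupCohomology ((CV T V).quotientToInvariants Nn) 2) (b : ℕ), p ^ b • z = 0 →
        ∃ y : groupCohomology
            ((CV T V).quotientToInvariants ((V ⊓ (Funct.gRes h).ker).subgroupOf V)) 2,
          p ^ b • y = 0 ∧ (H2InfRes (CV T V) Nn).f.hom z =
            (H2InfRes (CV T V) ((V ⊓ (Funct.gRes h).ker).subgroupOf V)).f.hom y) ∧
      Nat.card (primaryPart p (groupCohomology ((CV T V).quotientToInvariants Nn) 2)) =
        p ^ (Nat.card (↥V ⧸ Nn)).factorization p ∧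
      (∀ z z' : groupCohomology ((CV T V).quotientToInvariants Nn) 2, p • z = 0 → p • z' = 0 →
        ∃ n : ℕ, z' = n • z ∨ z = n • z') ∧
      IsAddCyclic (primaryPart p (groupCohomology ((CV T V).quotientToInvariants Nn) 2)) := by
  obtain ⟨σ, m, hσ⟩ := exists_isGen_Vk p k hp2 h V
  haveI : Fintype (V ⧸ (V ⊓ (Funct.gRes h).ker).subgroupOf V) := Fintype.ofFinite _
  have hNp : IsPGroup p Nn := isPGroup_of_inf_Vk_eq_bot p k h ζ hζ V hVζ Nn hNM
  have h1 := CycAbsInputs.h1_zeta L' T hg hp.out hp2 ζ hζ V hVζ Nn hNp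
  have h2 := CycAbsInputs.h2_zeta L' T hg hp.out hp2 ζ hζ V hVζ
    ((V ⊓ (Funct.gRes h).ker).subgroupOf V)
  obtain ⟨-, h3fin, h3⟩ := CycAbsInputs.h3_zeta L' T hg hp.out hp2 ζ hζ V hVζ Nn
  haveI := h3fin
  have hcyc := isAddCyclic_H2_layer' p k T hg hp2 hpT ζ hζ h V hVζ hσ
  obtain ⟨hfin, hcard⟩ := card_H2_layer' p k T hg hp2 hpT ζ hζ h V hVζ hσ
  haveI := hfin
  have hdvd : p ^ (Nat.card (↥V ⧸ Nn)).factorization p ∣
      Nat.card (groupCohomology
        ((CV T V).quotientToInvariants ((V ⊓ (Funct.gRes h).ker).subgroupOf V)) 2) := by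
    rw [show Nat.card (groupCohomology
        ((CV T V).quotientToInvariants ((V ⊓ (Funct.gRes h).ker).subgroupOf V)) 2) =
      Nat.card (V.map ((chiG p k).comp (Funct.gRes h))) from hcard]
    exact hk
  have hidx : p ^ (Nat.card (↥V ⧸ Nn)).factorization p ∣ Nn.index := by
    rw [Subgroup.index_eq_card]
    exact Nat.ordProj_dvd _ _
  have hres : ∀ y : groupCohomology
      ((CV T V).quotientToInvariants ((V ⊓ (Funct.gRes h).ker).subgroupOf V)) 2,
      p ^ (Nat.card (↥V ⧸ Nn)).factorization p • y = 0 →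
      (H2InfRes (CV T V) Nn).g.hom
        ((H2InfRes (CV T V) ((V ⊓ (Funct.gRes h).ker).subgroupOf V)).f.hom y) = 0 := by
    intro y hy
    have hex := exists_sum_eq_of_pow_nsmul_eq_zero' p k T hg hp2 hpT ζ hζ h V hVζ hσ Nn hNM _
      hidx y hy
    refine Exists.elim hex fun β hβ => ?_
    refine Exists.elim hβ.2 fun z hz => ?_
    exact Fermat.Agent.GC.Tate.ResCyc.res_infl_eq_zero_of_norm (CV T V) Nn
      ((V ⊓ (Funct.gRes h).ker).subgroupOf V) hσ hNM y (JInvToCInv T V β) hβ.1 z hz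
  exact Fermat.Agent.GC.Tate.CycAbsTors.cyc_abs_tors (CV T V) Nn
    ((V ⊓ (Funct.gRes h).ker).subgroupOf V) hp.out h1 h2 h3 hcyc hdvd hres

end Fermat.Agent.GC.Global.WRec.FinLevel
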