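/-
GATE-C / C4 GLOBAL-COH, [B']-FIN (helper14): the finite-level theorems at the level `L`.

`L ≤ L'` layers, `L'` containing the cyclotomic layer `M_k` with `Gal(L'/L) ∩ Gal(L'/M_k) = 1`
(i.e. `L' = L·M_k`), `V ≤ Gal(L/ℚ)` fixing `ζ_p`, `V' = upV h₁ V`, `T` good for `L'`,
`p^a ∥ |V|`, `p^a ∣ |χ(V')|`.  Then

* `fc_card`  : `|H²(V, C(L,T))(p)| = p^a`;
* `fc_cyc`   : any two `p`-torsion classes of `H²(V, C(L,T))` are dependent;
* `fc_inj`   : the transition map `H²(V, C(L,T)) → H²(V', C(L',T))` is injective on `p`-power torsion;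
* `fc_layer` : a `p^b`-torsion class becomes, in `H²(V', C(L',T))`, the inflation of a `p^b`-torsion
  class of the cyclic layer `H²(V'/V'_k, C(L',T)^{V'_k})`.
-/
import Mathlib
import Fermat.Agent.GC.Global.WRec.FinLevelCyc
import Fermat.Agent.GC.Global.WRec.DegGrow
import Fermat.Agent.GC.Global.Funct.StageIso
import Fermat.Agent.GC.Tate.InfRes2P

set_option autoImplicit false
set_option linter.unusedSectionVars false
set_option linter.style.haveILetI false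

open scoped Padic
open IntermediateField CategoryTheory

noncomputable section

namespace Fermat.Agent.GC.Global.WRec.FinLevel

open Fermat.Agent.GC.Global Fermat.Agent.GC.Global.Adapter Fermat.Agent.GC.Global.WRec
open Fermat.Agent.GC.Global.Funct
open Fermat.Agent.GC.Local.CycH2 groupCohomology
open Fermat.Agent.GC.Global.Devissage Fermat.Agent.GC.Tate.InfRes2

open scoped Classical

section Abstract

universe u

variable {R : Type u} [Ring R]

theorem nsmul_hom_eq_zero {X Y : ModuleCat.{u} R} (f : X ⟶ Y) (n : ℕ) (x : X) (hx : n • x = 0) :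
    n • f.hom x = 0 := by
  rw [← map_nsmul, hx, map_zero]

/-- transport of the finite-level package along an isomorphism `e : X ≅ Y` with
`e.inv ≫ iN = tr`. -/
theorem transport_package {X Y Z W : ModuleCat.{u} R} (e : X ≅ Y) (iN : X ⟶ Z) (tr : Y ⟶ Z)
    (iM : W ⟶ Z) (he : e.inv ≫ iN = tr) (p : ℕ)
    (c1 : ∀ (z : X) (b : ℕ), p ^ b • z = 0 → ∃ y : W, p ^ b • y = 0 ∧ iN.hom z = iM.hom y)
    (c3 : ∀ z z' : X, p • z = 0 → p • z' = 0 → ∃ n : ℕ, z' = n • z ∨ z = n • z')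
    (cinj : ∀ (z : X) (b : ℕ), p ^ b • z = 0 → iN.hom z = 0 → z = 0) :
    Nat.card (primaryPart p Y) = Nat.card (primaryPart p X) ∧
    (∀ z z' : Y, p • z = 0 → p • z' = 0 → ∃ n : ℕ, z' = n • z ∨ z = n • z') ∧
    (∀ (z : Y) (b : ℕ), p ^ b • z = 0 → tr.hom z = 0 → z = 0) ∧
    (∀ (z : Y) (b : ℕ), p ^ b • z = 0 → ∃ y : W, p ^ b • y = 0 ∧ tr.hom z = iM.hom y) := by
  have hinv : ∀ z, e.hom.hom (e.inv.hom z) = z := fun z => by
    have := e.inv_hom_id
    exact congr($(this).hom z)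
  have hinv' : ∀ z, e.inv.hom (e.hom.hom z) = z := fun z => by
    have := e.hom_inv_id
    exact congr($(this).hom z)
  have htr : ∀ z, tr.hom z = iN.hom (e.inv.hom z) := fun z => by
    have := he
    exact (congr($(this).hom z)).symm
  refine ⟨?_, ?_, ?_, ?_⟩
  · refine Nat.card_congr ?_
    refine
      { toFun := fun z => ⟨e.inv.hom z.1, ?_⟩
        invFun := fun z => ⟨e.hom.hom z.1, ?_⟩
        left_inv := fun z => Subtype.ext (hinv z.1)
        right_inv := fun z => Subtype.ext (hinv' z.1) }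
    · obtain ⟨m, hm⟩ := mem_primaryPart.1 z.2
      exact mem_primaryPart.2 ⟨m, nsmul_hom_eq_zero e.inv _ _ hm⟩
    · obtain ⟨m, hm⟩ := mem_primaryPart.1 z.2
      exact mem_primaryPart.2 ⟨m, nsmul_hom_eq_zero e.hom _ _ hm⟩
  · intro z z' hz hz'
    obtain ⟨n, hn | hn⟩ := c3 _ _ (nsmul_hom_eq_zero e.inv _ _ hz) (nsmul_hom_eq_zero e.inv _ _ hz')
    · refine ⟨n, Or.inl ?_⟩
      have := congrArg e.hom.hom hn
      rwa [map_nsmul, hinv, hinv] at this
    · refine ⟨n, Or.inr ?_⟩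
      have := congrArg e.hom.hom hn
      rwa [map_nsmul, hinv, hinv] at this
  · intro z b hz h0
    rw [htr] at h0
    have := cinj _ b (nsmul_hom_eq_zero e.inv _ _ hz) h0
    rw [← hinv z, this, map_zero]
  · intro z b hz
    obtain ⟨y, hy, hzy⟩ := c1 _ b (nsmul_hom_eq_zero e.inv _ _ hz)
    exact ⟨y, hy, by rw [htr]; exact hzy⟩

end Abstract

variable (T : Finset Nat.Primes)
  {L L' : IntermediateField ℚ Qb} [FiniteDimensional ℚ L] [IsGalois ℚ L]
  [FiniteDimensional ℚ L'] [IsGalois ℚ L'] (h₁ : L ≤ L') (V : Subgroup (L ≃ₐ[ℚ] L))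

/-- `stageIso` for an arbitrary name `U` of the kernel of `V' → V`. -/
theorem exists_stageIso_of_eq (U : Subgroup (upV h₁ V)) [U.Normal] (hU : U = (resV h₁ V).ker)
    (hT : T.Nonempty)
    (hH1 : Fermat.Agent.GC.Tate.InfRes2.H1Vanishes (E L' T) (gRes h₁).ker) (n : ℕ) :
    ∃ e : groupCohomology ((Rep.res (upV h₁ V).subtype (C L' T)).quotientToInvariants U) n ≅
        groupCohomology (Rep.res V.subtype (C L T)) n,
      e.inv ≫ infl (Rep.res (upV h₁ V).subtype (C L' T)) U n = stageTrans h₁ T V n := by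
  subst hU
  exact ⟨stageIso h₁ T V hT hH1 n, stageIso_inv_infl h₁ T V hT hH1 n⟩

/-- `stageIso` for `kerN`. -/
theorem exists_stageIso_kerN (hT : T.Nonempty)
    (hH1 : Fermat.Agent.GC.Tate.InfRes2.H1Vanishes (E L' T) (gRes h₁).ker) (n : ℕ) :
    ∃ e : groupCohomology
          ((Rep.res (upV h₁ V).subtype (C L' T)).quotientToInvariants (kerN h₁ V)) n ≅
        groupCohomology (Rep.res V.subtype (C L T)) n,
      e.inv ≫ infl (Rep.res (upV h₁ V).subtype (C L' T)) (kerN h₁ V) n = stageTrans h₁ T V n :=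
  exists_stageIso_of_eq T h₁ V (kerN h₁ V) (ker_resV h₁ V).symm hT hH1 n

section Main

variable (p : ℕ) [hp : Fact p.Prime] (k : ℕ) (h : cycLayer p k ≤ L')

/-- `kerN ⊓ V'_k = ⊥` when `Gal(L'/L) ∩ Gal(L'/M_k) = 1`. -/
theorem kerN_inf_Vk_eq_bot (hbot : (gRes h₁).ker ⊓ (gRes h).ker = ⊥) :
    kerN h₁ V ⊓ (upV h₁ V ⊓ (gRes h).ker).subgroupOf (upV h₁ V) = ⊥ := by
  rw [eq_bot_iff]
  intro x hx
  obtain ⟨hx1, hx2⟩ := Subgroup.mem_inf.1 hx
  have h1 : (x : L' ≃ₐ[ℚ] L') ∈ (gRes h₁).ker := Subgroup.mem_subgroupOf.1 hx1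
  have h2 : (x : L' ≃ₐ[ℚ] L') ∈ (gRes h).ker :=
    (Subgroup.mem_inf.1 (Subgroup.mem_subgroupOf.1 hx2)).2
  have h3 : (x : L' ≃ₐ[ℚ] L') ∈ (⊥ : Subgroup (L' ≃ₐ[ℚ] L')) := by
    rw [← hbot]; exact Subgroup.mem_inf.2 ⟨h1, h2⟩
  exact Subgroup.mem_bot.2 (Subtype.ext (Subgroup.mem_bot.1 h3))

theorem card_quot_kerN : Nat.card (↥(upV h₁ V) ⧸ kerN h₁ V) = Nat.card V :=
  Nat.card_congr (quotEquivV h₁ V).toEquiv

/-- **The finite-level package at `L`.** -/
theorem fc_level (hg : GoodT L' T p) (hp2 : p ≠ 2) (hpT : pp p ∈ T) (ζ : L)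
    (hζ : IsPrimitiveRoot ζ p) (hVζ : ∀ v ∈ V, v ζ = ζ)
    (hbot : (gRes h₁).ker ⊓ (gRes h).ker = ⊥)
    (hk : p ^ (Nat.card V).factorization p ∣
      Nat.card ((upV h₁ V).map ((chiG p k).comp (gRes h)))) :
    -- (card)
    Nat.card (primaryPart p (groupCohomology (Rep.res V.subtype (C L T)) 2)) =
        p ^ (Nat.card V).factorization p ∧
    -- (cyc)
    (∀ z z' : groupCohomology (Rep.res V.subtype (C L T)) 2, p • z = 0 → p • z' = 0 →
        ∃ n : ℕ, z' = n • z ∨ z = n • z') ∧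
    -- (inj)
    (∀ (z : groupCohomology (Rep.res V.subtype (C L T)) 2) (b : ℕ), p ^ b • z = 0 →
        (stageTrans h₁ T V 2).hom z = 0 → z = 0) ∧
    -- (layer)
    (∀ (z : groupCohomology (Rep.res V.subtype (C L T)) 2) (b : ℕ), p ^ b • z = 0 →
        ∃ y : groupCohomology ((CV T (upV h₁ V)).quotientToInvariants
            ((upV h₁ V ⊓ (gRes h).ker).subgroupOf (upV h₁ V))) 2,
          p ^ b • y = 0 ∧ (stageTrans h₁ T V 2).hom z =
            (H2InfRes (CV T (upV h₁ V))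
              ((upV h₁ V ⊓ (gRes h).ker).subgroupOf (upV h₁ V))).f.hom y) := by
  have hT : T.Nonempty := ⟨pp p, hpT⟩
  have hζ' : IsPrimitiveRoot (gIncl h₁ ζ) p :=
    hζ.map_of_injective (gIncl h₁).toRingHom.injective
  have hV'ζ := DegGrow.upV_fixes h₁ V ζ hVζ
  have hNM := kerN_inf_Vk_eq_bot h₁ V p k h hbot
  have hk' : p ^ (Nat.card (↥(upV h₁ V) ⧸ kerN h₁ V)).factorization p ∣
      Nat.card ((upV h₁ V).map ((chiG p k).comp (gRes h))) := by
    rw [card_quot_kerN]; exact hk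
  obtain ⟨c1, c2, c3, -⟩ := cyc_abs_model p k T hg hp2 hpT (gIncl h₁ ζ) hζ' h (upV h₁ V) hV'ζ
    (kerN h₁ V) hNM hk'
  rw [card_quot_kerN] at c2
  obtain ⟨e, he⟩ := exists_stageIso_kerN T h₁ V hT
    (H1U.h1Vanishes_E_of_goodT L' T hg (gRes h₁).ker) 2
  have cinj : ∀ (z : groupCohomology ((CV T (upV h₁ V)).quotientToInvariants (kerN h₁ V)) 2)
      (b : ℕ), p ^ b • z = 0 → (H2InfRes (CV T (upV h₁ V)) (kerN h₁ V)).f.hom z = 0 → z = 0 := by
    intro z b hz h0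
    have h2 := CycAbsInputs.h2_zeta L' T hg hp.out hp2 (gIncl h₁ ζ) hζ' (upV h₁ V) hV'ζ
      (kerN h₁ V)
    exact Fermat.Agent.GC.Tate.InfRes2.inf_injective_of_noTorsion (CV T (upV h₁ V))
      (kerN h₁ V) p hp.out h2 z b hz h0
  obtain ⟨t1, t2, t3, t4⟩ := transport_package e
    (H2InfRes (CV T (upV h₁ V)) (kerN h₁ V)).f (stageTrans h₁ T V 2)
    (H2InfRes (CV T (upV h₁ V)) ((upV h₁ V ⊓ (gRes h).ker).subgroupOf (upV h₁ V))).f he p
    c1 c3 cinj
  exact ⟨t1.trans c2, t2, t3, t4⟩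

end Main

end Fermat.Agent.GC.Global.WRec.FinLevel
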