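/-
GATE-C / C4 plumbing (helper68): the stage groups of helper12's `LayerTower` versus helper14's
`upV`: for `K ≤ L ≤ L'`, `Gal(L'/K) = upV h₁ (Gal(L/K))` (the preimage under restriction).
-/
import Mathlib
import Fermat.Agent.GC.Global.WRec.DegGrow2

set_option autoImplicit false
set_option linter.unusedSectionVars false

open IntermediateField

noncomputable section

namespace Fermat.Agent.GC.Global.WRec.DegGrow

open Fermat.Agent.GC.Global Fermat.Agent.GC.Global.Funct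
open Fermat.Agent.GC.Global.Limit.LayerTower

/-- `Gal(L'/K) ≤ upV h₁ (Gal(L/K))` -/
theorem galK_le_upV {K L L' : IntermediateField ℚ Qb} [FiniteDimensional ℚ L] [IsGalois ℚ L]
    [FiniteDimensional ℚ L'] [IsGalois ℚ L'] (h₁ : L ≤ L') :
    galK K L' ≤ upV h₁ (galK K L) := by
  intro σ hσ
  show gRes h₁ σ ∈ galK K L
  intro y hy
  apply (gIncl h₁).toRingHom.injective
  show gIncl h₁ (gRes h₁ σ y) = gIncl h₁ y
  rw [GalRes.apply_res]
  exact hσ (gIncl h₁ y) hy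

/-- **`Gal(L'/K) = upV h₁ (Gal(L/K))`** for `K ≤ L ≤ L'`. -/
theorem galK_eq_upV {K L L' : IntermediateField ℚ Qb} [FiniteDimensional ℚ L] [IsGalois ℚ L]
    [FiniteDimensional ℚ L'] [IsGalois ℚ L'] (hKL : K ≤ L) (h₁ : L ≤ L') :
    galK K L' = upV h₁ (galK K L) :=
  le_antisymm (galK_le_upV h₁) (upV_galK_le hKL h₁)

/-- layer form -/
theorem galK_layer_eq_upV {S : Finset Nat.Primes} {K : IntermediateField ℚ Qb}
    {ℓ ℓ' : Layer S K} (h : ℓ ≤ ℓ') :
    galK K ℓ'.L = upV (Layer.le_def.1 h) (galK K ℓ.L) :=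
  galK_eq_upV ℓ.le (Layer.le_def.1 h)

/-- `σ ∈ Gal(L'/K) ↔ σ|_L ∈ Gal(L/K)` -/
theorem mem_galK_iff_gRes_mem {K L L' : IntermediateField ℚ Qb} [FiniteDimensional ℚ L]
    [IsGalois ℚ L] [FiniteDimensional ℚ L'] [IsGalois ℚ L'] (hKL : K ≤ L) (h₁ : L ≤ L')
    (σ : L' ≃ₐ[ℚ] L') : σ ∈ galK K L' ↔ gRes h₁ σ ∈ galK K L := by
  rw [galK_eq_upV hKL h₁]
  rfl

/-- the kernel of restriction `Gal(L'/ℚ) → Gal(L/ℚ)` lies in `Gal(L'/K)` -/
theorem ker_gRes_le_galK {K L L' : IntermediateField ℚ Qb} [FiniteDimensional ℚ L]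
    [IsGalois ℚ L] [FiniteDimensional ℚ L'] [IsGalois ℚ L'] (hKL : K ≤ L) (h₁ : L ≤ L') :
    (gRes h₁).ker ≤ galK K L' := by
  rw [galK_eq_upV hKL h₁]
  exact ker_le_upV h₁ (galK K L)

/-- `[L' : K] = [L : K] · [L' : L]` for the stage groups -/
theorem card_galK_eq_mul {K L L' : IntermediateField ℚ Qb} [FiniteDimensional ℚ L]
    [IsGalois ℚ L] [FiniteDimensional ℚ L'] [IsGalois ℚ L'] (hKL : K ≤ L) (h₁ : L ≤ L') :
    Nat.card (galK K L') = Nat.card (galK K L) * Nat.card (gRes h₁).ker := by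
  rw [galK_eq_upV hKL h₁]
  exact card_upV h₁ (galK K L)

end Fermat.Agent.GC.Global.WRec.DegGrow
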