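/-
GATE-C / C4 [B']-FIN, (FC-div) (helper97, per helper14 board 2326).

Class-level plumbing for the finite-level divisibility statement.  `L ≤ L₁ ≤ L₂` layers,
`V ≤ G_L`, `V₁ = upV h₁ V`, `V₂ = upV h₂ V₁`, `S, T` finite sets of primes,
`πC L := JtoC L T ∘ extJ L S T : J(L,S) ⟶ C(L,T)`.

* `piC`, `piCCoh` : `πC` and the induced map `Hⁿ(V, J(L,S)) ⟶ Hⁿ(V, C(L,T))`;
* `piCCoh_inflJCoh` (n1) : `πC_* ∘ inflJCoh = stageTrans ∘ πC_*`;
* `inflJCoh_trans` (n2) : `inflJCoh h₂ ∘ inflJCoh h₁ = inflJCoh (h₁.trans h₂)` up to the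
  identification `upV h₂ (upV h₁ V) = upV (h₁.trans h₂) V` (cast-free: both sides are maps into
  `Hⁿ(V₂, J(L₂,S))` with `V₂ := upV h₂ (upV h₁ V)`, the right one along the composite hom);
* `fc_div` : **(FC-div)** from (jd) = conclusion of helper72's `jdiv` at `(L, L₁)` and
  (on) = helper14's (FC-onto-p) at `(L₁, L₂, V₁)` for `b = 1`.
-/
import Mathlib
import Fermat.Agent.GC.Global.MackeyDiv
import Fermat.Agent.GC.Global.Funct.StageIso
import Fermat.Agent.GC.Global.Funct.TChange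

set_option autoImplicit false
set_option linter.unusedSectionVars false

open CategoryTheory groupCohomology

noncomputable section

namespace Fermat.Agent.GC.Global.WRec.FinLevelDiv

open Fermat.Agent.GC.Global Fermat.Agent.GC.Global.Adapter Fermat.Agent.GC.Global.Funct
open Fermat.Agent.GC.Global.Mackey

section OneLayer

variable (L : IntermediateField ℚ Qb) [FiniteDimensional ℚ L] [IsGalois ℚ L]
  (S T : Finset Nat.Primes)

/-- helper80's `extJ` as a morphism of representations `J(L,S) ⟶ J(L,T)`. -/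
def extJRep : J L S ⟶ J L T :=
  Rep.ofHom ⟨extJ L S T, fun g => LinearMap.ext fun y => extJ_rho L g y⟩

@[simp] theorem extJRep_hom_apply (y : J L S) : (extJRep L S T).hom y = extJ L S T y := rfl

/-- `πC := JtoC ∘ extJ : J(L,S) ⟶ C(L,T)`. -/
def piC : J L S ⟶ C L T := extJRep L S T ≫ JtoC L T

@[simp] theorem piC_hom_apply (y : J L S) :
    (piC L S T).hom y = (JtoC L T).hom (extJ L S T y) := rfl

/-- `πC_* : Hⁿ(V, J(L,S)) ⟶ Hⁿ(V, C(L,T))`. -/
def piCCoh (V : Subgroup (L ≃ₐ[ℚ] L)) (n : ℕ) :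
    groupCohomology (Rep.res V.subtype (J L S)) n ⟶
      groupCohomology (Rep.res V.subtype (C L T)) n :=
  groupCohomology.map (MonoidHom.id V) ((Rep.resFunctor V.subtype).map (piC L S T)) n

end OneLayer

section TwoLayers

variable {L L' : IntermediateField ℚ Qb} [FiniteDimensional ℚ L] [IsGalois ℚ L]
  [FiniteDimensional ℚ L'] [IsGalois ℚ L'] (h : L ≤ L') (S T : Finset Nat.Primes)
  (V : Subgroup (L ≃ₐ[ℚ] L))

/-- (n1) **naturality**: `πC_* ∘ inflJCoh = stageTrans ∘ πC_*`. -/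
theorem piCCoh_inflJCoh (n : ℕ) :
    inflJCoh h S V n ≫ piCCoh L' S T (upV h V) n = piCCoh L S T V n ≫ stageTrans h T V n := by
  unfold inflJCoh piCCoh stageTrans
  rw [← groupCohomology.map_comp, ← groupCohomology.map_comp]
  refine groupCohomology.map_congr rfl ?_ n
  ext y
  change (JtoC L' T).hom (extJ L' S T (inflJ h S y)) = inflC h T ((JtoC L T).hom (extJ L S T y))
  rw [inflC_JtoC, inflJ_extJ]

/-- elementwise form of (n1). -/
theorem piCCoh_inflJCoh_apply (n : ℕ) (ξ : groupCohomology (Rep.res V.subtype (J L S)) n) :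
    (piCCoh L' S T (upV h V) n).hom ((inflJCoh h S V n).hom ξ) =
      (stageTrans h T V n).hom ((piCCoh L S T V n).hom ξ) :=
  congr($(piCCoh_inflJCoh h S T V n).hom ξ)

end TwoLayers

/-! ### Restriction to a smaller subgroup (cast-free identification of equal subgroups) -/

section ResLE

universe u

variable {k G : Type u} [CommRing k] [Group G] (A B : Rep.{u} k G)

/-- the identity of `A` as a morphism `Res_{W' ↪ W} Res_W A ⟶ Res_{W'} A`. -/
def resLEHom {W W' : Subgroup G} (hle : W' ≤ W) :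
    Rep.res (Subgroup.inclusion hle) (Rep.res W.subtype A) ⟶ Rep.res W'.subtype A :=
  Rep.ofHom ⟨LinearMap.id, fun _ => rfl⟩

/-- restriction `Hⁿ(W, A) ⟶ Hⁿ(W', A)` for `W' ≤ W`. -/
def resLE {W W' : Subgroup G} (hle : W' ≤ W) (n : ℕ) :
    groupCohomology (Rep.res W.subtype A) n ⟶ groupCohomology (Rep.res W'.subtype A) n :=
  groupCohomology.map (Subgroup.inclusion hle) (resLEHom A hle) n

variable {A B}

/-- `resLE` is natural in the module. -/
theorem resLE_naturality (φ : A ⟶ B) {W W' : Subgroup G} (hle : W' ≤ W) (n : ℕ) :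
    resLE A hle n ≫
        groupCohomology.map (MonoidHom.id W') ((Rep.resFunctor W'.subtype).map φ) n =
      groupCohomology.map (MonoidHom.id W) ((Rep.resFunctor W.subtype).map φ) n ≫
        resLE B hle n := by
  unfold resLE
  rw [← groupCohomology.map_comp, ← groupCohomology.map_comp]
  exact groupCohomology.map_congr rfl rfl n

end ResLE

section ThreeLayers

variable {L L₁ L₂ : IntermediateField ℚ Qb} [FiniteDimensional ℚ L] [IsGalois ℚ L]
  [FiniteDimensional ℚ L₁] [IsGalois ℚ L₁] [FiniteDimensional ℚ L₂] [IsGalois ℚ L₂]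
  (h₁ : L ≤ L₁) (h₂ : L₁ ≤ L₂) (S T : Finset Nat.Primes) (V : Subgroup (L ≃ₐ[ℚ] L))

/-- `upV` is transitive. -/
theorem upV_trans : upV (h₁.trans h₂) V = upV h₂ (upV h₁ V) := by
  ext g
  simp only [Subgroup.mem_comap]
  rw [gRes_gRes]

/-- (n2) **transitivity of inflation**, cast-free: the right-hand side ends with the restriction
along `upV (h₁.trans h₂) V ≤ upV h₂ (upV h₁ V)` (an equality). -/
theorem inflJCoh_trans (n : ℕ) :
    inflJCoh (h₁.trans h₂) S V n =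
      inflJCoh h₁ S V n ≫ inflJCoh h₂ S (upV h₁ V) n ≫
        resLE (J L₂ S) (le_of_eq (upV_trans h₁ h₂ V)) n := by
  unfold inflJCoh resLE
  rw [← groupCohomology.map_comp, ← groupCohomology.map_comp]
  refine groupCohomology.map_congr ?_ ?_ n
  · refine MonoidHom.ext fun g => Subtype.ext ?_
    exact (gRes_gRes h₁ h₂ (g : L₂ ≃ₐ[ℚ] L₂)).symm
  · refine LinearMap.ext fun y => ?_
    exact (inflJ_inflJ h₁ S h₂ y).symm

variable {p a : ℕ}

/-- **(FC-div)**, core form in `V₂ := upV h₂ (upV h₁ V)`. -/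
theorem fc_div_core
    (jd : ∀ ξ : groupCohomology (Rep.res V.subtype (J L S)) 2, p ^ a • ξ = 0 →
      ∃ ξ₁ : groupCohomology (Rep.res (upV h₁ V).subtype (J L₁ S)) 2,
        (inflJCoh h₁ S V 2).hom ξ = p • ξ₁)
    (on : ∀ z : groupCohomology (Rep.res (upV h₁ V).subtype (C L₁ T)) 2, p • z = 0 →
      ∃ ξ₂ : groupCohomology (Rep.res (upV h₂ (upV h₁ V)).subtype (J L₂ S)) 2, p • ξ₂ = 0 ∧
        (stageTrans h₂ T (upV h₁ V) 2).hom z =
          (piCCoh L₂ S T (upV h₂ (upV h₁ V)) 2).hom ξ₂)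
    (ξ : groupCohomology (Rep.res V.subtype (J L S)) 2) (hξ : p ^ a • ξ = 0)
    (hπ : (piCCoh L S T V 2).hom ξ = 0) :
    ∃ ξ' : groupCohomology (Rep.res (upV h₂ (upV h₁ V)).subtype (J L₂ S)) 2,
      (inflJCoh h₂ S (upV h₁ V) 2).hom ((inflJCoh h₁ S V 2).hom ξ) = p • ξ' ∧
        (piCCoh L₂ S T (upV h₂ (upV h₁ V)) 2).hom ξ' = 0 := by
  obtain ⟨ξ₁, hξ₁⟩ := jd ξ hξ
  -- `c := πC_* ξ₁` is killed by `p`
  have hc : p • (piCCoh L₁ S T (upV h₁ V) 2).hom ξ₁ = 0 := by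
    rw [← map_nsmul, ← hξ₁, piCCoh_inflJCoh_apply, hπ, map_zero]
  obtain ⟨ξ₂, hξ₂, hon⟩ := on _ hc
  refine ⟨(inflJCoh h₂ S (upV h₁ V) 2).hom ξ₁ - ξ₂, ?_, ?_⟩
  · rw [smul_sub, hξ₂, sub_zero, ← map_nsmul, hξ₁]
  · rw [map_sub, piCCoh_inflJCoh_apply, hon, sub_self]

/-- **(FC-div)** (helper14 board 2326): `ξ ∈ H²(V, J(L,S))` with `p ^ a • ξ = 0` and
`πC_* ξ = 0` ⟹ at the later stage `L₂`, `infl ξ = p • ξ'` with `πC_* ξ' = 0`.
Hypotheses: (jd) = conclusion of helper72's `jdiv` at `(L, L₁, S)`, (on) = (FC-onto-p) at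
`(L₁, L₂, upV h₁ V)` for `b = 1`. -/
theorem fc_div
    (jd : ∀ ξ : groupCohomology (Rep.res V.subtype (J L S)) 2, p ^ a • ξ = 0 →
      ∃ ξ₁ : groupCohomology (Rep.res (upV h₁ V).subtype (J L₁ S)) 2,
        (inflJCoh h₁ S V 2).hom ξ = p • ξ₁)
    (on : ∀ z : groupCohomology (Rep.res (upV h₁ V).subtype (C L₁ T)) 2, p • z = 0 →
      ∃ ξ₂ : groupCohomology (Rep.res (upV h₂ (upV h₁ V)).subtype (J L₂ S)) 2, p • ξ₂ = 0 ∧
        (stageTrans h₂ T (upV h₁ V) 2).hom z =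
          (piCCoh L₂ S T (upV h₂ (upV h₁ V)) 2).hom ξ₂)
    (ξ : groupCohomology (Rep.res V.subtype (J L S)) 2) (hξ : p ^ a • ξ = 0)
    (hπ : (piCCoh L S T V 2).hom ξ = 0) :
    ∃ ξ' : groupCohomology (Rep.res (upV (h₁.trans h₂) V).subtype (J L₂ S)) 2,
      (inflJCoh (h₁.trans h₂) S V 2).hom ξ = p • ξ' ∧
        (piCCoh L₂ S T (upV (h₁.trans h₂) V) 2).hom ξ' = 0 := by
  obtain ⟨ξ', h1, h2⟩ := fc_div_core h₁ h₂ S T V jd on ξ hξ hπ
  refine ⟨(resLE (J L₂ S) (le_of_eq (upV_trans h₁ h₂ V)) 2).hom ξ', ?_, ?_⟩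
  · rw [inflJCoh_trans h₁ h₂ S V 2]
    change (resLE (J L₂ S) _ 2).hom
      ((inflJCoh h₂ S (upV h₁ V) 2).hom ((inflJCoh h₁ S V 2).hom ξ)) = _
    rw [h1, map_nsmul]
  · have hnat := resLE_naturality (piC L₂ S T) (le_of_eq (upV_trans h₁ h₂ V)) 2
    have := congr($(hnat).hom ξ')
    change (piCCoh L₂ S T (upV (h₁.trans h₂) V) 2).hom ((resLE (J L₂ S) _ 2).hom ξ') =
      (resLE (C L₂ T) _ 2).hom ((piCCoh L₂ S T (upV h₂ (upV h₁ V)) 2).hom ξ') at this
    rw [this, h2, map_zero]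

/-- **(FC-div)** with (jd) discharged by helper72's `jdiv`: the hypothesis is the divisibility of
the local degrees of `L₁` over `K = L^V` at the places above `S` by `p ^ (a + 1)`. -/
theorem fc_div_of_deg (hp : p.Prime)
    (hdeg : ∀ q : S, ∀ s : PlacesAbove L₁ (V.comap (gRes h₁)) q,
      p ^ (a + 1) ∣ Nat.card (locSub L₁ (V.comap (gRes h₁)) q (rep s)))
    (on : ∀ z : groupCohomology (Rep.res (upV h₁ V).subtype (C L₁ T)) 2, p • z = 0 →
      ∃ ξ₂ : groupCohomology (Rep.res (upV h₂ (upV h₁ V)).subtype (J L₂ S)) 2, p • ξ₂ = 0 ∧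
        (stageTrans h₂ T (upV h₁ V) 2).hom z =
          (piCCoh L₂ S T (upV h₂ (upV h₁ V)) 2).hom ξ₂)
    (ξ : groupCohomology (Rep.res V.subtype (J L S)) 2) (hξ : p ^ a • ξ = 0)
    (hπ : (piCCoh L S T V 2).hom ξ = 0) :
    ∃ ξ' : groupCohomology (Rep.res (upV (h₁.trans h₂) V).subtype (J L₂ S)) 2,
      (inflJCoh (h₁.trans h₂) S V 2).hom ξ = p • ξ' ∧
        (piCCoh L₂ S T (upV (h₁.trans h₂) V) 2).hom ξ' = 0 :=
  fc_div h₁ h₂ S T V (fun x hx => jdiv h₁ S V hp hdeg x hx) on ξ hξ hπ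

end ThreeLayers

end Fermat.Agent.GC.Global.WRec.FinLevelDiv
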