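/-
GATE-C / C4 (helper67): single-place ideles and change of the set of places.

For `S ⊆ T`, `q ∈ S`: `extJ L S T (singleIdele L S V q s b) = singleIdele L T V q s b`, and a
`T`-idele supported at a place `q ∈ S` is in the image of `extJ L S T`.
-/
import Mathlib
import Fermat.Agent.GC.Global.WRec.LocImageIdele
import Fermat.Agent.GC.Global.Funct.TChange

set_option autoImplicit false
set_option linter.unusedSectionVars false

open scoped Padic
open IntermediateField

noncomputable section

namespace Fermat.Agent.GC.Global.WRec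

open Fermat.Agent.GC.Global Fermat.Agent.GC.Global.Adapter Fermat.Agent.GC.Global.Funct

section Ext

open scoped Classical

variable (L : IntermediateField ℚ Qb) [FiniteDimensional ℚ L] [IsGalois ℚ L]
  {S T : Finset Nat.Primes} (hST : S ⊆ T) (V : Subgroup (L ≃ₐ[ℚ] L)) (r : Nat.Primes)
  (hrS : r ∈ S) (s : L ≃ₐ[ℚ] L)

/-- **`extJ` of a single-place idele** is the single-place idele. -/
theorem extJ_singleIdele (b : (locField (r : ℕ) L)ˣ)
    (hb : ∀ d ∈ decSub L r V s,
      Units.map ((d : LocGal L r) : locField (r : ℕ) L →* locField (r : ℕ) L) b = b) :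
    extJ L S T (singleIdele L S V ⟨r, hrS⟩ s b hb)
      = singleIdele L T V ⟨r, hST hrS⟩ s b hb := by
  funext q'
  obtain ⟨r', hr'T⟩ := q'
  by_cases h : r' ∈ S
  · refine (extJ_apply_of_mem L _ ⟨r', hr'T⟩ h).trans ?_
    by_cases hq : r' = r
    · subst hq
      exact (singleIdele_same L S V ⟨r', hrS⟩ s b hb).trans
        (singleIdele_same L T V ⟨r', hST hrS⟩ s b hb).symm
    · have h1 : (⟨r', h⟩ : S) ≠ ⟨r, hrS⟩ := fun e => hq (congrArg Subtype.val e)
      have h2 : (⟨r', hr'T⟩ : T) ≠ ⟨r, hST hrS⟩ := fun e => hq (congrArg Subtype.val e)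
      exact (singleIdele_of_ne L S V ⟨r, hrS⟩ s b hb h1).trans
        (singleIdele_of_ne L T V ⟨r, hST hrS⟩ s b hb h2).symm
  · refine (extJ_apply_of_not_mem L _ ⟨r', hr'T⟩ h).trans ?_
    have h2 : (⟨r', hr'T⟩ : T) ≠ ⟨r, hST hrS⟩ := by
      intro e
      apply h
      have : r' = r := congrArg Subtype.val e
      rw [this]
      exact hrS
    exact (singleIdele_of_ne L T V ⟨r, hST hrS⟩ s b hb h2).symm

/-- a `T`-idele vanishing outside a place `r ∈ S` comes from `J(L,S)`. -/
theorem exists_extJ_eq_of_support (y : J L T)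
    (hy : ∀ q' : T, q' ≠ (⟨r, hST hrS⟩ : T) → y q' = 0) :
    ∃ x : J L S, (∀ q' : S, q' ≠ ⟨r, hrS⟩ → x q' = 0) ∧ extJ L S T x = y := by
  refine ⟨resJ L hST y, ?_, ?_⟩
  · intro q' hq'
    apply hy
    intro e
    apply hq'
    apply Subtype.ext
    exact congrArg (fun x : T => (x : Nat.Primes)) e
  · funext q'
    by_cases h : (q' : Nat.Primes) ∈ S
    · rw [extJ_apply_of_mem L _ q' h]
      rfl
    · rw [extJ_apply_of_not_mem L _ q' h]
      symm
      apply hy
      intro e
      apply h
      rw [e]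
      exact hrS

end Ext

end Fermat.Agent.GC.Global.WRec
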