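/-
GATE-C / C4 (CL-LOC-GEN) ONE-PLACE GENERATION (helper67).

`L'` a layer containing `M_k = ℚ(ζ_{p^(k+1)})`, `V ≤ G_{L'}` (`K = L'^V`), `s ∈ G_{L'}` (the place
`w = ι ∘ s` of `K` above `q`), `n_w = [D : D_s] = [K_w : ℚ_q]` the local degree.  Then

  `|Gal(ℚ_q(ζ)/ℚ_q)|  ∣  |χ(dec D_s)| · n_w`,

so for `q = p`, as soon as `k ≥ a + v_p(n_w)`, the cyclic group `χ(dec D_s)` has order divisible
by `p^a` and therefore contains EVERY `u ∈ (ℤ/p^(k+1))ˣ` with `u^(p^a) = 1`.  With (CL-LOC):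
every such `u` is `Θ_V(y)` for a `V`-invariant idele `y` supported at the single place `w | p`.
The local degree `n_w` does not change when `L'` grows (`index_decSub_comap`).
-/
import Mathlib
import Fermat.Agent.GC.Global.WRec.LocImage

set_option autoImplicit false
set_option linter.unusedSectionVars false

open scoped Padic
open IntermediateField

noncomputable section

namespace Fermat.Agent.GC.Global.WRec

open Fermat.Agent.GC.Global Fermat.Agent.GC.Global.Adapter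

section Comap

variable {L L' : IntermediateField ℚ Qb} [FiniteDimensional ℚ L] [IsGalois ℚ L]
  [FiniteDimensional ℚ L'] [IsGalois ℚ L'] (hLL : L ≤ L') (q : Nat.Primes)
  (V : Subgroup (L ≃ₐ[ℚ] L)) (s' : L' ≃ₐ[ℚ] L')

/-- the decomposition data of the place `ι ∘ s'` of `K = L^V = L'^{V'}` computed in the bigger
layer `L'` is the preimage of the one computed in `L`. -/
theorem decSub_comap :
    decSub L' q (V.comap (Funct.gRes hLL)) s'
      = (decSub L q V (Funct.gRes hLL s')).comap (Funct.lRes (q : ℕ) hLL) := by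
  ext d
  rw [mem_decSub, Subgroup.mem_comap, Subgroup.mem_comap, mem_decSub, map_mul, map_mul, map_inv,
    Funct.decHom_lRes]

/-- **the local degree `n_w` does not depend on the layer**. -/
theorem index_decSub_comap :
    (decSub L' q (V.comap (Funct.gRes hLL)) s').index
      = (decSub L q V (Funct.gRes hLL s')).index := by
  rw [decSub_comap]
  exact Subgroup.index_comap_of_surjective _ (Funct.GalRes.res_surjective _)

end Comap

section Gen

open scoped Classical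

variable (p : ℕ) [hp : Fact p.Prime] (k : ℕ) (T : Finset Nat.Primes)
variable {L' : IntermediateField ℚ Qb} [FiniteDimensional ℚ L'] [IsGalois ℚ L']

/-- the local character `χ ∘ dec : Gal(L'_q/ℚ_q) → (ℤ/p^(k+1))ˣ`. -/
def chiLoc (h : cycLayer p k ≤ L') (q : Nat.Primes) : LocGal L' q →* (ZMod (p ^ (k + 1)))ˣ :=
  (chiLayer p k h).comp (decHom (q : ℕ) L')

theorem chiLoc_apply (h : cycLayer p k ≤ L') (q : Nat.Primes) (d : LocGal L' q) :
    chiLoc p k h q d = chiLayer p k h (decHom (q : ℕ) L' d) := rfl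

theorem chiLoc_eq (h : cycLayer p k ≤ L') (q : Nat.Primes) :
    chiLoc p k h q = (chiL p k (q : ℕ)).comp (Funct.lRes (q : ℕ) h) := by
  ext d
  rw [chiLoc_apply, chiLayer_decHom]
  rfl

theorem range_chiLoc (h : cycLayer p k ≤ L') (q : Nat.Primes) :
    (chiLoc p k h q).range = (chiL p k (q : ℕ)).range := by
  rw [chiLoc_eq, MonoidHom.range_comp,
    MonoidHom.range_eq_top.2 (Funct.GalRes.res_surjective (Funct.lIncl (q : ℕ) h)),
    ← MonoidHom.range_eq_map]

/-- `|Gal(ℚ_q(ζ)/ℚ_q)| ∣ |χ(dec D_s)| · n_w`. -/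
theorem card_range_chiL_dvd (h : cycLayer p k ≤ L') (q : Nat.Primes)
    (V : Subgroup (L' ≃ₐ[ℚ] L')) (s : L' ≃ₐ[ℚ] L') :
    Nat.card (chiL p k (q : ℕ)).range ∣
      Nat.card ((decSub L' q V s).map (chiLoc p k h q)) * (decSub L' q V s).index := by
  rw [← range_chiLoc p k h q]
  set f := chiLoc p k h q with hf
  set Ds := decSub L' q V s with hDs
  have h1 : (Ds.map f.rangeRestrict).index ∣ Ds.index :=
    Subgroup.index_map_dvd Ds f.rangeRestrict_surjective
  have h2 : Nat.card (Ds.map f.rangeRestrict) * (Ds.map f.rangeRestrict).index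
      = Nat.card f.range := Subgroup.card_mul_index _
  have h3 : Nat.card (Ds.map f.rangeRestrict) = Nat.card (Ds.map f) := by
    have e : Ds.map f = (Ds.map f.rangeRestrict).map f.range.subtype := by
      rw [Subgroup.map_map]
      rfl
    rw [e]
    exact (Subgroup.card_map_of_injective f.range.subtype_injective).symm
  rw [← h2, h3]
  exact Nat.mul_dvd_mul_left _ h1

/-- at `q = p` the local cyclotomic character is onto: `|Gal(ℚ_p(ζ)/ℚ_p)| = p^k (p-1)`. -/
theorem card_range_chiL_self : Nat.card (chiL p k p).range = p ^ k * (p - 1) := by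
  rw [MonoidHom.range_eq_top.2 (chiL_bijective_self p k).2, Subgroup.card_top,
    Nat.card_eq_fintype_card, ZMod.card_units_eq_totient, Nat.totient_prime_pow_succ hp.out]

/-- arithmetic: `p^(a+b) ∣ c * n`, `p^(b+1) ∤ n` ⟹ `p^a ∣ c`. -/
theorem pow_dvd_of_pow_dvd_mul {p a b c n : ℕ} (hp : p.Prime) (hc : c ≠ 0) (hn : n ≠ 0)
    (h : p ^ (a + b) ∣ c * n) (hb : ¬ p ^ (b + 1) ∣ n) : p ^ a ∣ c := by
  rw [hp.pow_dvd_iff_le_factorization (Nat.mul_ne_zero hc hn), Nat.factorization_mul hc hn,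
    Finsupp.add_apply] at h
  rw [hp.pow_dvd_iff_le_factorization hn] at hb
  rw [hp.pow_dvd_iff_le_factorization hc]
  omega

/-- **general `q`**: if `p^(a+b)` divides `|Gal(ℚ_q(ζ)/ℚ_q)|` and `p^(b+1) ∤ n_w`, every
`u ∈ (ℤ/p^(k+1))ˣ` with `u^(p^a) = 1` is `χ(dec d)` for some `d ∈ D_s`. -/
theorem exists_chiLoc_eq_of_pow_eq_one (hp2 : p ≠ 2) (h : cycLayer p k ≤ L') (q : Nat.Primes)
    (V : Subgroup (L' ≃ₐ[ℚ] L')) (s : L' ≃ₐ[ℚ] L') (a b : ℕ)
    (hb : ¬ p ^ (b + 1) ∣ (decSub L' q V s).index)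
    (hk : p ^ (a + b) ∣ Nat.card (chiL p k (q : ℕ)).range)
    (u : (ZMod (p ^ (k + 1)))ˣ) (hu : u ^ (p ^ a) = 1) :
    ∃ d ∈ decSub L' q V s, chiLoc p k h q d = u := by
  have hcyc : IsCyclic (ZMod (p ^ (k + 1)))ˣ :=
    ZMod.isCyclic_units_of_prime_pow p hp.out hp2 (k + 1)
  have h1 : p ^ a ∣ Nat.card ((decSub L' q V s).map (chiLoc p k h q)) := by
    refine pow_dvd_of_pow_dvd_mul hp.out Nat.card_pos.ne' ?_
      (hk.trans (card_range_chiL_dvd p k h q V s)) hb
    exact Subgroup.index_ne_zero_of_finite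
  have h2 : Nat.card (Subgroup.zpowers u) ∣ p ^ a := by
    rw [Nat.card_zpowers]
    exact orderOf_dvd_of_pow_eq_one hu
  have h3 := le_of_card_dvd_of_isCyclic (Subgroup.zpowers u)
    ((decSub L' q V s).map (chiLoc p k h q)) (h2.trans h1)
  obtain ⟨d, hd, hdu⟩ := h3 (Subgroup.mem_zpowers u)
  exact ⟨d, hd, hdu⟩

/-- **(CL-LOC-GEN) ONE-PLACE GENERATION**: let `w = ι ∘ s` be a place of `K = L'^V` above `p`, of
local degree `n_w = [D : D_s]` with `v_p(n_w) ≤ b`.  If `k ≥ a + b` then every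
`u ∈ (ℤ/p^(k+1))ˣ` with `u^(p^a) = 1` is `Θ_V(y)` for a `V`-invariant `T`-idele `y` with
trivial components outside `p`. -/
theorem exists_Theta_eq_of_pow_eq_one (hp2 : p ≠ 2) (hpT : pp p ∈ T) (h : cycLayer p k ≤ L')
    (V : Subgroup (L' ≃ₐ[ℚ] L')) (s : L' ≃ₐ[ℚ] L') (a b : ℕ)
    (hb : ¬ p ^ (b + 1) ∣ (decSub L' (pp p) V s).index) (hk : a + b ≤ k)
    (u : (ZMod (p ^ (k + 1)))ˣ) (hu : u ^ (p ^ a) = 1) :
    ∃ y ∈ JInv L' V T, (∀ q' : T, q' ≠ ⟨pp p, hpT⟩ → y q' = 0) ∧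
      Theta p k L' T hpT V y = u := by
  have hk' : p ^ (a + b) ∣ Nat.card (chiL p k ((pp p : Nat.Primes) : ℕ)).range := by
    have : Nat.card (chiL p k ((pp p : Nat.Primes) : ℕ)).range = p ^ k * (p - 1) :=
      card_range_chiL_self p k
    rw [this]
    exact Dvd.dvd.mul_right (pow_dvd_pow p hk) _
  obtain ⟨d, hd, hdu⟩ := exists_chiLoc_eq_of_pow_eq_one p k hp2 h (pp p) V s a b hb hk' u hu
  obtain ⟨y, hy, hsupp, hΘ⟩ := exists_Theta_eq_chiLayer p k T hp2 hpT h V ⟨pp p, hpT⟩ s d hd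
  exact ⟨y, hy, hsupp, hΘ.trans hdu⟩


/-- **(CL-LOC-GEN), tower form**: `L ≤ L'` layers, `V ≤ G_L`, `V' = V.comap (gRes)` (so
`L'^{V'} = L^V = K`), `n_w` the local degree of the place `ι ∘ s'` of `K` above `p` computed in
`L`.  If `k ≥ a + n_w` (and `M_k ≤ L'`), every `u` with `u^(p^a) = 1` is `Θ_{V'}(y)` for a
`V'`-invariant idele `y` of `L'` supported above `p`. -/
theorem exists_Theta_eq_of_pow_eq_one_comap {L : IntermediateField ℚ Qb}
    [FiniteDimensional ℚ L] [IsGalois ℚ L] (hLL : L ≤ L') (hp2 : p ≠ 2) (hpT : pp p ∈ T)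
    (h : cycLayer p k ≤ L') (V : Subgroup (L ≃ₐ[ℚ] L)) (s' : L' ≃ₐ[ℚ] L') (a : ℕ)
    (hk : a + (decSub L (pp p) V (Funct.gRes hLL s')).index ≤ k)
    (u : (ZMod (p ^ (k + 1)))ˣ) (hu : u ^ (p ^ a) = 1) :
    ∃ y ∈ JInv L' (V.comap (Funct.gRes hLL)) T, (∀ q' : T, q' ≠ ⟨pp p, hpT⟩ → y q' = 0) ∧
      Theta p k L' T hpT (V.comap (Funct.gRes hLL)) y = u := by
  refine exists_Theta_eq_of_pow_eq_one p k T hp2 hpT h (V.comap (Funct.gRes hLL)) s' a
    (decSub L (pp p) V (Funct.gRes hLL s')).index ?_ hk u hu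
  rw [index_decSub_comap]
  intro hdvd
  have hpos : 0 < (decSub L (pp p) V (Funct.gRes hLL s')).index :=
    Nat.pos_of_ne_zero Subgroup.index_ne_zero_of_finite
  have hle := Nat.le_of_dvd hpos hdvd
  have hlt : (decSub L (pp p) V (Funct.gRes hLL s')).index + 1
      < p ^ ((decSub L (pp p) V (Funct.gRes hLL s')).index + 1) :=
    Nat.lt_pow_self hp.out.one_lt
  omega

end Gen

end Fermat.Agent.GC.Global.WRec
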