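/-
GATE-C / C4 (M5) J-LOC-TORS, part 1 (helper67): the relative norm of a single-place idele.

`V₂ ≤ V₁ ≤ G_L` (`K₁ = L^{V₁} ⊆ K₂ = L^{V₂}`), `q` a prime, `s ∈ G_L`.  The place `ι ∘ s` of `K_i`
has decomposition data `D_i = decSub L q V_i s`, `D₂ ≤ D₁`.  For `c₀ ∈ (L_qˣ)^{D₂}`:

  `N_{V₁/V₂} (singleIdele V₂ q s c₀) = singleIdele V₁ q s (N_{D₁/D₂} c₀)`,

where `N_{D₁/D₂} c₀ = relLocNorm c₀ = ∏_{e ∈ D₁/D₂} e • c₀` is the local relative norm
`(K₂)_w → (K₁)_w` (helper55's `relNormSub` on `Rep.ofAlgebraAutOnUnits ℚ_q L_q`).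
-/
import Mathlib
import Fermat.Agent.GC.Global.WRec.LocImageIdele

set_option autoImplicit false
set_option linter.unusedSectionVars false

open scoped Padic
open IntermediateField

noncomputable section

namespace Fermat.Agent.GC.Global.WRec

open Fermat.Agent.GC.Global Fermat.Agent.GC.Global.Adapter

section Congr

variable {k G M : Type*} [CommRing k] [Group G] [AddCommGroup M] [Module k M]
  (ρ : Representation k G M)

/-- `relNormSub` only depends on the subgroup `H'`. -/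
theorem relNormSub_congr {H H' H'' : Subgroup G} [Finite (H ⧸ H'.subgroupOf H)]
    [Finite (H ⧸ H''.subgroupOf H)] (h : H' = H'') :
    relNormSub ρ H H' = relNormSub ρ H H'' := by
  subst h
  rfl

end Congr

section RelFam

open scoped Classical

variable (L : IntermediateField ℚ Qb) [FiniteDimensional ℚ L] [IsGalois ℚ L] (q : Nat.Primes)
  (V₁ V₂ : Subgroup (L ≃ₐ[ℚ] L)) (s : L ≃ₐ[ℚ] L)

theorem decSub_mono {V₁ V₂ : Subgroup (L ≃ₐ[ℚ] L)} (hle : V₂ ≤ V₁) :
    decSub L q V₂ s ≤ decSub L q V₁ s := fun _ hd => hle hd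

/-- the local representation `L_qˣ` of `Gal(L_q/ℚ_q)`. -/
abbrev locRho : Representation ℤ (LocGal L q) (Additive (locField (q : ℕ) L)ˣ) :=
  (Rep.ofAlgebraAutOnUnits ℚ_[(q : ℕ)] (locField (q : ℕ) L)).ρ

theorem locRho_apply (d : LocGal L q) (u : (locField (q : ℕ) L)ˣ) :
    locRho L q d (Additive.ofMul (α := (locField (q : ℕ) L)ˣ) u) =
      Additive.ofMul (α := (locField (q : ℕ) L)ˣ)
        (Units.map ((d : LocGal L q) : locField (q : ℕ) L →* locField (q : ℕ) L) u) := by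
  apply Additive.toMul.injective
  apply Units.ext
  rfl

/-- invariance in `Units.map` form ↔ in `IsInv` form. -/
theorem isInv_locRho_iff (D : Subgroup (LocGal L q)) (u : (locField (q : ℕ) L)ˣ) :
    IsInv (locRho L q) D (Additive.ofMul (α := (locField (q : ℕ) L)ˣ) u) ↔
      ∀ d ∈ D, Units.map ((d : LocGal L q) : locField (q : ℕ) L →* locField (q : ℕ) L) u = u := by
  constructor
  · intro h d hd
    have := h d hd
    rw [locRho_apply] at this
    exact Additive.ofMul.injective this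
  · intro h d hd
    rw [locRho_apply, h d hd]

/-- the local relative norm `N_{D₁/D₂} : (L_qˣ)^{D₂} → (L_qˣ)^{D₁}`. -/
def relLocNorm (c₀ : (locField (q : ℕ) L)ˣ) : (locField (q : ℕ) L)ˣ :=
  Additive.toMul (α := (locField (q : ℕ) L)ˣ)
    (relNormSub (locRho L q) (decSub L q V₁ s) (decSub L q V₂ s)
      (Additive.ofMul (α := (locField (q : ℕ) L)ˣ) c₀))

theorem ofMul_relLocNorm (c₀ : (locField (q : ℕ) L)ˣ) :
    Additive.ofMul (α := (locField (q : ℕ) L)ˣ) (relLocNorm L q V₁ V₂ s c₀) =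
      relNormSub (locRho L q) (decSub L q V₁ s) (decSub L q V₂ s)
        (Additive.ofMul (α := (locField (q : ℕ) L)ˣ) c₀) := rfl

theorem relLocNorm_eq_prod
    [Fintype (decSub L q V₁ s ⧸ (decSub L q V₂ s).subgroupOf (decSub L q V₁ s))]
    (c₀ : (locField (q : ℕ) L)ˣ) :
    relLocNorm L q V₁ V₂ s c₀ =
      ∏ e : decSub L q V₁ s ⧸ (decSub L q V₂ s).subgroupOf (decSub L q V₁ s),
        Units.map ((((e.out : decSub L q V₁ s) : LocGal L q)) :
          locField (q : ℕ) L →* locField (q : ℕ) L) c₀ := by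
  unfold relLocNorm
  rw [relNormSub_apply]
  simp_rw [locRho_apply]
  rw [toMul_sum]
  rfl

variable {L q V₁ V₂ s}

theorem relLocNorm_fixed {c₀ : (locField (q : ℕ) L)ˣ}
    (hc₀ : ∀ d ∈ decSub L q V₂ s,
      Units.map ((d : LocGal L q) : locField (q : ℕ) L →* locField (q : ℕ) L) c₀ = c₀) :
    ∀ d ∈ decSub L q V₁ s,
      Units.map ((d : LocGal L q) : locField (q : ℕ) L →* locField (q : ℕ) L)
        (relLocNorm L q V₁ V₂ s c₀) = relLocNorm L q V₁ V₂ s c₀ := by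
  let _ : Fintype (decSub L q V₁ s ⧸ (decSub L q V₂ s).subgroupOf (decSub L q V₁ s)) :=
    Fintype.ofFinite _
  have h := isInv_relNormSub (ρ := locRho L q) (H := decSub L q V₁ s) (H' := decSub L q V₂ s)
    ((isInv_locRho_iff L q _ c₀).2 hc₀)
  rw [← ofMul_relLocNorm] at h
  exact (isInv_locRho_iff L q _ _).1 h

variable (L q V₁ V₂ s)

/-- the orbit map `D₁/D₂ → V₁/V₂`, `e ↦ s⁻¹ dec(e) s V₂`. -/
def orbitMapRel (e : decSub L q V₁ s ⧸ (decSub L q V₂ s).subgroupOf (decSub L q V₁ s)) :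
    V₁ ⧸ V₂.subgroupOf V₁ :=
  QuotientGroup.mk ⟨s⁻¹ * decHom (q : ℕ) L ((e.out : decSub L q V₁ s) : LocGal L q) * s,
    (e.out : decSub L q V₁ s).2⟩

theorem orbitMapRel_injective : Function.Injective (orbitMapRel L q V₁ V₂ s) := by
  intro e e' h
  have h1 := QuotientGroup.eq.mp h
  rw [Subgroup.mem_subgroupOf] at h1
  have h2 : ((e.out : decSub L q V₁ s) : LocGal L q)⁻¹ * ((e'.out : decSub L q V₁ s) : LocGal L q)
      ∈ decSub L q V₂ s := by
    rw [mem_decSub, map_mul, map_inv]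
    have : s⁻¹ * ((decHom (q : ℕ) L ((e.out : decSub L q V₁ s) : LocGal L q))⁻¹ *
          decHom (q : ℕ) L ((e'.out : decSub L q V₁ s) : LocGal L q)) * s
        = (s⁻¹ * decHom (q : ℕ) L ((e.out : decSub L q V₁ s) : LocGal L q) * s)⁻¹ *
          (s⁻¹ * decHom (q : ℕ) L ((e'.out : decSub L q V₁ s) : LocGal L q) * s) := by group
    rw [this]
    exact h1
  rw [← QuotientGroup.out_eq' e, ← QuotientGroup.out_eq' e']
  apply QuotientGroup.eq.mpr
  rw [Subgroup.mem_subgroupOf]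
  exact h2

theorem out_orbitMapRel
    (e : decSub L q V₁ s ⧸ (decSub L q V₂ s).subgroupOf (decSub L q V₁ s)) :
    ∃ u ∈ V₂, s * (((orbitMapRel L q V₁ V₂ s e).out : V₁) : L ≃ₐ[ℚ] L)
      = decHom (q : ℕ) L ((e.out : decSub L q V₁ s) : LocGal L q) * s * u := by
  have h := QuotientGroup.eq.mp (QuotientGroup.out_eq' (orbitMapRel L q V₁ V₂ s e)).symm
  rw [Subgroup.mem_subgroupOf] at h
  refine ⟨_, h, ?_⟩
  simp only [Subgroup.coe_mul, InvMemClass.coe_inv]
  group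

theorem mem_range_orbitMapRel (hle : V₂ ≤ V₁) {v : V₁ ⧸ V₂.subgroupOf V₁}
    (hv : InDC L q V₂ s (s * ((v.out : V₁) : L ≃ₐ[ℚ] L))) :
    v ∈ Set.range (orbitMapRel L q V₁ V₂ s) := by
  obtain ⟨d, u, hu, h⟩ := hv
  -- `s⁻¹ dec(d) s = v.out u⁻¹ ∈ V₁`
  have h0 : s⁻¹ * decHom (q : ℕ) L d * s = ((v.out : V₁) : L ≃ₐ[ℚ] L) * u⁻¹ := by
    have : decHom (q : ℕ) L d = s * ((v.out : V₁) : L ≃ₐ[ℚ] L) * u⁻¹ * s⁻¹ := by
      rw [h]; group
    rw [this]; group
  have hd : d ∈ decSub L q V₁ s := by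
    rw [mem_decSub, h0]
    exact V₁.mul_mem (v.out : V₁).2 (V₁.inv_mem (hle hu))
  set e : decSub L q V₁ s ⧸ (decSub L q V₂ s).subgroupOf (decSub L q V₁ s) :=
    QuotientGroup.mk ⟨d, hd⟩ with he
  refine ⟨e, ?_⟩
  have h1 : (⟨d, hd⟩ : decSub L q V₁ s)⁻¹ * e.out ∈ (decSub L q V₂ s).subgroupOf (decSub L q V₁ s) :=
    QuotientGroup.eq.mp (QuotientGroup.out_eq' e).symm
  rw [Subgroup.mem_subgroupOf, mem_decSub] at h1
  simp only [Subgroup.coe_mul, InvMemClass.coe_inv, map_mul, map_inv] at h1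
  rw [← QuotientGroup.out_eq' v]
  unfold orbitMapRel
  apply QuotientGroup.eq.mpr
  rw [Subgroup.mem_subgroupOf]
  simp only [Subgroup.coe_mul, InvMemClass.coe_inv]
  set t := decHom (q : ℕ) L ((e.out : decSub L q V₁ s) : LocGal L q) with ht
  have h2 : (s⁻¹ * t * s)⁻¹ * ((v.out : V₁) : L ≃ₐ[ℚ] L)
      = (s⁻¹ * ((decHom (q : ℕ) L d)⁻¹ * t) * s)⁻¹ * u := by
    have : ((v.out : V₁) : L ≃ₐ[ℚ] L) = s⁻¹ * decHom (q : ℕ) L d * s * u := by
      rw [h0]; group
    rw [this]; group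
  rw [h2]
  exact V₂.mul_mem (V₂.inv_mem h1) hu

variable {L q V₁ V₂ s}

/-- the relative local norm formula at `s`. -/
theorem prod_singleFam_rel (hle : V₂ ≤ V₁) [Fintype (V₁ ⧸ V₂.subgroupOf V₁)]
    {c₀ : (locField (q : ℕ) L)ˣ}
    (hc₀ : ∀ d ∈ decSub L q V₂ s,
      Units.map ((d : LocGal L q) : locField (q : ℕ) L →* locField (q : ℕ) L) c₀ = c₀) :
    ∏ v : V₁ ⧸ V₂.subgroupOf V₁, singleFam L q V₂ s c₀ (s * ((v.out : V₁) : L ≃ₐ[ℚ] L))
      = relLocNorm L q V₁ V₂ s c₀ := by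
  let _ : Fintype (decSub L q V₁ s ⧸ (decSub L q V₂ s).subgroupOf (decSub L q V₁ s)) :=
    Fintype.ofFinite _
  rw [relLocNorm_eq_prod]
  symm
  refine Fintype.prod_of_injective (orbitMapRel L q V₁ V₂ s) (orbitMapRel_injective L q V₁ V₂ s)
    _ _ ?_ ?_
  · intro v hv
    by_contra h
    apply hv
    apply mem_range_orbitMapRel L q V₁ V₂ s hle
    by_contra h'
    exact h (singleFam_of_not h')
  · intro e
    obtain ⟨u, hu, h⟩ := out_orbitMapRel L q V₁ V₂ s e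
    rw [h, singleFam_eq hc₀ _ hu]

/-- the relative local norm formula at an arbitrary `g`. -/
theorem prod_singleFam_rel_mul (hle : V₂ ≤ V₁) [Fintype (V₁ ⧸ V₂.subgroupOf V₁)]
    {c₀ : (locField (q : ℕ) L)ˣ}
    (hc₀ : ∀ d ∈ decSub L q V₂ s,
      Units.map ((d : LocGal L q) : locField (q : ℕ) L →* locField (q : ℕ) L) c₀ = c₀)
    (g : L ≃ₐ[ℚ] L) :
    ∏ v : V₁ ⧸ V₂.subgroupOf V₁, singleFam L q V₂ s c₀ (g * ((v.out : V₁) : L ≃ₐ[ℚ] L))
      = singleFam L q V₁ s (relLocNorm L q V₁ V₂ s c₀) g := by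
  by_cases hg : InDC L q V₁ s g
  · obtain ⟨d, v₀, hv₀, rfl⟩ := hg
    rw [singleFam_eq (relLocNorm_fixed hc₀) d hv₀]
    -- pull out `d`
    have h1 : ∀ v : V₁ ⧸ V₂.subgroupOf V₁,
        singleFam L q V₂ s c₀ (decHom (q : ℕ) L d * s * v₀ * ((v.out : V₁) : L ≃ₐ[ℚ] L))
          = Units.map ((d : LocGal L q) : locField (q : ℕ) L →* locField (q : ℕ) L)
            (singleFam L q V₂ s c₀
              (s * ((((⟨v₀, hv₀⟩ : V₁) • v).out : V₁) : L ≃ₐ[ℚ] L))) := by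
      intro v
      have e1 : decHom (q : ℕ) L d * s * v₀ * ((v.out : V₁) : L ≃ₐ[ℚ] L)
          = decHom (q : ℕ) L d * (s * (v₀ * ((v.out : V₁) : L ≃ₐ[ℚ] L))) := by group
      rw [e1, singleFam_decHom_mul hc₀]
      congr 1
      -- `(v₀ • v).out = v₀ v.out u`, `u ∈ V₂`
      have h2 : (⟨v₀, hv₀⟩ : V₁) • v
          = (QuotientGroup.mk ((⟨v₀, hv₀⟩ : V₁) * v.out) : V₁ ⧸ V₂.subgroupOf V₁) := by
        conv_lhs => rw [← QuotientGroup.out_eq' v]
        rfl
      have h3 : (QuotientGroup.mk (((⟨v₀, hv₀⟩ : V₁) • v).out) : V₁ ⧸ V₂.subgroupOf V₁)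
          = QuotientGroup.mk ((⟨v₀, hv₀⟩ : V₁) * v.out) := by
        rw [QuotientGroup.out_eq', h2]
      have h4 := QuotientGroup.eq.mp h3.symm
      rw [Subgroup.mem_subgroupOf] at h4
      simp only [Subgroup.coe_mul, InvMemClass.coe_inv] at h4
      have e2 : s * ((((⟨v₀, hv₀⟩ : V₁) • v).out : V₁) : L ≃ₐ[ℚ] L)
          = s * (v₀ * ((v.out : V₁) : L ≃ₐ[ℚ] L)) *
            ((v₀ * ((v.out : V₁) : L ≃ₐ[ℚ] L))⁻¹ *
              ((((⟨v₀, hv₀⟩ : V₁) • v).out : V₁) : L ≃ₐ[ℚ] L)) := by group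
      rw [e2, singleFam_mul hc₀ _ h4]
    rw [Finset.prod_congr rfl (fun v _ => h1 v), ← map_prod]
    congr 1
    rw [← prod_singleFam_rel hle hc₀]
    exact Fintype.prod_equiv (MulAction.toPerm (⟨v₀, hv₀⟩ : V₁)) _ _ (fun _ => rfl)
  · rw [singleFam_of_not hg]
    refine Finset.prod_eq_one fun v _ => ?_
    apply singleFam_of_not
    rintro ⟨d, u, hu, h⟩
    apply hg
    refine ⟨d, u * ((v.out : V₁) : L ≃ₐ[ℚ] L)⁻¹, V₁.mul_mem (hle hu) (V₁.inv_mem (v.out : V₁).2), ?_⟩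
    rw [← mul_assoc, ← h]
    group

end RelFam


section RelIdele

open scoped Classical

variable (L : IntermediateField ℚ Qb) [FiniteDimensional ℚ L] [IsGalois ℚ L]
  (T : Finset Nat.Primes) (V₁ V₂ : Subgroup (L ≃ₐ[ℚ] L)) (q : T) (s : L ≃ₐ[ℚ] L)

/-- the value at `g` of the `q'`-component of `N_{V₁/V₂} y`. -/
theorem val_relNormSub (y : J L T) (q' : T) (g : L ≃ₐ[ℚ] L) :
    JqCarrier.val L q' ((relNormSub (J L T).ρ V₁ V₂ y) q') g
      = letI := Fintype.ofFinite (V₁ ⧸ V₂.subgroupOf V₁)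
        ∏ v : V₁ ⧸ V₂.subgroupOf V₁,
          JqCarrier.val L q' (y q') (g * ((v.out : V₁) : L ≃ₐ[ℚ] L)) := by
  let _ : Fintype (V₁ ⧸ V₂.subgroupOf V₁) := Fintype.ofFinite _
  rw [relNormSub_apply]
  have h1 : (∑ v : V₁ ⧸ V₂.subgroupOf V₁, (J L T).ρ ((v.out : V₁) : L ≃ₐ[ℚ] L) y) q'
      = ∑ v : V₁ ⧸ V₂.subgroupOf V₁, JqRep L q' ((v.out : V₁) : L ≃ₐ[ℚ] L) (y q') := by
    exact map_sum (LinearMap.proj (R := ℤ)
      (φ := fun q : T => JqCarrier L (q : Nat.Primes)) q') _ _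
  rw [h1, val_sum]
  refine Finset.prod_congr rfl fun v _ => ?_
  exact Funct.val_JqRep (M := L) (q := (q' : Nat.Primes)) _ g (y q')

/-- **the relative norm of a single-place idele** is the single-place idele of the local
relative norm. -/
theorem relNormSub_singleIdele (hle : V₂ ≤ V₁) (c₀ : (locField ((q : Nat.Primes) : ℕ) L)ˣ)
    (hc₀ : ∀ d ∈ decSub L (q : Nat.Primes) V₂ s,
      Units.map ((d : LocGal L (q : Nat.Primes)) :
        locField ((q : Nat.Primes) : ℕ) L →* locField ((q : Nat.Primes) : ℕ) L) c₀ = c₀) :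
    relNormSub (J L T).ρ V₁ V₂ (singleIdele L T V₂ q s c₀ hc₀)
      = singleIdele L T V₁ q s (relLocNorm L (q : Nat.Primes) V₁ V₂ s c₀)
          (relLocNorm_fixed hc₀) := by
  funext q'
  apply JqCarrier.ext_val
  intro g
  rw [val_relNormSub]
  by_cases h : q' = q
  · subst h
    rw [singleIdele_same, singleIdele_same, val_singleJq]
    simp only [val_singleJq]
    let _ : Fintype (V₁ ⧸ V₂.subgroupOf V₁) := Fintype.ofFinite _
    exact prod_singleFam_rel_mul hle hc₀ g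
  · rw [singleIdele_of_ne L T V₂ q s c₀ hc₀ h, singleIdele_of_ne L T V₁ q s _ _ h]
    refine Finset.prod_eq_one fun v _ => ?_
    rfl

/-- `n • singleIdele b = singleIdele (b ^ n)`. -/
theorem nsmul_singleIdele (V : Subgroup (L ≃ₐ[ℚ] L)) (n : ℕ)
    (b : (locField ((q : Nat.Primes) : ℕ) L)ˣ)
    (hb : ∀ d ∈ decSub L (q : Nat.Primes) V s,
      Units.map ((d : LocGal L (q : Nat.Primes)) :
        locField ((q : Nat.Primes) : ℕ) L →* locField ((q : Nat.Primes) : ℕ) L) b = b)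
    (hbn : ∀ d ∈ decSub L (q : Nat.Primes) V s,
      Units.map ((d : LocGal L (q : Nat.Primes)) :
        locField ((q : Nat.Primes) : ℕ) L →* locField ((q : Nat.Primes) : ℕ) L) (b ^ n) = b ^ n) :
    n • singleIdele L T V q s b hb = singleIdele L T V q s (b ^ n) hbn := by
  funext q'
  apply JqCarrier.ext_val
  intro g
  change JqCarrier.val L q' (n • (singleIdele L T V q s b hb q')) g = _
  rw [JqCarrier.val_nsmul]
  by_cases h : q' = q
  · subst h
    rw [singleIdele_same, singleIdele_same, val_singleJq, val_singleJq]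
    by_cases hg : InDC L (q' : Nat.Primes) V s g
    · obtain ⟨d, v, hv, rfl⟩ := hg
      rw [singleFam_eq hb d hv, singleFam_eq hbn d hv, map_pow]
    · rw [singleFam_of_not hg, singleFam_of_not hg, one_pow]
  · rw [singleIdele_of_ne L T V q s b hb h, singleIdele_of_ne L T V q s _ hbn h]
    exact one_pow n

theorem pow_fixed (V : Subgroup (L ≃ₐ[ℚ] L)) (n : ℕ)
    {b : (locField ((q : Nat.Primes) : ℕ) L)ˣ}
    (hb : ∀ d ∈ decSub L (q : Nat.Primes) V s,
      Units.map ((d : LocGal L (q : Nat.Primes)) :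
        locField ((q : Nat.Primes) : ℕ) L →* locField ((q : Nat.Primes) : ℕ) L) b = b) :
    ∀ d ∈ decSub L (q : Nat.Primes) V s,
      Units.map ((d : LocGal L (q : Nat.Primes)) :
        locField ((q : Nat.Primes) : ℕ) L →* locField ((q : Nat.Primes) : ℕ) L) (b ^ n) = b ^ n :=
  fun d hd => by rw [map_pow, hb d hd]

/-- single-place ideles with equal components are equal. -/
theorem singleIdele_congr (V : Subgroup (L ≃ₐ[ℚ] L))
    {b b' : (locField ((q : Nat.Primes) : ℕ) L)ˣ} (h : b = b') (hb) (hb') :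
    singleIdele L T V q s b hb = singleIdele L T V q s b' hb' := by
  subst h
  rfl

end RelIdele

end Fermat.Agent.GC.Global.WRec
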