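/-
GATE-C / C4 (M4) + (M5) (helper67, per helper14 RULING 8).

(M4) SINGLE-PLACE IMAGE FOR `k ≫ 0`: `L` a layer, `V ≤ G_L`, `a : ℕ`.  There is `k₀` such that for
all `k ≥ k₀`, all layers `L' ⊇ L, M_k` and every `x ∈ (ℤ/p^(k+1))ˣ` with `x^(p^a) = 1` there is a
single-place idele at the place `ι` of `K = L^V` above `p` with `Θ_{V'} = x` (`V' = upV V`).

(M5) J-LOC-TORS: if `Θ_{V'}(singleIdele b)^n = 1` then `n • singleIdele b` is the relative norm
`N_{V'/V_k}` of a single-place idele of `K_k = K(ζ_{p^(k+1)})` (`V_k = V' ⊓ ker(G_{L'} → G_{M_k})`):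
the kernel of the local symbol consists of norms from `ℚ_q(ζ)` (`SymbolKernel`), and norm limitation
(N2) (`local_relNorm_limitation`).
-/
import Mathlib
import Fermat.Agent.GC.Global.WRec.LocImageGen
import Fermat.Agent.GC.Global.WRec.LocImageRelNorm
import Fermat.Agent.GC.Global.Funct.StageIso
import Fermat.Agent.GC.Local.NormLim.RelNormForm

set_option autoImplicit false
set_option linter.unusedSectionVars false

open scoped Padic
open IntermediateField

noncomputable section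

namespace Fermat.Agent.GC.Global.WRec

open Fermat.Agent.GC.Global Fermat.Agent.GC.Global.Adapter Fermat.Agent.GC.Local.NormLim

section Large

open scoped Classical

variable (p : ℕ) [hp : Fact p.Prime]

/-- **(M4)**: single-place image for `k ≫ 0` (`k₀ = a + n_w`, `n_w` the local degree of the
place `ι` of `K = L^V` above `p`). -/
theorem exists_Theta_singleIdele_eq_of_large (hp2 : p ≠ 2) {L : IntermediateField ℚ Qb}
    [FiniteDimensional ℚ L] [IsGalois ℚ L] (V : Subgroup (L ≃ₐ[ℚ] L)) (a : ℕ) :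
    ∃ k₀ : ℕ, ∀ k : ℕ, k₀ ≤ k → ∀ (L' : IntermediateField ℚ Qb) [FiniteDimensional ℚ L']
      [IsGalois ℚ L'] (h₁ : L ≤ L') (_ : cycLayer p k ≤ L') (T : Finset Nat.Primes)
      (hpT : pp p ∈ T) (x : (ZMod (p ^ (k + 1)))ˣ), x ^ (p ^ a) = 1 →
      ∃ (b : (locField ((pp p : Nat.Primes) : ℕ) L')ˣ)
        (hb : ∀ d ∈ decSub L' (pp p) (Funct.upV h₁ V) 1,
          Units.map ((d : LocGal L' (pp p)) :
            locField ((pp p : Nat.Primes) : ℕ) L' →* locField ((pp p : Nat.Primes) : ℕ) L') b = b),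
        Theta p k L' T hpT (Funct.upV h₁ V)
          (singleIdele L' T (Funct.upV h₁ V) ⟨pp p, hpT⟩ 1 b hb) = x := by
  refine ⟨a + (decSub L (pp p) V 1).index, ?_⟩
  intro k hk L' _ _ h₁ h T hpT x hx
  have hidx : (decSub L' (pp p) (Funct.upV h₁ V) 1).index = (decSub L (pp p) V 1).index := by
    have := index_decSub_comap h₁ (pp p) V (1 : L' ≃ₐ[ℚ] L')
    rwa [map_one] at this
  have hb' : ¬ p ^ ((decSub L (pp p) V 1).index + 1) ∣
      (decSub L' (pp p) (Funct.upV h₁ V) 1).index := by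
    rw [hidx]
    intro hdvd
    have hpos : 0 < (decSub L (pp p) V 1).index :=
      Nat.pos_of_ne_zero Subgroup.index_ne_zero_of_finite
    have hle := Nat.le_of_dvd hpos hdvd
    have hlt : (decSub L (pp p) V 1).index + 1 < p ^ ((decSub L (pp p) V 1).index + 1) :=
      Nat.lt_pow_self hp.out.one_lt
    omega
  have hk' : p ^ (a + (decSub L (pp p) V 1).index) ∣
      Nat.card (chiL p k ((pp p : Nat.Primes) : ℕ)).range := by
    have : Nat.card (chiL p k ((pp p : Nat.Primes) : ℕ)).range = p ^ k * (p - 1) :=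
      card_range_chiL_self p k
    rw [this]
    exact Dvd.dvd.mul_right (pow_dvd_pow p hk) _
  obtain ⟨d, hd, hdu⟩ := exists_chiLoc_eq_of_pow_eq_one p k hp2 h (pp p) (Funct.upV h₁ V) 1 a
    (decSub L (pp p) V 1).index hb' hk' x hx
  obtain ⟨b, hb, hΘ⟩ := exists_Theta_singleIdele_eq_chiLayer p k T hp2 hpT h (Funct.upV h₁ V)
    ⟨pp p, hpT⟩ 1 d hd
  exact ⟨b, hb, hΘ.trans hdu⟩

end Large

section Tors

open scoped Classical

variable (p : ℕ) [hp : Fact p.Prime] (k : ℕ) (T : Finset Nat.Primes)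
variable {L' : IntermediateField ℚ Qb} [FiniteDimensional ℚ L'] [IsGalois ℚ L']

/-- the decomposition data of the place `ι ∘ s` of `K_k = L'^{V ⊓ ker}`. -/
theorem decSub_inf_ker (h : cycLayer p k ≤ L') (q : Nat.Primes) (V : Subgroup (L' ≃ₐ[ℚ] L'))
    (s : L' ≃ₐ[ℚ] L') :
    decSub L' q (V ⊓ (Funct.gRes h).ker) s
      = decSub L' q V s ⊓ (Funct.lRes (q : ℕ) h).ker := by
  ext d
  rw [Subgroup.mem_inf, mem_decSub, mem_decSub, Subgroup.mem_inf, MonoidHom.mem_ker,
    MonoidHom.mem_ker]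
  refine and_congr Iff.rfl ?_
  rw [map_mul, map_mul, map_inv, ← Funct.decHom_lRes]
  constructor
  · intro h1
    have h2 : decHom (q : ℕ) (cycLayer p k) (Funct.lRes (q : ℕ) h d) = 1 := by
      have : decHom (q : ℕ) (cycLayer p k) (Funct.lRes (q : ℕ) h d)
          = Funct.gRes h s * ((Funct.gRes h s)⁻¹ *
            decHom (q : ℕ) (cycLayer p k) (Funct.lRes (q : ℕ) h d) * Funct.gRes h s) *
              (Funct.gRes h s)⁻¹ := by group
      rw [this, h1]; group
    exact (decHom_injective (q : ℕ) (cycLayer p k)) (h2.trans (map_one _).symm)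
  · intro h1
    rw [h1, map_one]; group

/-- the product of the conjugates of `b` over `D/D_s` is (the image of) `normBase`. -/
theorem prod_out_eq_baseUnits_normBase (q : Nat.Primes) (V : Subgroup (L' ≃ₐ[ℚ] L'))
    (s : L' ≃ₐ[ℚ] L') [Fintype (LocGal L' q ⧸ decSub L' q V s)]
    (b : invAdd (locRho L' q) (decSub L' q V s)) :
    (∏ e : LocGal L' q ⧸ decSub L' q V s,
      Units.map ((e.out : LocGal L' q) : locField (q : ℕ) L' →* locField (q : ℕ) L')
        (Additive.toMul (α := (locField (q : ℕ) L')ˣ) b.1))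
      = baseUnits (q : ℕ) (locField (q : ℕ) L')
          (normBase ℚ_[(q : ℕ)] (locField (q : ℕ) L') (decSub L' q V s) b) := by
  apply Units.ext
  have h1 := coe_normBase ℚ_[(q : ℕ)] (locField (q : ℕ) L') (decSub L' q V s) b
  rw [relNorm_apply] at h1
  have h2 := congrArg (fun u : Additive (locField (q : ℕ) L')ˣ =>
    ((Additive.toMul u : (locField (q : ℕ) L')ˣ) : locField (q : ℕ) L')) h1
  rw [Units.coe_prod]
  refine Eq.trans ?_ h2.symm
  exact (coe_toMul_sum_rho_finset ℚ_[(q : ℕ)] (locField (q : ℕ) L') Finset.univ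
    (fun c : LocGal L' q ⧸ decSub L' q V s => (c.out : LocGal L' q))
    (Additive.toMul (α := (locField (q : ℕ) L')ˣ) b.1)).symm

/-- `Θ_V` of a single-place idele is the local symbol of `normBase`. -/
theorem Theta_singleIdele_eq_psiLoc_normBase (hpT : pp p ∈ T) (V : Subgroup (L' ≃ₐ[ℚ] L'))
    (q : T) (s : L' ≃ₐ[ℚ] L') (b : (locField ((q : Nat.Primes) : ℕ) L')ˣ)
    (hb : ∀ d ∈ decSub L' (q : Nat.Primes) V s,
      Units.map ((d : LocGal L' (q : Nat.Primes)) :
        locField ((q : Nat.Primes) : ℕ) L' →* locField ((q : Nat.Primes) : ℕ) L') b = b) :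
    Theta p k L' T hpT V (singleIdele L' T V q s b hb)
      = psiLoc p k T q hpT (normBase ℚ_[((q : Nat.Primes) : ℕ)]
          (locField ((q : Nat.Primes) : ℕ) L') (decSub L' (q : Nat.Primes) V s)
          ⟨Additive.ofMul (α := (locField ((q : Nat.Primes) : ℕ) L')ˣ) b,
            (isInv_locRho_iff L' (q : Nat.Primes) _ b).2 hb⟩) := by
  let _ : Fintype (LocGal L' (q : Nat.Primes) ⧸ decSub L' (q : Nat.Primes) V s) :=
    Fintype.ofFinite _
  have key := prod_out_eq_baseUnits_normBase (q : Nat.Primes) V s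
    ⟨Additive.ofMul (α := (locField ((q : Nat.Primes) : ℕ) L')ˣ) b,
      (isInv_locRho_iff L' (q : Nat.Primes) _ b).2 hb⟩
  change (∏ e : LocGal L' (q : Nat.Primes) ⧸ decSub L' (q : Nat.Primes) V s,
      Units.map ((e.out : LocGal L' (q : Nat.Primes)) :
        locField ((q : Nat.Primes) : ℕ) L' →* locField ((q : Nat.Primes) : ℕ) L') b) = _ at key
  refine (Theta_singleIdele p k L' T V q s hpT b hb).trans ?_
  refine congrArg (psiLoc p k T q hpT) ?_
  refine (congrArg (descend ((q : Nat.Primes) : ℕ) (locField ((q : Nat.Primes) : ℕ) L')) key).trans ?_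
  exact descend_baseUnits _ _ _

/-- **(M5) J-LOC-TORS**, explicit form: if `Θ_V(singleIdele b)^n = 1` then `n • singleIdele b` is
the relative norm from `V_k = V ⊓ ker(G_{L'} → G_{M_k})` of a single-place idele. -/
theorem exists_relNormSub_singleIdele_eq_nsmul (hp2 : p ≠ 2) (hpT : pp p ∈ T)
    (h : cycLayer p k ≤ L') (V : Subgroup (L' ≃ₐ[ℚ] L')) (q : T) (s : L' ≃ₐ[ℚ] L')
    (b : (locField ((q : Nat.Primes) : ℕ) L')ˣ)
    (hb : ∀ d ∈ decSub L' (q : Nat.Primes) V s,
      Units.map ((d : LocGal L' (q : Nat.Primes)) :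
        locField ((q : Nat.Primes) : ℕ) L' →* locField ((q : Nat.Primes) : ℕ) L') b = b)
    (n : ℕ) (hΘ : Theta p k L' T hpT V (singleIdele L' T V q s b hb) ^ n = 1) :
    ∃ (c₀ : (locField ((q : Nat.Primes) : ℕ) L')ˣ)
      (hc₀ : ∀ d ∈ decSub L' (q : Nat.Primes) (V ⊓ (Funct.gRes h).ker) s,
        Units.map ((d : LocGal L' (q : Nat.Primes)) :
          locField ((q : Nat.Primes) : ℕ) L' →* locField ((q : Nat.Primes) : ℕ) L') c₀ = c₀),
      relNormSub (J L' T).ρ V (V ⊓ (Funct.gRes h).ker)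
        (singleIdele L' T (V ⊓ (Funct.gRes h).ker) q s c₀ hc₀)
        = n • singleIdele L' T V q s b hb := by
  have hcycU : IsCyclic (ZMod (p ^ (k + 1)))ˣ :=
    ZMod.isCyclic_units_of_prime_pow p hp.out hp2 (k + 1)
  have hcycQ : IsCyclic (LocGal L' (q : Nat.Primes) ⧸ (Funct.lRes ((q : Nat.Primes) : ℕ) h).ker) :=
    isCyclic_of_injective ((chiL p k ((q : Nat.Primes) : ℕ)).comp
      (QuotientGroup.kerLift (Funct.lRes ((q : Nat.Primes) : ℕ) h)))
      ((chiL_injective p k _).comp (QuotientGroup.kerLift_injective _))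
  let binv : invAdd (locRho L' (q : Nat.Primes)) (decSub L' (q : Nat.Primes) V s) :=
    ⟨Additive.ofMul (α := (locField ((q : Nat.Primes) : ℕ) L')ˣ) b, (isInv_locRho_iff L' (q : Nat.Primes) _ b).2 hb⟩
  -- the symbol of `x₀ ^ n` is trivial, so `x₀ ^ n` is a norm from `ℚ_q(ζ)`
  have hΘ' : psiLoc p k T q hpT ((normBase ℚ_[((q : Nat.Primes) : ℕ)] (locField ((q : Nat.Primes) : ℕ) L') (decSub L' (q : Nat.Primes) V s) binv) ^ n) = 1 := by
    rw [map_pow]
    rw [Theta_singleIdele_eq_psiLoc_normBase] at hΘ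
    exact hΘ
  obtain ⟨w, hw⟩ := exists_norm_eq_of_psiLoc_eq_one p k T hp2 hpT q _ hΘ'
  have hmem := base_norm_mem_normTop ℚ_[((q : Nat.Primes) : ℕ)] (locField ((q : Nat.Primes) : ℕ) L') (Funct.lIncl ((q : Nat.Primes) : ℕ) h) w
  obtain ⟨z₀, hz₀, hz₀N⟩ := (mem_normTop (locRho L' (q : Nat.Primes))).1 hmem
  -- `N_{D/D_s}(b^n)`
  have hrel : relNorm (locRho L' (q : Nat.Primes)) (decSub L' (q : Nat.Primes) V s) (n • (binv.1)) = relNorm (locRho L' (q : Nat.Primes)) (Funct.lRes ((q : Nat.Primes) : ℕ) h).ker z₀ := by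
    have h1 : relNorm (locRho L' (q : Nat.Primes)) (decSub L' (q : Nat.Primes) V s) binv.1 = Additive.ofMul (α := (locField ((q : Nat.Primes) : ℕ) L')ˣ)
        (Units.map (algebraMap ℚ_[((q : Nat.Primes) : ℕ)] (locField ((q : Nat.Primes) : ℕ) L') : ℚ_[((q : Nat.Primes) : ℕ)] →* (locField ((q : Nat.Primes) : ℕ) L')) (normBase ℚ_[((q : Nat.Primes) : ℕ)] (locField ((q : Nat.Primes) : ℕ) L') (decSub L' (q : Nat.Primes) V s) binv)) :=
      (coe_normBase ℚ_[((q : Nat.Primes) : ℕ)] (locField ((q : Nat.Primes) : ℕ) L') (decSub L' (q : Nat.Primes) V s) binv).symm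
    have h2 : relNorm (locRho L' (q : Nat.Primes)) (decSub L' (q : Nat.Primes) V s) (n • binv.1) = n • relNorm (locRho L' (q : Nat.Primes)) (decSub L' (q : Nat.Primes) V s) binv.1 := map_nsmul _ _ _
    refine h2.trans ?_
    refine (congrArg (fun t => n • t) h1).trans ?_
    refine Eq.trans ?_ hz₀N.symm
    refine congrArg (Additive.ofMul (α := (locField ((q : Nat.Primes) : ℕ) L')ˣ)) ?_
    refine Eq.trans ?_ (congrArg (Units.map (algebraMap ℚ_[((q : Nat.Primes) : ℕ)] (locField ((q : Nat.Primes) : ℕ) L') : ℚ_[((q : Nat.Primes) : ℕ)] →* (locField ((q : Nat.Primes) : ℕ) L'))) hw.symm)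
    exact (map_pow (Units.map (algebraMap ℚ_[((q : Nat.Primes) : ℕ)] (locField ((q : Nat.Primes) : ℕ) L') : ℚ_[((q : Nat.Primes) : ℕ)] →* (locField ((q : Nat.Primes) : ℕ) L'))) _ n).symm
  have hbn : IsInv (locRho L' (q : Nat.Primes)) (decSub L' (q : Nat.Primes) V s) (n • binv.1) := by
    intro d hd
    have h2 : (locRho L' (q : Nat.Primes)) d (n • binv.1) = n • (locRho L' (q : Nat.Primes)) d binv.1 := map_nsmul _ _ _
    refine h2.trans ?_
    exact congrArg (fun t => n • t) (binv.2 d hd)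
  obtain ⟨z₁, hz₁, hz₁b⟩ := local_relNorm_limitation ((q : Nat.Primes) : ℕ)
    ℚ_[((q : Nat.Primes) : ℕ)] (locField ((q : Nat.Primes) : ℕ) L') (decSub L' (q : Nat.Primes) V s) (Funct.lRes ((q : Nat.Primes) : ℕ) h).ker (n • binv.1) hbn z₀ hz₀ hrel
  -- the single-place idele of `K_k`
  have hD2 : decSub L' (q : Nat.Primes) (V ⊓ (Funct.gRes h).ker) s = (decSub L' (q : Nat.Primes) V s) ⊓ (Funct.lRes ((q : Nat.Primes) : ℕ) h).ker :=
    decSub_inf_ker p k h (q : Nat.Primes) V s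
  have hc₀ : ∀ d ∈ decSub L' (q : Nat.Primes) (V ⊓ (Funct.gRes h).ker) s,
      Units.map ((d : LocGal L' (q : Nat.Primes)) : (locField ((q : Nat.Primes) : ℕ) L') →* (locField ((q : Nat.Primes) : ℕ) L'))
        (Additive.toMul (α := (locField ((q : Nat.Primes) : ℕ) L')ˣ) z₁) = Additive.toMul (α := (locField ((q : Nat.Primes) : ℕ) L')ˣ) z₁ := by
    rw [hD2]
    exact (isInv_locRho_iff L' (q : Nat.Primes) _ (Additive.toMul (α := (locField ((q : Nat.Primes) : ℕ) L')ˣ) z₁)).1 hz₁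
  refine ⟨Additive.toMul (α := (locField ((q : Nat.Primes) : ℕ) L')ˣ) z₁, hc₀, ?_⟩
  refine (relNormSub_singleIdele L' T V (V ⊓ (Funct.gRes h).ker) q s inf_le_left _ hc₀).trans ?_
  have hloc : relLocNorm L' (q : Nat.Primes) V (V ⊓ (Funct.gRes h).ker) s
      (Additive.toMul (α := (locField ((q : Nat.Primes) : ℕ) L')ˣ) z₁) = b ^ n := by
    apply Additive.ofMul.injective
    refine (ofMul_relLocNorm L' (q : Nat.Primes) V (V ⊓ (Funct.gRes h).ker) s _).trans ?_
    refine (congrArg (fun f => f z₁) (relNormSub_congr (locRho L' (q : Nat.Primes)) hD2)).trans ?_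
    exact hz₁b.symm
  refine (singleIdele_congr L' T q s V hloc _ (pow_fixed L' T q s V n hb)).trans ?_
  exact (nsmul_singleIdele L' T q s V n b hb _).symm

/-- **(M5) J-LOC-TORS** in the shape of RULING 8. -/
theorem exists_relNormSub_eq_nsmul_singleIdele (hp2 : p ≠ 2) (hpT : pp p ∈ T)
    (h : cycLayer p k ≤ L') (V : Subgroup (L' ≃ₐ[ℚ] L')) (q : T) (s : L' ≃ₐ[ℚ] L')
    (b : (locField ((q : Nat.Primes) : ℕ) L')ˣ)
    (hb : ∀ d ∈ decSub L' (q : Nat.Primes) V s,
      Units.map ((d : LocGal L' (q : Nat.Primes)) :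
        locField ((q : Nat.Primes) : ℕ) L' →* locField ((q : Nat.Primes) : ℕ) L') b = b)
    (n : ℕ) (hΘ : Theta p k L' T hpT V (singleIdele L' T V q s b hb) ^ n = 1) :
    ∃ c ∈ JInv L' (V ⊓ (Funct.gRes h).ker) T, (∀ q' : T, q' ≠ q → c q' = 0) ∧
      relNormSub (J L' T).ρ V (V ⊓ (Funct.gRes h).ker) c = n • singleIdele L' T V q s b hb := by
  obtain ⟨c₀, hc₀, hc⟩ :=
    exists_relNormSub_singleIdele_eq_nsmul p k T hp2 hpT h V q s b hb n hΘ
  exact ⟨_, singleIdele_mem_JInv L' T _ q s c₀ hc₀,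
    fun q' hq' => singleIdele_of_ne L' T _ q s c₀ hc₀ hq', hc⟩

end Tors

end Fermat.Agent.GC.Global.WRec
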