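/-
GATE-C / C4 (helper67): (M5) J-LOC-TORS for `S`-ideles, the symbol being computed over `T ⊇ S`.

`β_S = singleIdele L' S V ⟨r,hrS⟩ s b` with `Θ^T_V(extJ β_S)^n = 1` ⟹ `n • β_S` is the relative norm
`N_{V/V_k}` of a single-place `S`-idele of `K_k`.
-/
import Mathlib
import Fermat.Agent.GC.Global.WRec.LocImageExt
import Fermat.Agent.GC.Global.WRec.LocImageLarge

set_option autoImplicit false
set_option linter.unusedSectionVars false

open scoped Padic
open IntermediateField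

noncomputable section

namespace Fermat.Agent.GC.Global.WRec

open Fermat.Agent.GC.Global Fermat.Agent.GC.Global.Adapter Fermat.Agent.GC.Global.Funct

section ExtTors

open scoped Classical

/-- `extJ` commutes with relative norms. -/
theorem extJ_relNormSub (L : IntermediateField ℚ Qb) [FiniteDimensional ℚ L] [IsGalois ℚ L]
    (S T : Finset Nat.Primes) (V₁ V₂ : Subgroup (L ≃ₐ[ℚ] L)) (y : J L S) :
    extJ L S T (relNormSub (J L S).ρ V₁ V₂ y) = relNormSub (J L T).ρ V₁ V₂ (extJ L S T y) := by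
  let _ : Fintype (V₁ ⧸ V₂.subgroupOf V₁) := Fintype.ofFinite _
  rw [relNormSub_apply, relNormSub_apply, map_sum]
  refine Finset.sum_congr rfl fun v _ => ?_
  exact extJ_rho L _ _

/-- `extJ` commutes with relative norms to the top. -/
theorem extJ_relNorm (L : IntermediateField ℚ Qb) [FiniteDimensional ℚ L] [IsGalois ℚ L]
    (S T : Finset Nat.Primes) (V : Subgroup (L ≃ₐ[ℚ] L)) (y : J L S) :
    extJ L S T (relNorm (J L S).ρ V y) = relNorm (J L T).ρ V (extJ L S T y) := by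
  let _ : Fintype ((L ≃ₐ[ℚ] L) ⧸ V) := Fintype.ofFinite _
  rw [relNorm_apply, relNorm_apply, map_sum]
  refine Finset.sum_congr rfl fun v _ => ?_
  exact extJ_rho L _ _

variable (p : ℕ) [hp : Fact p.Prime] (k : ℕ) {S T : Finset Nat.Primes}
variable {L' : IntermediateField ℚ Qb} [FiniteDimensional ℚ L'] [IsGalois ℚ L']

/-- **(M5) for `S`-ideles**. -/
theorem exists_relNormSub_eq_nsmul_singleIdele_of_subset (hST : S ⊆ T) (hp2 : p ≠ 2)
    (hpT : pp p ∈ T)
    (h : cycLayer p k ≤ L') (V : Subgroup (L' ≃ₐ[ℚ] L')) (r : Nat.Primes) (hrS : r ∈ S)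
    (s : L' ≃ₐ[ℚ] L') (b : (locField (r : ℕ) L')ˣ)
    (hb : ∀ d ∈ decSub L' r V s,
      Units.map ((d : LocGal L' r) : locField (r : ℕ) L' →* locField (r : ℕ) L') b = b)
    (n : ℕ)
    (hΘ : Theta p k L' T hpT V (extJ L' S T (singleIdele L' S V ⟨r, hrS⟩ s b hb)) ^ n = 1) :
    ∃ c ∈ JInv L' (V ⊓ (Funct.gRes h).ker) S, (∀ q' : S, q' ≠ ⟨r, hrS⟩ → c q' = 0) ∧
      relNormSub (J L' S).ρ V (V ⊓ (Funct.gRes h).ker) c
        = n • singleIdele L' S V ⟨r, hrS⟩ s b hb := by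
  rw [extJ_singleIdele L' hST V r hrS s b hb] at hΘ
  obtain ⟨c₀, hc₀, hc⟩ := exists_relNormSub_singleIdele_eq_nsmul p k T hp2 hpT h V
    ⟨r, hST hrS⟩ s b hb n hΘ
  refine ⟨singleIdele L' S (V ⊓ (Funct.gRes h).ker) ⟨r, hrS⟩ s c₀ hc₀,
    singleIdele_mem_JInv L' S _ ⟨r, hrS⟩ s c₀ hc₀,
    fun q' hq' => singleIdele_of_ne L' S _ ⟨r, hrS⟩ s c₀ hc₀ hq', ?_⟩
  apply extJ_injective L' hST
  rw [extJ_relNormSub, extJ_singleIdele L' hST _ r hrS s c₀ hc₀, map_nsmul,
    extJ_singleIdele L' hST V r hrS s b hb]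
  exact hc

end ExtTors

end Fermat.Agent.GC.Global.WRec
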