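/-
GATE-C / C4 [B']-FIN, leaf (E) J-CLASS (helper55, per helper14 board 2394).

Every `p^b`-torsion class (`b ≤ a`) of the cyclic cyclotomic layer `H²(V/V_k, C(L',T)^{V_k})` is,
after inflation to `H²(V, C(L',T))`, the image under `πC = JtoC ∘ extJ` of a `p^b`-torsion class of
`H²(V, J(L',S))` (`S ⊆ T`, `p ∈ S`), given (M4) (single-place image at `p`).
* `JClass.infl_naturality` : inflation is natural in the coefficients;
* `JClass.exists_class_of_period` : the abstract statement (E-abs);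
* `exists_Jclass_of_torsion` : the model statement (E).
-/
import Mathlib
import Fermat.Agent.GC.Global.WRec.CyclicLayerUncond
import Fermat.Agent.GC.Global.WRec.LocImageExtTors
import Fermat.Agent.GC.Global.WRec.FinLevelDiv
import Fermat.Agent.GC.Tate.InfRes2

set_option autoImplicit false
set_option linter.unusedSectionVars false

open CategoryTheory groupCohomology

noncomputable section

namespace Fermat.Agent.GC.Global.WRec.JClass

open Fermat.Agent.GC.Global.WRec Fermat.Agent.GC.Local.CycH2 Fermat.Agent.GC.Tate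

universe u

variable {k G : Type u} [CommRing k] [Group G] {JA A : Rep.{u} k G} (φ : JA ⟶ A)
  (M : Subgroup G) [M.Normal]

/-- inflation `H²(G ⧸ M, ·^M) → H²(G, ·)` is natural in the coefficients. -/
theorem infl_naturality :
    (InfRes2.H2InfRes JA M).f ≫ groupCohomology.map (MonoidHom.id G) φ 2 =
      groupCohomology.map (MonoidHom.id (G ⧸ M)) (PeriodDict.mapQ M φ) 2 ≫
        (InfRes2.H2InfRes A M).f := by
  have h1 := groupCohomology.map_comp (A := JA.quotientToInvariants M) (B := JA) (C := A)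
    (QuotientGroup.mk' M) (MonoidHom.id G)
    (Rep.ofHom <| JA.ρ.quotientToInvariants_lift M) φ 2
  have h2 := groupCohomology.map_comp (A := JA.quotientToInvariants M)
    (B := A.quotientToInvariants M) (C := A)
    (MonoidHom.id (G ⧸ M)) (QuotientGroup.mk' M) (PeriodDict.mapQ M φ)
    (Rep.ofHom <| A.ρ.quotientToInvariants_lift M) 2
  refine Eq.trans ?_ (Eq.trans (h1.symm.trans ?_) h2)
  · rfl
  · apply groupCohomology.map_congr
    · rfl
    · rfl

theorem infl_naturality_apply (x : H2 (JA.quotientToInvariants M)) :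
    (groupCohomology.map (MonoidHom.id G) φ 2).hom ((InfRes2.H2InfRes JA M).f.hom x) =
      (InfRes2.H2InfRes A M).f.hom
        ((groupCohomology.map (MonoidHom.id (G ⧸ M)) (PeriodDict.mapQ M φ) 2).hom x) := by
  have := congrArg (fun f => f.hom x) (infl_naturality φ M)
  exact this


/-- **(E-abs)**: a class `y` of the cyclic layer `H²(G ⧸ M, A^M)` whose periodicity invariant is
`[φ βJ]`, `βJ ∈ JA^G` with `n • βJ` a norm from `JA^M`, is (after inflation) the image of an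
`n`-torsion class of `H²(G, JA)`. -/
theorem exists_class_of_period [Fintype (G ⧸ M)] {σ : G ⧸ M} {m : ℕ} (hσ : IsGen σ m)
    (y : H2 (A.quotientToInvariants M)) (βJ : JA.ρ.invariants) (n : ℕ)
    (h1 : PeriodDict.periodEquiv A M hσ y = Submodule.Quotient.mk (PeriodDict.invMap φ βJ))
    (h2 : n • βJ ∈ PeriodDict.normRange JA M) :
    ∃ ξ : H2 JA, n • ξ = 0 ∧
      (groupCohomology.map (MonoidHom.id G) φ 2).hom ξ = (InfRes2.H2InfRes A M).f.hom y := by
  set yJ : H2 (JA.quotientToInvariants M) :=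
    (PeriodDict.periodEquiv JA M hσ).symm (Submodule.Quotient.mk βJ) with hyJ
  have hn : n • yJ = 0 := by
    apply (PeriodDict.periodEquiv JA M hσ).injective
    rw [map_nsmul, hyJ, LinearEquiv.apply_symm_apply, map_zero, ← Submodule.Quotient.mk_smul]
    exact (Submodule.Quotient.mk_eq_zero _).2 h2
  have hmap : (groupCohomology.map (MonoidHom.id (G ⧸ M)) (PeriodDict.mapQ M φ) 2).hom yJ = y := by
    apply (PeriodDict.periodEquiv A M hσ).injective
    rw [PeriodDict.periodEquiv_naturality M φ hσ yJ, hyJ, LinearEquiv.apply_symm_apply, h1]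
    rfl
  refine ⟨(InfRes2.H2InfRes JA M).f.hom yJ, ?_, ?_⟩
  · let F : H2 (JA.quotientToInvariants M) →ₗ[k] H2 JA := (InfRes2.H2InfRes JA M).f.hom
    show n • F yJ = 0
    exact (map_nsmul F n yJ).symm.trans ((congrArg F hn).trans (map_zero F))
  · rw [infl_naturality_apply, hmap]

end Fermat.Agent.GC.Global.WRec.JClass

namespace Fermat.Agent.GC.Global.WRec

open scoped Padic
open IntermediateField
open Fermat.Agent.GC.Global Fermat.Agent.GC.Global.Adapter
open Fermat.Agent.GC.Local.CycH2 Fermat.Agent.GC.Tate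

section JClassModel

open scoped Classical

variable (p : ℕ) [hp : Fact p.Prime] (k : ℕ) {S T : Finset Nat.Primes}
  {L' : IntermediateField ℚ Qb} [FiniteDimensional ℚ L'] [IsGalois ℚ L']

/-- `φ = Res_V (JtoC ∘ extJ) : Res_V J(L',S) ⟶ CV T V`. -/
def phiJC (S T : Finset Nat.Primes) (V : Subgroup (L' ≃ₐ[ℚ] L')) :
    Rep.res V.subtype (J L' S) ⟶ CV T V :=
  (Rep.resFunctor V.subtype).map (FinLevelDiv.piC L' S T)

theorem phiJC_hom_apply (V : Subgroup (L' ≃ₐ[ℚ] L')) (y : J L' S) :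
    (phiJC S T V).hom y = (JtoC L' T).hom (Funct.extJ L' S T y) := rfl

end JClassModel

/-- square roots in the `p`-part: `x^(p^k) = 1`, `x^(p^b) = 1` ⟹ `x = x'²` with `x'^(p^b) = 1`. -/
theorem exists_sqrt_of_pow_eq_one {U : Type*} [CommGroup U] {p : ℕ} (hodd : Odd p) (k b : ℕ)
    (x : U) (hk : x ^ (p ^ k) = 1) (hb : x ^ (p ^ b) = 1) :
    ∃ x' : U, x' ^ 2 = x ∧ x' ^ (p ^ b) = 1 := by
  obtain ⟨e, he⟩ := (hodd.pow : Odd (p ^ k))
  refine ⟨x ^ (e + 1), ?_, ?_⟩
  · rw [← pow_mul]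
    have : (e + 1) * 2 = p ^ k + 1 := by omega
    rw [this, pow_succ, hk, one_mul]
  · rw [← pow_mul, mul_comm, pow_mul, hb, one_pow]

section JClassModel2

open scoped Classical

variable (p : ℕ) [hp : Fact p.Prime] (k : ℕ) {S T : Finset Nat.Primes}
  {L' : IntermediateField ℚ Qb} [FiniteDimensional ℚ L'] [IsGalois ℚ L']
  (hST : S ⊆ T) (hg : GoodT L' T p) (hp2 : p ≠ 2) (hpS : pp p ∈ S) (ζ : L')
  (hζ : IsPrimitiveRoot ζ p) (h : cycLayer p k ≤ L') (V : Subgroup (L' ≃ₐ[ℚ] L'))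
  (hVζ : ∀ v ∈ V, v ζ = ζ)

include hg hp2 hζ hVζ in
/-- two `V`-invariant ideles with the same `Θ_V²` have the same class in `C^V/N C^{V_k}`. -/
theorem JInvToNormRes_eq_of_Theta_sq_eq (hpT : pp p ∈ T) (β β' : ↥(JInv L' V T))
    (hΘ : Theta p k L' T hpT V (β : J L' T) ^ 2 = Theta p k L' T hpT V (β' : J L' T) ^ 2) :
    JInvToNormRes T V (V ⊓ (Funct.gRes h).ker) β =
      JInvToNormRes T V (V ⊓ (Funct.gRes h).ker) β' := by
  have h1 : ThetaSqHom p k T hpT V (β - β') = 0 := by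
    rw [map_sub, ThetaSqHom_apply, ThetaSqHom_apply, hΘ, sub_self]
  have h2 : Theta p k L' T hpT V ((β - β' : ↥(JInv L' V T)) : J L' T) ^ 2 = 1 :=
    Additive.ofMul.injective h1
  have h3 := (normRes_eq_zero_iff' p k T hg hp2 hpT ζ hζ h V hVζ (β - β')).2 h2
  rw [map_sub, sub_eq_zero] at h3
  exact h3

end JClassModel2

section JClassMain

open scoped Classical

variable (p : ℕ) [hp : Fact p.Prime] (k : ℕ) {S T : Finset Nat.Primes}
  {L' : IntermediateField ℚ Qb} [FiniteDimensional ℚ L'] [IsGalois ℚ L']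
  (hST : S ⊆ T) (hg : GoodT L' T p) (hp2 : p ≠ 2) (hpS : pp p ∈ S) (ζ : L')
  (hζ : IsPrimitiveRoot ζ p) (h : cycLayer p k ≤ L') (V : Subgroup (L' ≃ₐ[ℚ] L'))
  (hVζ : ∀ v ∈ V, v ζ = ζ)
  [Fintype (V ⧸ (V ⊓ (Funct.gRes h).ker).subgroupOf V)]
  {σ : V ⧸ (V ⊓ (Funct.gRes h).ker).subgroupOf V} {m : ℕ} (hσ : IsGen σ m)

set_option maxHeartbeats 800000 in
include hST hg hp2 hpS hζ hVζ hσ in
/-- **(E) J-CLASS.** -/
theorem exists_Jclass_of_torsion (a : ℕ)
    (hM4 : ∀ x : (ZMod (p ^ (k + 1)))ˣ, x ^ (p ^ a) = 1 →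
      ∃ (u : (locField ((pp p : Nat.Primes) : ℕ) L')ˣ)
        (hu : ∀ d ∈ decSub L' (pp p) V 1,
          Units.map ((d : LocGal L' (pp p)) :
            locField ((pp p : Nat.Primes) : ℕ) L' →* locField ((pp p : Nat.Primes) : ℕ) L') u = u),
        Theta p k L' T (hST hpS) V (singleIdele L' T V ⟨pp p, hST hpS⟩ 1 u hu) = x)
    (y : H2 ((CV T V).quotientToInvariants ((V ⊓ (Funct.gRes h).ker).subgroupOf V)))
    (b : ℕ) (hb : b ≤ a) (hy : p ^ b • y = 0) :
    ∃ ξ : H2 (Rep.res V.subtype (J L' S)), p ^ b • ξ = 0 ∧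
      (groupCohomology.map (MonoidHom.id V) (phiJC S T V) 2).hom ξ =
        (InfRes2.H2InfRes (CV T V) ((V ⊓ (Funct.gRes h).ker).subgroupOf V)).f.hom y := by
  have hpT : pp p ∈ T := hST hpS
  -- step 1: `y ↔ β`
  obtain ⟨β, hβ⟩ := exists_JInv_periodEquiv_eq' p k T hg hp2 hpT ζ hζ h V hVζ hσ y
  -- step 2: `x := Θ(β)²` is killed by `p^b` and `p^k`
  have hxb : (Theta p k L' T hpT V (β : J L' T) ^ 2) ^ (p ^ b) = 1 :=
    (nsmul_eq_zero_iff' p k T hg hp2 hpT ζ hζ h V hVζ hσ y β hβ (p ^ b)).1 hy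
  have hxk : (Theta p k L' T hpT V (β : J L' T) ^ 2) ^ (p ^ k) = 1 := by
    obtain ⟨v, hv, hvx⟩ := (cyclic_layer p k T hg hp2 hpT ζ hζ h V hVζ).2.2.2 (β : J L' T) β.2
    exact (congrArg (· ^ (p ^ k)) hvx.symm).trans
      (chi_pow_eq_one_of_fixes_zeta p k h ζ hζ v (hVζ v hv))
  -- step 3: square root
  obtain ⟨x', hx'2, hx'b⟩ := exists_sqrt_of_pow_eq_one (hp.out.odd_of_ne_two hp2) k b _ hxk hxb
  have hx'a : x' ^ (p ^ a) = 1 := by
    have hab : a = b + (a - b) := by omega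
    have hpab : p ^ a = p ^ b * p ^ (a - b) :=
      (congrArg (p ^ ·) hab).trans (pow_add p b (a - b))
    calc x' ^ p ^ a = x' ^ (p ^ b * p ^ (a - b)) := congrArg (x' ^ ·) hpab
      _ = (x' ^ p ^ b) ^ p ^ (a - b) := pow_mul x' _ _
      _ = 1 := (congrArg (· ^ p ^ (a - b)) hx'b).trans (one_pow _)
  -- step 4: the single-place idele
  obtain ⟨u, hu, hΘu⟩ := hM4 x' hx'a
  let βT : ↥(JInv L' V T) :=
    ⟨singleIdele L' T V ⟨pp p, hpT⟩ 1 u hu, singleIdele_mem_JInv L' T V ⟨pp p, hpT⟩ 1 u hu⟩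
  have hcls : JInvToNormRes T V (V ⊓ (Funct.gRes h).ker) β =
      JInvToNormRes T V (V ⊓ (Funct.gRes h).ker) βT :=
    JInvToNormRes_eq_of_Theta_sq_eq p k hg hp2 ζ hζ h V hVζ hpT β βT (by
      show _ = Theta p k L' T hpT V (singleIdele L' T V ⟨pp p, hpT⟩ 1 u hu) ^ 2
      exact hx'2.symm.trans (congrArg (· ^ 2) hΘu.symm))
  -- step 5: the `S`-idele
  set βS : J L' S := singleIdele L' S V ⟨pp p, hpS⟩ 1 u hu with hβS
  have hβSV : βS ∈ JInv L' V S := singleIdele_mem_JInv L' S V ⟨pp p, hpS⟩ 1 u hu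
  have hext : Funct.extJ L' S T βS = singleIdele L' T V ⟨pp p, hpT⟩ 1 u hu :=
    extJ_singleIdele L' hST V (pp p) hpS 1 u hu
  -- step 6: `p^b • βS` is a norm
  have hΘS : Theta p k L' T hpT V (Funct.extJ L' S T (singleIdele L' S V ⟨pp p, hpS⟩ 1 u hu)) ^
      (p ^ b) = 1 :=
    (congrArg (fun z => Theta p k L' T hpT V z ^ (p ^ b))
      (extJ_singleIdele L' hST V (pp p) hpS 1 u hu)).trans
      ((congrArg (· ^ (p ^ b)) hΘu).trans hx'b)
  obtain ⟨c, hc, -, hcN⟩ := exists_relNormSub_eq_nsmul_singleIdele_of_subset p k hST hp2 hpT h V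
    (pp p) hpS 1 u hu (p ^ b) hΘS
  -- step 7: apply (E-abs)
  let βJ : (Rep.res V.subtype (J L' S)).ρ.invariants :=
    ⟨βS, fun g => (mem_JInv_iff_rho L' V S).1 hβSV g g.2⟩
  refine JClass.exists_class_of_period (phiJC S T V)
    ((V ⊓ (Funct.gRes h).ker).subgroupOf V) hσ y βJ (p ^ b) ?_ ?_
  · refine hβ.trans (hcls.trans ?_)
    show (QuotientAddGroup.mk (JInvToCInv T V βT) : NormRes T V (V ⊓ (Funct.gRes h).ker)) = _
    congr 1
    apply Subtype.ext
    show (JtoC L' T).hom (singleIdele L' T V ⟨pp p, hpT⟩ 1 u hu) =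
      (JtoC L' T).hom (Funct.extJ L' S T βS)
    exact congrArg (JtoC L' T).hom hext.symm
  · refine (PeriodDict.mem_normRange_iff _ _ _).2 ⟨c, ?_, ?_⟩
    · intro g hg
      exact (mem_JInv_iff_rho L' (V ⊓ (Funct.gRes h).ker) S).1 hc (g : L' ≃ₐ[ℚ] L')
        (Subgroup.mem_subgroupOf.1 hg)
    · exact hcN

end JClassMain

end Fermat.Agent.GC.Global.WRec
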