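/-
GATE-C / C4 GLOBAL-COH, [B']-FIN (helper14): (E) J-CLASS — the classes of the cyclic layer
`H²(V/V_k, C(L',T)^{V_k})` killed by `p^b` come from `p^b`-torsion classes of `H²(V, J(L',S))`
(single-place ideles at `p`), hence (FC-onto-p).
-/
import Mathlib
import Fermat.Agent.GC.Global.WRec.FinLevelStage
import Fermat.Agent.GC.Global.WRec.FinLevelDiv
import Fermat.Agent.GC.Global.WRec.LocImageLarge
import Fermat.Agent.GC.Global.WRec.FinLevelJClass

set_option autoImplicit false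
set_option linter.unusedSectionVars false
set_option linter.style.haveILetI false

open scoped Padic
open IntermediateField CategoryTheory

noncomputable section

namespace Fermat.Agent.GC.Global.WRec.FinLevel

open Fermat.Agent.GC.Global Fermat.Agent.GC.Global.Adapter Fermat.Agent.GC.Global.WRec
open Fermat.Agent.GC.Global.Funct
open Fermat.Agent.GC.Local.CycH2 groupCohomology
open Fermat.Agent.GC.Global.Devissage Fermat.Agent.GC.Tate.InfRes2

section Abstract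

universe u

variable {k G : Type u} [CommRing k] [Group G] {A B : Rep.{u} k G} (φ : A ⟶ B)
  (S : Subgroup G) [S.Normal]

/-- naturality of inflation in the coefficients. -/
theorem infl_naturality (n : ℕ) :
    infl A S n ≫ groupCohomology.map (MonoidHom.id G) φ n =
      groupCohomology.map (MonoidHom.id (G ⧸ S)) (PeriodDict.mapQ S φ) n ≫ infl B S n := by
  unfold infl
  rw [← groupCohomology.map_comp, ← groupCohomology.map_comp]
  exact groupCohomology.map_congr rfl rfl n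

/-- **abstract J-class**: if the periodicity invariant of `y ∈ H²(G/S, B^S)` is the image of
`bJ ∈ A^G` and `n • bJ` is a norm from `A^S`, then `infl y` is the image of an `n`-torsion class of
`H²(G, A)`. -/
theorem exists_class_of_periodEquiv [Fintype (G ⧸ S)] {σ : G ⧸ S} {m : ℕ} (hσ : IsGen σ m)
    (bJ : A.ρ.invariants) (y : H2 (B.quotientToInvariants S)) (n : ℕ)
    (hy : PeriodDict.periodEquiv B S hσ y = Submodule.Quotient.mk (PeriodDict.invMap φ bJ))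
    (hn : n • bJ ∈ PeriodDict.normRange A S) :
    ∃ ξ : H2 A, n • ξ = 0 ∧
      (groupCohomology.map (MonoidHom.id G) φ 2).hom ξ = (infl B S 2).hom y := by
  set yJ : H2 (A.quotientToInvariants S) :=
    (PeriodDict.periodEquiv A S hσ).symm (Submodule.Quotient.mk bJ) with hyJ
  have h1 : PeriodDict.periodEquiv A S hσ yJ = Submodule.Quotient.mk bJ :=
    LinearEquiv.apply_symm_apply _ _
  have h2 : n • yJ = 0 := by
    apply (PeriodDict.periodEquiv A S hσ).injective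
    rw [map_nsmul, h1, map_zero, ← Submodule.Quotient.mk_smul]
    exact (Submodule.Quotient.mk_eq_zero _).2 hn
  have h3 : (groupCohomology.map (MonoidHom.id (G ⧸ S)) (PeriodDict.mapQ S φ) 2).hom yJ = y := by
    apply (PeriodDict.periodEquiv B S hσ).injective
    rw [PeriodDict.periodEquiv_naturality S φ hσ yJ, h1, hy]
    rfl
  refine ⟨(infl A S 2).hom yJ, ?_, ?_⟩
  · rw [← map_nsmul, h2, map_zero]
  · have := infl_naturality φ S 2
    have h4 := congr($(this).hom yJ)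
    rw [ModuleCat.comp_apply, ModuleCat.comp_apply] at h4
    rw [h4, h3]

end Abstract

section Model

open scoped Classical
open Fermat.Agent.GC.Global.WRec.FinLevelDiv

variable (p : ℕ) [hp : Fact p.Prime] (k : ℕ) (S T : Finset Nat.Primes)
  {L' : IntermediateField ℚ Qb} [FiniteDimensional ℚ L'] [IsGalois ℚ L']

/-- extension by zero of a single-place idele at `p`. -/
theorem extJ_singleIdele (hpS : pp p ∈ S) (hpT : pp p ∈ T) (V : Subgroup (L' ≃ₐ[ℚ] L'))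
    (s : L' ≃ₐ[ℚ] L') (u : (locField ((pp p : Nat.Primes) : ℕ) L')ˣ)
    (hu : ∀ d ∈ decSub L' (pp p) V s,
      Units.map ((d : LocGal L' (pp p)) :
        locField ((pp p : Nat.Primes) : ℕ) L' →* locField ((pp p : Nat.Primes) : ℕ) L') u = u) :
    extJ L' S T (singleIdele L' S V ⟨pp p, hpS⟩ s u hu) =
      singleIdele L' T V ⟨pp p, hpT⟩ s u hu := by
  funext q
  by_cases hq : q = ⟨pp p, hpT⟩
  · subst hq
    rw [extJ_apply_of_mem L' _ _ hpS, singleIdele_same]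
    exact (singleIdele_same L' T V ⟨pp p, hpT⟩ s u hu).symm
  · rw [singleIdele_of_ne L' T V ⟨pp p, hpT⟩ s u hu hq]
    by_cases hqS : (q : Nat.Primes) ∈ S
    · rw [extJ_apply_of_mem L' _ q hqS]
      refine singleIdele_of_ne L' S V ⟨pp p, hpS⟩ s u hu ?_
      intro hcon
      apply hq
      have h1 := congrArg Subtype.val hcon
      exact Subtype.ext h1
    · exact extJ_apply_of_not_mem L' _ q hqS

/-- `Θ` of a single-place idele at `p` does not depend on the set of primes. -/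
theorem Theta_singleIdele_pp_indep (hpS : pp p ∈ S) (hpT : pp p ∈ T) (V : Subgroup (L' ≃ₐ[ℚ] L'))
    (s : L' ≃ₐ[ℚ] L') (u : (locField ((pp p : Nat.Primes) : ℕ) L')ˣ)
    (hu : ∀ d ∈ decSub L' (pp p) V s,
      Units.map ((d : LocGal L' (pp p)) :
        locField ((pp p : Nat.Primes) : ℕ) L' →* locField ((pp p : Nat.Primes) : ℕ) L') u = u) :
    Theta p k L' S hpS V (singleIdele L' S V ⟨pp p, hpS⟩ s u hu) =
      Theta p k L' T hpT V (singleIdele L' T V ⟨pp p, hpT⟩ s u hu) := by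
  haveI : Fintype (LocGal L' (pp p) ⧸ decSub L' (pp p) V s) := Fintype.ofFinite _
  rw [Theta_singleIdele p k L' S V ⟨pp p, hpS⟩ s hpS u hu,
    Theta_singleIdele p k L' T V ⟨pp p, hpT⟩ s hpT u hu]
  exact (psiLoc_pp p k S hpS _).trans (psiLoc_pp p k T hpT _).symm

/-- **(E) J-CLASS.** -/
theorem exists_Jclass (hg : GoodT L' T p) (hp2 : p ≠ 2) (hpS : pp p ∈ S) (hpT : pp p ∈ T) (ζ : L')
    (hζ : IsPrimitiveRoot ζ p) (h : cycLayer p k ≤ L') (V : Subgroup (L' ≃ₐ[ℚ] L'))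
    (hVζ : ∀ v ∈ V, v ζ = ζ) {a : ℕ}
    (hM4 : ∀ x : (ZMod (p ^ (k + 1)))ˣ, x ^ (p ^ a) = 1 →
      ∃ (u : (locField ((pp p : Nat.Primes) : ℕ) L')ˣ)
        (hu : ∀ d ∈ decSub L' (pp p) V 1,
          Units.map ((d : LocGal L' (pp p)) :
            locField ((pp p : Nat.Primes) : ℕ) L' →* locField ((pp p : Nat.Primes) : ℕ) L') u = u),
        Theta p k L' T hpT V (singleIdele L' T V ⟨pp p, hpT⟩ 1 u hu) = x)
    (y : H2 ((CV T V).quotientToInvariants ((V ⊓ (gRes h).ker).subgroupOf V))) (b : ℕ)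
    (hb : b ≤ a) (hy : p ^ b • y = 0) :
    ∃ ξ : groupCohomology (Rep.res V.subtype (J L' S)) 2, p ^ b • ξ = 0 ∧
      (piCCoh L' S T V 2).hom ξ =
        (H2InfRes (CV T V) ((V ⊓ (gRes h).ker).subgroupOf V)).f.hom y := by
  obtain ⟨σ, m, hσ⟩ := exists_isGen_Vk p k hp2 h V
  haveI : Fintype (V ⧸ (V ⊓ (gRes h).ker).subgroupOf V) := Fintype.ofFinite _
  have hex := exists_JInv_periodEquiv_eq' p k T hg hp2 hpT ζ hζ h V hVζ hσ y
  refine Exists.elim hex fun β hβ => ?_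
  -- `x = Θ(β)²`
  have hx : (Theta p k L' T hpT V (β : J L' T) ^ 2) ^ (p ^ b) = 1 :=
    (nsmul_eq_zero_iff' p k T hg hp2 hpT ζ hζ h V hVζ hσ y β hβ (p ^ b)).1 hy
  obtain ⟨-, -, -, k4⟩ := cyclic_layer p k T hg hp2 hpT ζ hζ h V hVζ
  obtain ⟨x, hxdef⟩ : ∃ x, x = Theta p k L' T hpT V (β : J L' T) ^ 2 := ⟨_, rfl⟩
  rw [← hxdef] at hx
  have hxk : x ^ (p ^ k) = 1 := by
    obtain ⟨v, hv, hvx⟩ := k4 (β : J L' T) β.2
    rw [hxdef, ← hvx]
    exact LayerCard.hVp_of_zeta p k h ζ hζ V hVζ v hv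
  obtain ⟨e, he⟩ : Odd (p ^ k) := (hp.out.odd_of_ne_two hp2).pow
  have hx'2 : (x ^ (e + 1)) ^ 2 = x := by
    have h1 : (e + 1) * 2 = p ^ k + 1 := by omega
    calc (x ^ (e + 1)) ^ 2 = x ^ ((e + 1) * 2) := (pow_mul x (e + 1) 2).symm
      _ = x ^ (p ^ k + 1) := congrArg (fun n => x ^ n) h1
      _ = x ^ (p ^ k) * x := pow_succ x (p ^ k)
      _ = 1 * x := congrArg (fun t => t * x) hxk
      _ = x := one_mul x
  have hx'b : (x ^ (e + 1)) ^ (p ^ b) = 1 := by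
    calc (x ^ (e + 1)) ^ (p ^ b) = x ^ ((e + 1) * p ^ b) := (pow_mul x (e + 1) (p ^ b)).symm
      _ = x ^ (p ^ b * (e + 1)) := congrArg (fun n => x ^ n) (mul_comm _ _)
      _ = (x ^ (p ^ b)) ^ (e + 1) := pow_mul x (p ^ b) (e + 1)
      _ = 1 ^ (e + 1) := congrArg (fun t => t ^ (e + 1)) hx
      _ = 1 := one_pow _
  have hx'a : (x ^ (e + 1)) ^ (p ^ a) = 1 := by
    obtain ⟨c, hc⟩ := Nat.exists_eq_add_of_le hb
    have h1 : p ^ a = p ^ b * p ^ c := by rw [hc]; exact pow_add p b c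
    calc (x ^ (e + 1)) ^ (p ^ a) = (x ^ (e + 1)) ^ (p ^ b * p ^ c) :=
          congrArg (fun n => (x ^ (e + 1)) ^ n) h1
      _ = ((x ^ (e + 1)) ^ (p ^ b)) ^ (p ^ c) := pow_mul _ _ _
      _ = 1 ^ (p ^ c) := congrArg (fun t => t ^ (p ^ c)) hx'b
      _ = 1 := one_pow _
  obtain ⟨u, hu, hΘu⟩ := hM4 (x ^ (e + 1)) hx'a
  -- the single-place ideles
  obtain ⟨βT, hβT⟩ : ∃ y, y = singleIdele L' T V ⟨pp p, hpT⟩ 1 u hu := ⟨_, rfl⟩
  obtain ⟨βS, hβS⟩ : ∃ y, y = singleIdele L' S V ⟨pp p, hpS⟩ 1 u hu := ⟨_, rfl⟩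
  rw [← hβT] at hΘu
  have hβTmem : βT ∈ JInv L' V T := hβT ▸ singleIdele_mem_JInv L' T V ⟨pp p, hpT⟩ 1 u hu
  have hβSmem : βS ∈ JInv L' V S := hβS ▸ singleIdele_mem_JInv L' S V ⟨pp p, hpS⟩ 1 u hu
  -- the classes of `βT` and `β` agree
  have hcls : JInvToNormRes T V (V ⊓ (gRes h).ker) ⟨βT, hβTmem⟩ =
      JInvToNormRes T V (V ⊓ (gRes h).ker) β := by
    have h0 : JInvToNormRes T V (V ⊓ (gRes h).ker) (⟨βT, hβTmem⟩ - β) = 0 := by
      rw [normRes_eq_zero_iff' p k T hg hp2 hpT ζ hζ h V hVζ]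
      have h1 : ((⟨βT, hβTmem⟩ - β : ↥(JInv L' V T)) : J L' T) = βT + -(β : J L' T) :=
        sub_eq_add_neg _ _
      rw [h1, Theta_add p k L' T hpT V hβTmem ((JInv L' V T).neg_mem β.2),
        Theta_neg p k T hpT V β.2, mul_pow, inv_pow, hΘu, hx'2, ← hxdef]
      exact mul_inv_cancel _
    rw [map_sub, sub_eq_zero] at h0
    exact h0
  -- the data for the abstract lemma
  let φ : Rep.res V.subtype (J L' S) ⟶ CV T V := (Rep.resFunctor V.subtype).map (piC L' S T)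
  have hbJ : βS ∈ (Rep.res V.subtype (J L' S)).ρ.invariants := fun g =>
    (mem_JInv_iff_rho L' V S).1 hβSmem g g.2
  have hy' : PeriodDict.periodEquiv (CV T V) ((V ⊓ (gRes h).ker).subgroupOf V) hσ y =
      Submodule.Quotient.mk (PeriodDict.invMap φ ⟨βS, hbJ⟩) := by
    have h2 : JInvToCInv T V ⟨βT, hβTmem⟩ = PeriodDict.invMap φ ⟨βS, hbJ⟩ := by
      apply Subtype.ext
      show (JtoC L' T).hom βT = (JtoC L' T).hom (extJ L' S T βS)
      rw [hβS, extJ_singleIdele p S T hpS hpT V 1 u hu, hβT]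
    have h3 : JInvToNormRes T V (V ⊓ (gRes h).ker) ⟨βT, hβTmem⟩ =
        Submodule.Quotient.mk (PeriodDict.invMap φ ⟨βS, hbJ⟩) :=
      congrArg (fun t => (Submodule.Quotient.mk t :
        (CV T V).ρ.invariants ⧸
          PeriodDict.normRange (CV T V) ((V ⊓ (gRes h).ker).subgroupOf V))) h2
    exact hβ.trans (hcls.symm.trans h3)
  have hΘS : Theta p k L' S hpS V βS ^ (p ^ b) = 1 := by
    rw [hβS, Theta_singleIdele_pp_indep p k S T hpS hpT V 1 u hu, ← hβT, hΘu, hx'b]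
  rw [hβS] at hΘS
  obtain ⟨c, hc, -, hcn⟩ :=
    exists_relNormSub_eq_nsmul_singleIdele p k S hp2 hpS h V ⟨pp p, hpS⟩ 1 u hu (p ^ b) hΘS
  rw [← hβS] at hcn
  have hn : p ^ b • (⟨βS, hbJ⟩ : (Rep.res V.subtype (J L' S)).ρ.invariants) ∈
      PeriodDict.normRange (Rep.res V.subtype (J L' S)) ((V ⊓ (gRes h).ker).subgroupOf V) :=
    (PeriodDict.mem_normRange_res_iff (J L' S).ρ V (V ⊓ (gRes h).ker) inf_le_left _).2
      ⟨c, isInv_iff_mem_JInv.2 hc, hcn⟩
  exact exists_class_of_periodEquiv φ ((V ⊓ (gRes h).ker).subgroupOf V) hσ ⟨βS, hbJ⟩ y (p ^ b)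
    hy' hn

end Model

section Onto

open scoped Classical
open Fermat.Agent.GC.Global.WRec.FinLevelDiv

/-- a `p`-power torsion element is killed by the order of the `p`-primary part. -/
theorem nsmul_eq_zero_of_card_primaryPart {M : Type*} [AddCommGroup M] (p a : ℕ) (hp : p.Prime)
    (hcard : Nat.card (primaryPart p M) = p ^ a) (z : M) (b : ℕ) (hz : p ^ b • z = 0) :
    p ^ a • z = 0 := by
  haveI : Finite (primaryPart p M) :=
    Nat.finite_of_card_ne_zero (by rw [hcard]; exact pow_ne_zero _ hp.ne_zero)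
  have h1 : Nat.card (primaryPart p M) • (⟨z, ⟨b, hz⟩⟩ : primaryPart p M) = 0 :=
    card_nsmul_eq_zero'
  rw [hcard] at h1
  exact congrArg Subtype.val h1

variable {L L' : IntermediateField ℚ Qb} [FiniteDimensional ℚ L] [IsGalois ℚ L]
  [FiniteDimensional ℚ L'] [IsGalois ℚ L'] (S T : Finset Nat.Primes) (h₁ : L ≤ L')
  (V : Subgroup (L ≃ₐ[ℚ] L)) (p : ℕ) [hp : Fact p.Prime] (k : ℕ) (h : cycLayer p k ≤ L')

/-- **(FC-onto-p)** at level `L` (helper97's (on) shape for every exponent `b`): a `p^b`-torsion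
class of `H²(V, C(L,T))` becomes, at the stage `L' ⊇ L ⊔ M_k`, the image of a `p^b`-torsion class
of `H²(V', J(L',S))`. -/
theorem fc_onto (hg : GoodT L' T p) (hp2 : p ≠ 2) (hpS : pp p ∈ S) (hpT : pp p ∈ T) (ζ : L)
    (hζ : IsPrimitiveRoot ζ p) (hVζ : ∀ v ∈ V, v ζ = ζ)
    (hbot : (gRes h₁).ker ⊓ (gRes h).ker = ⊥)
    (hk : p ^ (Nat.card V).factorization p ∣
      Nat.card ((upV h₁ V).map ((chiG p k).comp (gRes h))))
    (hM4 : ∀ x : (ZMod (p ^ (k + 1)))ˣ, x ^ (p ^ (Nat.card V).factorization p) = 1 →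
      ∃ (u : (locField ((pp p : Nat.Primes) : ℕ) L')ˣ)
        (hu : ∀ d ∈ decSub L' (pp p) (upV h₁ V) 1,
          Units.map ((d : LocGal L' (pp p)) :
            locField ((pp p : Nat.Primes) : ℕ) L' →* locField ((pp p : Nat.Primes) : ℕ) L') u = u),
        Theta p k L' T hpT (upV h₁ V) (singleIdele L' T (upV h₁ V) ⟨pp p, hpT⟩ 1 u hu) = x)
    (z : groupCohomology (Rep.res V.subtype (C L T)) 2) (b : ℕ) (hz : p ^ b • z = 0) :
    ∃ ξ : groupCohomology (Rep.res (upV h₁ V).subtype (J L' S)) 2, p ^ b • ξ = 0 ∧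
      (stageTrans h₁ T V 2).hom z = (piCCoh L' S T (upV h₁ V) 2).hom ξ := by
  obtain ⟨c1, -, -, c4⟩ := fc_level T h₁ V p k h hg hp2 hpT ζ hζ hVζ hbot hk
  have hζ' : IsPrimitiveRoot (gIncl h₁ ζ) p :=
    hζ.map_of_injective (gIncl h₁).toRingHom.injective
  have hV'ζ := DegGrow.upV_fixes h₁ V ζ hVζ
  by_cases hb : b ≤ (Nat.card V).factorization p
  · refine Exists.elim (c4 z b hz) fun y hy => ?_
    refine Exists.elim (exists_Jclass p k S T hg hp2 hpS hpT (gIncl h₁ ζ) hζ' h (upV h₁ V) hV'ζ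
      hM4 y b hb hy.1) fun ξ hξ => ?_
    exact ⟨ξ, hξ.1, hy.2.trans hξ.2.symm⟩
  · have hz' : p ^ (Nat.card V).factorization p • z = 0 :=
      nsmul_eq_zero_of_card_primaryPart p _ hp.out c1 z b hz
    refine Exists.elim (c4 z _ hz') fun y hy => ?_
    refine Exists.elim (exists_Jclass p k S T hg hp2 hpS hpT (gIncl h₁ ζ) hζ' h (upV h₁ V) hV'ζ
      hM4 y _ le_rfl hy.1) fun ξ hξ => ?_
    refine ⟨ξ, ?_, hy.2.trans hξ.2.symm⟩
    obtain ⟨c, hc⟩ := Nat.exists_eq_add_of_le (le_of_not_ge hb)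
    have h2 : p ^ b = p ^ c * p ^ (Nat.card V).factorization p := by
      rw [hc, pow_add, mul_comm]
    rw [h2, mul_smul, hξ.1, smul_zero]

/-- **(FC-onto-p)**, `b = 1` (helper97's (on) verbatim). -/
theorem fc_onto_one (hg : GoodT L' T p) (hp2 : p ≠ 2) (hpS : pp p ∈ S) (hpT : pp p ∈ T) (ζ : L)
    (hζ : IsPrimitiveRoot ζ p) (hVζ : ∀ v ∈ V, v ζ = ζ)
    (hbot : (gRes h₁).ker ⊓ (gRes h).ker = ⊥)
    (hk : p ^ (Nat.card V).factorization p ∣
      Nat.card ((upV h₁ V).map ((chiG p k).comp (gRes h))))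
    (hM4 : ∀ x : (ZMod (p ^ (k + 1)))ˣ, x ^ (p ^ (Nat.card V).factorization p) = 1 →
      ∃ (u : (locField ((pp p : Nat.Primes) : ℕ) L')ˣ)
        (hu : ∀ d ∈ decSub L' (pp p) (upV h₁ V) 1,
          Units.map ((d : LocGal L' (pp p)) :
            locField ((pp p : Nat.Primes) : ℕ) L' →* locField ((pp p : Nat.Primes) : ℕ) L') u = u),
        Theta p k L' T hpT (upV h₁ V) (singleIdele L' T (upV h₁ V) ⟨pp p, hpT⟩ 1 u hu) = x) :
    ∀ z : groupCohomology (Rep.res V.subtype (C L T)) 2, p • z = 0 →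
      ∃ ξ : groupCohomology (Rep.res (upV h₁ V).subtype (J L' S)) 2, p • ξ = 0 ∧
        (stageTrans h₁ T V 2).hom z = (piCCoh L' S T (upV h₁ V) 2).hom ξ := by
  intro z hz
  have hz1 : p ^ 1 • z = 0 := by rw [pow_one]; exact hz
  refine Exists.elim (fc_onto S T h₁ V p k h hg hp2 hpS hpT ζ hζ hVζ hbot hk hM4 z 1 hz1)
    fun ξ hξ => ?_
  refine ⟨ξ, ?_, hξ.2⟩
  have := hξ.1
  rwa [pow_one] at this

/-- **(FC-onto-p)** with (M4) discharged (helper67 `exists_Theta_singleIdele_eq_of_large`): there is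
`k₀` (depending only on `(L, V)`) such that for every `k ≥ k₀` and every stage `L' ⊇ L ⊔ M_k` with
a good `T`, every `p^b`-torsion class of `H²(V, C(L,T))` becomes the image of a `p^b`-torsion
class of `H²(V', J(L',S))`. -/
theorem exists_fc_onto {L : IntermediateField ℚ Qb} [FiniteDimensional ℚ L] [IsGalois ℚ L]
    (p : ℕ) [hp : Fact p.Prime] (hp2 : p ≠ 2) (V : Subgroup (L ≃ₐ[ℚ] L)) :
    ∃ k₀ : ℕ, ∀ k : ℕ, k₀ ≤ k → ∀ (L' : IntermediateField ℚ Qb) [FiniteDimensional ℚ L']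
      [IsGalois ℚ L'] (h₁ : L ≤ L') (h : cycLayer p k ≤ L') (S T : Finset Nat.Primes)
      (_ : GoodT L' T p) (_ : pp p ∈ S) (_ : pp p ∈ T) (ζ : L)
      (_ : IsPrimitiveRoot ζ p) (_ : ∀ v ∈ V, v ζ = ζ)
      (_ : (gRes h₁).ker ⊓ (gRes h).ker = ⊥)
      (_ : p ^ (Nat.card V).factorization p ∣
        Nat.card ((upV h₁ V).map ((chiG p k).comp (gRes h))))
      (z : groupCohomology (Rep.res V.subtype (C L T)) 2) (b : ℕ), p ^ b • z = 0 →
      ∃ ξ : groupCohomology (Rep.res (upV h₁ V).subtype (J L' S)) 2, p ^ b • ξ = 0 ∧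
        (stageTrans h₁ T V 2).hom z = (piCCoh L' S T (upV h₁ V) 2).hom ξ := by
  obtain ⟨k₀, hk₀⟩ := exists_Theta_singleIdele_eq_of_large p hp2 V
    ((Nat.card V).factorization p)
  refine ⟨k₀, ?_⟩
  intro k hk L' _ _ h₁ h S T hg hpS hpT ζ hζ hVζ hbot hkd z b hz
  exact fc_onto S T h₁ V p k h hg hp2 hpS hpT ζ hζ hVζ hbot hkd
    (fun x hx => hk₀ k hk L' h₁ h T hpT x hx) z b hz

end Onto

end Fermat.Agent.GC.Global.WRec.FinLevel

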