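/-
GATE-C / C4 (NC)_ℚ GLOBAL PLUMBING, interface (helper83).

The FINITE-LEVEL form `NCFin p` of "(NC)_ℚ: no global class is supported at one place".

For a layer `L` (finite Galois over `ℚ`), a finite set of primes `T` and a prime `q`:
* `locEmbU L q : Res_{decHom} Lˣ ⟶ L_qˣ` : the localisation of units `x ↦ ι_q x` (compatible pair for
  the decomposition homomorphism `decHom q L : Gal(L_q/ℚ_q) →* Gal(L/ℚ)`);
* `locE L T q : Res_{decHom} E(L,T) ⟶ L_qˣ` : its restriction to the `T`-units;
* `locClass L T q : H²(Gal(L/ℚ), E(L,T)) → H²(Gal(L_q/ℚ_q), L_qˣ)` : the local component at `q` of a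
  global class of `T`-units (ONE Mathlib `groupCohomology.map`);
* `NCFin p` : for every layer `L ⊇ M_k = ℚ(ζ_{p^(k+1)})`, every good `T`, every `q₀ ∈ T` with
  `p ∣ [(M_k)_{q₀} : ℚ_{q₀}]` and every `p`-torsion class `x ∈ H²(Gal(L/ℚ), E(L,T))` whose local
  components vanish at all `q ∈ T`, `q ≠ q₀`: the local component at `q₀` vanishes.

`NCQReduce.lean` (helper83) proves `(NC)_ℚ` (the `hNC` binder of `C0.PTSha_of_arith`) from `NCFin p`;
`NCFin p` itself = helper52 `NCDescent` (descent from `L` to `M_k`) + helper55 `(ii)_fin` + helper3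
`NCFinLoc` (explicit reciprocity law at the level `M_k`), assembled in `NCFinProof.lean`.
-/
import Mathlib
import Fermat.Agent.GC.Global.Adapter.GoodT
import Fermat.Agent.GC.Global.Adapter.InvJ
import Fermat.Agent.GC.Global.Funct.ModelFunct
import Fermat.Agent.GC.Global.WRec.CycloTower

set_option autoImplicit false
set_option linter.unusedSectionVars false

open scoped Padic
open CategoryTheory

noncomputable section

namespace Fermat.Agent.GC.Global.WRec.NCQ

open Fermat.Agent.GC.Global Fermat.Agent.GC.Global.Adapter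

variable (L : IntermediateField ℚ Qb) [FiniteDimensional ℚ L] [IsGalois ℚ L]
  (T : Finset Nat.Primes) (q : Nat.Primes)

/-- The localisation of units `Lˣ → L_qˣ`, `x ↦ ι_q x`, as a compatible pair for `decHom q L`. -/
def locEmbU : Rep.res (decHom (q : ℕ) L) (globUnits L) ⟶ locUnits (q : ℕ) L :=
  Rep.ofHom
    ⟨(MonoidHom.toAdditive (Units.map ((locEmb (q : ℕ) L : L →ₐ[ℚ] locField (q : ℕ) L) :
        L →* locField (q : ℕ) L))).toIntLinearMap,
      fun d => by
        refine LinearMap.ext fun x => ?_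
        apply Additive.toMul.injective
        apply Units.ext
        exact locEmb_decHom (q : ℕ) L d ((Additive.toMul x : Lˣ) : L)⟩

theorem coe_locEmbU (x : Additive Lˣ) :
    ((Additive.toMul ((locEmbU L q).hom x) : (locField (q : ℕ) L)ˣ) : locField (q : ℕ) L)
      = locEmb (q : ℕ) L ((Additive.toMul x : Lˣ) : L) := rfl

/-- The inclusion of the `T`-units in `Lˣ`. -/
def EtoUnits : E L T ⟶ globUnits L :=
  Rep.subtype (globUnits L) (tUnitsSub L T) (tUnitsSub_le_comap L T)

/-- The localisation of `T`-units `E(L,T) → L_qˣ`, as a compatible pair for `decHom q L`. -/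
def locE : Rep.res (decHom (q : ℕ) L) (E L T) ⟶ locUnits (q : ℕ) L :=
  (Rep.resFunctor (decHom (q : ℕ) L)).map (EtoUnits L T) ≫ locEmbU L q

/-- **The local component at `q`** of a global class of `T`-units. -/
def locClass : groupCohomology (E L T) 2 ⟶ groupCohomology (locUnits (q : ℕ) L) 2 :=
  groupCohomology.map (decHom (q : ℕ) L) (locE L T q) 2

/-- **(NC-fin)**: the finite-level form of "(NC)_ℚ: no global class is supported at one place".
A `p`-torsion class of `T`-units of a layer `L ⊇ M_k = ℚ(ζ_{p^(k+1)})` (`T` good,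
`p ∣ [(M_k)_{q₀} : ℚ_{q₀}]`) which is locally trivial at every `q ∈ T`, `q ≠ q₀`, is locally trivial
at `q₀`. -/
def NCFin (p : ℕ) [Fact p.Prime] : Prop :=
  ∀ (L : IntermediateField ℚ Qb) [FiniteDimensional ℚ L] [IsGalois ℚ L] (T : Finset Nat.Primes)
    (_ : GoodT L T p) (k : ℕ) (_ : cycLayer p k ≤ L) (q₀ : T)
    (_ : p ∣ Module.finrank ℚ_[((q₀ : Nat.Primes) : ℕ)]
      (locField ((q₀ : Nat.Primes) : ℕ) (cycLayer p k)))
    (x : groupCohomology (E L T) 2), p • x = 0 →
    (∀ q : T, q ≠ q₀ → locClass L T (q : Nat.Primes) x = 0) →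
    locClass L T (q₀ : Nat.Primes) x = 0

end Fermat.Agent.GC.Global.WRec.NCQ
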