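/-
GATE-C / C4 (NC)_ℚ GLOBAL PLUMBING (S1), local dictionary (helper83).

`μ_p(L)` for a layer `L` and the LOCAL DICTIONARY between the finite-level local component of a
`μ_p(L)`-valued class and the localisation `Hlc²(G_ℚ, k(χ)) → Hlc²(G_{ℚ_q}, k(χ))` of C5:

* `muL p L := (Lˣ)[p] : Rep ℤ Gal(L/ℚ)`, `muToE : μ_p(L) ⟶ E(L,T)`, `locMu : Res_{decHom} μ_p(L) ⟶ L_qˣ`;
* `decHom_resN` : `decHom q L (τ|_{L_q}) = (r_q τ)|_L` (`r_q = localGaloisToGlobal q`);
* `inflBr_locMu_eq` : for a level-constant 2-cocycle `c` of `(G_ℚ, k(χ))` and a finite-level cocycle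
  `z` of `(Gal(L/ℚ), μ_p(L))` with `z (g|_L) = ζ ^ c(g)`:
  `inflBr (loc_q [z]) = (μ_p ↪ Ω_qˣ)_* (k(χ) ≃ μ_p)_* (Res_{r_q} [c])` in `Hlc²(G_{ℚ_q}, Ω_qˣ)`
  (the two level-constant cocycles are EQUAL functions).
-/
import Mathlib
import Fermat.Agent.GC.Global.WRec.NCFinDef
import Fermat.Agent.GC.Places.ChiMuLoc
import Fermat.Agent.GC.Local.Abs.BrauerInj
import Fermat.Agent.GC.Local.Abs.Kummer
import Fermat.Agent.GC.Prof.FiniteLevelC
import Fermat.Agent.GC.PT.LocDataQ
import Fermat.Agent.GC.Global.Adapter.UnramVanish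

set_option autoImplicit false
set_option linter.unusedSectionVars false

open scoped Padic
open CategoryTheory

noncomputable section

namespace Fermat.Agent.GC.Global.WRec.NCQ

open Fermat.Agent.GC.Global Fermat.Agent.GC.Global.Adapter Fermat.Agent.GC.Prof
  Fermat.Agent.GC.Local.Abs Fermat.Agent.GC.Local.KR ExtCitation

local notation "GQ" => (AlgebraicClosure ℚ ≃ₐ[ℚ] AlgebraicClosure ℚ)

variable (p : ℕ) [Fact p.Prime]
variable (L : IntermediateField ℚ Qb) [FiniteDimensional ℚ L] [IsGalois ℚ L]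
  (T : Finset Nat.Primes) (q : Nat.Primes)

/-- `μ_p(L)`, the `p`-torsion of `Lˣ`, as a `Gal(L/ℚ)`-module. -/
abbrev muL : Rep ℤ (L ≃ₐ[ℚ] L) := torsRep (globUnits L) (p : ℤ)

/-- `μ_p(L) ⟶ Lˣ`. -/
abbrev muLι : muL p L ⟶ globUnits L := torsι (globUnits L) (p : ℤ)

/-- The restriction `G_ℚ → Gal(L/ℚ)`. -/
abbrev resL : GQ →* (L ≃ₐ[ℚ] L) := AlgEquiv.restrictNormalHom L

theorem coe_resL (g : GQ) (x : L) : ((resL L g x : L) : Qb) = g (x : Qb) :=
  AlgEquiv.restrictNormal_commutes g L x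

/-- **`decHom q L (τ|_{L_q}) = (r_q τ)|_L`.** -/
theorem decHom_resN (τ : Gq (q : ℕ)) :
    decHom (q : ℕ) L (resN ℚ_[(q : ℕ)] (locField (q : ℕ) L) (PadicAlgCl (q : ℕ)) τ)
      = resL L (localGaloisToGlobal (q : ℕ) τ) := by
  refine AlgEquiv.ext fun x => ?_
  apply locEmb_injective (q : ℕ) L
  rw [locEmb_decHom]
  apply Subtype.ext
  have h1 := resN_commutes ℚ_[(q : ℕ)] (locField (q : ℕ) L) (PadicAlgCl (q : ℕ)) τ
    (locEmb (q : ℕ) L x)
  have h2 : (((resN ℚ_[(q : ℕ)] (locField (q : ℕ) L) (PadicAlgCl (q : ℕ)) τ)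
      (locEmb (q : ℕ) L x) : locField (q : ℕ) L) : PadicAlgCl (q : ℕ))
      = τ ((locEmb (q : ℕ) L x : locField (q : ℕ) L) : PadicAlgCl (q : ℕ)) := h1
  rw [h2, coe_locEmb, coe_locEmb, apply_padicEmbedding, coe_resL]

/-- The localisation `μ_p(L) → L_qˣ`, as a compatible pair for `decHom q L`. -/
def locMu : Rep.res (decHom (q : ℕ) L) (muL p L) ⟶ locUnits (q : ℕ) L :=
  (Rep.resFunctor (decHom (q : ℕ) L)).map (muLι p L) ≫ locEmbU L q

theorem coe_locMu (x : muL p L) :
    ((Additive.toMul ((locMu p L q).hom x) : (locField (q : ℕ) L)ˣ) : locField (q : ℕ) L)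
      = locEmb (q : ℕ) L ((Additive.toMul ((muLι p L).hom x) : Lˣ) : L) := rfl

section MuToE

open Elt

/-- roots of unity are `T`-units. -/
theorem muLι_mem_tUnitsSub (x : muL p L) :
    ((muLι p L).hom x : Additive Lˣ) ∈ tUnitsSub L T := by
  have hp : 0 < p := (Fact.out : p.Prime).pos
  set u : Additive Lˣ := (muLι p L).hom x with hu
  have h1 : (p : ℤ) • u = 0 := smul_torsι (globUnits L) (p : ℤ) x
  have h2 : (Additive.toMul u : Lˣ) ^ p = 1 := by
    have h := congrArg (Additive.toMul (α := Lˣ)) h1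
    rw [toMul_zsmul, zpow_natCast] at h
    exact h
  have hint : ∀ w : Lˣ, w ^ p = 1 → IsTIntegral L T (w : L) := by
    intro w hw
    refine ⟨0, ?_⟩
    rw [pow_zero, one_mul]
    apply IsIntegral.of_pow hp
    have : (w : L) ^ p = 1 := by
      rw [← Units.val_pow_eq_pow_val, hw, Units.val_one]
    rw [this]
    exact isIntegral_one
  refine (mem_tUnitsSub L T).2 ((mem_tUnits L T).2 ⟨hint _ h2, hint _ ?_⟩)
  rw [inv_pow, h2, inv_one]

/-- `μ_p(L) ⟶ E(L,T)`, as an intertwining map. -/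
def muToEHom : (muL p L).ρ.IntertwiningMap (E L T).ρ :=
  { toLinearMap :=
      { toFun := fun x => (⟨(muLι p L).hom x, muLι_mem_tUnitsSub p L T x⟩ : E L T)
        map_add' := fun a b => by
          apply Subtype.ext
          show (muLι p L).hom (a + b) = (muLι p L).hom a + (muLι p L).hom b
          rw [map_add]
        map_smul' := fun c a => by
          apply Subtype.ext
          show (muLι p L).hom (c • a) = c • (muLι p L).hom a
          rw [map_smul] }
    isIntertwining' := fun g => by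
      refine LinearMap.ext fun x => ?_
      apply Subtype.ext
      exact congrArg (fun f => f x) ((muLι p L).hom.isIntertwining' g) }

/-- `μ_p(L) ⟶ E(L,T)`. -/
def muToE : muL p L ⟶ E L T :=
  ConcreteCategory.ofHom (C := Rep ℤ (L ≃ₐ[ℚ] L)) (muToEHom p L T)

theorem coe_muToE (x : muL p L) :
    (EtoUnits L T).hom ((muToE p L T).hom x) = (muLι p L).hom x := rfl

/-- the local component of a class of `T`-units coming from `μ_p(L)`. -/
theorem locClass_muToE (x : groupCohomology (muL p L) 2) :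
    locClass L T q (groupCohomology.map (MonoidHom.id (L ≃ₐ[ℚ] L)) (muToE p L T) 2 x)
      = groupCohomology.map (decHom (q : ℕ) L) (locMu p L q) 2 x := by
  obtain ⟨z, rfl⟩ := hMk_surjective (groupCohomology.inhomogeneousCochains (muL p L)) 2 x
  have h1 : groupCohomology.map (MonoidHom.id (L ≃ₐ[ℚ] L)) (muToE p L T) 2
      (hMk (groupCohomology.inhomogeneousCochains (muL p L)) 2 z)
      = hMk (groupCohomology.inhomogeneousCochains (E L T)) 2
          (zMap (groupCohomology.cochainsMap (MonoidHom.id (L ≃ₐ[ℚ] L)) (muToE p L T)) 2 z) :=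
    homologyMap_hMk _ 2 z
  have h2 : locClass L T q (hMk (groupCohomology.inhomogeneousCochains (E L T)) 2
      (zMap (groupCohomology.cochainsMap (MonoidHom.id (L ≃ₐ[ℚ] L)) (muToE p L T)) 2 z))
      = hMk (groupCohomology.inhomogeneousCochains (locUnits (q : ℕ) L)) 2
          (zMap (groupCohomology.cochainsMap (decHom (q : ℕ) L) (locE L T q)) 2
            (zMap (groupCohomology.cochainsMap (MonoidHom.id (L ≃ₐ[ℚ] L)) (muToE p L T)) 2 z)) :=
    homologyMap_hMk _ 2 _
  have h3 : groupCohomology.map (decHom (q : ℕ) L) (locMu p L q) 2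
      (hMk (groupCohomology.inhomogeneousCochains (muL p L)) 2 z)
      = hMk (groupCohomology.inhomogeneousCochains (locUnits (q : ℕ) L)) 2
          (zMap (groupCohomology.cochainsMap (decHom (q : ℕ) L) (locMu p L q)) 2 z) :=
    homologyMap_hMk _ 2 z
  rw [h1, h2, h3]
  congr 1

/-- `p` kills `H²(Gal(L/ℚ), μ_p(L))`. -/
theorem smul_groupCohomology_muL_eq_zero (x : groupCohomology (muL p L) 2) : p • x = 0 := by
  obtain ⟨z, rfl⟩ := hMk_surjective (groupCohomology.inhomogeneousCochains (muL p L)) 2 x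
  have h0 : p • hMk (groupCohomology.inhomogeneousCochains (muL p L)) 2 z
      = hMk (groupCohomology.inhomogeneousCochains (muL p L)) 2 (p • z) := (map_nsmul _ _ _).symm
  refine h0.trans ?_
  have : p • z = 0 := by
    apply Subtype.ext
    funext g
    show p • ((z : (Fin 2 → (L ≃ₐ[ℚ] L)) → muL p L) g) = 0
    apply torsι_injective (globUnits L) (p : ℤ)
    rw [map_nsmul, map_zero]
    have := smul_torsι (globUnits L) (p : ℤ) ((z : (Fin 2 → (L ≃ₐ[ℚ] L)) → muL p L) g)
    exact_mod_cast this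
  rw [this]
  exact map_zero _

end MuToE

section Compat

open Elt Fermat.Agent.GC.Places Fermat.Agent.GC.C0

variable (S : Finset Nat.Primes) [IsDiscrete (levelS S) (chiRep (cycloChar p))]
  [IsDiscrete (levelQ (q : ℕ)) (Rep.res (localGaloisToGlobal (q : ℕ)) (chiRep (cycloChar p)))]

/-- **LOCAL DICTIONARY.** `c` a level-constant 2-cocycle of `(G_ℚ, k(χ))`, `z` a 2-cocycle of
`(Gal(L/ℚ), μ_p(L))` with `z (g|_L) = ζ ^ c(g)` (`ζ = zetaQb p ∈ L`). Then the inflation to
`Hlc²(G_{ℚ_q}, Ω_qˣ)` of the local component at `q` of `[z]` is the image of `Res_{r_q} [c]` under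
`k(χ) ≃ μ_p ↪ Ω_qˣ`. -/
theorem inflBr_locMu_eq
    (c : lcSub (levelS S) (chiRep (cycloChar p)) 2)
    (hc : lcD (levelS S) (chiRep (cycloChar p)) 2 c = 0)
    (z : zSub (groupCohomology.inhomogeneousCochains (muL p L)) 2)
    (hz : ∀ g : Fin 2 → GQ,
      (((Additive.toMul ((muLι p L).hom
        ((z : (Fin 2 → (L ≃ₐ[ℚ] L)) → muL p L) fun i => resL L (g i))) : Lˣ) : L) : Qb)
        = ((Places.zetaQb p : Qbˣ) : Qb) ^
          (((c : (Fin 2 → GQ) → chiRep (cycloChar p)) g : ZMod p)).val) :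
    inflBr ℚ_[(q : ℕ)] (locField (q : ℕ) L) (PadicAlgCl (q : ℕ)) 2
        (groupCohomology.map (decHom (q : ℕ) L) (locMu p L q) 2
          (hMk (groupCohomology.inhomogeneousCochains (muL p L)) 2 z))
      = HlcMap (levelQ (q : ℕ)) (muι ℚ_[(q : ℕ)] (PadicAlgCl (q : ℕ)) p) 2
          (HlcChiMuQ p (q : ℕ) 2
            (HlcRes (isContHom_localGaloisToGlobal S (q : ℕ)) (chiRep (cycloChar p)) 2
              (HlcMk (levelS S) (chiRep (cycloChar p)) c hc))) := by
  -- the left-hand side as the class of an explicit level-constant cocycle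
  have hL : inflBr ℚ_[(q : ℕ)] (locField (q : ℕ) L) (PadicAlgCl (q : ℕ)) 2
      (groupCohomology.map (decHom (q : ℕ) L) (locMu p L q) 2
        (hMk (groupCohomology.inhomogeneousCochains (muL p L)) 2 z))
      = hMk (lcCochains (levelQ (q : ℕ)) (unitsRep ℚ_[(q : ℕ)] (PadicAlgCl (q : ℕ)))) 2
          (zMap (inflBrChain ℚ_[(q : ℕ)] (locField (q : ℕ) L) (PadicAlgCl (q : ℕ))) 2
            (zMap (groupCohomology.cochainsMap (decHom (q : ℕ) L) (locMu p L q)) 2 z)) := by
    have h1 : groupCohomology.map (decHom (q : ℕ) L) (locMu p L q) 2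
        (hMk (groupCohomology.inhomogeneousCochains (muL p L)) 2 z)
        = hMk (groupCohomology.inhomogeneousCochains (locUnits (q : ℕ) L)) 2
            (zMap (groupCohomology.cochainsMap (decHom (q : ℕ) L) (locMu p L q)) 2 z) :=
      homologyMap_hMk _ 2 z
    rw [h1]
    exact homologyMap_hMk (inflBrChain ℚ_[(q : ℕ)] (locField (q : ℕ) L) (PadicAlgCl (q : ℕ))) 2 _
  rw [hL, HlcRes_mk]
  have := isDiscrete_chiRep_chiQ p (q : ℕ)
  have hR : HlcChiMuQ p (q : ℕ) 2
      (HlcMk (levelQ (q : ℕ)) (Rep.res (localGaloisToGlobal (q : ℕ)) (chiRep (cycloChar p)))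
        (lcPullLin (isContHom_localGaloisToGlobal S (q : ℕ))
          (𝟙 (Rep.res (localGaloisToGlobal (q : ℕ)) (chiRep (cycloChar p)))) 2 c)
        (lcD_lcPullLin (isContHom_localGaloisToGlobal S (q : ℕ)) _ c hc))
      = HlcMk (levelQ (q : ℕ)) (muRep ℚ_[(q : ℕ)] (PadicAlgCl (q : ℕ)) p)
          (lcAddMap (levelQ (q : ℕ)) (chiMuQ p (q : ℕ)).toAddMonoidHom 2
            (lcPullLin (isContHom_localGaloisToGlobal S (q : ℕ))
              (𝟙 (Rep.res (localGaloisToGlobal (q : ℕ)) (chiRep (cycloChar p)))) 2 c))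
          (lcD_lcAddMap_eq_zero (levelQ (q : ℕ)) (chiMuQ p (q : ℕ)).toAddMonoidHom
            (chiMuQ_equivariant p (q : ℕ)) _
            (lcD_lcPullLin (isContHom_localGaloisToGlobal S (q : ℕ)) _ c hc)) :=
    HlcAddEquiv_mk (levelQ (q : ℕ)) (chiMuQ p (q : ℕ)) (chiMuQ_equivariant p (q : ℕ)) _ _
  rw [hR, HlcMap_mk, ← hMk_lcCochains_eq_HlcMk]
  congr 1
  apply Subtype.ext
  apply Subtype.ext
  funext τ
  show (unitsIncl ℚ_[(q : ℕ)] (locField (q : ℕ) L) (PadicAlgCl (q : ℕ))).hom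
      ((locMu p L q).hom ((z : (Fin 2 → (L ≃ₐ[ℚ] L)) → muL p L) fun i =>
        decHom (q : ℕ) L (resN ℚ_[(q : ℕ)] (locField (q : ℕ) L) (PadicAlgCl (q : ℕ)) (τ i))))
    = (muι ℚ_[(q : ℕ)] (PadicAlgCl (q : ℕ)) p).hom
        (chiMuQ p (q : ℕ) ((c : (Fin 2 → GQ) → chiRep (cycloChar p))
          (localGaloisToGlobal (q : ℕ) ∘ τ)))
  have harg : (fun i => decHom (q : ℕ) L
      (resN ℚ_[(q : ℕ)] (locField (q : ℕ) L) (PadicAlgCl (q : ℕ)) (τ i)))
      = fun i => resL L ((localGaloisToGlobal (q : ℕ) ∘ τ) i) := by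
    funext i
    exact decHom_resN L q (τ i)
  rw [harg]
  have hR2 : (muι ℚ_[(q : ℕ)] (PadicAlgCl (q : ℕ)) p).hom
      (chiMuQ p (q : ℕ) ((c : (Fin 2 → GQ) → chiRep (cycloChar p))
        (localGaloisToGlobal (q : ℕ) ∘ τ)))
      = ofU ℚ_[(q : ℕ)] (PadicAlgCl (q : ℕ)) (Places.zetaLoc p (q : ℕ) ^
          (((c : (Fin 2 → GQ) → chiRep (cycloChar p))
            (localGaloisToGlobal (q : ℕ) ∘ τ) : ZMod p)).val) :=
    muι_chiMuEquiv ℚ_[(q : ℕ)] (isPrimitiveRoot_zetaLoc p (q : ℕ)) (chiQ p (q : ℕ)) _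
  rw [hR2]
  apply Additive.toMul.injective
  apply Units.ext
  have h3 := hz (localGaloisToGlobal (q : ℕ) ∘ τ)
  show ((locEmb (q : ℕ) L ((Additive.toMul ((muLι p L).hom
      ((z : (Fin 2 → (L ≃ₐ[ℚ] L)) → muL p L) fun i =>
        resL L ((localGaloisToGlobal (q : ℕ) ∘ τ) i))) : Lˣ) : L) : locField (q : ℕ) L) :
        PadicAlgCl (q : ℕ))
    = ((Places.zetaLoc p (q : ℕ) ^ (((c : (Fin 2 → GQ) → chiRep (cycloChar p))
            (localGaloisToGlobal (q : ℕ) ∘ τ) : ZMod p)).val : (PadicAlgCl (q : ℕ))ˣ) :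
        PadicAlgCl (q : ℕ))
  rw [coe_locEmb, h3, map_pow, Units.val_pow_eq_pow_val, Places.coe_zetaLoc]

end Compat

section Unram

open Elt Fermat.Agent.GC.Local.Unram Fermat.Agent.GC.Global.LMU

/-- the localisation of a `p`-th root of unity is an integral unit of `L_q`. -/
theorem locMu_mem_intUnitsSub (x : muL p L) :
    ((locMu p L q).hom x : Additive (locField (q : ℕ) L)ˣ) ∈ intUnitsSub (locO L q) := by
  have hp : p ≠ 0 := (Fact.out : p.Prime).ne_zero
  set u : Additive Lˣ := (muLι p L).hom x with hu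
  -- the `p`-th power of the value is `1`
  have h1 : (p : ℤ) • u = 0 := smul_torsι (globUnits L) (p : ℤ) x
  have h2 : (Additive.toMul u : Lˣ) ^ p = 1 := by
    have h := congrArg (Additive.toMul (α := Lˣ)) h1
    rw [toMul_zsmul, zpow_natCast] at h
    exact h
  have h3 : ((locEmb (q : ℕ) L ((Additive.toMul u : Lˣ) : L) :
      locField (q : ℕ) L) : PadicAlgCl (q : ℕ)) ^ p = 1 := by
    have h := congrArg (fun w : Lˣ => locEmb (q : ℕ) L (w : L)) h2
    simp only [Units.val_pow_eq_pow_val, Units.val_one, map_pow, map_one] at h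
    have h' := congrArg (fun w : locField (q : ℕ) L => (w : PadicAlgCl (q : ℕ))) h
    simpa using h'
  have h4 : ‖((locEmb (q : ℕ) L ((Additive.toMul u : Lˣ) : L) :
      locField (q : ℕ) L) : PadicAlgCl (q : ℕ))‖ = 1 := by
    have h5 := congrArg norm h3
    rw [norm_pow, norm_one] at h5
    exact (pow_eq_one_iff_of_nonneg (norm_nonneg _) hp).1 h5
  refine (mem_intUnitsSub (locO L q)).2 ((mem_unitGroup_iff_mem (locO L q)).2 ⟨?_, ?_⟩)
  · rw [mem_locO_iff]
    exact h4.le
  · rw [mem_locO_iff, Units.val_inv_eq_inv_val]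
    have e : ((((Additive.toMul ((locMu p L q).hom x : Additive (locField (q : ℕ) L)ˣ) :
        (locField (q : ℕ) L)ˣ) : locField (q : ℕ) L)⁻¹ : locField (q : ℕ) L) :
        PadicAlgCl (q : ℕ))
        = ((locEmb (q : ℕ) L ((Additive.toMul u : Lˣ) : L) :
            locField (q : ℕ) L) : PadicAlgCl (q : ℕ))⁻¹ := rfl
    rw [e, norm_inv, h4, inv_one]

/-- The localisation `μ_p(L) → O_{L_q}ˣ`. -/
def locMuInt : Rep.res (decHom (q : ℕ) L) (muL p L) ⟶ locIntUnits L q :=
  Rep.ofHom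
    ⟨LinearMap.codRestrict (intUnitsSub (locO L q)) (locMu p L q).hom.toLinearMap
        (locMu_mem_intUnitsSub p L q),
      fun d => by
        refine LinearMap.ext fun x => ?_
        apply Subtype.ext
        exact congrArg (fun f => f x) ((locMu p L q).hom.isIntertwining' d)⟩

/-- **Unramified vanishing**: if `L` is unramified at `q`, the local component at `q` of every
class of `H²(Gal(L/ℚ), μ_p(L))` vanishes (roots of unity are local units, and unramified units are
cohomologically trivial). -/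
theorem map_locMu_eq_zero (hun : IsUnramAt L q) (x : groupCohomology (muL p L) 2) :
    groupCohomology.map (decHom (q : ℕ) L) (locMu p L q) 2 x = 0 := by
  obtain ⟨z, rfl⟩ := hMk_surjective (groupCohomology.inhomogeneousCochains (muL p L)) 2 x
  have h1 : groupCohomology.map (decHom (q : ℕ) L) (locMu p L q) 2
      (hMk (groupCohomology.inhomogeneousCochains (muL p L)) 2 z)
      = hMk (groupCohomology.inhomogeneousCochains (locUnits (q : ℕ) L)) 2
          (zMap (groupCohomology.cochainsMap (decHom (q : ℕ) L) (locMu p L q)) 2 z) :=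
    homologyMap_hMk _ 2 z
  have h2 : zMap (groupCohomology.cochainsMap (decHom (q : ℕ) L) (locMu p L q)) 2 z
      = zMap (groupCohomology.cochainsMap
          (MonoidHom.id (locField (q : ℕ) L ≃ₐ[ℚ_[(q : ℕ)]] locField (q : ℕ) L))
          (locIntUnitsIncl L q)) 2
          (zMap (groupCohomology.cochainsMap (decHom (q : ℕ) L) (locMuInt p L q)) 2 z) :=
    Subtype.ext (funext fun _ => rfl)
  have hsub : Subsingleton (groupCohomology (locIntUnits L q) 2) :=
    ModuleCat.subsingleton_of_isZero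
      (isZero_groupCohomology_intUnitsRep (locO L q) (locO_galStable L q) hun 1)
  have h3 : (hMk (groupCohomology.inhomogeneousCochains (locIntUnits L q)) 2
      (zMap (groupCohomology.cochainsMap (decHom (q : ℕ) L) (locMuInt p L q)) 2 z) :
        groupCohomology (locIntUnits L q) 2) = 0 := @Subsingleton.elim _ hsub _ _
  rw [h1, h2, ← homologyMap_hMk, h3]
  exact map_zero _

end Unram

end Fermat.Agent.GC.Global.WRec.NCQ
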