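/-
GATE-C / C4 (NC)_ℚ GLOBAL PLUMBING, brick (S1-z) (helper69).

**A finite-level `μ_p(L)`-valued 2-cocycle from a level-constant `k(χ_cyc)`-valued one.**

`L/ℚ` a finite Galois layer with `ζ := Places.zetaQb p ∈ L`; `c` a level-constant 2-cocycle of
`(G_ℚ, k(χ_cyc))` which is constant modulo `L.fixingSubgroup`.  Then
`z (γ₁, γ₂) := ζ ^ c (lift γ₁, lift γ₂)` is a 2-cocycle of `(Gal(L/ℚ), μ_p(L))`, and
`z (g₁|_L, g₂|_L) = ζ ^ c (g₁, g₂)`: exactly the pair `(z, hz)` consumed by
`NCQ.inflBr_locMu_eq`.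

Generic part: `d_descend` (a cochain of `G` with values in `Res_φ M`, constant modulo `ker φ`,
descends along any set-theoretic section of a surjection `φ : G → H`, compatibly with the
inhomogeneous differentials).
-/
import Mathlib
import Fermat.Agent.GC.Global.WRec.NCQLocal
import Fermat.Agent.GC.Prof.CoeffChange

set_option autoImplicit false
set_option linter.unusedSectionVars false

open scoped Padic
open CategoryTheory

noncomputable section

namespace Fermat.Agent.GC.Global.WRec.NCQCoc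

open Fermat.Agent.GC.Global Fermat.Agent.GC.Prof Fermat.Agent.GC.Local.Abs ExtCitation
  Fermat.Agent.GC.Global.WRec.NCQ groupCohomology Elt Fermat.Agent.GC.C0

universe u

/-! ### Descent of cochains along a surjection with a set-theoretic section -/

section Generic

variable {k G H : Type u} [CommRing k] [Group G] [Group H] (φ : G →* H)

/-- A function constant modulo `ker φ` only depends on the images under `φ`. -/
lemma apply_eq_of_map_eq {X : Type*} {n : ℕ} {x : (Fin n → G) → X}
    (hx : ∀ g s : Fin n → G, (∀ i, s i ∈ φ.ker) → x (g * s) = x g) {g g' : Fin n → G}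
    (h : ∀ i, φ (g i) = φ (g' i)) : x g = x g' := by
  have : g' = g * (g⁻¹ * g') := by simp
  rw [this]
  refine (hx g _ fun i => ?_).symm
  rw [Pi.mul_apply, Pi.inv_apply, MonoidHom.mem_ker, map_mul, map_inv, h i, inv_mul_cancel]

/-- A homomorphism commutes with the contraction of adjacent entries. -/
lemma map_contractNth {n : ℕ} (j : Fin (n + 1)) (g : Fin (n + 1) → G) (i : Fin n) :
    φ (Fin.contractNth j (· * ·) g i) = Fin.contractNth j (· * ·) (fun i => φ (g i)) i := by
  simp only [Fin.contractNth]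
  split_ifs <;> simp

/-- **Descent.** `φ : G → H` with a set-theoretic section `lift`, `M` a representation of `H`,
`x` an `n`-cochain of `G` with values in `Res_φ M`, constant modulo `ker φ`. Then the differential
of the descended cochain `γ ↦ x (lift ∘ γ)` of `H` is the descended differential of `x`. -/
theorem d_descend (M : Rep.{u} k H) (lift : H → G) (hlift : ∀ h, φ (lift h) = h) {n : ℕ}
    (x : (Fin n → G) → M)
    (hx : ∀ g s : Fin n → G, (∀ i, s i ∈ φ.ker) → x (g * s) = x g) (γ : Fin (n + 1) → H) :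
    inhomogeneousCochains.d M n (fun γ' => x (fun i => lift (γ' i))) γ
      = inhomogeneousCochains.d (Rep.res φ M) n x (fun i => lift (γ i)) := by
  simp only [inhomogeneousCochains.d_hom_apply]
  congr 1
  · show M.ρ (γ 0) _ = M.ρ (φ (lift (γ 0))) _
    rw [hlift]
  · refine Finset.sum_congr rfl fun j _ => ?_
    congr 1
    refine apply_eq_of_map_eq φ hx fun i => ?_
    rw [hlift, map_contractNth]
    simp only [hlift]

end Generic

/-! ### The cocycle `ζ ^ c` -/

section Specific

local notation "GQ" => (AlgebraicClosure ℚ ≃ₐ[ℚ] AlgebraicClosure ℚ)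

variable (p : ℕ) [Fact p.Prime]
variable (L : IntermediateField ℚ Qb) [FiniteDimensional ℚ L] [IsGalois ℚ L]

/-- the kernel of `G_ℚ → Gal(L/ℚ)` -/
theorem ker_resL : (resL L).ker = L.fixingSubgroup := by
  have h : Normal ℚ L := inferInstance
  exact @IntermediateField.restrictNormalHom_ker ℚ Qb _ _ _ L h

/-- a set-theoretic section of `G_ℚ → Gal(L/ℚ)` -/
def liftL (γ : L ≃ₐ[ℚ] L) : GQ := (AlgEquiv.restrictNormalHom_surjective Qb γ).choose

theorem resL_liftL (γ : L ≃ₐ[ℚ] L) : resL L (liftL L γ) = γ :=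
  (AlgEquiv.restrictNormalHom_surjective Qb γ).choose_spec

variable (hζ : ((Places.zetaQb p : Qbˣ) : Qb) ∈ L)

/-- `ζ_p` as a unit of `L`. -/
def zetaL : Lˣ :=
  Units.mk0 (⟨((Places.zetaQb p : Qbˣ) : Qb), hζ⟩ : L) (fun h => by
    have := congrArg (fun x : L => (x : Qb)) h
    exact (Places.zetaQb p).ne_zero this)

theorem coe_zetaL : (((zetaL p L hζ : Lˣ) : L) : Qb) = ((Places.zetaQb p : Qbˣ) : Qb) := rfl

theorem zetaL_pow : zetaL p L hζ ^ p = 1 := by
  apply Units.ext
  apply Subtype.ext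
  rw [Units.val_pow_eq_pow_val, Units.val_one]
  show ((((zetaL p L hζ : Lˣ) : L) ^ p : L) : Qb) = ((1 : L) : Qb)
  rw [SubmonoidClass.coe_pow, coe_zetaL, OneMemClass.coe_one, ← Units.val_pow_eq_pow_val,
    (Places.isPrimitiveRoot_zetaQb p).pow_eq_one, Units.val_one]

/-- an element of `μ_p(L)` from a unit `u` with `u ^ p = 1` -/
def muMk (u : Lˣ) (hu : u ^ p = 1) : muL p L :=
  (⟨(Additive.ofMul u : Additive Lˣ), (mem_torsSub_iff (globUnits L) (p : ℤ) _).2 (by
      show (p : ℤ) • (Additive.ofMul u : Additive Lˣ) = 0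
      rw [← ofMul_zpow, zpow_natCast, hu]
      rfl)⟩ : torsSub (globUnits L) (p : ℤ))

theorem toMul_muLι_muMk (u : Lˣ) (hu : u ^ p = 1) :
    (Additive.toMul ((muLι p L).hom (muMk p L u hu)) : Lˣ) = u := rfl

theorem muL_ext {x y : muL p L}
    (h : (Additive.toMul ((muLι p L).hom x) : Lˣ) = Additive.toMul ((muLι p L).hom y)) : x = y :=
  torsι_injective (globUnits L) (p : ℤ) (Additive.toMul.injective h)

theorem zetaL_pow_mod (n : ℕ) : zetaL p L hζ ^ (n % p) = zetaL p L hζ ^ n := by
  conv_rhs => rw [← Nat.div_add_mod n p, pow_add, pow_mul, zetaL_pow, one_pow, one_mul]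

theorem zetaL_pow_pow (n : ℕ) : (zetaL p L hζ ^ n) ^ p = 1 := by
  rw [← pow_mul, mul_comm, pow_mul, zetaL_pow, one_pow]

/-- `a ↦ ζ ^ a`, `ZMod p →+ μ_p(L)`. -/
def expMu : ZMod p →+ muL p L where
  toFun a := muMk p L (zetaL p L hζ ^ a.val) (zetaL_pow_pow p L hζ _)
  map_zero' := by
    apply muL_ext
    show zetaL p L hζ ^ (0 : ZMod p).val = 1
    rw [ZMod.val_zero, pow_zero]
  map_add' a b := by
    apply muL_ext
    show zetaL p L hζ ^ (a + b).val = zetaL p L hζ ^ a.val * zetaL p L hζ ^ b.val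
    rw [ZMod.val_add, zetaL_pow_mod, pow_add]

theorem toMul_muLι_expMu (a : ZMod p) :
    (Additive.toMul ((muLι p L).hom (expMu p L hζ a)) : Lˣ) = zetaL p L hζ ^ a.val := rfl

theorem coe_expMu (a : ZMod p) :
    (((Additive.toMul ((muLι p L).hom (expMu p L hζ a)) : Lˣ) : L) : Qb)
      = ((Places.zetaQb p : Qbˣ) : Qb) ^ a.val := by
  show (((zetaL p L hζ ^ a.val : Lˣ) : L) : Qb) = _
  rw [Units.val_pow_eq_pow_val, SubmonoidClass.coe_pow, coe_zetaL]

/-- `a ↦ ζ ^ a` is equivariant along `G_ℚ → Gal(L/ℚ)`, for the cyclotomic character. -/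
theorem expMu_equivariant (g : GQ) (a : chiRep (cycloChar p)) :
    expMu p L hζ ((chiRep (cycloChar p)).ρ g a)
      = (Rep.res (resL L) (muL p L)).ρ g (expMu p L hζ a) := by
  show expMu p L hζ ((chiRep (cycloChar p)).ρ g a) = (muL p L).ρ (resL L g) (expMu p L hζ a)
  apply muL_ext
  apply Units.ext
  apply Subtype.ext
  have h1 := coe_expMu p L hζ ((chiRep (cycloChar p)).ρ g a)
  have h2 : (((Additive.toMul ((muLι p L).hom
      ((muL p L).ρ (resL L g) (expMu p L hζ a))) : Lˣ) : L) : Qb)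
      = g ((((Additive.toMul ((muLι p L).hom (expMu p L hζ a)) : Lˣ) : L) : Qb)) :=
    coe_resL L g _
  refine h1.trans (Eq.trans ?_ h2.symm)
  rw [coe_expMu, chiRep_ρ_apply, map_pow,
    Places.cycloChar_spec p g (Places.isPrimitiveRoot_zetaQb p).pow_eq_one, ← pow_mul,
    ZMod.val_mul]
  have hz : ((Places.zetaQb p : Qbˣ) : Qb) ^ p = 1 := by
    rw [← Units.val_pow_eq_pow_val, (Places.isPrimitiveRoot_zetaQb p).pow_eq_one, Units.val_one]
  conv_rhs => rw [← Nat.div_add_mod ((cycloChar p g : ZMod p).val * (a : ZMod p).val) p, pow_add,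
    pow_mul, hz, one_pow, one_mul]

include hζ in
/-- **(S1-z)** A level-constant 2-cocycle `c` of `(G_ℚ, k(χ_cyc))`, constant modulo
`L.fixingSubgroup` for a finite Galois layer `L ∋ ζ_p`, gives the 2-cocycle
`z (γ₁, γ₂) = ζ ^ c (lift γ₁, lift γ₂)` of `(Gal(L/ℚ), μ_p(L))`, with
`z (g₁|_L, g₂|_L) = ζ ^ c (g₁, g₂)` (the hypothesis `hz` of `NCQ.inflBr_locMu_eq`). -/
theorem exists_cocycle_muL (S : Finset Nat.Primes)
    [IsDiscrete (levelS S) (chiRep (cycloChar p))]
    (c : lcSub (levelS S) (chiRep (cycloChar p)) 2)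
    (hc : lcD (levelS S) (chiRep (cycloChar p)) 2 c = 0)
    (hcL : ∀ g s : Fin 2 → GQ, (∀ i, s i ∈ L.fixingSubgroup) →
      (c : (Fin 2 → GQ) → chiRep (cycloChar p)) (g * s)
        = (c : (Fin 2 → GQ) → chiRep (cycloChar p)) g) :
    ∃ z : zSub (groupCohomology.inhomogeneousCochains (muL p L)) 2,
      ∀ g : Fin 2 → GQ,
        (((Additive.toMul ((muLι p L).hom
          ((z : (Fin 2 → (L ≃ₐ[ℚ] L)) → muL p L) fun i => resL L (g i))) : Lˣ) : L) : Qb)
          = ((Places.zetaQb p : Qbˣ) : Qb) ^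
            (((c : (Fin 2 → GQ) → chiRep (cycloChar p)) g : ZMod p)).val := by
  -- the `μ_p(L)`-valued cochain of `G_ℚ`
  set x : (Fin 2 → GQ) → muL p L :=
    fun g => expMu p L hζ ((c : (Fin 2 → GQ) → chiRep (cycloChar p)) g) with hxdef
  have hx : ∀ g s : Fin 2 → GQ, (∀ i, s i ∈ (resL L).ker) → x (g * s) = x g := by
    intro g s hs
    show expMu p L hζ _ = expMu p L hζ _
    rw [hcL g s (fun i => by rw [← ker_resL]; exact hs i)]
  have hdx : inhomogeneousCochains.d (Rep.res (resL L) (muL p L)) 2 x = 0 := by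
    have h := d_comp_addHom (A := chiRep (cycloChar p)) (M := Rep.res (resL L) (muL p L))
      (expMu p L hζ) (expMu_equivariant p L hζ) 2 (c : (Fin 2 → GQ) → chiRep (cycloChar p))
    have h0 : inhomogeneousCochains.d (chiRep (cycloChar p)) 2
        (c : (Fin 2 → GQ) → chiRep (cycloChar p)) = 0 := congrArg Subtype.val hc
    refine h.trans ?_
    funext g
    rw [h0]
    exact map_zero _
  refine ⟨⟨fun γ => x (fun i => liftL L (γ i)),
    (mem_zSub_inhomogeneousCochains_iff (muL p L) _).2 ?_⟩, fun g => ?_⟩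
  · funext γ
    rw [d_descend (resL L) (muL p L) (liftL L) (resL_liftL L) x hx γ, hdx]
    rfl
  · have h1 : x (fun i => liftL L (resL L (g i))) = x g :=
      apply_eq_of_map_eq (resL L) hx fun i => resL_liftL L _
    show (((Additive.toMul ((muLι p L).hom
      (x fun i => liftL L (resL L (g i)))) : Lˣ) : L) : Qb) = _
    rw [h1]
    exact coe_expMu p L hζ _

end Specific

end Fermat.Agent.GC.Global.WRec.NCQCoc
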