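/-
GATE-C / C4 (NC)_Q, finite-level DESCENT, part 1 (helper52): the LOCAL COMPONENTS of an idele class
at the full Galois group of a layer.

For a finite Galois layer `L` and `q ∈ T`:
* `evJ L T q : Res_{dec_q} J(L,T) ⟶ L_qˣ`, `y ↦ (y q)(1)`;
* `locJ L T q n : Hⁿ(G_L, J(L,T)) ⟶ Hⁿ(Gal(L_q/ℚ_q), L_qˣ)` (ONE Mathlib `groupCohomology.map`);
* `locJ_pi_bijective` : `x ↦ (locJ q x)_q` is bijective (product decomposition + Shapiro);
* inflation `inflH h T n : Hⁿ(G_M, J(M,T)) ⟶ Hⁿ(G_L, J(L,T))` for `M ≤ L`, local inflation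
  `inflLoc h q n`, and the naturality `inflH ≫ locJ L = locJ M ≫ inflLoc`;
* bridge `inflLoc = Abs.inflFin`, hence `inflLoc_two_injective` (Hilbert 90) and
  `exists_inflLoc_eq_of_dvd_finrank` (local class field theory: a class killed by a divisor of
  `[M_q : ℚ_q]` is inflated from `M_q`).
-/
import Mathlib
import Fermat.Agent.GC.Global.MackeyJ
import Fermat.Agent.GC.Tate.ShapiroHom
import Fermat.Agent.GC.Global.Funct.ClassFunct
import Fermat.Agent.GC.Local.BrauerCycFinal

set_option autoImplicit false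
set_option linter.unusedSectionVars false

open scoped Padic
open CategoryTheory groupCohomology IntermediateField

noncomputable section

namespace Fermat.Agent.GC.Global.WRec.NCLoc

open Fermat.Agent.GC.Global Fermat.Agent.GC.Global.Adapter Fermat.Agent.GC.Global.Funct
  Fermat.Agent.GC.Tate Fermat.Agent.GC.Global.Mackey Fermat.Agent.GC.Local.Abs

section Generic

universe u

variable {k G : Type u} [CommRing k] [Group G] {ι : Type u} [Fintype ι] [DecidableEq ι]
  {X : Rep.{u} k G} {M : ι → Rep.{u} k G} (π : ∀ i, X ⟶ M i) (σ : ∀ i, M i ⟶ X)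
  (hself : ∀ i, σ i ≫ π i = 𝟙 _) (hne : ∀ i j, i ≠ j → σ i ≫ π j = 0)
  (htot : ∑ i, π i ≫ σ i = 𝟙 X)

include hself hne htot in
/-- A finite biproduct decomposition in `Rep k G` gives a product decomposition of cohomology. -/
theorem pi_map_bijective (n : ℕ) :
    Function.Bijective (fun (x : groupCohomology X n) (i : ι) =>
      (map (MonoidHom.id G) (π i) n).hom x) :=
  (additiveDecomp (groupCohomology.functor k G n) π σ hself hne htot).bijective

end Generic

section LocJ

variable (L : IntermediateField ℚ Qb) [FiniteDimensional ℚ L] [IsGalois ℚ L]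
  (T : Finset Nat.Primes)

/-- `y ↦ (y q)(1)`, as a linear map. -/
def evJLin (q : T) : (J L T) →ₗ[ℤ] locUnits ((q : Nat.Primes) : ℕ) L where
  toFun y := (y q).1 1
  map_add' _ _ := rfl
  map_smul' _ _ := rfl

@[simp] lemma evJLin_apply (q : T) (y : J L T) : evJLin L T q y = (y q).1 1 := rfl

/-- Evaluation at `1` of the `q`-component: `Res_{dec_q} J(L,T) ⟶ L_qˣ`. -/
def evJ (q : T) :
    Rep.res (decHom ((q : Nat.Primes) : ℕ) L) (J L T) ⟶ locUnits ((q : Nat.Primes) : ℕ) L :=
  Rep.ofHom ⟨evJLin L T q, fun d => by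
    refine LinearMap.ext fun y => ?_
    show (y q).1 (1 * decHom ((q : Nat.Primes) : ℕ) L d) =
      (locUnits ((q : Nat.Primes) : ℕ) L).ρ d ((y q).1 1)
    rw [← (y q).2 d 1, one_mul, mul_one]⟩

@[simp] lemma evJ_hom_apply (q : T) (y : J L T) : (evJ L T q).hom y = (y q).1 1 := rfl

/-- **The local component at `q`** of an idele cohomology class of the full group `G_L`. -/
def locJ (q : T) (n : ℕ) :
    groupCohomology (J L T) n ⟶ groupCohomology (locUnits ((q : Nat.Primes) : ℕ) L) n :=
  map (decHom ((q : Nat.Primes) : ℕ) L) (evJ L T q) n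

/-- The injection of the `q`-component into the `T`-ideles. -/
def Jinj (q : T) : Rep.of (JqRep L q) ⟶ J L T :=
  Rep.ofHom ⟨LinearMap.single ℤ (fun q : T => JqCarrier L q) q, fun g => by
    refine LinearMap.ext fun x => ?_
    funext j
    by_cases h : j = q
    · subst h
      show (Pi.single j (JqRep L j g x) : ∀ q : T, JqCarrier L q) j =
        JqRep L j g ((Pi.single j x : ∀ q : T, JqCarrier L q) j)
      rw [Pi.single_eq_same, Pi.single_eq_same]
    · show (Pi.single q (JqRep L q g x) : ∀ q : T, JqCarrier L q) j =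
        JqRep L j g ((Pi.single q x : ∀ q : T, JqCarrier L q) j)
      rw [Pi.single_eq_of_ne h, Pi.single_eq_of_ne h, map_zero]⟩

lemma Jinj_hom_apply (q : T) (x : JqCarrier L q) : (Jinj L T q).hom x = Pi.single q x := rfl

lemma Jinj_Jproj_self (q : T) : Jinj L T q ≫ Jproj L T q = 𝟙 _ := by
  refine Rep.hom_ext (Representation.IntertwiningMap.ext (LinearMap.ext fun x => ?_))
  show (Pi.single q x : ∀ q : T, JqCarrier L q) q = x
  rw [Pi.single_eq_same]

lemma Jinj_Jproj_of_ne {q r : T} (h : q ≠ r) : Jinj L T q ≫ Jproj L T r = 0 := by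
  refine Rep.hom_ext (Representation.IntertwiningMap.ext (LinearMap.ext fun x => ?_))
  show (Pi.single q x : ∀ q : T, JqCarrier L q) r = 0
  rw [Pi.single_eq_of_ne (Ne.symm h)]

lemma sum_Jproj_Jinj : ∑ q : T, Jproj L T q ≫ Jinj L T q = 𝟙 (J L T) := by
  refine Rep.hom_ext (Representation.IntertwiningMap.ext (LinearMap.ext fun x => ?_))
  show (∑ q : T, Jproj L T q ≫ Jinj L T q).hom x = x
  rw [Mackey.hom_sum]
  funext j
  show (∑ i : T, (Pi.single i (x i) : ∀ i : T, JqCarrier L i)) j = x j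
  rw [Finset.sum_apply, Finset.sum_eq_single j]
  · rw [Pi.single_eq_same]
  · intro b _ hb
    rw [Pi.single_eq_of_ne (Ne.symm hb)]
  · intro hj
    exact absurd (Finset.mem_univ j) hj


theorem Jproj_pi_bijective (n : ℕ) :
    Function.Bijective (fun (x : groupCohomology (J L T) n) (q : T) =>
      (map (MonoidHom.id (L ≃ₐ[ℚ] L)) (Jproj L T q) n).hom x) :=
  pi_map_bijective (Jproj L T) (Jinj L T)
    (Jinj_Jproj_self L T) (fun _ _ h => Jinj_Jproj_of_ne L T h) (sum_Jproj_Jinj L T) n

/-- evaluation at `1` on the `q`-component. -/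
def evqLin (q : Nat.Primes) : JqCarrier L q →ₗ[ℤ] locUnits (q : ℕ) L where
  toFun f := f.1 1
  map_add' _ _ := rfl
  map_smul' _ _ := rfl

def evq (q : Nat.Primes) : Rep.res (decHom (q : ℕ) L) (Rep.of (JqRep L q)) ⟶ locUnits (q : ℕ) L :=
  Rep.ofHom ⟨evqLin L q, fun d => by
    refine LinearMap.ext fun f => ?_
    show f.1 (1 * decHom (q : ℕ) L d) = (locUnits (q : ℕ) L).ρ d (f.1 1)
    rw [← f.2 d 1, one_mul, mul_one]⟩

theorem map_evq_bijective (q : Nat.Primes) (n : ℕ) :
    Function.Bijective (map (decHom (q : ℕ) L) (evq L q) n) := by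
  have h := shapiroHom_bijective (decHom (q : ℕ) L) (decHom_injective _ L) (locUnits (q : ℕ) L) n
  have e : map (decHom (q : ℕ) L) (evq L q) n =
      shapiroHom (decHom (q : ℕ) L) (locUnits (q : ℕ) L) n := by
    apply groupCohomology.map_congr rfl
    rfl
  rw [e]
  exact h

/-- `locJ` is the projection to the `q`-component followed by the explicit Shapiro map. -/
lemma locJ_hom_apply (q : T) (n : ℕ) (x : groupCohomology (J L T) n) :
    (locJ L T q n).hom x =
      (map (decHom ((q : Nat.Primes) : ℕ) L) (evq L q) n).hom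
        ((map (MonoidHom.id (L ≃ₐ[ℚ] L)) (Jproj L T q) n).hom x) := by
  have h := map_comp (A := J L T) (B := Rep.of (JqRep L q))
    (C := locUnits ((q : Nat.Primes) : ℕ) L) (MonoidHom.id (L ≃ₐ[ℚ] L))
    (decHom ((q : Nat.Primes) : ℕ) L) (Jproj L T q) (evq L q) n
  have h2 : locJ L T q n = map ((MonoidHom.id (L ≃ₐ[ℚ] L)).comp (decHom ((q : Nat.Primes) : ℕ) L))
      ((Rep.resFunctor (decHom ((q : Nat.Primes) : ℕ) L)).map (Jproj L T q) ≫ evq L q) n := by
    apply groupCohomology.map_congr rfl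
    rfl
  rw [h2, h]
  rfl

/-- **Product decomposition + Shapiro**: the family of local components is jointly bijective. -/
theorem locJ_pi_bijective (n : ℕ) :
    Function.Bijective (fun (x : groupCohomology (J L T) n) (q : T) => (locJ L T q n).hom x) := by
  have hb : Function.Bijective (Pi.map fun (q : T) (z : groupCohomology (Rep.of (JqRep L q)) n) =>
      (map (decHom ((q : Nat.Primes) : ℕ) L) (evq L q) n).hom z) :=
    Function.Bijective.piMap fun q => map_evq_bijective L q n
  have h := hb.comp (Jproj_pi_bijective L T n)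
  have hfun : (fun (x : groupCohomology (J L T) n) (q : T) => (locJ L T q n).hom x) =
      (Pi.map fun (q : T) (z : groupCohomology (Rep.of (JqRep L q)) n) =>
        (map (decHom ((q : Nat.Primes) : ℕ) L) (evq L q) n).hom z) ∘
        (fun (x : groupCohomology (J L T) n) (q : T) =>
          (map (MonoidHom.id (L ≃ₐ[ℚ] L)) (Jproj L T q) n).hom x) := by
    funext x q
    exact locJ_hom_apply L T q n x
  rw [hfun]
  exact h

/-- A class all of whose local components vanish is zero. -/
theorem eq_zero_of_locJ_eq_zero (n : ℕ) (x : groupCohomology (J L T) n)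
    (h : ∀ q : T, (locJ L T q n).hom x = 0) : x = 0 := by
  apply (locJ_pi_bijective L T n).1
  funext q
  show (locJ L T q n).hom x = (locJ L T q n).hom 0
  rw [h q, map_zero]

/-- Classes with prescribed local components exist. -/
theorem exists_locJ_eq (n : ℕ)
    (z : ∀ q : T, groupCohomology (locUnits ((q : Nat.Primes) : ℕ) L) n) :
    ∃ x : groupCohomology (J L T) n, ∀ q : T, (locJ L T q n).hom x = z q := by
  obtain ⟨x, hx⟩ := (locJ_pi_bijective L T n).2 z
  exact ⟨x, fun q => congrFun hx q⟩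

end LocJ

section Infl

variable {M L : IntermediateField ℚ Qb} [FiniteDimensional ℚ M] [IsGalois ℚ M]
  [FiniteDimensional ℚ L] [IsGalois ℚ L] (h : M ≤ L) (T : Finset Nat.Primes)

/-- `inflJ` as a morphism of representations along `G_L → G_M`. -/
def inflJRep : Rep.res (gRes h) (J M T) ⟶ J L T :=
  Rep.ofHom ⟨inflJ h T, fun g' => LinearMap.ext fun y => inflJ_rho h T g' y⟩

@[simp] lemma inflJRep_hom_apply (y : J M T) : (inflJRep h T).hom y = inflJ h T y := rfl

/-- `inflC` as a morphism of representations along `G_L → G_M`. -/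
def inflCRep : Rep.res (gRes h) (C M T) ⟶ C L T :=
  Rep.ofHom (ρ := (C M T).ρ.comp (gRes h)) (σ := (C L T).ρ)
    { toLinearMap := inflC h T
      isIntertwining' := fun g' => by
        ext c
        exact inflC_rho h T g' c }

@[simp] lemma inflCRep_hom_apply (c : C M T) : (inflCRep h T).hom c = inflC h T c := rfl

/-- Inflation `Hⁿ(G_M, J(M,T)) ⟶ Hⁿ(G_L, J(L,T))`. -/
def inflH (n : ℕ) : groupCohomology (J M T) n ⟶ groupCohomology (J L T) n :=
  map (gRes h) (inflJRep h T) n

/-- Inflation `Hⁿ(G_M, C(M,T)) ⟶ Hⁿ(G_L, C(L,T))`. -/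
def inflHC (n : ℕ) : groupCohomology (C M T) n ⟶ groupCohomology (C L T) n :=
  map (gRes h) (inflCRep h T) n

/-- Inflation commutes with `J → C`. -/
theorem inflH_JtoC (n : ℕ) :
    inflH h T n ≫ map (MonoidHom.id _) (JtoC L T) n =
      map (MonoidHom.id _) (JtoC M T) n ≫ inflHC h T n := by
  unfold inflH inflHC
  rw [← map_comp, ← map_comp]
  apply groupCohomology.map_congr rfl
  refine LinearMap.ext fun y => ?_
  exact (inflC_JtoC h T y).symm

/-- The inclusion `M_qˣ → L_qˣ` as a morphism of representations along `Gal(L_q) → Gal(M_q)`. -/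
def lInclURep (q : Nat.Primes) :
    Rep.res (lRes (q : ℕ) h) (locUnits (q : ℕ) M) ⟶ locUnits (q : ℕ) L :=
  Rep.ofHom ⟨(MonoidHom.toAdditive (lInclU h q)).toIntLinearMap, fun d => by
    refine LinearMap.ext fun x => ?_
    apply Additive.toMul.injective
    apply Units.ext
    exact GalRes.apply_res (lIncl (q : ℕ) h) d _⟩

@[simp] lemma lInclURep_hom_apply (q : Nat.Primes) (x : locUnits (q : ℕ) M) :
    (lInclURep h q).hom x = Additive.ofMul (lInclU h q (Additive.toMul x)) := rfl

/-- Local inflation `Hⁿ(Gal(M_q/ℚ_q), M_qˣ) ⟶ Hⁿ(Gal(L_q/ℚ_q), L_qˣ)`. -/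
def inflLoc (q : Nat.Primes) (n : ℕ) :
    groupCohomology (locUnits (q : ℕ) M) n ⟶ groupCohomology (locUnits (q : ℕ) L) n :=
  map (lRes (q : ℕ) h) (lInclURep h q) n

/-- **Local components commute with inflation.** -/
theorem inflH_locJ (q : T) (n : ℕ) :
    inflH h T n ≫ locJ L T q n = locJ M T q n ≫ inflLoc h (q : Nat.Primes) n := by
  unfold inflH locJ inflLoc
  rw [← map_comp, ← map_comp]
  apply groupCohomology.map_congr
  · ext d
    exact (decHom_lRes ((q : Nat.Primes) : ℕ) h d).symm ▸ rfl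
  · refine LinearMap.ext fun y => ?_
    show ((inflJ h T y) q).1 1 = Additive.ofMul (lInclU h (q : Nat.Primes) (Additive.toMul ((y q).1 1)))
    rw [inflJ_apply]
    show Additive.ofMul (JqCarrier.val L q (inflJq h q (y q)) 1) = _
    rw [val_inflJq, map_one]
    rfl

theorem inflH_locJ_apply (q : T) (n : ℕ) (x : groupCohomology (J M T) n) :
    (locJ L T q n).hom ((inflH h T n).hom x) =
      (inflLoc h (q : Nat.Primes) n).hom ((locJ M T q n).hom x) := by
  have := congrArg (fun φ => φ.hom x) (inflH_locJ h T q n)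
  simpa using this

section Bridge

variable (q : Nat.Primes)

/-- the algebra structure `M_q → L_q` (inclusion) -/
@[reducible] def algLoc : Algebra (locField (q : ℕ) M) (locField (q : ℕ) L) :=
  (lIncl (q : ℕ) h).toRingHom.toAlgebra

theorem inflLoc_eq_inflFin (n : ℕ) :
    letI := algLoc h q
    haveI : IsScalarTower ℚ_[(q : ℕ)] (locField (q : ℕ) M) (locField (q : ℕ) L) :=
      IsScalarTower.of_algebraMap_eq fun _ => rfl
    haveI : IsScalarTower (locField (q : ℕ) M) (locField (q : ℕ) L) (PadicAlgCl (q : ℕ)) :=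
      IsScalarTower.of_algebraMap_eq fun _ => rfl
    inflLoc h q n = inflFin ℚ_[(q : ℕ)] (locField (q : ℕ) M) (locField (q : ℕ) L) n := by
  letI := algLoc h q
  haveI : IsScalarTower ℚ_[(q : ℕ)] (locField (q : ℕ) M) (locField (q : ℕ) L) :=
    IsScalarTower.of_algebraMap_eq fun _ => rfl
  haveI : IsScalarTower (locField (q : ℕ) M) (locField (q : ℕ) L) (PadicAlgCl (q : ℕ)) :=
    IsScalarTower.of_algebraMap_eq fun _ => rfl
  unfold inflLoc inflFin
  apply groupCohomology.map_congr
  · refine MonoidHom.ext fun d => AlgEquiv.ext fun x => ?_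
    apply (lIncl (q : ℕ) h).toRingHom.injective
    have h1 := GalRes.apply_res (lIncl (q : ℕ) h) d x
    have h2 := AlgEquiv.restrictNormal_commutes d (locField (q : ℕ) M) x
    exact h1.trans h2.symm
  · rfl

/-- **Local inflation is injective in degree 2** (Hilbert 90). -/
theorem inflLoc_two_injective : Function.Injective (inflLoc h q 2).hom := by
  letI := algLoc h q
  haveI : IsScalarTower ℚ_[(q : ℕ)] (locField (q : ℕ) M) (locField (q : ℕ) L) :=
    IsScalarTower.of_algebraMap_eq fun _ => rfl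
  haveI : IsScalarTower (locField (q : ℕ) M) (locField (q : ℕ) L) (PadicAlgCl (q : ℕ)) :=
    IsScalarTower.of_algebraMap_eq fun _ => rfl
  rw [inflLoc_eq_inflFin h q 2]
  intro a b hab
  apply inflBr_two_injective ℚ_[(q : ℕ)] (locField (q : ℕ) M) (PadicAlgCl (q : ℕ))
  rw [← inflBr_inflFin_apply ℚ_[(q : ℕ)] (locField (q : ℕ) M) (locField (q : ℕ) L)
      (PadicAlgCl (q : ℕ)) 2 a,
    ← inflBr_inflFin_apply ℚ_[(q : ℕ)] (locField (q : ℕ) M) (locField (q : ℕ) L)
      (PadicAlgCl (q : ℕ)) 2 b]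
  exact congrArg _ hab

/-- **Local class field theory**: a class of `H²(Gal(L_q/ℚ_q), L_qˣ)` killed by a divisor of
`[M_q : ℚ_q]` is inflated from `M_q`. -/
theorem exists_inflLoc_eq_of_dvd_finrank (d : ℕ)
    (hd : d ∣ Module.finrank ℚ_[(q : ℕ)] (locField (q : ℕ) M))
    (y : groupCohomology (locUnits (q : ℕ) L) 2) (hy : d • y = 0) :
    ∃ y₀ : groupCohomology (locUnits (q : ℕ) M) 2, (inflLoc h q 2).hom y₀ = y := by
  letI := algLoc h q
  haveI : IsScalarTower ℚ_[(q : ℕ)] (locField (q : ℕ) M) (locField (q : ℕ) L) :=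
    IsScalarTower.of_algebraMap_eq fun _ => rfl
  haveI : IsScalarTower (locField (q : ℕ) M) (locField (q : ℕ) L) (PadicAlgCl (q : ℕ)) :=
    IsScalarTower.of_algebraMap_eq fun _ => rfl
  have hx : d • (inflBr ℚ_[(q : ℕ)] (locField (q : ℕ) L) (PadicAlgCl (q : ℕ)) 2 y) = 0 := by
    rw [← map_nsmul, hy, map_zero]
  obtain ⟨y₀, hy₀⟩ := Fermat.Agent.GC.Local.BrauerCycFinal.exists_inflBr_eq_of_dvd_finrank
    (q : ℕ) ℚ_[(q : ℕ)] (PadicAlgCl (q : ℕ)) (locField (q : ℕ) M) d hd _ hx
  refine ⟨y₀, ?_⟩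
  rw [inflLoc_eq_inflFin h q 2]
  apply inflBr_two_injective ℚ_[(q : ℕ)] (locField (q : ℕ) L) (PadicAlgCl (q : ℕ))
  rw [← hy₀]
  exact inflBr_inflFin_apply ℚ_[(q : ℕ)] (locField (q : ℕ) M) (locField (q : ℕ) L)
      (PadicAlgCl (q : ℕ)) 2 y₀

end Bridge

end Infl

end Fermat.Agent.GC.Global.WRec.NCLoc
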