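/-
GATE-C / C4 (NC)_Q, finite-level DESCENT, part 2 (helper52).

`h : M ≤ L` finite Galois layers, `T` a finite set of primes, `v ∈ T`.  An idele class
`ξ ∈ H²(G_L, J(L,T))` whose local components vanish outside `v`, whose `v`-component is killed by a
divisor `d` of the local degree `[M_v : ℚ_v]`, and whose image in `H²(G_L, C(L,T))` is zero, is the
inflation of a class `η ∈ H²(G_M, J(M,T))` with the SAME properties at the level `M`
(`descent`).  The only input beyond `NCLoc` is the `d`-primary inflation-injectivity for the class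
module `C` (hypothesis `hI1`; = (I1) + LAYER).
-/
import Mathlib
import Fermat.Agent.GC.Global.WRec.NCLoc

set_option autoImplicit false
set_option linter.unusedSectionVars false

open scoped Padic
open CategoryTheory groupCohomology IntermediateField

noncomputable section

namespace Fermat.Agent.GC.Global.WRec.NCDescent

open Fermat.Agent.GC.Global Fermat.Agent.GC.Global.Funct Fermat.Agent.GC.Global.WRec.NCLoc

variable {M L : IntermediateField ℚ Qb} [FiniteDimensional ℚ M] [IsGalois ℚ M]
  [FiniteDimensional ℚ L] [IsGalois ℚ L] (h : M ≤ L) (T : Finset Nat.Primes)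

/-- **DESCENT of a one-place idele class to a smaller layer.** -/
theorem descent (v : T) (d : ℕ)
    (hd : d ∣ Module.finrank ℚ_[((v : Nat.Primes) : ℕ)] (locField ((v : Nat.Primes) : ℕ) M))
    (hI1 : ∀ c : groupCohomology (C M T) 2, d • c = 0 → (inflHC h T 2).hom c = 0 → c = 0)
    (ξ : groupCohomology (J L T) 2)
    (hC : (map (MonoidHom.id _) (JtoC L T) 2).hom ξ = 0)
    (hloc : ∀ q : T, q ≠ v → (locJ L T q 2).hom ξ = 0)
    (hv : d • (locJ L T v 2).hom ξ = 0) :
    ∃ η : groupCohomology (J M T) 2,
      (inflH h T 2).hom η = ξ ∧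
      (map (MonoidHom.id _) (JtoC M T) 2).hom η = 0 ∧
      (∀ q : T, q ≠ v → (locJ M T q 2).hom η = 0) ∧
      ((locJ M T v 2).hom η = 0 → (locJ L T v 2).hom ξ = 0) ∧
      d • η = 0 := by
  classical
  -- the local class at `v`
  obtain ⟨y₀, hy₀⟩ := exists_inflLoc_eq_of_dvd_finrank h (v : Nat.Primes) d hd _ hv
  obtain ⟨η, hη⟩ := exists_locJ_eq M T 2
    (Pi.single v y₀ : ∀ q : T, groupCohomology (locUnits ((q : Nat.Primes) : ℕ) M) 2)
  have hηv : (locJ M T v 2).hom η = y₀ := by rw [hη v, Pi.single_eq_same]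
  have hηq : ∀ q : T, q ≠ v → (locJ M T q 2).hom η = 0 := fun q hq => by
    rw [hη q, Pi.single_eq_of_ne hq]
  -- (1) inflation
  have h1 : (inflH h T 2).hom η = ξ := by
    rw [← sub_eq_zero]
    apply eq_zero_of_locJ_eq_zero L T 2
    intro q
    rw [map_sub, inflH_locJ_apply, sub_eq_zero]
    by_cases hq : q = v
    · subst hq
      rw [hηv, hy₀]
    · rw [hηq q hq, map_zero, hloc q hq]
  -- (5) torsion
  have h5 : d • η = 0 := by
    apply eq_zero_of_locJ_eq_zero M T 2
    intro q
    rw [map_nsmul]
    by_cases hq : q = v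
    · subst hq
      apply inflLoc_two_injective h (q : Nat.Primes)
      rw [map_nsmul, map_zero, ← inflH_locJ_apply, h1]
      exact hv
    · rw [hηq q hq, smul_zero]
  refine ⟨η, h1, ?_, hηq, ?_, h5⟩
  · -- (2) the class in `C`
    apply hI1
    · rw [← map_nsmul, h5, map_zero]
    · have e := congrArg (fun φ => φ.hom η) (inflH_JtoC h T 2)
      simp only [ModuleCat.hom_comp, LinearMap.comp_apply] at e
      rw [← e, h1, hC]
  · intro h0
    rw [← h1, inflH_locJ_apply, h0, map_zero]

end Fermat.Agent.GC.Global.WRec.NCDescent
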