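/-
GATE-C / (NC)_ℚ, step (S3): the FINITE-LEVEL statement at the cyclotomic layer `M_k = ℚ(ζ_{p^(k+1)})`
itself (helper3), UNCONDITIONAL.

`Γ = Gal(M_k/ℚ)` is cyclic (`p` odd).  Let `η` be a 2-cocycle of `Γ` with values in the `T`-ideles
`J(M_k,T)` such that
* the image of `η` in the `T`-idele CLASSES `C(M_k,T)` is a coboundary,
* the Shapiro components of `η` vanish at all places of `T` except `q₀`,
* the Shapiro component at `q₀` is killed by `p`.
Then the Shapiro component at `q₀` vanishes as well (`locClass_eq_zero`).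

Proof.  `[JtoC ∘ η] = 0` means `JtoC (gam η) = N_Γ c`; lift `c = JtoC j`; then
`gam η - N_Γ j = diag x` with `x` a `Γ`-invariant `T`-unit, hence
`Θ_⊤(gam η)² = Θ_⊤(diag x)² · Θ_⊥(j)² = 1` by helper55's (CL2) [`Theta_diag_sq`,
`Theta_cycLayer_bot`].  If the component at `q₀` were nonzero, `NCFinLoc.Theta_top_gam_sq_ne_one`
[the kernels of `psiQ`, `psiP` are the local norm groups: helper55 `SymbolKernel`] would give
`Θ_⊤(gam η)² ≠ 1`.
-/
import Mathlib
import Fermat.Agent.GC.Global.WRec.NCFinLoc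
import Fermat.Agent.GC.Global.WRec.ThetaCyc
import Fermat.Agent.GC.Global.WRec.SymbolKernel
import Fermat.Agent.GC.Global.WRec.PeriodDict

set_option autoImplicit false
set_option linter.unusedSectionVars false

open scoped Padic
open IntermediateField groupCohomology
open Fermat.Agent.GC.Global Fermat.Agent.GC.Global.Adapter
open Fermat.Agent.GC.Local.CycH2 Fermat.Agent.GC.Local.NCLocal Fermat.Agent.GC.Local.InvLowerField

noncomputable section

namespace Fermat.Agent.GC.Global.WRec.NCFinTop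

open Fermat.Agent.GC.Global.WRec Fermat.Agent.GC.Global.WRec.NCFinLoc

open scoped Classical

section General

variable {L : IntermediateField ℚ Qb} [FiniteDimensional ℚ L] [IsGalois ℚ L]
  {T : Finset Nat.Primes}

/-- for a `G_L`-invariant idele the relative norm `N_{G/⊤}` is the identity. -/
lemma relNorm_top_of_isInv {y : J L T} (hy : IsInv (J L T).ρ ⊤ y) :
    relNorm (J L T).ρ ⊤ y = y := by
  have := Fintype.ofFinite ((L ≃ₐ[ℚ] L) ⧸ (⊤ : Subgroup (L ≃ₐ[ℚ] L)))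
  rw [relNorm_of_isInv_top hy]
  have hsub : Subsingleton ((L ≃ₐ[ℚ] L) ⧸ (⊤ : Subgroup (L ≃ₐ[ℚ] L))) :=
    QuotientGroup.subsingleton_quotient_top
  have hcard : Fintype.card ((L ≃ₐ[ℚ] L) ⧸ (⊤ : Subgroup (L ≃ₐ[ℚ] L))) = 1 :=
    Fintype.card_eq_one_iff.2 ⟨1, fun y => Subsingleton.elim _ _⟩
  rw [hcard, one_smul]

variable (p : ℕ) [hp : Fact p.Prime] (k : ℕ)

lemma Theta_top_of_mem (hpT : pp p ∈ T) {y : J L T} (hy : y ∈ JInv L ⊤ T) :
    Theta p k L T hpT ⊤ y = thetaQ p k T hpT (evalTop L T y) := by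
  unfold Theta
  rw [relNorm_top_of_isInv (isInv_iff_mem_JInv.2 hy)]

/-- `Θ_⊤ (∑_g g • j) = Θ_⊥ j`. -/
lemma Theta_top_sum (hpT : pp p ∈ T) (j : J L T) :
    Theta p k L T hpT ⊤ (∑ g : L ≃ₐ[ℚ] L, (J L T).ρ g j) = Theta p k L T hpT ⊥ j := by
  have hinv : IsInv (J L T).ρ ⊤ (∑ g : L ≃ₐ[ℚ] L, (J L T).ρ g j) := by
    intro h _
    rw [map_sum]
    refine Fintype.sum_bijective (fun g => h * g) (Group.mulLeft_bijective h) _ _ (fun g => ?_)
    rw [map_mul]
    rfl
  have := Fintype.ofFinite ((L ≃ₐ[ℚ] L) ⧸ (⊥ : Subgroup (L ≃ₐ[ℚ] L)))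
  unfold Theta
  rw [relNorm_top_of_isInv hinv, relNorm_bot]

end General

variable (p : ℕ) [hp : Fact p.Prime] (k : ℕ) (T : Finset Nat.Primes)

/-- `Gal(ℚ(ζ_{p^(k+1)})/ℚ)` is cyclic for odd `p`. -/
theorem isCyclic_gal_cycLayer (hp2 : p ≠ 2) : IsCyclic (cycLayer p k ≃ₐ[ℚ] cycLayer p k) := by
  have hcyc : IsCyclic (ZMod (p ^ (k + 1)))ˣ :=
    ZMod.isCyclic_units_of_prime_pow p hp.out hp2 (k + 1)
  haveI : NeZero (p ^ (k + 1)) := ⟨pow_ne_zero _ hp.out.ne_zero⟩
  have hirr : Irreducible (Polynomial.cyclotomic (p ^ (k + 1)) ℚ) :=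
    Polynomial.cyclotomic.irreducible_rat (pow_pos hp.out.pos _)
  exact isCyclic_of_surjective _
    (IsCyclotomicExtension.autEquivPow (cycLayer p k) hirr).symm.surjective

/-- `ker psiQ` is exactly the local norm group of `ℚ_q(ζ_{p^(k+1)})/ℚ_q` (`q ≠ p`). -/
theorem psiQ_eq_one_iff (q : Nat.Primes) (hq : q ≠ pp p) (b : ℚ_[(q : ℕ)]ˣ) :
    psiQ p k q b = 1 ↔ ∃ y : (locField (q : ℕ) (cycLayer p k))ˣ,
      (b : ℚ_[(q : ℕ)]) = Algebra.norm ℚ_[(q : ℕ)] (y : locField (q : ℕ) (cycLayer p k)) := by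
  have hqp : (q : ℕ) ≠ p := fun h => hq (Subtype.ext h)
  constructor
  · intro hb
    obtain ⟨w, hw⟩ := exists_norm_eq_of_psiQ_eq_one p k q hqp b hb
    exact ⟨w, (congrArg Units.val hw).symm⟩
  · rintro ⟨y, hy⟩
    have h1 : b = Units.map (Algebra.norm ℚ_[(q : ℕ)] :
        locField (q : ℕ) (cycLayer p k) →* ℚ_[(q : ℕ)]) y := Units.ext hy
    rw [h1]
    exact unramNormHyp p k q hqp y

/-- `ker psiP` is exactly the local norm group of `ℚ_p(ζ_{p^(k+1)})/ℚ_p`. -/
theorem psiP_eq_one_iff (hp2 : p ≠ 2) (b : ℚ_[p]ˣ) :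
    psiP p k b = 1 ↔ ∃ y : (locField p (cycLayer p k))ˣ,
      (b : ℚ_[p]) = Algebra.norm ℚ_[p] (y : locField p (cycLayer p k)) := by
  constructor
  · intro hb
    obtain ⟨w, hw⟩ := exists_norm_eq_of_psiP_eq_one p k hp2 b hb
    exact ⟨w, (congrArg Units.val hw).symm⟩
  · rintro ⟨y, hy⟩
    have h1 : b = Units.map (Algebra.norm ℚ_[p] : Ep p k →* ℚ_[p]) y := Units.ext hy
    rw [h1]
    exact psiP_norm p k hp2 y

variable {σ : cycLayer p k ≃ₐ[ℚ] cycLayer p k} {m : ℕ}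

/-- **(ii)_fin at the top layer**: if the periodicity invariant of `η` becomes a norm in the idele
classes, the explicit reciprocity functional kills it up to sign. -/
theorem Theta_top_gam_sq_eq_one (hp2 : p ≠ 2) (hpT : pp p ∈ T) (hσ : IsGen σ m)
    (η : cocycles₂ (J (cycLayer p k) T))
    (hC : ∃ c : C (cycLayer p k) T, (JtoC (cycLayer p k) T).hom
      (gam σ m (η : _ × _ → J (cycLayer p k) T)) = nrmLin (C (cycLayer p k) T) σ m c) :
    Theta p k (cycLayer p k) T hpT ⊤ (gam σ m (η : _ × _ → J (cycLayer p k) T)) ^ 2 = 1 := by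
  obtain ⟨c, hc⟩ := hC
  obtain ⟨j, rfl⟩ := JtoC_surjective (cycLayer p k) T c
  -- the norm commutes with `JtoC`
  have hnat : nrmLin (C (cycLayer p k) T) σ m ((JtoC (cycLayer p k) T).hom j) =
      (JtoC (cycLayer p k) T).hom (nrmLin (J (cycLayer p k) T) σ m j) := by
    unfold nrmLin
    rw [LinearMap.sum_apply, LinearMap.sum_apply, map_sum]
    refine Finset.sum_congr rfl (fun i _ => ?_)
    exact (Rep.hom_comm_apply (JtoC (cycLayer p k) T) (σ ^ i) j).symm
  rw [hnat] at hc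
  have hker : gam σ m (η : _ × _ → J (cycLayer p k) T) -
      nrmLin (J (cycLayer p k) T) σ m j ∈ diagTUnits (cycLayer p k) T := by
    have h0 : (JtoC (cycLayer p k) T).hom (gam σ m (η : _ × _ → J (cycLayer p k) T) -
        nrmLin (J (cycLayer p k) T) σ m j) = 0 := by
      rw [map_sub, hc, sub_self]
    exact (Submodule.Quotient.mk_eq_zero _).1 h0
  obtain ⟨x, hxT, hx⟩ := hker
  -- the norm as a sum over the group
  have hsum : nrmLin (J (cycLayer p k) T) σ m j =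
      ∑ g : cycLayer p k ≃ₐ[ℚ] cycLayer p k, (J (cycLayer p k) T).ρ g j := by
    exact nrmLin_eq_sum hσ j
  have hNinv : nrmLin (J (cycLayer p k) T) σ m j ∈ JInv (cycLayer p k) ⊤ T := by
    rw [mem_JInv_iff_rho]
    intro h _
    rw [hsum, map_sum]
    refine Fintype.sum_bijective (fun g => h * g) (Group.mulLeft_bijective h) _ _ (fun g => ?_)
    rw [map_mul]
    rfl
  have hginv := gam_mem_JInv hσ η
  have hdec : gam σ m (η : _ × _ → J (cycLayer p k) T) =
      (diag (cycLayer p k) T).hom x + nrmLin (J (cycLayer p k) T) σ m j := by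
    have : (diag (cycLayer p k) T).hom x = gam σ m (η : _ × _ → J (cycLayer p k) T) -
        nrmLin (J (cycLayer p k) T) σ m j := hx
    rw [this, sub_add_cancel]
  have hdinv : (diag (cycLayer p k) T).hom x ∈ JInv (cycLayer p k) ⊤ T := by
    have : (diag (cycLayer p k) T).hom x = gam σ m (η : _ × _ → J (cycLayer p k) T) -
        nrmLin (J (cycLayer p k) T) σ m j := hx
    rw [this]
    exact Submodule.sub_mem _ hginv hNinv
  -- `x` is rational
  have hxV : ∀ h ∈ (⊤ : Subgroup (cycLayer p k ≃ₐ[ℚ] cycLayer p k)),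
      h ((Additive.toMul x : (cycLayer p k)ˣ) : cycLayer p k) =
        ((Additive.toMul x : (cycLayer p k)ˣ) : cycLayer p k) := by
    intro h hh
    have h1 : (J (cycLayer p k) T).ρ h ((diag (cycLayer p k) T).hom x) =
        (diag (cycLayer p k) T).hom x := (mem_JInv_iff_rho _ _ _).1 hdinv h hh
    rw [← Rep.hom_comm_apply] at h1
    have h2 := diag_injective (cycLayer p k) T ⟨pp p, hpT⟩ h1
    have h3 := congrArg (fun u : Additive (cycLayer p k)ˣ =>
      ((Additive.toMul u : (cycLayer p k)ˣ) : cycLayer p k)) h2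
    exact h3
  have h1 := Theta_diag_sq p k (cycLayer p k) T hpT ⊤ x hxV hxT
  have h2 : Theta p k (cycLayer p k) T hpT ⊤ (nrmLin (J (cycLayer p k) T) σ m j) = 1 := by
    rw [hsum, Theta_top_sum]
    exact Theta_cycLayer_bot p k T hp2 (unramNormHyp p k) hpT j
  rw [hdec, Theta_add p k (cycLayer p k) T hpT ⊤ hdinv hNinv, h2, mul_one]
  exact h1

/-- **(NC) at the finite level `M_k`**, periodicity form. -/
theorem locClass_eq_zero_of_gam (hp2 : p ≠ 2) (hpT : pp p ∈ T) (hσ : IsGen σ m)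
    (η : cocycles₂ (J (cycLayer p k) T))
    (hC : ∃ c : C (cycLayer p k) T, (JtoC (cycLayer p k) T).hom
      (gam σ m (η : _ × _ → J (cycLayer p k) T)) = nrmLin (C (cycLayer p k) T) σ m c)
    (q₀ : T)
    (hzero : ∀ q : T, q ≠ q₀ → H2π (locUnits ((q : Nat.Primes) : ℕ) (cycLayer p k))
      (locCocycleQ (cycLayer p k) T q η) = 0)
    (htors : p • H2π (locUnits ((q₀ : Nat.Primes) : ℕ) (cycLayer p k))
      (locCocycleQ (cycLayer p k) T q₀ η) = 0) :
    H2π (locUnits ((q₀ : Nat.Primes) : ℕ) (cycLayer p k))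
      (locCocycleQ (cycLayer p k) T q₀ η) = 0 := by
  by_contra hne
  exact Theta_top_gam_sq_ne_one p k hp2 hpT
    (fun q hq b => psiQ_eq_one_iff p k q hq b) (fun b => psiP_eq_one_iff p k hp2 b)
    hσ η q₀ hzero hne htors (Theta_top_gam_sq_eq_one p k T hp2 hpT hσ η hC)

/-- **(NC) at the finite level `M_k`** [(S3) of the (NC)_ℚ plan]: `ηC` is ANY cocycle in the idele
classes with `ηC = JtoC ∘ η` pointwise, and `[ηC] = 0`. -/
theorem locClass_eq_zero (hp2 : p ≠ 2) (hpT : pp p ∈ T)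
    (η : cocycles₂ (J (cycLayer p k) T)) (ηC : cocycles₂ (C (cycLayer p k) T))
    (hηC : ∀ g h : cycLayer p k ≃ₐ[ℚ] cycLayer p k,
      (ηC : _ × _ → C (cycLayer p k) T) (g, h) =
        (JtoC (cycLayer p k) T).hom ((η : _ × _ → J (cycLayer p k) T) (g, h)))
    (hC : H2π (C (cycLayer p k) T) ηC = 0)
    (q₀ : T)
    (hzero : ∀ q : T, q ≠ q₀ → H2π (locUnits ((q : Nat.Primes) : ℕ) (cycLayer p k))
      (locCocycleQ (cycLayer p k) T q η) = 0)
    (htors : p • H2π (locUnits ((q₀ : Nat.Primes) : ℕ) (cycLayer p k))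
      (locCocycleQ (cycLayer p k) T q₀ η) = 0) :
    H2π (locUnits ((q₀ : Nat.Primes) : ℕ) (cycLayer p k))
      (locCocycleQ (cycLayer p k) T q₀ η) = 0 := by
  have hcyc := isCyclic_gal_cycLayer p k hp2
  obtain ⟨σ, hσ⟩ := exists_isGen (Q := cycLayer p k ≃ₐ[ℚ] cycLayer p k)
  refine locClass_eq_zero_of_gam p k T hp2 hpT hσ η ?_ q₀ hzero htors
  obtain ⟨c, hc⟩ := (H2π_eq_zero_iff_gam' hσ ηC).1 hC
  refine ⟨c, ?_⟩
  rw [← hc]
  simp only [gam, Fermat.Agent.GC.Local.CycH2.tsum, map_sum]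
  exact Finset.sum_congr rfl (fun i _ => (hηC _ _).symm)

/-- the `mapCocycles₂` form of `locClass_eq_zero`. -/
theorem locClass_eq_zero_of_map (hp2 : p ≠ 2) (hpT : pp p ∈ T)
    (η : cocycles₂ (J (cycLayer p k) T))
    (hC : H2π (C (cycLayer p k) T)
      (mapCocycles₂ (MonoidHom.id (cycLayer p k ≃ₐ[ℚ] cycLayer p k)) (JtoC (cycLayer p k) T) η) = 0)
    (q₀ : T)
    (hzero : ∀ q : T, q ≠ q₀ → H2π (locUnits ((q : Nat.Primes) : ℕ) (cycLayer p k))
      (locCocycleQ (cycLayer p k) T q η) = 0)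
    (htors : p • H2π (locUnits ((q₀ : Nat.Primes) : ℕ) (cycLayer p k))
      (locCocycleQ (cycLayer p k) T q₀ η) = 0) :
    H2π (locUnits ((q₀ : Nat.Primes) : ℕ) (cycLayer p k))
      (locCocycleQ (cycLayer p k) T q₀ η) = 0 :=
  locClass_eq_zero p k T hp2 hpT η _ (fun _ _ => rfl) hC q₀ hzero htors

end Fermat.Agent.GC.Global.WRec.NCFinTop
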