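/-
GATE-C / (NC)_ℚ, step (S3) in COHOMOLOGY-CLASS language (helper3): bridge between the cocycle
statements of `NCFinLoc` / `NCFinTop` and `groupCohomology.map`.

* `evqRep L T q : Res_{decHom} J(L,T) ⟶ L_qˣ` : evaluation at `1` of the `q`-component, as a
  compatible pair for `decHom q L`;
* `locClassJ L T q : H²(Gal(L/ℚ), J(L,T)) ⟶ H²(Gal(L_q/ℚ_q), L_qˣ)` : the local (Shapiro) component
  of a class of `T`-ideles, ONE Mathlib `groupCohomology.map`;
* `locClassJ_H2π` : on a cocycle it is the class of `NCFinLoc.locCocycleQ`;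
* `map_EtoJ_comp_locClassJ` : on classes of `T`-units it is helper83's `NCQ.locClass`;
* **`locClassJ_eq_zero`** : (S3) of the (NC)_ℚ plan at `M_k = ℚ(ζ_{p^(k+1)})`, unconditional:
  `y ∈ H²(Gal(M_k/ℚ), J(M_k,T))` dying in `H²(C(M_k,T))`, with local components `0` outside `q₀` and
  killed by `p` at `q₀`, has local component `0` at `q₀`.
-/
import Mathlib
import Fermat.Agent.GC.Global.WRec.NCFinTop
import Fermat.Agent.GC.Global.WRec.NCFinDef

set_option autoImplicit false
set_option linter.unusedSectionVars false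

open scoped Padic
open CategoryTheory IntermediateField groupCohomology
open Fermat.Agent.GC.Global Fermat.Agent.GC.Global.Adapter
open Fermat.Agent.GC.Local.CycH2

noncomputable section

namespace Fermat.Agent.GC.Global.WRec.NCFinTopCoh

open Fermat.Agent.GC.Global.WRec Fermat.Agent.GC.Global.WRec.NCFinLoc
  Fermat.Agent.GC.Global.WRec.NCFinTop

section General

variable (L : IntermediateField ℚ Qb) [FiniteDimensional ℚ L] [IsGalois ℚ L]
  (T : Finset Nat.Primes) (q : T)

/-- evaluation at `1` of the `q`-component, as a compatible pair for `decHom q L`. -/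
def evqRep : Rep.res (decHom ((q : Nat.Primes) : ℕ) L) (J L T) ⟶
    locUnits ((q : Nat.Primes) : ℕ) L :=
  Rep.ofHom ⟨evq L T q, fun d => LinearMap.ext fun y => evq_equivariant L T q d y⟩

lemma evqRep_hom_apply (y : J L T) : (evqRep L T q).hom y = evq L T q y := rfl

/-- **the local component at `q`** of a class of `T`-ideles. -/
def locClassJ : groupCohomology (J L T) 2 ⟶ groupCohomology (locUnits ((q : Nat.Primes) : ℕ) L) 2 :=
  groupCohomology.map (decHom ((q : Nat.Primes) : ℕ) L) (evqRep L T q) 2

/-- on a cocycle, `locClassJ` is the class of the Shapiro component cocycle of `NCFinLoc`. -/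
theorem locClassJ_H2π (f : cocycles₂ (J L T)) :
    (locClassJ L T q).hom (H2π (J L T) f) =
      H2π (locUnits ((q : Nat.Primes) : ℕ) L) (locCocycleQ L T q f) := by
  have h := H2π_comp_map_apply (decHom ((q : Nat.Primes) : ℕ) L) (evqRep L T q) f
  unfold locClassJ
  rw [h]
  congr 1

/-- on classes of `T`-units, `locClassJ` is helper83's `NCQ.locClass`. -/
theorem map_EtoJ_comp_locClassJ :
    groupCohomology.map (MonoidHom.id (L ≃ₐ[ℚ] L)) (EtoJ L T) 2 ≫ locClassJ L T q =
      NCQ.locClass L T (q : Nat.Primes) := by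
  unfold locClassJ NCQ.locClass
  rw [← groupCohomology.map_comp]
  apply groupCohomology.map_congr
  · rfl
  · refine LinearMap.ext fun x => ?_
    rfl

theorem locClassJ_map_EtoJ (x : groupCohomology (E L T) 2) :
    (locClassJ L T q).hom
        ((groupCohomology.map (MonoidHom.id (L ≃ₐ[ℚ] L)) (EtoJ L T) 2).hom x) =
      (NCQ.locClass L T (q : Nat.Primes)).hom x := by
  rw [← map_EtoJ_comp_locClassJ]
  rfl

end General

variable (p : ℕ) [hp : Fact p.Prime] (k : ℕ) (T : Finset Nat.Primes)

/-- **(S3) of the (NC)_ℚ plan, class form, UNCONDITIONAL.** -/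
theorem locClassJ_eq_zero (hp2 : p ≠ 2) (hpT : pp p ∈ T)
    (y : groupCohomology (J (cycLayer p k) T) 2)
    (hC : (groupCohomology.map (MonoidHom.id (cycLayer p k ≃ₐ[ℚ] cycLayer p k))
      (JtoC (cycLayer p k) T) 2).hom y = 0)
    (q₀ : T)
    (hzero : ∀ q : T, q ≠ q₀ → (locClassJ (cycLayer p k) T q).hom y = 0)
    (htors : p • (locClassJ (cycLayer p k) T q₀).hom y = 0) :
    (locClassJ (cycLayer p k) T q₀).hom y = 0 := by
  induction y using H2_induction_on with
  | h η =>
    rw [PeriodDict.map_H2π] at hC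
    have hz : ∀ q : T, q ≠ q₀ → H2π (locUnits ((q : Nat.Primes) : ℕ) (cycLayer p k))
        (locCocycleQ (cycLayer p k) T q η) = 0 := by
      intro q hq
      rw [← locClassJ_H2π]
      exact hzero q hq
    have ht : p • H2π (locUnits ((q₀ : Nat.Primes) : ℕ) (cycLayer p k))
        (locCocycleQ (cycLayer p k) T q₀ η) = 0 := by
      rw [← locClassJ_H2π]
      exact htors
    have := locClass_eq_zero_of_map p k T hp2 hpT η hC q₀ hz ht
    rw [← locClassJ_H2π] at this
    exact this

end Fermat.Agent.GC.Global.WRec.NCFinTopCoh
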