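/-
GATE-C / C4 (NC)_ℚ, FILE 2 (helper52): **`ncFin : NCQ.NCFin p`** — the finite-level form of
"(NC)_ℚ: no global class is supported at one place", UNCONDITIONAL (`p` odd).

Assembly:
* `x ∈ H²(G_L, E(L,T))`, `ξ := (EtoJ)_* x ∈ H²(G_L, J(L,T))`; `JtoC_* ξ = 0` since `E → J → C` is zero;
* `NCDescent.descent` (level `L` → level `M_k = cycLayer p k`), with the `p`-primary inflation
  injectivity for `C` = helper1 `(I1)` in pair form (`InfResPair`) + helper14 `devissage_C` +
  helper80 `exists_inflC_eq` + `(LY-H1)`;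
* helper3 `NCFinTopCoh.locClassJ_eq_zero` (explicit reciprocity at the level `M_k`).
-/
import Mathlib
import Fermat.Agent.GC.Global.WRec.NCDescent
import Fermat.Agent.GC.Global.WRec.NCFinTopCoh
import Fermat.Agent.GC.Tate.InfResPair
import Fermat.Agent.GC.Global.Adapter.LayerHJE
import Fermat.Agent.GC.Global.Adapter.H1UnitsGood

set_option autoImplicit false
set_option linter.unusedSectionVars false

open scoped Padic
open CategoryTheory groupCohomology IntermediateField

noncomputable section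

namespace Fermat.Agent.GC.Global.WRec.NCFinProof

open Fermat.Agent.GC.Global Fermat.Agent.GC.Global.Adapter Fermat.Agent.GC.Global.Funct
  Fermat.Agent.GC.Global.WRec Fermat.Agent.GC.Global.WRec.NCLoc
  Fermat.Agent.GC.Global.WRec.NCDescent Fermat.Agent.GC.Global.WRec.NCFinTopCoh

section HI1

variable {M L : IntermediateField ℚ Qb} [FiniteDimensional ℚ M] [IsGalois ℚ M]
  [FiniteDimensional ℚ L] [IsGalois ℚ L] (h : M ≤ L) (T : Finset Nat.Primes)

/-- `gRes h : G_L → G_M` is surjective. -/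
lemma gRes_surj : Function.Surjective (gRes h) := GalRes.res_surjective (gIncl h)

/-- **`p`-primary inflation injectivity for the class module**: a `p`-power torsion class of
`H²(G_M, C(M,T))` dying in `H²(G_L, C(L,T))` is zero (`T` good for `L`, `ζ_p ∈ L`, `p` odd). -/
theorem inflHC_injective_of_goodT {p : ℕ} [Fact p.Prime] (hg : GoodT L T p) (hp2 : p ≠ 2) (ζ : L)
    (hζ : IsPrimitiveRoot ζ p) (c : groupCohomology (C M T) 2) (a : ℕ) (hc : p ^ a • c = 0)
    (h0 : (inflHC h T 2).hom c = 0) : c = 0 := by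
  have hT : T.Nonempty := hg.nonempty
  refine Fermat.Agent.GC.Tate.InfResPair.pair_injective_of_noTorsion (gRes h) (gRes_surj h)
    (inflCRep h T) (inflC_injective h T hT) ?_ p ?_ c a hc h0
  · intro c' hc'
    exact exists_inflC_eq h T hT (H1U.h1Vanishes_E_of_goodT L T hg _) c' hc'
  · exact (devissage_C L T hg Fact.out hp2 ζ hζ (gRes h).ker).1

end HI1

variable (p : ℕ) [hp : Fact p.Prime]

/-- a primitive `p`-th root of unity in any layer containing `M_k`. -/
lemma exists_zeta_of_le (k : ℕ) {L : IntermediateField ℚ Qb} (h : cycLayer p k ≤ L) :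
    ∃ ζ : L, IsPrimitiveRoot ζ p := by
  have h1 : IsPrimitiveRoot (zetaL p k ^ p ^ k) p :=
    (zetaL_spec p k).pow (pow_pos hp.out.pos _) (pow_succ p k)
  exact ⟨gIncl h (zetaL p k ^ p ^ k), h1.map_of_injective (gIncl h).toRingHom.injective⟩

/-- **(NC-fin)**, unconditional. -/
theorem ncFin (hp2 : p ≠ 2) : NCQ.NCFin p := by
  intro L _ _ T hg k h q₀ hdiv x hx hloc
  obtain ⟨ζ, hζ⟩ := exists_zeta_of_le p k h
  have hpT : pp p ∈ T := by
    obtain ⟨hp', hmem⟩ := hg.mem
    exact hmem
  -- the idele class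
  set ξ := (map (MonoidHom.id (L ≃ₐ[ℚ] L)) (EtoJ L T) 2).hom x with hξ
  have hlocJ : ∀ (K : IntermediateField ℚ Qb) [FiniteDimensional ℚ K] [IsGalois ℚ K] (q : T),
      locJ K T q 2 = locClassJ K T q := by
    intro K _ _ q
    unfold locJ locClassJ
    apply groupCohomology.map_congr rfl
    rfl
  -- its image in `C` vanishes
  have hC : (map (MonoidHom.id (L ≃ₐ[ℚ] L)) (JtoC L T) 2).hom ξ = 0 := by
    have e : map (A := E L T) (B := J L T) (MonoidHom.id (L ≃ₐ[ℚ] L)) (EtoJ L T) 2 ≫
        map (A := J L T) (B := C L T) (MonoidHom.id (L ≃ₐ[ℚ] L)) (JtoC L T) 2 = 0 := by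
      rw [← map_id_comp]
      have hz : EtoJ L T ≫ JtoC L T = 0 := by
        refine Rep.hom_ext (Representation.IntertwiningMap.ext (LinearMap.ext fun u => ?_))
        exact (Submodule.Quotient.mk_eq_zero _).2 ⟨u.1, u.2, rfl⟩
      rw [hz]
      exact HomologicalComplex.homologyMap_zero _ _ _
    have := congrArg (fun φ => φ.hom x) e
    simpa [hξ] using this
  have hloc' : ∀ q : T, q ≠ q₀ → (locJ L T q 2).hom ξ = 0 := by
    intro q hq
    rw [hlocJ L q, hξ, locClassJ_map_EtoJ]
    exact hloc q hq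
  have hv : p • (locJ L T q₀ 2).hom ξ = 0 := by
    rw [← map_nsmul, hξ, ← map_nsmul, hx, map_zero, map_zero]
  obtain ⟨η, -, hηC, hηq, hηv, hη5⟩ := descent h T q₀ p hdiv
    (fun c hc h0 => inflHC_injective_of_goodT h T hg hp2 ζ hζ c 1 (by simpa using hc) h0)
    ξ hC hloc' hv
  -- reciprocity at the level `M_k`
  have hfin := locClassJ_eq_zero p k T hp2 hpT η hηC q₀
    (fun q hq => by rw [← hlocJ (cycLayer p k) q]; exact hηq q hq)
    (by rw [← hlocJ (cycLayer p k) q₀, ← map_nsmul, hη5, map_zero])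
  have h1 := hηv (by rw [hlocJ (cycLayer p k) q₀]; exact hfin)
  rw [hlocJ L q₀, hξ, locClassJ_map_EtoJ] at h1
  exact h1

end Fermat.Agent.GC.Global.WRec.NCFinProof
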