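/-
GATE-C / C4 (NC)_ℚ GLOBAL PLUMBING (S1), the `NCFin`-consuming half (helper52).

`eq_zero_of_data` : DATA form of "(NC)_ℚ from (NC-fin)".  Given
* a layer `L` (finite Galois over `ℚ`), unramified outside `S`, containing `ℚ(ζ_{p^(k+1)})`;
* a good set `T ⊇ S` for `L`;
* a place `v ∈ S` with `p ∣ [(M_k)_v : ℚ_v]`;
* a level-constant 2-cocycle `c` of `(G_ℚ, k(χ))` and a finite-level cocycle `z` of
  `(Gal(L/ℚ), μ_p(L))` with `z (g|_L) = ζ ^ c(g)`;
* `locRes [c] = Pi.single v y`;
then `y = 0`.  (helper83 `NCQLocal` local dictionary + unconditional `NCFinProof.ncFin`.)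
-/
import Mathlib
import Fermat.Agent.GC.Global.WRec.NCQLocal
import Fermat.Agent.GC.Global.WRec.NCFinProof
import Fermat.Agent.GC.Global.Adapter.UnramLocal

set_option autoImplicit false
set_option linter.unusedSectionVars false

open scoped Padic
open CategoryTheory

noncomputable section

namespace Fermat.Agent.GC.Global.WRec.NCQCore

open Fermat.Agent.GC.Global Fermat.Agent.GC.Global.Adapter Fermat.Agent.GC.Prof
  Fermat.Agent.GC.Prof.Cone Fermat.Agent.GC.Local.Abs Fermat.Agent.GC.Local.KR ExtCitation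
  Fermat.Agent.GC.Global.WRec.NCQ Fermat.Agent.GC.Places Fermat.Agent.GC.C0
  Fermat.Agent.GC.PT.LocDataQ Fermat.Agent.GC.Global.LMU Fermat.Agent.GC.Prof.Elt

local notation "GQ" => (AlgebraicClosure ℚ ≃ₐ[ℚ] AlgebraicClosure ℚ)

attribute [local instance] factPrimeOfPrimes

variable (p : ℕ) [Fact p.Prime]
variable (L : IntermediateField ℚ Qb) [FiniteDimensional ℚ L] [IsGalois ℚ L]
  (T : Finset Nat.Primes)
variable (S : Finset Nat.Primes) [IsDiscrete (levelS S) (chiRep (cycloChar p))]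

/-- The instance used for the restrictions to the local groups. -/
theorem isDiscrete_res_chi (q : ℕ) [Fact q.Prime] :
    IsDiscrete (levelQ q) (Rep.res (localGaloisToGlobal q) (chiRep (cycloChar p))) :=
  isDiscrete_chiRep_chiQ p q

attribute [local instance] isDiscrete_res_chi

/-- The local component at `q ∈ S` of the class of `z` vanishes as soon as the restriction of
`[c]` to `G_{ℚ_q}` does. -/
theorem map_locMu_eq_zero_of_HlcRes (q : Nat.Primes)
    (c : lcSub (levelS S) (chiRep (cycloChar p)) 2)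
    (hc : lcD (levelS S) (chiRep (cycloChar p)) 2 c = 0)
    (z : zSub (groupCohomology.inhomogeneousCochains (muL p L)) 2)
    (hz : ∀ g : Fin 2 → GQ,
      (((Additive.toMul ((muLι p L).hom
        ((z : (Fin 2 → (L ≃ₐ[ℚ] L)) → muL p L) fun i => resL L (g i))) : Lˣ) : L) : Qb)
        = ((Places.zetaQb p : Qbˣ) : Qb) ^
          (((c : (Fin 2 → GQ) → chiRep (cycloChar p)) g : ZMod p)).val)
    (h0 : HlcRes (isContHom_localGaloisToGlobal S (q : ℕ)) (chiRep (cycloChar p)) 2
      (HlcMk (levelS S) (chiRep (cycloChar p)) c hc) = 0) :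
    groupCohomology.map (decHom (q : ℕ) L) (locMu p L q) 2
      (hMk (groupCohomology.inhomogeneousCochains (muL p L)) 2 z) = 0 := by
  have h1 := inflBr_locMu_eq p L q S c hc z hz
  rw [h0] at h1
  have h2 : HlcChiMuQ p (q : ℕ) 2 0 = 0 := (HlcChiMuQ p (q : ℕ) 2).map_zero
  have h3 := h1.trans ((congrArg _ h2).trans (map_zero _))
  apply inflBr_two_injective ℚ_[(q : ℕ)] (locField (q : ℕ) L) (PadicAlgCl (q : ℕ))
  rw [h3, map_zero]

/-- Conversely: if the local component at `q` of the class of `z` vanishes, so does the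
restriction of `[c]` to `G_{ℚ_q}` (Hilbert 90 + injectivity of the inflation of Brauer groups). -/
theorem HlcRes_eq_zero_of_map_locMu (q : Nat.Primes)
    (c : lcSub (levelS S) (chiRep (cycloChar p)) 2)
    (hc : lcD (levelS S) (chiRep (cycloChar p)) 2 c = 0)
    (z : zSub (groupCohomology.inhomogeneousCochains (muL p L)) 2)
    (hz : ∀ g : Fin 2 → GQ,
      (((Additive.toMul ((muLι p L).hom
        ((z : (Fin 2 → (L ≃ₐ[ℚ] L)) → muL p L) fun i => resL L (g i))) : Lˣ) : L) : Qb)
        = ((Places.zetaQb p : Qbˣ) : Qb) ^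
          (((c : (Fin 2 → GQ) → chiRep (cycloChar p)) g : ZMod p)).val)
    (h0 : groupCohomology.map (decHom (q : ℕ) L) (locMu p L q) 2
      (hMk (groupCohomology.inhomogeneousCochains (muL p L)) 2 z) = 0) :
    HlcRes (isContHom_localGaloisToGlobal S (q : ℕ)) (chiRep (cycloChar p)) 2
      (HlcMk (levelS S) (chiRep (cycloChar p)) c hc) = 0 := by
  have h1 := inflBr_locMu_eq p L q S c hc z hz
  rw [h0, map_zero] at h1
  have hroots : HasRoots (PadicAlgCl (q : ℕ)) p :=
    hasRoots_of_isAlgClosed (PadicAlgCl (q : ℕ)) (Fact.out : p.Prime).ne_zero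
  have h2 := HlcMap_muι_two_eq_zero ℚ_[(q : ℕ)] (PadicAlgCl (q : ℕ)) hroots _ h1.symm
  exact (HlcChiMuQ p (q : ℕ) 2).injective (h2.trans (HlcChiMuQ p (q : ℕ) 2).map_zero.symm)

/-- **(S1-core), restriction form.**  If the restrictions of `[c]` to `G_{ℚ_w}` vanish for all
`w ∈ S`, `w ≠ v`, then so does the restriction to `G_{ℚ_v}`. -/
theorem HlcRes_eq_zero_of_data (hp2 : p ≠ 2) (hLS : L.IsUnramifiedOutside S) (k : ℕ)
    (hk : cycLayer p k ≤ L) (hg : GoodT L T p) (hST : S ⊆ T) (v : ↥S)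
    (hv : p ∣ Module.finrank ℚ_[((v : Nat.Primes) : ℕ)]
      (locField ((v : Nat.Primes) : ℕ) (cycLayer p k)))
    (c : lcSub (levelS S) (chiRep (cycloChar p)) 2)
    (hc : lcD (levelS S) (chiRep (cycloChar p)) 2 c = 0)
    (z : zSub (groupCohomology.inhomogeneousCochains (muL p L)) 2)
    (hz : ∀ g : Fin 2 → GQ,
      (((Additive.toMul ((muLι p L).hom
        ((z : (Fin 2 → (L ≃ₐ[ℚ] L)) → muL p L) fun i => resL L (g i))) : Lˣ) : L) : Qb)
        = ((Places.zetaQb p : Qbˣ) : Qb) ^
          (((c : (Fin 2 → GQ) → chiRep (cycloChar p)) g : ZMod p)).val)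
    (hw : ∀ w : ↥S, w ≠ v →
      HlcRes (isContHom_localGaloisToGlobal S ((w : Nat.Primes) : ℕ)) (chiRep (cycloChar p)) 2
        (HlcMk (levelS S) (chiRep (cycloChar p)) c hc) = 0) :
    HlcRes (isContHom_localGaloisToGlobal S ((v : Nat.Primes) : ℕ)) (chiRep (cycloChar p)) 2
      (HlcMk (levelS S) (chiRep (cycloChar p)) c hc) = 0 := by
  have hpX : p • (groupCohomology.map (MonoidHom.id (L ≃ₐ[ℚ] L)) (muToE p L T) 2).hom
      (hMk (groupCohomology.inhomogeneousCochains (muL p L)) 2 z) = 0 := by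
    rw [← map_nsmul, smul_groupCohomology_muL_eq_zero, map_zero]
  have key := NCFinProof.ncFin p hp2 L T hg k hk ⟨(v : Nat.Primes), hST v.2⟩ hv _ hpX ?_
  · rw [locClass_muToE] at key
    exact HlcRes_eq_zero_of_map_locMu p L S (v : Nat.Primes) c hc z hz key
  · intro q hq
    rw [locClass_muToE]
    by_cases hqS : (q : Nat.Primes) ∈ S
    · apply map_locMu_eq_zero_of_HlcRes p L S (q : Nat.Primes) c hc z hz
      refine hw ⟨(q : Nat.Primes), hqS⟩ fun h => hq ?_
      apply Subtype.ext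
      have h' : (q : Nat.Primes) = (v : Nat.Primes) := congrArg Subtype.val h
      exact h'
    · exact map_locMu_eq_zero p L (q : Nat.Primes)
        (isUnramAt_of_isUnramifiedOutside L (q : Nat.Primes) hLS hqS) _

/-- (Instance search does not see through `chiRep`.) -/
theorem isDiscrete_res_locDataQ_chi (v : (locDataQ S).ι) :
    IsDiscrete ((locDataQ S).𝒰v v) (Rep.res ((locDataQ S).r v) (chiRep (cycloChar p))) :=
  LocalData.isDiscrete_res (locDataQ S) v (chiRep (cycloChar p))

attribute [local instance] isDiscrete_res_locDataQ_chi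

/-- **(S1-core), `hNC` form.**  DATA form of "(NC)_ℚ from (NC-fin)": if `locRes [c]` is supported
at the single place `v`, its component at `v` vanishes. -/
theorem eq_zero_of_data (hp2 : p ≠ 2) (hLS : L.IsUnramifiedOutside S) (k : ℕ)
    (hk : cycLayer p k ≤ L) (hg : GoodT L T p) (hST : S ⊆ T) (v : (locDataQ S).ι)
    (hv : p ∣ Module.finrank ℚ_[(((show ↥S from v) : Nat.Primes) : ℕ)]
      (locField (((show ↥S from v) : Nat.Primes) : ℕ) (cycLayer p k)))
    (c : lcSub (levelS S) (chiRep (cycloChar p)) 2)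
    (hc : lcD (levelS S) (chiRep (cycloChar p)) 2 c = 0)
    (z : zSub (groupCohomology.inhomogeneousCochains (muL p L)) 2)
    (hz : ∀ g : Fin 2 → GQ,
      (((Additive.toMul ((muLι p L).hom
        ((z : (Fin 2 → (L ≃ₐ[ℚ] L)) → muL p L) fun i => resL L (g i))) : Lˣ) : L) : Qb)
        = ((Places.zetaQb p : Qbˣ) : Qb) ^
          (((c : (Fin 2 → GQ) → chiRep (cycloChar p)) g : ZMod p)).val)
    (y : Hlc ((locDataQ S).𝒰v v) (Rep.res ((locDataQ S).r v) (chiRep (cycloChar p))) 2)
    (hx : locRes (locDataQ S) (chiRep (cycloChar p)) 2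
      (HlcMk (levelS S) (chiRep (cycloChar p)) c hc) = Pi.single v y) : y = 0 := by
  have hcomp : ∀ w : (locDataQ S).ι,
      HlcRes (isContHom_localGaloisToGlobal S (((show ↥S from w) : Nat.Primes) : ℕ))
        (chiRep (cycloChar p)) 2 (HlcMk (levelS S) (chiRep (cycloChar p)) c hc)
      = (Pi.single v y :
          ∀ v, Hlc ((locDataQ S).𝒰v v) (Rep.res ((locDataQ S).r v) (chiRep (cycloChar p))) 2) w :=
    fun w => by
      rw [← hx, locRes_apply]
      rfl
  have h1 : (Pi.single v y :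
      ∀ v, Hlc ((locDataQ S).𝒰v v) (Rep.res ((locDataQ S).r v) (chiRep (cycloChar p))) 2) v = y :=
    Pi.single_eq_same (M := fun v =>
      ↑(Hlc ((locDataQ S).𝒰v v) (Rep.res ((locDataQ S).r v) (chiRep (cycloChar p))) 2)) v y
  have key := HlcRes_eq_zero_of_data p L T S hp2 hLS k hk hg hST v hv c hc z hz (fun w hwv => by
    have h0 : (Pi.single v y :
        ∀ v, Hlc ((locDataQ S).𝒰v v) (Rep.res ((locDataQ S).r v) (chiRep (cycloChar p))) 2) w
        = 0 :=
      Pi.single_eq_of_ne (M := fun v =>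
        ↑(Hlc ((locDataQ S).𝒰v v) (Rep.res ((locDataQ S).r v) (chiRep (cycloChar p))) 2)) hwv y
    exact (hcomp w).trans h0)
  exact h1.symm.trans ((hcomp v).symm.trans key)

end Fermat.Agent.GC.Global.WRec.NCQCore
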