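/-
GATE-C / C4 (NC)_ℚ GLOBAL PLUMBING (S1), final assembly (helper52; hedge for helper83's
`NCQReduce.lean`).

`hNC_of_ncFin` : **(NC)_ℚ**, the `hNC` binder of `C0.PTSha_of_arith` / `S55Glue.S55_of_kummerK`,
UNCONDITIONALLY for `p` odd, `p ∈ S`:
a class `x ∈ Hlc²(G_{ℚ,S}, 𝔽_p(χ_cyc))` whose localisation is supported at one place `v ∈ S`
has trivial component at `v`.

Construction: `x = [c]`, `c` constant modulo `F.fixingSubgroup` (`F` unramified outside `S`);
`k` with `p ∣ [ℚ_v(ζ_{p^(k+1)}) : ℚ_v]`; `L := normalClosure F ⊔ ℚ(ζ_{p^(k+1)})`, a layer unramified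
outside `S`; `T ⊇ S` good for `L`; the finite cocycle `z` (helper69 `exists_cocycle_muL`);
then `NCQCore.eq_zero_of_data` (helper83 local dictionary + `ncFin`).
-/
import Mathlib
import Fermat.Agent.GC.Global.WRec.NCQCore
import Fermat.Agent.GC.Global.WRec.NCQCocycle
import Fermat.Agent.GC.Global.Funct.LayerSup
import Fermat.Agent.GC.Global.Adapter.PrimesOver
import Fermat.Agent.GC.Local.CycloDegGrowthPadic

set_option autoImplicit false
set_option linter.unusedSectionVars false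

open scoped Padic
open CategoryTheory

noncomputable section

namespace Fermat.Agent.GC.Global.WRec.NCQAsm

open Fermat.Agent.GC.Global Fermat.Agent.GC.Global.Adapter Fermat.Agent.GC.Prof
  Fermat.Agent.GC.Prof.Cone Fermat.Agent.GC.Local.Abs Fermat.Agent.GC.Local.KR ExtCitation
  Fermat.Agent.GC.Global.WRec.NCQ Fermat.Agent.GC.C0
  Fermat.Agent.GC.PT.LocDataQ Fermat.Agent.GC.Prof.Elt Fermat.Agent.GC.Global.Funct

local notation "GQ" => (AlgebraicClosure ℚ ≃ₐ[ℚ] AlgebraicClosure ℚ)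

attribute [local instance] factPrimeOfPrimes

variable (p : ℕ) [hp : Fact p.Prime]

/-- **(S1-e)** choice of `k`: `p ∣ [ℚ_q(ζ_{p^(k+1)}) : ℚ_q]` for `k` large. -/
theorem exists_dvd_finrank_locField_cycLayer (q : ℕ) [Fact q.Prime] :
    ∃ k : ℕ, p ∣ Module.finrank ℚ_[q] (locField q (cycLayer p k)) := by
  obtain ⟨m₀, hm₀⟩ := Fermat.Agent.GC.Local.CycloDegGrowth.padic_exists_forall_pow_dvd_finrank
    q p ℚ_[q] (PadicAlgCl q) 1
  refine ⟨m₀, ?_⟩
  have h := hm₀ m₀ le_rfl (padicEmbedding q (zetaQb p m₀)) (padicEmbedding_zetaQb_spec p m₀ q)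
  rw [pow_one] at h
  rw [locField_cycLayer_eq]
  exact h

/-- The fixed primitive `p`-th root of unity of `Places` lies in every cyclotomic layer. -/
theorem zetaQb_mem_cycLayer (k : ℕ) :
    ((Fermat.Agent.GC.Places.zetaQb p : Qbˣ) : Qb) ∈ cycLayer p k := by
  have h1 : IsPrimitiveRoot (WRec.zetaQb p k ^ p ^ k) p :=
    (zetaQb_spec p k).pow (pow_pos hp.out.pos _) (by rw [pow_succ])
  have h2 : ((Fermat.Agent.GC.Places.zetaQb p : Qbˣ) : Qb) ^ p = 1 := by
    have := congrArg Units.val (Fermat.Agent.GC.Places.isPrimitiveRoot_zetaQb p).pow_eq_one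
    simpa using this
  obtain ⟨i, -, hi⟩ := h1.eq_pow_of_pow_eq_one h2
  rw [← hi]
  exact pow_mem (pow_mem (IntermediateField.mem_adjoin_simple_self ℚ _) _) _

attribute [local instance] NCQCore.isDiscrete_res_locDataQ_chi

/-- **(NC)_ℚ**: the `hNC` binder of `C0.PTSha_of_arith`, UNCONDITIONALLY (`p` odd, `p ∈ S`). -/
theorem hNC_of_ncFin (hp2 : p ≠ 2) (S : Finset Nat.Primes) (hpS : pPrime p ∈ S)
    [IsDiscrete (levelS S) (chiRep (cycloChar p))] :
    ∀ (v : (locDataQ S).ι)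
      (y : Hlc ((locDataQ S).𝒰v v) (Rep.res ((locDataQ S).r v) (chiRep (cycloChar p))) 2)
      (x : Hlc (levelS S) (chiRep (cycloChar p)) 2),
      locRes (locDataQ S) (chiRep (cycloChar p)) 2 x = Pi.single v y → y = 0 := by
  intro v y x hx
  obtain ⟨c, hc, rfl⟩ := Hlc_exists_mk (levelS S) (chiRep (cycloChar p)) x
  obtain ⟨V, ⟨F, hF, rfl⟩, -, -, hconst, -⟩ := IsLC.exists_level (chiRep (cycloChar p)) c.2
  -- the choice of `k`
  obtain ⟨k, hk⟩ := exists_dvd_finrank_locField_cycLayer p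
    (((show ↥S from v) : Nat.Primes) : ℕ)
  -- the Galois closure of `F`
  have hN := isUnramifiedOutside_normalClosure hF
  haveI hfdN : FiniteDimensional ℚ (IntermediateField.normalClosure ℚ F Qb) := hN.1
  haveI hgalN : IsGalois ℚ (IntermediateField.normalClosure ℚ F Qb) :=
    { to_isSeparable := inferInstance, to_normal := normalClosure.normal ℚ F Qb }
  have hFN : F ≤ IntermediateField.normalClosure ℚ F Qb := IntermediateField.le_normalClosure F
  -- the layer `L`
  obtain ⟨L, hNL, hkL, -, hfd, hgal, hLS⟩ :=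
    exists_layer_sup p k (L := IntermediateField.normalClosure ℚ F Qb) hN hpS
  haveI := hfd
  haveI := hgal
  -- the good set `T`
  obtain ⟨T, hST, hg⟩ := exists_goodT L S hLS hp.out
  have hζ : ((Fermat.Agent.GC.Places.zetaQb p : Qbˣ) : Qb) ∈ L := hkL (zetaQb_mem_cycLayer p k)
  have hcL : ∀ g s : Fin 2 → GQ, (∀ i, s i ∈ L.fixingSubgroup) →
      (c : (Fin 2 → GQ) → chiRep (cycloChar p)) (g * s)
        = (c : (Fin 2 → GQ) → chiRep (cycloChar p)) g := fun g s hs =>
    hconst g s fun i => IntermediateField.fixingSubgroup_antitone (hFN.trans hNL) (hs i)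
  obtain ⟨z, hz⟩ := NCQCoc.exists_cocycle_muL p L hζ S c hc hcL
  exact NCQCore.eq_zero_of_data p L T S hp2 hLS k hkL hg hST v hk c hc z hz y hx

end Fermat.Agent.GC.Global.WRec.NCQAsm
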