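/-
GATE-C / C4 (GH-w) WeightedReciprocity, helper55.  Pure group theory, Mathlib only.

Two surjections of a commutative group `A` onto a finite cyclic group `G` which both factor
through a common finite cyclic quotient `C` of `A` have the same kernel, and differ by a
power map `x ↦ x ^ e` with `e` prime to `|G|`.
-/
import Mathlib

set_option autoImplicit false

namespace Fermat.Agent.GC.Global.WRec

open Subgroup

/-- In a finite cyclic group, a subgroup of index `d` is the group of `d`-th powers. -/
theorem eq_range_powMonoidHom_of_index_eq {C : Type*} [CommGroup C] [Finite C] [IsCyclic C]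
    (H : Subgroup C) (d : ℕ) (hd : H.index = d) : H = (powMonoidHom d : C →* C).range := by
  classical
  have hd0 : d ≠ 0 := by
    rw [← hd]; exact Subgroup.index_ne_zero_of_finite
  -- `C^d ≤ H`
  have hle : (powMonoidHom d : C →* C).range ≤ H := by
    rintro _ ⟨x, rfl⟩
    simp only [powMonoidHom_apply]
    rw [← hd]
    exact H.pow_index_mem x
  -- cardinalities agree
  have hcardH : Nat.card H * d = Nat.card C := by
    rw [← hd]; exact H.card_mul_index
  have hdvd : d ∣ Nat.card C := ⟨Nat.card H, by rw [← hcardH, mul_comm]⟩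
  have hcardR : Nat.card (powMonoidHom d : C →* C).range = Nat.card C / d := by
    rw [IsCyclic.card_powMonoidHom_range, Nat.gcd_eq_right hdvd]
  have hcardH' : Nat.card H = Nat.card C / d := by
    rw [← hcardH, Nat.mul_div_cancel _ (Nat.pos_of_ne_zero hd0)]
  exact (Subgroup.eq_of_le_of_card_ge hle (by rw [hcardR, hcardH'])).symm

/-- Two subgroups of the same index in a finite cyclic group are equal. -/
theorem eq_of_index_eq_of_isCyclic {C : Type*} [CommGroup C] [Finite C] [IsCyclic C]
    (H K : Subgroup C) (h : H.index = K.index) : H = K := by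
  rw [eq_range_powMonoidHom_of_index_eq H K.index h]
  exact (eq_range_powMonoidHom_of_index_eq K K.index rfl).symm

/-- If `f, g : A → G` are surjective onto a finite group and both factor through a surjection
`r : A → C` onto a finite cyclic group, then `ker f = ker g`. -/
theorem ker_eq_ker_of_factor_through_cyclic {A C G : Type*} [CommGroup A] [CommGroup C] [Finite C]
    [IsCyclic C] [Group G] [Finite G] (r : A →* C) (hr : Function.Surjective r)
    (f g : A →* G) (hf : Function.Surjective f) (hg : Function.Surjective g)
    (hrf : r.ker ≤ f.ker) (hrg : r.ker ≤ g.ker) : f.ker = g.ker := by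
  have key : ∀ (φ : A →* G), Function.Surjective φ → r.ker ≤ φ.ker →
      (φ.ker.map r).index = Nat.card G := by
    intro φ hφ hle
    rw [Subgroup.index_map_eq _ hr hle, Subgroup.index_ker, MonoidHom.range_eq_top.mpr hφ]
    simp
  have h1 : f.ker.map r = g.ker.map r :=
    eq_of_index_eq_of_isCyclic _ _ (by rw [key f hf hrf, key g hg hrg])
  have h2 : ∀ (φ : A →* G), r.ker ≤ φ.ker → (φ.ker.map r).comap r = φ.ker := by
    intro φ hle
    rw [Subgroup.comap_map_eq, sup_eq_left.mpr hle]
  rw [← h2 f hrf, ← h2 g hrg, h1]

/-- Two surjections onto a finite cyclic group with the same kernel differ by a power map with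
exponent prime to the order. -/
theorem exists_pow_eq_of_ker_eq {A G : Type*} [CommGroup A] [CommGroup G] [Finite G] [IsCyclic G]
    (f g : A →* G) (hf : Function.Surjective f) (hg : Function.Surjective g)
    (hker : f.ker = g.ker) :
    ∃ e : ℕ, e.Coprime (Nat.card G) ∧ ∀ a, f a = g a ^ e := by
  classical
  -- the induced endomorphism `φ` of `G` with `φ ∘ g = f`
  have hgf : ∀ a b, g a = g b → f a = f b := by
    intro a b hab
    have : a * b⁻¹ ∈ g.ker := by
      rw [MonoidHom.mem_ker, map_mul, map_inv, hab, mul_inv_cancel]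
    rw [← hker, MonoidHom.mem_ker, map_mul, map_inv, mul_inv_eq_one] at this
    exact this
  let φ : G →* G :=
    { toFun := fun x => f (Function.surjInv hg x)
      map_one' := by
        have : g (Function.surjInv hg 1) = g 1 := by rw [Function.surjInv_eq hg, map_one]
        rw [hgf _ _ this, map_one]
      map_mul' := fun x y => by
        have : g (Function.surjInv hg (x * y)) =
            g (Function.surjInv hg x * Function.surjInv hg y) := by
          rw [map_mul, Function.surjInv_eq hg, Function.surjInv_eq hg, Function.surjInv_eq hg]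
        rw [hgf _ _ this, map_mul] }
  have hφ : ∀ a, φ (g a) = f a := fun a =>
    hgf _ _ (Function.surjInv_eq hg (g a))
  obtain ⟨m, hm⟩ := MonoidHom.map_cyclic φ
  -- `φ` is surjective, so `m` is prime to the order
  obtain ⟨γ, hγ⟩ := IsCyclic.exists_generator (α := G)
  have hsurj : Function.Surjective φ := fun x => by
    obtain ⟨a, rfl⟩ := hf x
    exact ⟨g a, hφ a⟩
  set n := Nat.card G with hn
  have hn0 : n ≠ 0 := Nat.card_pos.ne'
  -- reduce `m` to a natural number mod `n`
  let e : ℕ := (m % n).toNat
  have he : (e : ℤ) = m % n := Int.toNat_of_nonneg (Int.emod_nonneg _ (by exact_mod_cast hn0))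
  have hpow : ∀ x : G, x ^ m = x ^ e := by
    intro x
    rw [← zpow_natCast, he, zpow_mod_natCard]
  refine ⟨e, ?_, fun a => by rw [← hφ a, hm, hpow]⟩
  -- coprimality: the generator is an `e`-th power of something
  obtain ⟨y, hy⟩ := hsurj γ
  rw [hm, hpow] at hy
  obtain ⟨k, hk⟩ := hγ y
  -- γ ^ (k * e) = γ
  have hord : orderOf γ = n := by
    rw [hn]; exact orderOf_eq_card_of_forall_mem_zpowers hγ
  have hk' : γ ^ k = y := hk
  have h1 : γ ^ (k * (e : ℤ)) = γ ^ (1 : ℤ) := by
    rw [zpow_mul, hk', zpow_natCast, hy, zpow_one]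
  rw [zpow_eq_zpow_iff_modEq, hord] at h1
  -- so `k * e ≡ 1 mod n`
  have h2 : IsCoprime (e : ℤ) (n : ℤ) := by
    have h3 := h1.symm.dvd
    obtain ⟨t, ht⟩ := h3
    exact ⟨k, -t, by linarith⟩
  exact Nat.isCoprime_iff_coprime.mp h2

/-- **Main abstract lemma.** Two surjections of `A` onto a finite cyclic group `G`, both
factoring through a finite cyclic quotient `C` of `A`, differ by a unit exponent. -/
theorem exists_pow_eq_of_factor_through_cyclic {A C G : Type*} [CommGroup A] [CommGroup C]
    [Finite C] [IsCyclic C] [CommGroup G] [Finite G] [IsCyclic G]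
    (r : A →* C) (hr : Function.Surjective r)
    (f g : A →* G) (hf : Function.Surjective f) (hg : Function.Surjective g)
    (hrf : r.ker ≤ f.ker) (hrg : r.ker ≤ g.ker) :
    ∃ e : ℕ, e.Coprime (Nat.card G) ∧ ∀ a, f a = g a ^ e :=
  exists_pow_eq_of_ker_eq f g hf hg (ker_eq_ker_of_factor_through_cyclic r hr f g hf hg hrf hrg)

end Fermat.Agent.GC.Global.WRec
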