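/-
GATE-C / C4 GLOBAL-COH, [B']-FIN (helper14): preliminaries for `FinLevel.lean`.

* `Theta_nsmul` : `Θ_V (n • y) = Θ_V(y) ^ n` on `J(L',T)^V`;
* `Theta_sub_eq_pow` : for `N' ≤ V'` and `β ∈ J^{V'}`: `Θ_{N'}(β) = Θ_{V'}(β) ^ [V' : N']`
  (`Theta_relNormSub` + `relNormSub_of_isInv`);
* `relNormSub_eq_sum_of_eq_bot` : `N_{H/H'} z = ∑_{g ∈ H} g z` when `H' = ⊥`;
* `Theta_sq_pow_eq_one_of_nsmul` : if `n •` (class of `β` in `C^V/N_{V/V_k} C^{V_k}`) `= 0` then
  `(Θ_V(β)²)^n = 1`  ((ii)_fin applied to `n • β`).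
-/
import Mathlib
import Fermat.Agent.GC.Global.WRec.CyclicLayerFinal

set_option autoImplicit false
set_option linter.unusedSectionVars false

open scoped Padic
open IntermediateField

noncomputable section

namespace Fermat.Agent.GC.Global.WRec.FinLevel

open Fermat.Agent.GC.Global Fermat.Agent.GC.Global.Adapter Fermat.Agent.GC.Global.WRec

open scoped Classical

variable (p : ℕ) [hp : Fact p.Prime] (k : ℕ) (T : Finset Nat.Primes)
  {L' : IntermediateField ℚ Qb} [FiniteDimensional ℚ L'] [IsGalois ℚ L']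

theorem Theta_nsmul (hpT : pp p ∈ T) (V : Subgroup (L' ≃ₐ[ℚ] L')) {y : J L' T}
    (hy : y ∈ JInv L' V T) (n : ℕ) :
    Theta p k L' T hpT V (n • y) = Theta p k L' T hpT V y ^ n := by
  induction n with
  | zero => rw [zero_smul, pow_zero]; exact Theta_zero p k T hpT V
  | succ n ih =>
    rw [succ_nsmul, Theta_add p k L' T hpT V ((JInv L' V T).nsmul_mem hy n) hy, ih]
    exact (pow_succ _ _).symm

/-- `Θ_{N'}(β) = Θ_{V'}(β)^[V':N']` for `β ∈ J^{V'}`, `N' ≤ V'`. -/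
theorem Theta_sub_eq_pow (hpT : pp p ∈ T) {V' N' : Subgroup (L' ≃ₐ[ℚ] L')} (hle : N' ≤ V')
    {β : J L' T} (hβ : β ∈ JInv L' V' T) :
    Theta p k L' T hpT N' β =
      Theta p k L' T hpT V' β ^ Nat.card (V' ⧸ N'.subgroupOf V') := by
  have hβN : β ∈ JInv L' N' T :=
    (mem_JInv_iff_rho L' N' T).2 fun g hg => (mem_JInv_iff_rho L' V' T).1 hβ g (hle hg)
  rw [← Theta_relNormSub p k L' T hpT hle hβN,
    relNormSub_of_isInv (isInv_iff_mem_JInv.2 hβ), Theta_nsmul p k T hpT V' hβ,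
    Nat.card_eq_fintype_card]

/-- (ii)_fin applied to `n • β`: if `n •` (class of `β` in `C^V / N_{V/V_k} C^{V_k}`) `= 0`, then
`(Θ_V(β)^n)² = 1`. -/
theorem Theta_pow_sq_eq_one_of_nsmul (hg : GoodT L' T p) (hp2 : p ≠ 2) (hpT : pp p ∈ T)
    (h : cycLayer p k ≤ L') (V : Subgroup (L' ≃ₐ[ℚ] L'))
    [((V ⊓ (Funct.gRes h).ker).subgroupOf V).Normal] (β : ↥(JInv L' V T)) (n : ℕ)
    (hn : n • JInvToNormRes T V (V ⊓ (Funct.gRes h).ker) β = 0) :
    (Theta p k L' T hpT V (β : J L' T) ^ n) ^ 2 = 1 := by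
  rw [← map_nsmul] at hn
  obtain ⟨c, hc, hcy⟩ := (JInvToNormRes_eq_zero_iff T V _ inf_le_left (n • β)).1 hn
  have := Theta_sq_eq_one_of_class_norm p k T hp2 hpT h V
    (fun c hc => exists_JInv_lift_of_goodT T hg ⟨pp p, hpT⟩ _ c hc) (n • β).2 c hc hcy.symm
  rwa [show ((n • β : ↥(JInv L' V T)) : J L' T) = n • (β : J L' T) from rfl,
    Theta_nsmul p k T hpT V β.2] at this

section Sums

variable {k₀ G M : Type*} [CommRing k₀] [Group G] [AddCommGroup M] [Module k₀ M]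
  (ρ : Representation k₀ G M)

/-- `N_{H/H'} z = ∑_{g ∈ H} g z` when `H' = ⊥`. -/
theorem relNormSub_eq_sum_of_eq_bot (H H' : Subgroup G) (hbot : H' = ⊥) [Fintype H]
    [Fintype (H ⧸ H'.subgroupOf H)] (z : M) :
    relNormSub ρ H H' z = ∑ g : H, ρ (g : G) z := by
  subst hbot
  rw [relNormSub_apply]
  have hinj : Function.Injective
      (QuotientGroup.mk : H → H ⧸ (⊥ : Subgroup G).subgroupOf H) := by
    intro a b hab
    have h1 := QuotientGroup.leftRel_apply.mp (Quotient.exact' hab)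
    rw [Subgroup.mem_subgroupOf, Subgroup.mem_bot] at h1
    have h2 : (a : G)⁻¹ * (b : G) = 1 := by simpa using h1
    exact Subtype.ext (inv_mul_eq_one.1 h2)
  have hbij : Function.Bijective
      (QuotientGroup.mk : H → H ⧸ (⊥ : Subgroup G).subgroupOf H) :=
    ⟨hinj, QuotientGroup.mk_surjective⟩
  symm
  refine Fintype.sum_bijective _ hbij _ _ fun g => ?_
  have : (QuotientGroup.mk g : H ⧸ (⊥ : Subgroup G).subgroupOf H).out = g :=
    hinj (QuotientGroup.out_eq' _)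
  rw [this]

/-- reindexing a sum over `N'.subgroupOf V'` as a sum over `N'`. -/
theorem sum_subgroupOf_eq_sum {V' N' : Subgroup G} (hle : N' ≤ V') [Fintype N']
    [Fintype (N'.subgroupOf V')] (z : M) :
    ∑ n : N'.subgroupOf V', ρ (((n : V') : G)) z = ∑ g : N', ρ (g : G) z :=
  Fintype.sum_equiv (Subgroup.subgroupOfEquivOfLe hle).toEquiv _ _ fun _ => rfl

end Sums

end Fermat.Agent.GC.Global.WRec.FinLevel
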