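/-
GATE-C / C4 GLOBAL-COH, [B']-FIN (helper14): finite-level structure of `H²(V, C(L,T))(p)`.
-/
import Mathlib
import Fermat.Agent.GC.Global.WRec.FinLevelPre
import Fermat.Agent.GC.Global.WRec.LayerSurjZeta
import Fermat.Agent.GC.Global.WRec.LayerCardZeta

set_option autoImplicit false
set_option linter.unusedSectionVars false
set_option linter.style.haveILetI false

open scoped Padic
open IntermediateField CategoryTheory

noncomputable section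

namespace Fermat.Agent.GC.Global.WRec.FinLevel

open Fermat.Agent.GC.Global Fermat.Agent.GC.Global.Adapter Fermat.Agent.GC.Global.WRec
open Fermat.Agent.GC.Local.CycH2 groupCohomology

open scoped Classical

variable (p : ℕ) [hp : Fact p.Prime] (k : ℕ) (T : Finset Nat.Primes)
  {L' : IntermediateField ℚ Qb} [FiniteDimensional ℚ L'] [IsGalois ℚ L']

/-- **(CL3)+(CL4), unconditional** (helper55 `cyclic_layer_final` + helper60 `hsurj_of_goodT_zeta`). -/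
theorem cl_all (hg : GoodT L' T p) (hp2 : p ≠ 2) (hpT : pp p ∈ T) (ζ : L')
    (hζ : IsPrimitiveRoot ζ p) (h : cycLayer p k ≤ L') (V : Subgroup (L' ≃ₐ[ℚ] L'))
    (hVζ : ∀ v ∈ V, v ζ = ζ) :
    (∀ y ∈ JInv L' V T, Theta p k L' T hpT V y ^ 2 = 1 →
        ∃ c : C L' T, IsInv (C L' T).ρ (V ⊓ (Funct.gRes h).ker) c ∧
          relNormSub (C L' T).ρ V (V ⊓ (Funct.gRes h).ker) c = (JtoC L' T).hom y) ∧
      Function.Surjective (JInvToNormRes T V (V ⊓ (Funct.gRes h).ker)) ∧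
      Nat.card (NormRes T V (V ⊓ (Funct.gRes h).ker)) =
        Nat.card (V.map ((chiG p k).comp (Funct.gRes h))) ∧
      ∀ y ∈ JInv L' V T,
        Theta p k L' T hpT V y ^ 2 ∈ V.map ((chiG p k).comp (Funct.gRes h)) :=
  cyclic_layer_final p k T hg hp2 hpT ζ hζ h V hVζ
    (hsurj_of_goodT_zeta p k T hg hp2 hpT ζ hζ h V hVζ)

/-- the kernel of `J^V → C^V/N` is the kernel of `Θ_V²`. -/
theorem ker_JInvToNormRes (hg : GoodT L' T p) (hp2 : p ≠ 2) (hpT : pp p ∈ T) (ζ : L')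
    (hζ : IsPrimitiveRoot ζ p) (h : cycLayer p k ≤ L') (V : Subgroup (L' ≃ₐ[ℚ] L'))
    (hVζ : ∀ v ∈ V, v ζ = ζ) :
    (JInvToNormRes T V (V ⊓ (Funct.gRes h).ker)).ker = (ThetaSqHom p k T hpT V).ker := by
  obtain ⟨k1, -, -, -⟩ := cl_all p k T hg hp2 hpT ζ hζ h V hVζ
  ext y
  rw [AddMonoidHom.mem_ker, AddMonoidHom.mem_ker]
  constructor
  · intro hy
    have h1 : (1 : ℕ) • JInvToNormRes T V (V ⊓ (Funct.gRes h).ker) y = 0 := by
      rw [one_smul]; exact hy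
    have := Theta_pow_sq_eq_one_of_nsmul p k T hg hp2 hpT h V y 1 h1
    rw [pow_one] at this
    rw [ThetaSqHom_apply, this]; rfl
  · intro hy
    rw [ThetaSqHom_apply] at hy
    have h1 : Theta p k L' T hpT V (y : J L' T) ^ 2 = 1 := Additive.ofMul.injective hy
    exact (JInvToNormRes_eq_zero_iff T V _ inf_le_left y).2 (k1 y y.2 h1)

/-- `C^V / N_{V/V_k} C^{V_k}` is cyclic. -/
theorem isAddCyclic_normRes (hg : GoodT L' T p) (hp2 : p ≠ 2) (hpT : pp p ∈ T) (ζ : L')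
    (hζ : IsPrimitiveRoot ζ p) (h : cycLayer p k ≤ L') (V : Subgroup (L' ≃ₐ[ℚ] L'))
    (hVζ : ∀ v ∈ V, v ζ = ζ) :
    IsAddCyclic (NormRes T V (V ⊓ (Funct.gRes h).ker)) := by
  obtain ⟨-, k2, -, -⟩ := cl_all p k T hg hp2 hpT ζ hζ h V hVζ
  haveI : IsCyclic (ZMod (p ^ (k + 1)))ˣ :=
    ZMod.isCyclic_units_of_prime_pow p hp.out hp2 (k + 1)
  let π := JInvToNormRes T V (V ⊓ (Funct.gRes h).ker)
  let f := ThetaSqHom p k T hpT V
  have hker : π.ker = f.ker := ker_JInvToNormRes p k T hg hp2 hpT ζ hζ h V hVζ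
  let e1 : (↥(JInv L' V T) ⧸ π.ker) ≃+ NormRes T V (V ⊓ (Funct.gRes h).ker) :=
    QuotientAddGroup.quotientKerEquivOfSurjective π k2
  let e2 : (↥(JInv L' V T) ⧸ π.ker) ≃+ (↥(JInv L' V T) ⧸ f.ker) :=
    QuotientAddGroup.quotientAddEquivOfEq hker
  let e3 : (↥(JInv L' V T) ⧸ f.ker) ≃+ f.range := QuotientAddGroup.quotientKerEquivRange f
  let e : f.range ≃+ NormRes T V (V ⊓ (Funct.gRes h).ker) := (e3.symm.trans e2.symm).trans e1
  exact isAddCyclic_of_surjective e.toAddMonoidHom e.surjective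

/-- a generator of the cyclic group `V / V_k`. -/
theorem exists_isGen_quotient_Vk (hp2 : p ≠ 2) (h : cycLayer p k ≤ L')
    (V : Subgroup (L' ≃ₐ[ℚ] L')) :
    ∃ (σ : V ⧸ (V ⊓ (Funct.gRes h).ker).subgroupOf V) (m : ℕ), IsGen σ m := by
  haveI := LayerCard.isCyclic_quotient_Vk p k hp2 h V
  obtain ⟨g, hg⟩ := IsCyclic.exists_generator (α := V ⧸ (V ⊓ (Funct.gRes h).ker).subgroupOf V)
  exact ⟨g, Nat.card (V ⧸ (V ⊓ (Funct.gRes h).ker).subgroupOf V), Nat.card_pos,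
    orderOf_eq_card_of_forall_mem_zpowers hg, hg⟩

/-- **(CL-COH)**: `H²(V/V_k, C(L',T)^{V_k})` is finite cyclic of order `|χ(V)|`. -/
theorem h2_layer (hg : GoodT L' T p) (hp2 : p ≠ 2) (hpT : pp p ∈ T) (ζ : L')
    (hζ : IsPrimitiveRoot ζ p) (h : cycLayer p k ≤ L') (V : Subgroup (L' ≃ₐ[ℚ] L'))
    (hVζ : ∀ v ∈ V, v ζ = ζ) :
    Finite (H2 ((CV T V).quotientToInvariants ((V ⊓ (Funct.gRes h).ker).subgroupOf V))) ∧
      IsAddCyclic (H2 ((CV T V).quotientToInvariants ((V ⊓ (Funct.gRes h).ker).subgroupOf V))) ∧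
      Nat.card (H2 ((CV T V).quotientToInvariants ((V ⊓ (Funct.gRes h).ker).subgroupOf V))) =
        Nat.card (V.map ((chiG p k).comp (Funct.gRes h))) := by
  obtain ⟨σ, m, hσ⟩ := exists_isGen_quotient_Vk p k hp2 h V
  haveI : Fintype (V ⧸ (V ⊓ (Funct.gRes h).ker).subgroupOf V) := Fintype.ofFinite _
  obtain ⟨-, -, k3, -⟩ := cl_all p k T hg hp2 hpT ζ hζ h V hVζ
  have hcyc := isAddCyclic_normRes p k T hg hp2 hpT ζ hζ h V hVζ
  haveI hfin : Finite (NormRes T V (V ⊓ (Funct.gRes h).ker)) :=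
    (LayerCard.finite_card_normRes_dvd_zeta p k T hg hp2 ζ hζ h V hVζ).1
  let e := PeriodDict.periodEquiv (CV T V) ((V ⊓ (Funct.gRes h).ker).subgroupOf V) hσ
  refine ⟨Finite.of_equiv _ e.symm.toEquiv, ?_, ?_⟩
  · exact isAddCyclic_of_surjective e.symm.toLinearMap.toAddMonoidHom e.symm.surjective
  · rw [← k3]
    exact Nat.card_congr e.toEquiv

/-- **(h4), norm form.**  `N' ≤ V` with `N' ∩ Gal(L'/M_k) = 1` and `p^a ∣ [V : N']`: a `V`-invariant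
idele `β` whose class in `C^V/N_{V/V_k}C^{V_k}` is killed by `p^a` has `JtoC β ∈ N_{N'}(C)`. -/
theorem exists_norm_rep_of_torsion (hg : GoodT L' T p) (hp2 : p ≠ 2) (hpT : pp p ∈ T) (ζ : L')
    (hζ : IsPrimitiveRoot ζ p) (h : cycLayer p k ≤ L') (V : Subgroup (L' ≃ₐ[ℚ] L'))
    (hVζ : ∀ v ∈ V, v ζ = ζ) (N' : Subgroup (L' ≃ₐ[ℚ] L')) (hle : N' ≤ V)
    (hbot : N' ⊓ (Funct.gRes h).ker = ⊥) {a : ℕ}
    (ha : p ^ a ∣ Nat.card (V ⧸ N'.subgroupOf V)) (β : ↥(JInv L' V T))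
    (h1 : p ^ a • JInvToNormRes T V (V ⊓ (Funct.gRes h).ker) β = 0) :
    ∃ z : C L' T, ∑ n : N'.subgroupOf V, (CV T V).ρ (n : V) z = (JtoC L' T).hom (β : J L' T) := by
  have h2 := Theta_pow_sq_eq_one_of_nsmul p k T hg hp2 hpT h V β (p ^ a) h1
  -- hence `Θ_{N'}(β)² = 1`
  obtain ⟨c, hc⟩ := ha
  have h3 : Theta p k L' T hpT N' (β : J L' T) ^ 2 = 1 := by
    rw [Theta_sub_eq_pow p k T hpT hle β.2, hc, pow_mul, ← pow_mul, mul_comm, pow_mul, h2,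
      one_pow]
  -- (CL4) for `N'`
  have hN'ζ : ∀ v ∈ N', v ζ = ζ := fun v hv => hVζ v (hle hv)
  obtain ⟨k1', -, -, -⟩ := cl_all p k T hg hp2 hpT ζ hζ h N' hN'ζ
  have hβN : (β : J L' T) ∈ JInv L' N' T :=
    (mem_JInv_iff_rho L' N' T).2 fun g hg => (mem_JInv_iff_rho L' V T).1 β.2 g (hle hg)
  obtain ⟨z, -, hz⟩ := k1' β hβN h3
  refine ⟨z, ?_⟩
  rw [relNormSub_eq_sum_of_eq_bot (C L' T).ρ N' _ hbot z] at hz
  rw [← hz]
  exact sum_subgroupOf_eq_sum (C L' T).ρ hle z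

end Fermat.Agent.GC.Global.WRec.FinLevel
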