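/-
GATE-C / (NC)_ℚ (helper59): the finite-level LOCALISATION of a global Brauer class.

For a finite Galois layer `L ⊂ Qbar` and a prime `q`:
* `locEmbU q L : Res_{decHom} (Lˣ) ⟶ L_qˣ` — the embedding `ι = padicEmbedding q` on units, equivariant
  along the decomposition homomorphism `decHom q L : Gal(L_q/ℚ_q) →* Gal(L/ℚ)`;
* `locBr q L n : Hⁿ(Gal(L/ℚ), Lˣ) ⟶ Hⁿ(Gal(L_q/ℚ_q), L_qˣ)` — restriction to the decomposition group
  (ONE Mathlib `groupCohomology.map`).

These are the objects in which the finite-level reciprocity statement (HASSE-FIN) is phrased: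
a `p`-torsion class `c ∈ H²(Gal(L/ℚ), Lˣ)` with `locBr q L 2 c = 0` for all `q ≠ v` has
`locBr v L 2 c = 0`.
-/
import Mathlib
import Fermat.Agent.GC.Global.Model

set_option autoImplicit false
set_option linter.unusedSectionVars false

open CategoryTheory groupCohomology
open scoped Padic

noncomputable section

namespace Fermat.Agent.GC.Global.LocBr

open Fermat.Agent.GC.Global

variable (q : ℕ) [Fact q.Prime] (L : IntermediateField ℚ Qb) [Normal ℚ L]

/-- `ι` on units, as an additive map `Lˣ → L_qˣ`. -/
def locEmbUAdd : Additive Lˣ →+ Additive (locField q L)ˣ :=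
  MonoidHom.toAdditive (Units.map (locEmb q L).toMonoidHom)

@[simp] lemma coe_locEmbUAdd (x : Additive Lˣ) :
    (((locEmbUAdd q L x).toMul : (locField q L)ˣ) : locField q L) =
      locEmb q L ((x.toMul : Lˣ) : L) := rfl

lemma locEmbUAdd_injective : Function.Injective (locEmbUAdd q L) := by
  intro x y h
  apply Additive.toMul.injective
  apply Units.ext
  apply locEmb_injective q L
  have := congrArg (fun z : Additive (locField q L)ˣ => ((z.toMul : (locField q L)ˣ) : locField q L)) h
  exact this

/-- `ι : Lˣ → L_qˣ` as a morphism of `Gal(L_q/ℚ_q)`-modules (`Lˣ` restricted along `decHom`). -/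
def locEmbU : Rep.res (decHom q L) (globUnits L) ⟶ locUnits q L :=
  Rep.ofHom ⟨(locEmbUAdd q L).toIntLinearMap, fun d => by
    refine LinearMap.ext fun (x : Additive Lˣ) => ?_
    apply Additive.toMul.injective
    apply Units.ext
    show locEmb q L (decHom q L d ((x.toMul : Lˣ) : L)) = d (locEmb q L ((x.toMul : Lˣ) : L))
    exact locEmb_decHom q L d _⟩

@[simp] lemma locEmbU_hom_apply (x : Additive Lˣ) :
    (locEmbU q L).hom x = locEmbUAdd q L x := rfl

/-- **Localisation at `q`** of a class of `Gal(L/ℚ)` with values in `Lˣ`: restriction to the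
decomposition group followed by `ι`. -/
def locBr (n : ℕ) : groupCohomology (globUnits L) n ⟶ groupCohomology (locUnits q L) n :=
  groupCohomology.map (decHom q L) (locEmbU q L) n

/-- Cocycle-level description of `locBr` in degree 2. -/
lemma locBr_H2π (f : cocycles₂ (globUnits L)) :
    locBr q L 2 (H2π (globUnits L) f) =
      H2π (locUnits q L) (mapCocycles₂ (decHom q L) (locEmbU q L) f) := by
  have := congr($(H2π_comp_map (decHom q L) (locEmbU q L)) f)
  simp only [ModuleCat.hom_comp, LinearMap.comp_apply] at this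
  exact this

lemma mapCocycles₂_locEmbU_apply (f : cocycles₂ (globUnits L))
    (d₁ d₂ : locField q L ≃ₐ[ℚ_[q]] locField q L) :
    (mapCocycles₂ (decHom q L) (locEmbU q L) f : _ × _ → locUnits q L) (d₁, d₂) =
      locEmbUAdd q L (f (decHom q L d₁, decHom q L d₂)) := rfl

end Fermat.Agent.GC.Global.LocBr
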