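/-
GATE-C / C4 (helper67): the explicit reciprocity functional does not depend on the set of places.

For `S ⊆ T` (both containing `p`): `Θ^T_V (extJ y) = Θ^S_V y` for every `y ∈ J(L,S)`; the local
symbols `psiLoc` at a place `r ∈ S` computed over `S` and over `T` agree; in particular
`Θ^S_V (singleIdele_S b) = Θ^T_V (singleIdele_T b)`.
-/
import Mathlib
import Fermat.Agent.GC.Global.WRec.LocImageExtTors

set_option autoImplicit false
set_option linter.unusedSectionVars false

open scoped Padic
open IntermediateField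

noncomputable section

namespace Fermat.Agent.GC.Global.WRec

open Fermat.Agent.GC.Global Fermat.Agent.GC.Global.Adapter Fermat.Agent.GC.Global.Funct

section Indep

open scoped Classical

variable (p : ℕ) [hp : Fact p.Prime] (k : ℕ) {S T : Finset Nat.Primes}
variable (L : IntermediateField ℚ Qb) [FiniteDimensional ℚ L] [IsGalois ℚ L]

/-- the inclusion `S → T`. -/
def inclST (hST : S ⊆ T) (s : S) : T := ⟨(s : Nat.Primes), hST s.2⟩

theorem inclST_injective (hST : S ⊆ T) : Function.Injective (inclST hST) := by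
  intro a b hab
  apply Subtype.ext
  exact congrArg (fun x : T => (x : Nat.Primes)) hab

theorem evalTop_extJ_incl (hST : S ⊆ T) (z : J L S) (s : S) :
    evalTop L T (extJ L S T z) (inclST hST s) = evalTop L S z s := by
  unfold evalTop
  have h : extJ L S T z (inclST hST s) = z s := extJ_apply_of_mem L z (inclST hST s) s.2
  rw [h]
  rfl

theorem evalTop_extJ_of_not_mem (z : J L S) (q' : T) (h : (q' : Nat.Primes) ∉ S) :
    evalTop L T (extJ L S T z) q' = 1 := by
  unfold evalTop
  rw [extJ_apply_of_not_mem L z q' h]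
  exact descend_one _ _

/-- `thetaQ` over `T` of an `S`-supported family is `thetaQ` over `S`. -/
theorem thetaQ_of_incl (hST : S ⊆ T) (hpS : pp p ∈ S) (hpT : pp p ∈ T)
    (a : ∀ q : T, ℚ_[((q : Nat.Primes) : ℕ)]ˣ) (a' : ∀ q : S, ℚ_[((q : Nat.Primes) : ℕ)]ˣ)
    (h1 : ∀ s : S, a (inclST hST s) = a' s)
    (h2 : ∀ q' : T, (q' : Nat.Primes) ∉ S → a q' = 1) :
    thetaQ p k T hpT a = thetaQ p k S hpS a' := by
  rw [thetaQ_apply, thetaQ_apply]
  congr 1
  · symm
    refine Fintype.prod_of_injective (inclST hST) (inclST_injective hST) _ _ ?_ ?_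
    · intro q' hq'
      have : (q' : Nat.Primes) ∉ S := by
        intro hmem
        exact hq' ⟨⟨(q' : Nat.Primes), hmem⟩, Subtype.ext rfl⟩
      rw [h2 q' this, map_one]
    · intro s
      rw [h1 s]
      rfl
  · congr 1
    exact h1 ⟨pp p, hpS⟩

/-- **`Θ` does not depend on the set of places**: `Θ^T_V (extJ y) = Θ^S_V y`. -/
theorem Theta_extJ (hST : S ⊆ T) (hpS : pp p ∈ S) (hpT : pp p ∈ T)
    (V : Subgroup (L ≃ₐ[ℚ] L)) (y : J L S) :
    Theta p k L T hpT V (extJ L S T y) = Theta p k L S hpS V y := by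
  unfold Theta
  rw [← extJ_relNorm]
  exact thetaQ_of_incl p k hST hpS hpT _ _
    (fun s => evalTop_extJ_incl L hST _ s)
    (fun q' h => evalTop_extJ_of_not_mem L _ q' h)

/-- `Θ` of a single-place idele over `S` and over `T`. -/
theorem Theta_singleIdele_indep (hST : S ⊆ T) (hpS : pp p ∈ S) (hpT : pp p ∈ T)
    (V : Subgroup (L ≃ₐ[ℚ] L)) (r : Nat.Primes) (hrS : r ∈ S) (s : L ≃ₐ[ℚ] L)
    (b : (locField (r : ℕ) L)ˣ)
    (hb : ∀ d ∈ decSub L r V s,
      Units.map ((d : LocGal L r) : locField (r : ℕ) L →* locField (r : ℕ) L) b = b) :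
    Theta p k L T hpT V (singleIdele L T V ⟨r, hST hrS⟩ s b hb)
      = Theta p k L S hpS V (singleIdele L S V ⟨r, hrS⟩ s b hb) := by
  rw [← extJ_singleIdele L hST V r hrS s b hb]
  exact Theta_extJ p k L hST hpS hpT V _

end Indep

end Fermat.Agent.GC.Global.WRec
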