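/-
GATE-C / C4 (GH-w), leaf (N3) (helper60): the unramified norm lemma for the cyclotomic layers.
For `q ≠ p` and `x ∈ ℚ_q(ζ_{p^(k+1)})ˣ`: `q ^ v_q (N x) = 1` in `(ℤ/p^(k+1))ˣ`.
-/
import Mathlib
import Fermat.Agent.GC.Local.NormVal
import Fermat.Agent.GC.Global.WRec.ProductFormulaQ

set_option autoImplicit false

open scoped Padic

noncomputable section

namespace Fermat.Agent.GC.Global.WRec

open Fermat.Agent.GC.Global Fermat.Agent.GC.Local

variable (p : ℕ) [hp : Fact p.Prime] (k : ℕ)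

/-- **(N3)** for a prime number `q ≠ p` (binder `q : ℕ`). -/
theorem unitOfCoprime_zpow_valuation_norm_cycLayer (q : ℕ) [Fact q.Prime]
    (hN : q.Coprime (p ^ (k + 1))) (x : locField q (cycLayer p k)) (hx : x ≠ 0) :
    (ZMod.unitOfCoprime q hN) ^ (Algebra.norm ℚ_[q] x).valuation = 1 :=
  unitOfCoprime_zpow_valuation_norm q (locField q (cycLayer p k)) hN
    (pow_pos hp.out.pos _) (zetaLoc_spec p k q) x hx

/-- **(N3)** in the `resUnit` language of `ProductFormulaQ.lean`. -/
theorem resUnit_zpow_valuation_norm (q : Nat.Primes) (hqp : (q : ℕ) ≠ p)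
    (x : (locField (q : ℕ) (cycLayer p k))ˣ) :
    resUnit p k q ^
      (Algebra.norm ℚ_[(q : ℕ)] ((x : (locField (q : ℕ) (cycLayer p k))ˣ) :
        locField (q : ℕ) (cycLayer p k))).valuation = 1 := by
  have hN : (q : ℕ).Coprime (p ^ (k + 1)) :=
    Nat.Coprime.pow_right _ ((Nat.coprime_primes q.2 hp.out).mpr hqp)
  have h := unitOfCoprime_zpow_valuation_norm_cycLayer p k (q : ℕ) hN
    ((x : (locField (q : ℕ) (cycLayer p k))ˣ) : locField (q : ℕ) (cycLayer p k)) x.ne_zero
  have hres : resUnit p k q = ZMod.unitOfCoprime (q : ℕ) hN := by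
    rw [resUnit, dif_neg hqp]
  rw [hres]
  exact h

end Fermat.Agent.GC.Global.WRec
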