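/-
GATE-C / (NC)_ℚ: inflation along a tower of layers `L ≤ L'` in `groupCohomology.map` language and
its compatibility with the local components `locClassJ` (helper3).

* `inflJRep h T : Res_{gRes h} J(L,T) ⟶ J(L',T)`, `inflCRep h T`, `lInclURep h q : Res_{lRes} L_qˣ ⟶ L'_qˣ`
  (helper80's `inflJ`, `inflC`, `lInclU` as compatible pairs);
* `inflH2J`, `inflH2C`, `inflH2Loc` : the induced inflation maps on `H²`;
* `inflH2J_comp_locClassJ` : `loc_q ∘ infl = infl_q ∘ loc_q`;
* `inflH2J_comp_JtoC` : `λ' ∘ infl = infl ∘ λ`  (`λ = (JtoC)_*`).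
-/
import Mathlib
import Fermat.Agent.GC.Global.WRec.NCFinTopCoh
import Fermat.Agent.GC.Global.Funct.ClassFunct

set_option autoImplicit false
set_option linter.unusedSectionVars false

open scoped Padic
open CategoryTheory IntermediateField groupCohomology
open Fermat.Agent.GC.Global Fermat.Agent.GC.Global.Adapter Fermat.Agent.GC.Global.Funct

noncomputable section

namespace Fermat.Agent.GC.Global.WRec.NCFinInfl

open Fermat.Agent.GC.Global.WRec Fermat.Agent.GC.Global.WRec.NCFinLoc
  Fermat.Agent.GC.Global.WRec.NCFinTopCoh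

variable {L L' : IntermediateField ℚ Qb} [FiniteDimensional ℚ L] [IsGalois ℚ L]
  [FiniteDimensional ℚ L'] [IsGalois ℚ L'] (h : L ≤ L') (T : Finset Nat.Primes)

/-- helper80's inflation `J(L,T) → J(L',T)` as a compatible pair for `gRes h`. -/
def inflJRep : Rep.res (gRes h) (J L T) ⟶ J L' T :=
  Rep.ofHom ⟨inflJ h T, fun g' => LinearMap.ext fun y => inflJ_rho h T g' y⟩

lemma inflJRep_hom_apply (y : J L T) : (inflJRep h T).hom y = inflJ h T y := rfl

/-- helper80's inflation `C(L,T) → C(L',T)` as a compatible pair for `gRes h`. -/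
def inflCRep : Rep.res (gRes h) (C L T) ⟶ C L' T :=
  Rep.ofHom ⟨inflC h T, fun g' => LinearMap.ext fun c => inflC_rho h T g' c⟩

lemma inflCRep_hom_apply (c : C L T) : (inflCRep h T).hom c = inflC h T c := rfl

/-- the inclusion `L_qˣ → L'_qˣ` as a compatible pair for `lRes q h`. -/
def lInclURep (q : Nat.Primes) :
    Rep.res (lRes (q : ℕ) h) (locUnits (q : ℕ) L) ⟶ locUnits (q : ℕ) L' :=
  Rep.ofHom ⟨(MonoidHom.toAdditive (lInclU h q)).toIntLinearMap, fun d' => by
    refine LinearMap.ext fun x => ?_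
    apply Additive.toMul.injective
    apply Units.ext
    exact (GalRes.apply_res (lIncl (q : ℕ) h) d'
      ((Additive.toMul x : (locField (q : ℕ) L)ˣ) : locField (q : ℕ) L))⟩

lemma lInclURep_hom_apply (q : Nat.Primes) (x : Additive (locField (q : ℕ) L)ˣ) :
    (lInclURep h q).hom x = Additive.ofMul (lInclU h q (Additive.toMul x)) := rfl

/-- inflation `H²(Gal(L/ℚ), J(L,T)) → H²(Gal(L'/ℚ), J(L',T))`. -/
def inflH2J : groupCohomology (J L T) 2 ⟶ groupCohomology (J L' T) 2 :=
  groupCohomology.map (gRes h) (inflJRep h T) 2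

/-- inflation `H²(Gal(L/ℚ), C(L,T)) → H²(Gal(L'/ℚ), C(L',T))`. -/
def inflH2C : groupCohomology (C L T) 2 ⟶ groupCohomology (C L' T) 2 :=
  groupCohomology.map (gRes h) (inflCRep h T) 2

/-- local inflation `H²(Gal(L_q/ℚ_q), L_qˣ) → H²(Gal(L'_q/ℚ_q), L'_qˣ)`. -/
def inflH2Loc (q : Nat.Primes) :
    groupCohomology (locUnits (q : ℕ) L) 2 ⟶ groupCohomology (locUnits (q : ℕ) L') 2 :=
  groupCohomology.map (lRes (q : ℕ) h) (lInclURep h q) 2

/-- **`loc_q ∘ infl = infl_q ∘ loc_q`**. -/
theorem inflH2J_comp_locClassJ (q : T) :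
    inflH2J h T ≫ locClassJ L' T q = locClassJ L T q ≫ inflH2Loc h (q : Nat.Primes) := by
  unfold inflH2J locClassJ inflH2Loc
  rw [← groupCohomology.map_comp, ← groupCohomology.map_comp]
  apply groupCohomology.map_congr
  · exact MonoidHom.ext fun d' => (decHom_lRes ((q : Nat.Primes) : ℕ) h d').symm
  · refine LinearMap.ext fun y => ?_
    show evq L' T q (inflJ h T y) = (lInclURep h (q : Nat.Primes)).hom (evq L T q y)
    rw [evq_apply, evq_apply, inflJ_apply]
    apply Additive.toMul.injective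
    show JqCarrier.val L' q (inflJq h (q : Nat.Primes) (y q)) 1 =
      lInclU h (q : Nat.Primes) (JqCarrier.val L q (y q) 1)
    rw [val_inflJq, map_one]

theorem locClassJ_inflH2J (q : T) (y : groupCohomology (J L T) 2) :
    (locClassJ L' T q).hom ((inflH2J h T).hom y) =
      (inflH2Loc h (q : Nat.Primes)).hom ((locClassJ L T q).hom y) := by
  have := congrArg (fun f => f.hom y) (inflH2J_comp_locClassJ h T q)
  exact this

/-- **`λ' ∘ infl = infl ∘ λ`**, `λ = (JtoC)_*`. -/
theorem inflH2J_comp_JtoC :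
    inflH2J h T ≫ groupCohomology.map (MonoidHom.id (L' ≃ₐ[ℚ] L')) (JtoC L' T) 2 =
      groupCohomology.map (MonoidHom.id (L ≃ₐ[ℚ] L)) (JtoC L T) 2 ≫ inflH2C h T := by
  unfold inflH2J inflH2C
  rw [← groupCohomology.map_comp, ← groupCohomology.map_comp]
  apply groupCohomology.map_congr
  · rfl
  · refine LinearMap.ext fun y => ?_
    rfl

theorem JtoC_inflH2J (y : groupCohomology (J L T) 2) :
    (groupCohomology.map (MonoidHom.id (L' ≃ₐ[ℚ] L')) (JtoC L' T) 2).hom ((inflH2J h T).hom y) =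
      (inflH2C h T).hom
        ((groupCohomology.map (MonoidHom.id (L ≃ₐ[ℚ] L)) (JtoC L T) 2).hom y) := by
  have := congrArg (fun f => f.hom y) (inflH2J_comp_JtoC h T)
  exact this

end Fermat.Agent.GC.Global.WRec.NCFinInfl
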