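/-
GATE-C / (NC)_ℚ: LOCAL INFLATION IS INJECTIVE, in `groupCohomology.map` language (helper3).

For layers `L ≤ L'` the inflation `inflH2Loc h q : H²(Gal(L_q/ℚ_q), L_qˣ) → H²(Gal(L'_q/ℚ_q), L'_qˣ)`
is injective: both groups inflate injectively to `Br(ℚ_q) = Hlc²(G_{ℚ_q}, Ω^×)` (helper81's `inflBr`,
Hilbert 90), compatibly.
-/
import Mathlib
import Fermat.Agent.GC.Global.WRec.NCFinInfl
import Fermat.Agent.GC.Local.Abs.BrauerLow
import Fermat.Agent.GC.Local.KrasnerDec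

set_option autoImplicit false
set_option linter.unusedSectionVars false

open scoped Padic
open CategoryTheory IntermediateField groupCohomology
open Fermat.Agent.GC.Global Fermat.Agent.GC.Global.Adapter Fermat.Agent.GC.Global.Funct
open Fermat.Agent.GC.Local.Abs

noncomputable section

namespace Fermat.Agent.GC.Global.WRec.NCFinInfl

variable {L L' : IntermediateField ℚ Qb} [FiniteDimensional ℚ L] [IsGalois ℚ L]
  [FiniteDimensional ℚ L'] [IsGalois ℚ L'] (h : L ≤ L') (q : Nat.Primes)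

/-- restriction to `L_q` factors through restriction to `L'_q`. -/
lemma lRes_resN (g : PadicAlgCl (q : ℕ) ≃ₐ[ℚ_[(q : ℕ)]] PadicAlgCl (q : ℕ)) :
    lRes (q : ℕ) h (resN ℚ_[(q : ℕ)] (locField (q : ℕ) L') (PadicAlgCl (q : ℕ)) g) =
      resN ℚ_[(q : ℕ)] (locField (q : ℕ) L) (PadicAlgCl (q : ℕ)) g := by
  refine AlgEquiv.ext fun x => ?_
  apply (algebraMap (locField (q : ℕ) L) (PadicAlgCl (q : ℕ))).injective
  rw [resN_commutes]
  have h1 : algebraMap (locField (q : ℕ) L) (PadicAlgCl (q : ℕ))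
      (lRes (q : ℕ) h (resN ℚ_[(q : ℕ)] (locField (q : ℕ) L') (PadicAlgCl (q : ℕ)) g) x) =
      algebraMap (locField (q : ℕ) L') (PadicAlgCl (q : ℕ))
        (lIncl (q : ℕ) h (lRes (q : ℕ) h
          (resN ℚ_[(q : ℕ)] (locField (q : ℕ) L') (PadicAlgCl (q : ℕ)) g) x)) := rfl
  rw [h1, GalRes.apply_res (lIncl (q : ℕ) h), resN_commutes]
  rfl

/-- **compatibility of the two inflations to the Brauer group.** -/
theorem inflBr_inflH2Loc (x : groupCohomology (locUnits (q : ℕ) L) 2) :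
    inflBr ℚ_[(q : ℕ)] (locField (q : ℕ) L') (PadicAlgCl (q : ℕ)) 2 ((inflH2Loc h q).hom x) =
      inflBr ℚ_[(q : ℕ)] (locField (q : ℕ) L) (PadicAlgCl (q : ℕ)) 2 x := by
  have hgal : IsGalois ℚ_[(q : ℕ)] (PadicAlgCl (q : ℕ)) :=
    Fermat.Agent.GC.Local.KR.isGalois_padicAlgCl (q : ℕ)
  induction x using H2_induction_on with
  | h z =>
    have h1 : (inflH2Loc h q).hom (H2π (locUnits (q : ℕ) L) z) =
        H2π (locUnits (q : ℕ) L') (mapCocycles₂ (lRes (q : ℕ) h) (lInclURep h q) z) :=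
      H2π_comp_map_apply (lRes (q : ℕ) h) (lInclURep h q) z
    rw [h1, inflBr_H2π, inflBr_H2π]
    congr 1
    apply Subtype.ext
    funext p
    show inflCoc₂ ℚ_[(q : ℕ)] (locField (q : ℕ) L') (PadicAlgCl (q : ℕ)) _ (p.1, p.2) =
      inflCoc₂ ℚ_[(q : ℕ)] (locField (q : ℕ) L) (PadicAlgCl (q : ℕ)) _ (p.1, p.2)
    rw [inflCoc₂_apply, inflCoc₂_apply]
    apply Additive.toMul.injective
    apply Units.ext
    show algebraMap (locField (q : ℕ) L') (PadicAlgCl (q : ℕ))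
        (lIncl (q : ℕ) h ((Additive.toMul ((z : _ × _ → _)
          (lRes (q : ℕ) h (resN ℚ_[(q : ℕ)] (locField (q : ℕ) L') (PadicAlgCl (q : ℕ)) p.1),
           lRes (q : ℕ) h (resN ℚ_[(q : ℕ)] (locField (q : ℕ) L') (PadicAlgCl (q : ℕ)) p.2))) :
            (locField (q : ℕ) L)ˣ) : locField (q : ℕ) L)) = _
    rw [lRes_resN, lRes_resN]
    rfl

/-- **local inflation is injective** (Hilbert 90). -/
theorem inflH2Loc_injective : Function.Injective (inflH2Loc h q).hom := by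
  have hgal : IsGalois ℚ_[(q : ℕ)] (PadicAlgCl (q : ℕ)) :=
    Fermat.Agent.GC.Local.KR.isGalois_padicAlgCl (q : ℕ)
  intro x y hxy
  apply inflBr_two_injective ℚ_[(q : ℕ)] (locField (q : ℕ) L) (PadicAlgCl (q : ℕ))
  rw [← inflBr_inflH2Loc h q x, ← inflBr_inflH2Loc h q y, hxy]

theorem inflH2Loc_eq_zero_iff (x : groupCohomology (locUnits (q : ℕ) L) 2) :
    (inflH2Loc h q).hom x = 0 ↔ x = 0 := by
  constructor
  · intro hx
    apply inflH2Loc_injective h q
    rw [hx, map_zero]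
  · rintro rfl
    exact map_zero _

end Fermat.Agent.GC.Global.WRec.NCFinInfl
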