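/-
GATE-C / (NC)_ℚ at the finite cyclotomic level, LOCAL-COMPONENT half (helper3), in helper55's
`Theta` / helper14's `Model` language.

`L` a layer with `Γ = Gal(L/ℚ) = ⟨σ⟩` cyclic of order `m` (in use: `L = cycLayer p k`), `f` a 2-cocycle
of `Γ` with values in the `T`-ideles `J L T`.
* `evq q`, `locCocycleQ q f` : evaluation at `1` of the `q`-component and the SHAPIRO COMPONENT
  cocycle `(δ₁, δ₂) ↦ (f (dec δ₁, dec δ₂) q)(1)` of `Gal(L_q/ℚ_q)` in `L_qˣ`;
* `exists_eq_evalTop_mul_norm` : the periodicity invariant of the Shapiro component is the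
  `q`-component of the global periodicity invariant `gam σ m f ∈ J(L,T)^Γ`, up to a LOCAL NORM;
* `psi_evalTop_eq_one` / `psi_evalTop_sq_ne_one` : consequences for a symbol `ψ` on `ℚ_qˣ` whose
  kernel is the local norm group;
* **`thetaQ_gam_sq_ne_one`** : if the Shapiro components of `f` vanish outside `q₀` and the component
  at `q₀` is a NONZERO class killed by the odd prime `p`, then `thetaQ (evalTop (gam σ m f))² ≠ 1`.
Together with helper55's (CL2) [`Theta` kills `T`-units and norms, up to sign] this is the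
contradiction proving (NC) at finite level.
-/
import Mathlib
import Fermat.Agent.GC.Global.WRec.Theta
import Fermat.Agent.GC.Local.CycH2Loc
import Fermat.Agent.GC.Local.NCLocal

set_option autoImplicit false
set_option linter.unusedSectionVars false

open scoped Padic
open IntermediateField groupCohomology
open Fermat.Agent.GC.Global Fermat.Agent.GC.Global.Adapter
open Fermat.Agent.GC.Local.CycH2 Fermat.Agent.GC.Local.NCLocal Fermat.Agent.GC.Local.InvLowerField

noncomputable section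

namespace Fermat.Agent.GC.Global.WRec.NCFinLoc

open Fermat.Agent.GC.Global.WRec

variable (L : IntermediateField ℚ Qb) [FiniteDimensional ℚ L] [IsGalois ℚ L]
  (T : Finset Nat.Primes)

/-- evaluation of the `q`-component of an idele at `1 ∈ G_L`. -/
def evq (q : T) : (J L T).V →ₗ[ℤ] (locUnits ((q : Nat.Primes) : ℕ) L).V where
  toFun y := (y q : JqCarrier L q).1 1
  map_add' _ _ := rfl
  map_smul' _ _ := rfl

lemma evq_apply (q : T) (y : J L T) : evq L T q y = (y q : JqCarrier L q).1 1 := rfl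

/-- evaluation at `1` is equivariant for the decomposition group. -/
lemma evq_equivariant (q : T)
    (δ : locField ((q : Nat.Primes) : ℕ) L ≃ₐ[ℚ_[((q : Nat.Primes) : ℕ)]]
      locField ((q : Nat.Primes) : ℕ) L) (y : J L T) :
    evq L T q ((J L T).ρ (decHom ((q : Nat.Primes) : ℕ) L δ) y) =
      (locUnits ((q : Nat.Primes) : ℕ) L).ρ δ (evq L T q y) := by
  have h := JqCarrier_apply_decHom L q (y q) δ 1
  rw [mul_one] at h
  rw [evq_apply, evq_apply, ← h]
  show (y q : JqCarrier L q).1 (1 * decHom ((q : Nat.Primes) : ℕ) L δ) = _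
  rw [one_mul]

/-- the Shapiro component at `q` of a 2-cocycle with values in the ideles. -/
def locCocycleQ (q : T) (f : cocycles₂ (J L T)) :
    cocycles₂ (locUnits ((q : Nat.Primes) : ℕ) L) :=
  locCocycle (dec := decHom ((q : Nat.Primes) : ℕ) L) (ev := evq L T q) (evq_equivariant L T q) f

lemma locCocycleQ_apply (q : T) (f : cocycles₂ (J L T))
    (δ₁ δ₂ : locField ((q : Nat.Primes) : ℕ) L ≃ₐ[ℚ_[((q : Nat.Primes) : ℕ)]]
      locField ((q : Nat.Primes) : ℕ) L) :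
    (locCocycleQ L T q f : _ × _ → _) (δ₁, δ₂) =
      ((f : _ × _ → J L T) (decHom ((q : Nat.Primes) : ℕ) L δ₁,
        decHom ((q : Nat.Primes) : ℕ) L δ₂) q : JqCarrier L q).1 1 := rfl

variable {L T}
variable {σ : L ≃ₐ[ℚ] L} {m : ℕ}

/-- the global periodicity invariant is a `G_L`-invariant idele. -/
lemma gam_mem_JInv (hσ : IsGen σ m) (f : cocycles₂ (J L T)) :
    gam σ m (f : _ × _ → J L T) ∈ JInv L ⊤ T := by
  rw [mem_JInv_iff_rho]
  intro h _
  exact smul_gam_cocycles₂ hσ f h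

/-- **local vs global periodicity invariants**: the invariant `b'` of the Shapiro component at `q`
is the `q`-component of the global invariant times a local norm. -/
theorem exists_eq_evalTop_mul_norm (hσ : IsGen σ m) (f : cocycles₂ (J L T)) (q : T)
    {δ : locField ((q : Nat.Primes) : ℕ) L ≃ₐ[ℚ_[((q : Nat.Primes) : ℕ)]]
      locField ((q : Nat.Primes) : ℕ) L} {d e : ℕ} (hδ : IsGen δ e)
    (hdec : decHom ((q : Nat.Primes) : ℕ) L δ = σ ^ d) (hde : d * e = m)
    (b' : ℚ_[((q : Nat.Primes) : ℕ)]ˣ)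
    (hb' : baseElt ℚ_[((q : Nat.Primes) : ℕ)] (locField ((q : Nat.Primes) : ℕ) L) b' =
      gam δ e (locCocycleQ L T q f : _ × _ → _)) :
    ∃ y : (locField ((q : Nat.Primes) : ℕ) L)ˣ,
      (b' : ℚ_[((q : Nat.Primes) : ℕ)]) =
        (evalTop L T (gam σ m (f : _ × _ → J L T)) q : ℚ_[((q : Nat.Primes) : ℕ)]) *
          Algebra.norm ℚ_[((q : Nat.Primes) : ℕ)] (y : locField ((q : Nat.Primes) : ℕ) L) := by
  obtain ⟨y₀, hy₀⟩ := exists_gam_loc_eq (dec := decHom ((q : Nat.Primes) : ℕ) L)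
    (ev := evq L T q) (evq_equivariant L T q) hσ f hdec hde
  refine ⟨Additive.toMul y₀, ?_⟩
  apply (algebraMap ℚ_[((q : Nat.Primes) : ℕ)] (locField ((q : Nat.Primes) : ℕ) L)).injective
  rw [map_mul, ← coe_toMul_nrmLin hδ y₀]
  have h1 : gam δ e (locCocycleQ L T q f : _ × _ → _) =
      evq L T q (gam σ m (f : _ × _ → J L T)) +
        nrmLin (locUnits ((q : Nat.Primes) : ℕ) L) δ e y₀ := hy₀
  rw [← hb'] at h1
  have h2 := baseUnits_evalTop (gam_mem_JInv hσ f) q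
  have h3 := congrArg (fun z : Additive (locField ((q : Nat.Primes) : ℕ) L)ˣ =>
    ((Additive.toMul z : (locField ((q : Nat.Primes) : ℕ) L)ˣ) :
      locField ((q : Nat.Primes) : ℕ) L)) h1
  have h4 := congrArg (fun u : (locField ((q : Nat.Primes) : ℕ) L)ˣ =>
    (u : locField ((q : Nat.Primes) : ℕ) L)) h2
  simp only [coe_baseUnits] at h4
  rw [h4]
  exact h3


section PerPlace

variable {U : Type*} [Group U] (q : T) (ψ : ℚ_[((q : Nat.Primes) : ℕ)]ˣ →* U)

/-- **(a)** if the Shapiro component at `q` is trivial, the symbol `ψ` (killing local norms) of the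
`q`-component of the global invariant is trivial. -/
theorem psi_evalTop_eq_one
    (hnorm : ∀ (b : ℚ_[((q : Nat.Primes) : ℕ)]ˣ) (y : (locField ((q : Nat.Primes) : ℕ) L)ˣ),
      (b : ℚ_[((q : Nat.Primes) : ℕ)]) = Algebra.norm ℚ_[((q : Nat.Primes) : ℕ)]
        (y : locField ((q : Nat.Primes) : ℕ) L) → ψ b = 1)
    (hσ : IsGen σ m) (f : cocycles₂ (J L T))
    (hzero : H2π (locUnits ((q : Nat.Primes) : ℕ) L) (locCocycleQ L T q f) = 0) :
    ψ (evalTop L T (gam σ m (f : _ × _ → J L T)) q) = 1 := by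
  obtain ⟨δ, d, e, hδ, hdec, hde⟩ := exists_isGen_of_injective hσ
    (decHom ((q : Nat.Primes) : ℕ) L) (decHom_injective ((q : Nat.Primes) : ℕ) L)
  obtain ⟨b', hb'⟩ := exists_baseElt_eq_gam hδ (locCocycleQ L T q f)
  obtain ⟨y, hy⟩ := exists_eq_evalTop_mul_norm hσ f q hδ hdec hde b' hb'
  obtain ⟨y', hy'⟩ := (H2π_eq_zero_iff_norm hδ _ b' hb').1 hzero
  have h1 : ψ b' = 1 := hnorm b' y' hy'
  have hu : b' = evalTop L T (gam σ m (f : _ × _ → J L T)) q * Units.map (Algebra.norm ℚ_[((q : Nat.Primes) : ℕ)] :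
      locField ((q : Nat.Primes) : ℕ) L →* ℚ_[((q : Nat.Primes) : ℕ)]) y := by
    apply Units.ext
    rw [Units.val_mul]
    exact hy
  have h2 : ψ (Units.map (Algebra.norm ℚ_[((q : Nat.Primes) : ℕ)] :
      locField ((q : Nat.Primes) : ℕ) L →* ℚ_[((q : Nat.Primes) : ℕ)]) y) = 1 :=
    hnorm _ y rfl
  rw [hu, map_mul, h2, mul_one] at h1
  exact h1

/-- **(b)** if the Shapiro component at `q` is a nonzero class killed by the odd prime `p`, and the
kernel of `ψ` is exactly the local norm group, then `ψ(q-component of the global invariant)² ≠ 1`. -/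
theorem psi_evalTop_sq_ne_one
    (hnorm : ∀ (b : ℚ_[((q : Nat.Primes) : ℕ)]ˣ) (y : (locField ((q : Nat.Primes) : ℕ) L)ˣ),
      (b : ℚ_[((q : Nat.Primes) : ℕ)]) = Algebra.norm ℚ_[((q : Nat.Primes) : ℕ)]
        (y : locField ((q : Nat.Primes) : ℕ) L) → ψ b = 1)
    (hker : ∀ b : ℚ_[((q : Nat.Primes) : ℕ)]ˣ, ψ b = 1 →
      ∃ y : (locField ((q : Nat.Primes) : ℕ) L)ˣ,
        (b : ℚ_[((q : Nat.Primes) : ℕ)]) = Algebra.norm ℚ_[((q : Nat.Primes) : ℕ)]
          (y : locField ((q : Nat.Primes) : ℕ) L))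
    (hσ : IsGen σ m) (f : cocycles₂ (J L T)) {p : ℕ} (hp : p.Prime) (hp2 : p ≠ 2)
    (hne : H2π (locUnits ((q : Nat.Primes) : ℕ) L) (locCocycleQ L T q f) ≠ 0)
    (htors : p • H2π (locUnits ((q : Nat.Primes) : ℕ) L) (locCocycleQ L T q f) = 0) :
    ψ (evalTop L T (gam σ m (f : _ × _ → J L T)) q) ^ 2 ≠ 1 := by
  obtain ⟨δ, d, e, hδ, hdec, hde⟩ := exists_isGen_of_injective hσ
    (decHom ((q : Nat.Primes) : ℕ) L) (decHom_injective ((q : Nat.Primes) : ℕ) L)
  obtain ⟨b', hb'⟩ := exists_baseElt_eq_gam hδ (locCocycleQ L T q f)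
  obtain ⟨y, hy⟩ := exists_eq_evalTop_mul_norm hσ f q hδ hdec hde b' hb'
  have hu : b' = evalTop L T (gam σ m (f : _ × _ → J L T)) q * Units.map (Algebra.norm ℚ_[((q : Nat.Primes) : ℕ)] :
      locField ((q : Nat.Primes) : ℕ) L →* ℚ_[((q : Nat.Primes) : ℕ)]) y := by
    apply Units.ext
    rw [Units.val_mul]
    exact hy
  have h2 : ψ (Units.map (Algebra.norm ℚ_[((q : Nat.Primes) : ℕ)] :
      locField ((q : Nat.Primes) : ℕ) L →* ℚ_[((q : Nat.Primes) : ℕ)]) y) = 1 :=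
    hnorm _ y rfl
  have h3 : ψ b' = ψ (evalTop L T (gam σ m (f : _ × _ → J L T)) q) := by
    rw [hu, map_mul, h2, mul_one]
  rw [← h3]
  exact psi_sq_ne_one ψ hnorm hker hδ (locCocycleQ L T q f) hp hp2 hne htors b' hb'

end PerPlace


section Final

open scoped Classical

variable (p : ℕ) [hp : Fact p.Prime] (k : ℕ)

/-- **(NC) at the finite cyclotomic level, local-component half.**  `Γ = Gal(L/ℚ) = ⟨σ⟩` cyclic,
`f` a 2-cocycle of `Γ` in the `T`-ideles of `L` whose Shapiro components vanish outside `q₀` and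
whose component at `q₀` is a NONZERO class killed by the odd prime `p`.  If the explicit symbols
`psiQ`, `psiP` have kernel exactly the local norm groups of `L_q/ℚ_q` (true for
`L = ℚ(ζ_{p^(k+1)})`), then the explicit reciprocity functional does NOT kill (even up to sign)
the periodicity invariant `gam σ m f ∈ J(L,T)^Γ = J(ℚ,T)`. -/
theorem thetaQ_gam_sq_ne_one (hp2 : p ≠ 2) (hpT : pp p ∈ T)
    (hQ : ∀ q : T, (q : Nat.Primes) ≠ pp p → ∀ b : ℚ_[((q : Nat.Primes) : ℕ)]ˣ,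
      psiQ p k q b = 1 ↔ ∃ y : (locField ((q : Nat.Primes) : ℕ) L)ˣ,
        (b : ℚ_[((q : Nat.Primes) : ℕ)]) = Algebra.norm ℚ_[((q : Nat.Primes) : ℕ)]
          (y : locField ((q : Nat.Primes) : ℕ) L))
    (hP : ∀ b : ℚ_[p]ˣ, psiP p k b = 1 ↔ ∃ y : (locField p L)ˣ,
        (b : ℚ_[p]) = Algebra.norm ℚ_[p] (y : locField p L))
    (hσ : IsGen σ m) (f : cocycles₂ (J L T)) (q₀ : T)
    (hzero : ∀ q : T, q ≠ q₀ →
      H2π (locUnits ((q : Nat.Primes) : ℕ) L) (locCocycleQ L T q f) = 0)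
    (hne : H2π (locUnits ((q₀ : Nat.Primes) : ℕ) L) (locCocycleQ L T q₀ f) ≠ 0)
    (htors : p • H2π (locUnits ((q₀ : Nat.Primes) : ℕ) L) (locCocycleQ L T q₀ f) = 0) :
    thetaQ p k T hpT (evalTop L T (gam σ m (f : _ × _ → J L T))) ^ 2 ≠ 1 := by
  have hne_of : ∀ q : T, q ≠ (⟨pp p, hpT⟩ : T) → (q : Nat.Primes) ≠ pp p :=
    fun q hq h => hq (Subtype.ext h)
  have hQP : ∀ q : T, q = (⟨pp p, hpT⟩ : T) →
      psiQ p k q (evalTop L T (gam σ m (f : _ × _ → J L T)) q) = 1 := by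
    intro q hq
    subst hq
    exact psiQ_pp p k _
  -- the symbols at the places with trivial component
  have hQ1 : ∀ q : T, q ≠ q₀ →
      psiQ p k q (evalTop L T (gam σ m (f : _ × _ → J L T)) q) = 1 := by
    intro q hq
    by_cases hqP : q = (⟨pp p, hpT⟩ : T)
    · exact hQP q hqP
    · exact psi_evalTop_eq_one q (psiQ p k q)
        (fun b y hy => (hQ q (hne_of q hqP) b).2 ⟨y, hy⟩) hσ f (hzero q hq)
  rw [thetaQ_apply]
  have hatP : atP p T hpT (evalTop L T (gam σ m (f : _ × _ → J L T))) =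
      evalTop L T (gam σ m (f : _ × _ → J L T)) (⟨pp p, hpT⟩ : T) := rfl
  rw [hatP]
  by_cases h0 : q₀ = (⟨pp p, hpT⟩ : T)
  · -- the wild place
    subst h0
    have hprod : (∏ q : T, psiQ p k q (evalTop L T (gam σ m (f : _ × _ → J L T)) q)) = 1 := by
      apply Finset.prod_eq_one
      intro q _
      by_cases hqP : q = (⟨pp p, hpT⟩ : T)
      · exact hQP q hqP
      · exact hQ1 q hqP
    rw [hprod, one_mul]
    exact psi_evalTop_sq_ne_one (⟨pp p, hpT⟩ : T) (psiP p k) (fun b y hy => (hP b).2 ⟨y, hy⟩)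
      (fun b hb => (hP b).1 hb) hσ f hp.out hp2 hne htors
  · -- a tame place
    have hPq : (⟨pp p, hpT⟩ : T) ≠ q₀ := fun h => h0 h.symm
    have hpsiP : psiP p k (evalTop L T (gam σ m (f : _ × _ → J L T)) (⟨pp p, hpT⟩ : T)) = 1 :=
      psi_evalTop_eq_one (⟨pp p, hpT⟩ : T) (psiP p k) (fun b y hy => (hP b).2 ⟨y, hy⟩) hσ f
        (hzero _ hPq)
    have hprod : (∏ q : T, psiQ p k q (evalTop L T (gam σ m (f : _ × _ → J L T)) q)) =
        psiQ p k q₀ (evalTop L T (gam σ m (f : _ × _ → J L T)) q₀) := by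
      apply Finset.prod_eq_single q₀
      · intro q _ hq
        exact hQ1 q hq
      · intro h
        exact absurd (Finset.mem_univ q₀) h
    rw [hprod, hpsiP, mul_one]
    exact psi_evalTop_sq_ne_one q₀ (psiQ p k q₀)
      (fun b y hy => (hQ q₀ (hne_of q₀ h0) b).2 ⟨y, hy⟩)
      (fun b hb => (hQ q₀ (hne_of q₀ h0) b).1 hb) hσ f hp.out hp2 hne htors

/-- the same for `Theta … ⊤` (for `K = ℚ` the relative norm is the identity). -/
theorem Theta_top_gam_sq_ne_one (hp2 : p ≠ 2) (hpT : pp p ∈ T)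
    (hQ : ∀ q : T, (q : Nat.Primes) ≠ pp p → ∀ b : ℚ_[((q : Nat.Primes) : ℕ)]ˣ,
      psiQ p k q b = 1 ↔ ∃ y : (locField ((q : Nat.Primes) : ℕ) L)ˣ,
        (b : ℚ_[((q : Nat.Primes) : ℕ)]) = Algebra.norm ℚ_[((q : Nat.Primes) : ℕ)]
          (y : locField ((q : Nat.Primes) : ℕ) L))
    (hP : ∀ b : ℚ_[p]ˣ, psiP p k b = 1 ↔ ∃ y : (locField p L)ˣ,
        (b : ℚ_[p]) = Algebra.norm ℚ_[p] (y : locField p L))
    (hσ : IsGen σ m) (f : cocycles₂ (J L T)) (q₀ : T)
    (hzero : ∀ q : T, q ≠ q₀ →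
      H2π (locUnits ((q : Nat.Primes) : ℕ) L) (locCocycleQ L T q f) = 0)
    (hne : H2π (locUnits ((q₀ : Nat.Primes) : ℕ) L) (locCocycleQ L T q₀ f) ≠ 0)
    (htors : p • H2π (locUnits ((q₀ : Nat.Primes) : ℕ) L) (locCocycleQ L T q₀ f) = 0) :
    Theta p k L T hpT ⊤ (gam σ m (f : _ × _ → J L T)) ^ 2 ≠ 1 := by
  have hinv : IsInv (J L T).ρ ⊤ (gam σ m (f : _ × _ → J L T)) :=
    isInv_iff_mem_JInv.2 (gam_mem_JInv hσ f)
  have hrel : relNorm (J L T).ρ ⊤ (gam σ m (f : _ × _ → J L T)) =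
      gam σ m (f : _ × _ → J L T) := by
    have := Fintype.ofFinite ((L ≃ₐ[ℚ] L) ⧸ (⊤ : Subgroup (L ≃ₐ[ℚ] L)))
    rw [relNorm_of_isInv_top hinv]
    haveI : Subsingleton ((L ≃ₐ[ℚ] L) ⧸ (⊤ : Subgroup (L ≃ₐ[ℚ] L))) :=
      QuotientGroup.subsingleton_quotient_top
    have hcard : Fintype.card ((L ≃ₐ[ℚ] L) ⧸ (⊤ : Subgroup (L ≃ₐ[ℚ] L))) = 1 :=
      Fintype.card_eq_one_iff.2 ⟨1, fun y => Subsingleton.elim _ _⟩
    rw [hcard, one_smul]
  unfold Theta
  rw [hrel]
  exact thetaQ_gam_sq_ne_one p k hp2 hpT hQ hP hσ f q₀ hzero hne htors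

end Final

end Fermat.Agent.GC.Global.WRec.NCFinLoc
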