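/-
GATE-C / C4 (NC)_ℚ GLOBAL PLUMBING (S1), finite cocycles (helper83).

* `exists_cycLayer_dvd` : for every prime `q` there is `k` with `p ∣ [ℚ_q(ζ_{p^(k+1)}) : ℚ_q]`;
* `exists_layer` : a finite extension `F` unramified outside `S ∋ p` lies in a finite GALOIS layer
  `L ⊇ ℚ(ζ_{p^(k+1)})` unramified outside `S`;
* `exists_finite_cocycle` : a level-constant 2-cocycle `c` of `(G_ℚ, 𝔽_p(χ))`, constant modulo
  `Gal(ℚ̄/L)`, gives the 2-cocycle `z(g₁,g₂) = ζ ^ c(g̃₁, g̃₂)` of `(Gal(L/ℚ), μ_p(L))`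
  (the hypothesis `hz` of `inflBr_locMu_eq`).
-/
import Mathlib
import Fermat.Agent.GC.Global.WRec.NCQLocal
import Fermat.Agent.GC.Global.Funct.LayerSup
import Fermat.Agent.GC.Local.CycloDegGrowthPadic

set_option autoImplicit false
set_option linter.unusedSectionVars false

open scoped Padic
open CategoryTheory

noncomputable section

namespace Fermat.Agent.GC.Global.WRec.NCQ

open Fermat.Agent.GC.Global Fermat.Agent.GC.Global.Adapter Fermat.Agent.GC.Prof
  Fermat.Agent.GC.Local.Abs Fermat.Agent.GC.Local.KR ExtCitation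

local notation "GQ" => (AlgebraicClosure ℚ ≃ₐ[ℚ] AlgebraicClosure ℚ)

variable (p : ℕ) [Fact p.Prime]

/-- **choice of `k`**: `p ∣ [ℚ_q(ζ_{p^(k+1)}) : ℚ_q]` for a suitable `k`. -/
theorem exists_cycLayer_dvd (q : ℕ) [Fact q.Prime] :
    ∃ k : ℕ, p ∣ Module.finrank ℚ_[q] (locField q (cycLayer p k)) := by
  obtain ⟨m₀, hm₀⟩ :=
    Fermat.Agent.GC.Local.CycloDegGrowth.padic_exists_forall_pow_dvd_finrank q p ℚ_[q]
      (PadicAlgCl q) 1
  refine ⟨m₀, ?_⟩
  rw [locField_cycLayer_eq]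
  simpa using hm₀ m₀ le_rfl _ (padicEmbedding_zetaQb_spec p m₀ q)

/-- **the layer**: `F` unramified outside `S ∋ p` lies in a finite Galois layer `L ⊇ M_k`
unramified outside `S`. -/
theorem exists_layer (S : Finset Nat.Primes) (hpS : pp p ∈ S) (k : ℕ)
    (F : IntermediateField ℚ Qb) (hF : F.IsUnramifiedOutside S) :
    ∃ L : IntermediateField ℚ Qb, F ≤ L ∧ cycLayer p k ≤ L ∧ FiniteDimensional ℚ L ∧
      IsGalois ℚ L ∧ L.IsUnramifiedOutside S := by
  have hN := Fermat.Agent.GC.C0.isUnramifiedOutside_normalClosure hF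
  have hfd : FiniteDimensional ℚ (IntermediateField.normalClosure ℚ F Qb) := hN.1
  have hnorm : Normal ℚ (IntermediateField.normalClosure ℚ F Qb) := normalClosure.normal ℚ F Qb
  have hgal : IsGalois ℚ (IntermediateField.normalClosure ℚ F Qb) :=
    { to_isSeparable := inferInstance, to_normal := hnorm }
  obtain ⟨L', h1, h2, -, h4, h5, h6⟩ := Funct.exists_layer_sup p k hN hpS
  exact ⟨L', (IntermediateField.le_normalClosure F).trans h1, h2, h4, h5, h6⟩

section Cocycle

open Elt Fermat.Agent.GC.Places Fermat.Agent.GC.C0 groupCohomology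

variable (S : Finset Nat.Primes) [IsDiscrete (levelS S) (chiRep (cycloChar p))]
  (L : IntermediateField ℚ Qb) [FiniteDimensional ℚ L] [IsGalois ℚ L]

/-- two automorphisms of `ℚ̄` with the same restriction to `L` differ by an element of
`Gal(ℚ̄/L)`. -/
theorem inv_mul_mem_fixingSubgroup {G G' : GQ} (h : resL L G = resL L G') :
    G⁻¹ * G' ∈ L.fixingSubgroup := by
  have hn : Normal ℚ L := IsGalois.to_normal
  have hk := @IntermediateField.restrictNormalHom_ker ℚ Qb _ _ _ L hn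
  rw [← hk, MonoidHom.mem_ker, map_mul, map_inv]
  show (resL L G)⁻¹ * resL L G' = 1
  rw [h, inv_mul_cancel]

/-- **the finite cocycle** `z(g₁,g₂) = ζ ^ c(g̃₁,g̃₂)`. -/
theorem exists_finite_cocycle
    (hζ : ((Places.zetaQb p : Qbˣ) : Qb) ∈ L)
    (c : lcSub (levelS S) (chiRep (cycloChar p)) 2)
    (hc : lcD (levelS S) (chiRep (cycloChar p)) 2 c = 0)
    (hlev : ∀ g s : Fin 2 → GQ, (∀ i, s i ∈ L.fixingSubgroup) →
      (c : (Fin 2 → GQ) → chiRep (cycloChar p)) (g * s) = c.1 g) :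
    ∃ z : zSub (groupCohomology.inhomogeneousCochains (muL p L)) 2, ∀ g : Fin 2 → GQ,
      (((Additive.toMul ((muLι p L).hom
        ((z : (Fin 2 → (L ≃ₐ[ℚ] L)) → muL p L) fun i => resL L (g i))) : Lˣ) : L) : Qb)
        = ((Places.zetaQb p : Qbˣ) : Qb) ^
          (((c : (Fin 2 → GQ) → chiRep (cycloChar p)) g : ZMod p)).val := by
  classical
  have hp : p.Prime := Fact.out
  have : NeZero p := ⟨hp.ne_zero⟩
  -- `ζ` as a unit of `L`
  have hζp : ((Places.zetaQb p : Qbˣ) : Qb) ^ p = 1 := by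
    rw [← Units.val_pow_eq_pow_val, (isPrimitiveRoot_zetaQb p).pow_eq_one, Units.val_one]
  have hζ₀ : (⟨((Places.zetaQb p : Qbˣ) : Qb), hζ⟩ : L) ^ p = 1 := Subtype.ext (by
    rw [SubmonoidClass.coe_pow]
    exact hζp)
  set ζL : Lˣ := Units.ofPowEqOne _ p hζ₀ hp.ne_zero with hζL
  have hζLp : ζL ^ p = 1 := Units.pow_ofPowEqOne hζ₀ hp.ne_zero
  have hζLcoe : ((ζL : L) : Qb) = ((Places.zetaQb p : Qbˣ) : Qb) := rfl
  -- the additive map `φ a = ζ ^ a`
  set φ : ZMod p → Additive Lˣ := fun a => Additive.ofMul (ζL ^ a.val) with hφ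
  have hφp : ∀ a, (p : ℤ) • φ a = 0 := by
    intro a
    show Additive.ofMul ((ζL ^ a.val) ^ (p : ℤ)) = 0
    rw [zpow_natCast, ← pow_mul, mul_comm, pow_mul, hζLp, one_pow]
    rfl
  have hφadd : ∀ a b, φ (a + b) = φ a + φ b := by
    intro a b
    show Additive.ofMul (ζL ^ (a + b).val) = Additive.ofMul (ζL ^ a.val * ζL ^ b.val)
    rw [← pow_add, ZMod.val_add, ← pow_eq_pow_mod _ hζLp]
  -- sections and level-invariance
  have hsurj : Function.Surjective (resL L) := AlgEquiv.restrictNormalHom_surjective Qb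
  set lift : (L ≃ₐ[ℚ] L) → GQ := Function.surjInv hsurj with hlift
  have hres : ∀ σ, resL L (lift σ) = σ := Function.surjInv_eq hsurj
  have hinv : ∀ G G' H H' : GQ, resL L G = resL L G' → resL L H = resL L H' →
      (c : (Fin 2 → GQ) → chiRep (cycloChar p)) ![G, H] = c.1 ![G', H'] := by
    intro G G' H H' hG hH
    have e : (![G', H'] : Fin 2 → GQ) = ![G, H] * ![G⁻¹ * G', H⁻¹ * H'] := by
      funext i
      fin_cases i <;> simp
    rw [e]
    refine (hlev _ _ ?_).symm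
    intro i
    fin_cases i
    · exact inv_mul_mem_fixingSubgroup L hG
    · exact inv_mul_mem_fixingSubgroup L hH
  -- the action on `φ`
  have hφρ : ∀ (σ : L ≃ₐ[ℚ] L) (a : ZMod p),
      (globUnits L).ρ σ (φ a) = φ (((cycloChar p (lift σ) : (ZMod p)ˣ) : ZMod p) * a) := by
    intro σ a
    apply Additive.toMul.injective
    apply Units.ext
    apply Subtype.ext
    show ((σ ((ζL ^ a.val : Lˣ) : L) : L) : Qb)
      = (((ζL ^ (((cycloChar p (lift σ) : (ZMod p)ˣ) : ZMod p) * a).val : Lˣ) : L) : Qb)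
    have h1 : ((σ ((ζL ^ a.val : Lˣ) : L) : L) : Qb) = lift σ (((ζL ^ a.val : Lˣ) : L) : Qb) := by
      have := coe_resL L (lift σ) ((ζL ^ a.val : Lˣ) : L)
      rw [hres] at this
      exact this
    rw [h1, Units.val_pow_eq_pow_val, Units.val_pow_eq_pow_val, SubmonoidClass.coe_pow,
      SubmonoidClass.coe_pow, hζLcoe, map_pow,
      cycloChar_spec p (lift σ) (isPrimitiveRoot_zetaQb p).pow_eq_one, ← pow_mul, ZMod.val_mul,
      ← pow_eq_pow_mod _ hζp]
  -- the cocycle identity of `c` in plain form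
  have hcoc := (mem_cocycles₂_iff _).1 ((lcD_two_eq_zero_iff (levelS S) (chiRep (cycloChar p)) c).1 hc)
  -- the plain finite cocycle
  set f : (L ≃ₐ[ℚ] L) × (L ≃ₐ[ℚ] L) → muL p L := fun g =>
    (⟨φ (c.1 ![lift g.1, lift g.2]), (mem_torsSub_iff (globUnits L) (p : ℤ) _).2 (hφp _)⟩ :
      torsSub (globUnits L) (p : ℤ)) with hf
  have hfcoc : f ∈ cocycles₂ (muL p L) := by
    rw [mem_cocycles₂_iff]
    intro g h j
    apply torsι_injective (globUnits L) (p : ℤ)
    have h0 := hcoc (lift g) (lift h) (lift j)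
    have h0' : (c : (Fin 2 → GQ) → chiRep (cycloChar p)) ![lift g * lift h, lift j]
        + c.1 ![lift g, lift h]
        = ((cycloChar p (lift g) : (ZMod p)ˣ) : ZMod p) * c.1 ![lift h, lift j]
          + c.1 ![lift g, lift h * lift j] := h0
    have e1 : (c : (Fin 2 → GQ) → chiRep (cycloChar p)) ![lift g * lift h, lift j]
        = c.1 ![lift (g * h), lift j] :=
      hinv _ _ _ _ (by rw [map_mul, hres, hres, hres]) rfl
    have e2 : (c : (Fin 2 → GQ) → chiRep (cycloChar p)) ![lift g, lift h * lift j]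
        = c.1 ![lift g, lift (h * j)] :=
      hinv _ _ _ _ rfl (by rw [map_mul, hres, hres, hres])
    rw [e1, e2] at h0'
    have key : φ (c.1 ![lift (g * h), lift j]) + φ (c.1 ![lift g, lift h])
        = φ (((cycloChar p (lift g) : (ZMod p)ˣ) : ZMod p) * c.1 ![lift h, lift j])
          + φ (c.1 ![lift g, lift (h * j)]) := by
      rw [← hφadd, ← hφadd]
      exact congrArg φ h0'
    rw [← hφρ] at key
    exact key
  -- the `Fin`-curried cocycle
  have hzmem : (fun g : Fin 2 → (L ≃ₐ[ℚ] L) => f (g 0, g 1)) ∈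
      zSub (groupCohomology.inhomogeneousCochains (muL p L)) 2 := by
    rw [mem_zSub_iff]
    have h23 := congr($(comp_d₂₃_eq (muL p L)) (fun g : Fin 2 → (L ≃ₐ[ℚ] L) => f (g 0, g 1)))
    have h1 : (cochainsIso₂ (muL p L)).hom (fun g : Fin 2 → (L ≃ₐ[ℚ] L) => f (g 0, g 1)) = f := rfl
    rw [ModuleCat.comp_apply, ModuleCat.comp_apply, h1] at h23
    have h2 : (d₂₃ (muL p L)) f = 0 := hfcoc
    rw [h2] at h23
    have hinj : Function.Injective (cochainsIso₃ (muL p L)).hom :=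
      (ModuleCat.mono_iff_injective _).1 inferInstance
    apply hinj
    rw [← h23, map_zero]
  refine ⟨⟨_, hzmem⟩, fun g => ?_⟩
  show (((ζL ^ (c.1 ![lift (resL L (g 0)), lift (resL L (g 1))] : ZMod p).val : Lˣ) : L) : Qb)
    = ((Places.zetaQb p : Qbˣ) : Qb) ^ ((c.1 g : ZMod p)).val
  have e3 : (c : (Fin 2 → GQ) → chiRep (cycloChar p)) ![lift (resL L (g 0)), lift (resL L (g 1))]
      = c.1 g := by
    have e4 : g = ![g 0, g 1] := by
      funext i
      fin_cases i <;> rfl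
    rw [hinv _ (g 0) _ (g 1) (hres _) (hres _), ← e4]
  rw [e3, Units.val_pow_eq_pow_val, SubmonoidClass.coe_pow, hζLcoe]

end Cocycle

end Fermat.Agent.GC.Global.WRec.NCQ
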