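/-
GATE-C / C4 (NC)_ℚ GLOBAL PLUMBING (S1), the reduction (helper83).

`hNC_of_NCFin : NCFin p → (the hNC binder of C0.PTSha_of_arith)`:
"no class of `Hlc²(G_{ℚ,S}, 𝔽_p(χ_cyc))` is supported at exactly one place" from its finite-level form.

Route: `x = [c]`, `c` level-constant modulo `Gal(ℚ̄/F)`; `k` with `p ∣ [ℚ_v(ζ_{p^(k+1)}) : ℚ_v]`;
`L ⊇ F, M_k` a Galois layer unramified outside `S`; `T ⊇ S` good; `z = ζ^c` the finite cocycle of
`(Gal(L/ℚ), μ_p(L))`; `[z]` in `H²(Gal(L/ℚ), E(L,T))` is `p`-torsion, locally trivial at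
`q ∈ S ∖ {v}` (local dictionary + injectivity of inflation into `Br(ℚ_q)`), and at `q ∈ T ∖ S`
(unramified vanishing); `NCFin` gives local triviality at `v`, hence `y = loc_v x = 0`
(local dictionary + local Kummer injectivity).
-/
import Mathlib
import Fermat.Agent.GC.Global.WRec.NCQFinCoc
import Fermat.Agent.GC.Global.Adapter.PrimesOver

set_option autoImplicit false
set_option linter.unusedSectionVars false

open scoped Padic
open CategoryTheory

noncomputable section

namespace Fermat.Agent.GC.Global.WRec.NCQ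

open Fermat.Agent.GC.Global Fermat.Agent.GC.Global.Adapter Fermat.Agent.GC.Prof
  Fermat.Agent.GC.Prof.Cone Fermat.Agent.GC.PT.LocDataQ
  Fermat.Agent.GC.Local.Abs Fermat.Agent.GC.Local.KR ExtCitation
  Fermat.Agent.GC.Places Fermat.Agent.GC.C0 Elt

local notation "GQ" => (AlgebraicClosure ℚ ≃ₐ[ℚ] AlgebraicClosure ℚ)

variable (p : ℕ) [Fact p.Prime]

/-- (Instance search does not see through `chiRep`; any two proofs are equal.) -/
theorem isDiscrete_res_locDataQ_chiRep (S : Finset Nat.Primes)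
    [IsDiscrete (levelS S) (chiRep (cycloChar p))] (v : (locDataQ S).ι) :
    IsDiscrete ((locDataQ S).𝒰v v) (Rep.res ((locDataQ S).r v) (chiRep (cycloChar p))) :=
  LocalData.isDiscrete_res (locDataQ S) v (chiRep (cycloChar p))

attribute [local instance] isDiscrete_res_locDataQ_chiRep

/-- **(NC)_ℚ from its finite-level form.** -/
theorem hNC_of_NCFin (hN : NCFin p) (S : Finset Nat.Primes) (hpS : pPrime p ∈ S)
    [IsDiscrete (levelS S) (chiRep (cycloChar p))] :
    ∀ (v : (locDataQ S).ι)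
      (y : Hlc ((locDataQ S).𝒰v v) (Rep.res ((locDataQ S).r v) (chiRep (cycloChar p))) 2)
      (x : Hlc (levelS S) (chiRep (cycloChar p)) 2),
      locRes (locDataQ S) (chiRep (cycloChar p)) 2 x = Pi.single v y → y = 0 := by
  classical
  intro v y x hx
  have hp : p.Prime := Fact.out
  set q₀ : Nat.Primes := ((show ↥S from v) : Nat.Primes) with hq₀
  have hq₀S : q₀ ∈ S := (show ↥S from v).2
  -- the components of `loc x`
  have hcomp : ∀ w : (locDataQ S).ι,
      HlcRes ((locDataQ S).cont w) (chiRep (cycloChar p)) 2 x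
        = (Pi.single v y : ∀ v, Hlc ((locDataQ S).𝒰v v)
            (Rep.res ((locDataQ S).r v) (chiRep (cycloChar p))) 2) w := by
    intro w
    rw [← hx, locRes_apply]
  have hyv : HlcRes ((locDataQ S).cont v) (chiRep (cycloChar p)) 2 x = y := by
    rw [hcomp v]
    exact Pi.single_eq_same (M := fun v =>
      ↑(Hlc ((locDataQ S).𝒰v v) (Rep.res ((locDataQ S).r v) (chiRep (cycloChar p))) 2)) v y
  have hyw : ∀ w : (locDataQ S).ι, w ≠ v →
      HlcRes ((locDataQ S).cont w) (chiRep (cycloChar p)) 2 x = 0 := by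
    intro w hw
    rw [hcomp w]
    exact Pi.single_eq_of_ne (M := fun v =>
      ↑(Hlc ((locDataQ S).𝒰v v) (Rep.res ((locDataQ S).r v) (chiRep (cycloChar p))) 2)) hw y
  rw [← hyv]
  -- a level-constant cocycle
  obtain ⟨c, hc, rfl⟩ := Hlc_exists_mk (levelS S) (chiRep (cycloChar p)) x
  obtain ⟨U, hU, hUc⟩ := c.2
  obtain ⟨F, hF, rfl⟩ := (mem_levelS_iff S U).1 hU
  -- the layer
  obtain ⟨k, hk⟩ := exists_cycLayer_dvd p (q₀ : ℕ)
  obtain ⟨L, hFL, hkL, hfd, hgal, hLS⟩ := exists_layer p S hpS k F hF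
  have := hfd
  have := hgal
  obtain ⟨T, hST, hgood⟩ := exists_goodT L S hLS hp
  -- `ζ_p ∈ L`
  have hζL : ((Places.zetaQb p : Qbˣ) : Qb) ∈ L := by
    apply hkL
    have h1 : ((Places.zetaQb p : Qbˣ) : Qb) ^ (p ^ (k + 1)) = 1 := by
      rw [pow_succ, pow_mul', ← Units.val_pow_eq_pow_val,
        (isPrimitiveRoot_zetaQb p).pow_eq_one, Units.val_one, one_pow]
    obtain ⟨i, -, hi⟩ := (zetaQb_spec p k).eq_pow_of_pow_eq_one h1
    rw [← hi]
    exact pow_mem (IntermediateField.mem_adjoin_simple_self ℚ _) i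
  -- the finite cocycle
  have hlev : ∀ g s : Fin 2 → GQ, (∀ i, s i ∈ L.fixingSubgroup) →
      (c : (Fin 2 → GQ) → chiRep (cycloChar p)) (g * s) = c.1 g :=
    fun g s hs => hUc g s fun i => IntermediateField.fixingSubgroup_antitone hFL (hs i)
  obtain ⟨z, hz⟩ := exists_finite_cocycle p S L hζL c hc hlev
  set xμ : groupCohomology (muL p L) 2 :=
    hMk (groupCohomology.inhomogeneousCochains (muL p L)) 2 z with hxμ
  -- `NCFin`
  have key := hN L T hgood k hkL ⟨q₀, hST hq₀S⟩ hk
    (groupCohomology.map (MonoidHom.id (L ≃ₐ[ℚ] L)) (muToE p L T) 2 xμ)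
    (by
      rw [← map_nsmul, smul_groupCohomology_muL_eq_zero, map_zero])
    (by
      intro q hq
      rw [locClass_muToE]
      by_cases hqS : (q : Nat.Primes) ∈ S
      · -- `q ∈ S`, `q ≠ v`: the local dictionary
        have hne : (⟨(q : Nat.Primes), hqS⟩ : (locDataQ S).ι) ≠ v := by
          intro h
          apply hq
          apply Subtype.ext
          exact congrArg (fun w : ↥S => (w : Nat.Primes)) h
        have : IsDiscrete (levelQ ((q : Nat.Primes) : ℕ))
            (Rep.res (localGaloisToGlobal ((q : Nat.Primes) : ℕ)) (chiRep (cycloChar p))) :=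
          LocalData.isDiscrete_res (locDataQ S) (⟨(q : Nat.Primes), hqS⟩ : (locDataQ S).ι)
            (chiRep (cycloChar p))
        have hdict := inflBr_locMu_eq p L (q : Nat.Primes) S c hc z hz
        have h0 := hyw (⟨(q : Nat.Primes), hqS⟩ : (locDataQ S).ι) hne
        apply inflBr_two_injective ℚ_[((q : Nat.Primes) : ℕ)]
          (locField ((q : Nat.Primes) : ℕ) L) (PadicAlgCl ((q : Nat.Primes) : ℕ))
        rw [map_zero]
        refine hdict.trans ?_
        have h0' : HlcRes (isContHom_localGaloisToGlobal S ((q : Nat.Primes) : ℕ))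
            (chiRep (cycloChar p)) 2 (HlcMk (levelS S) (chiRep (cycloChar p)) c hc) = 0 := h0
        rw [h0']
        exact (congrArg _ (AddEquiv.map_zero (HlcChiMuQ p ((q : Nat.Primes) : ℕ) 2))).trans
          (map_zero _)
      · -- `q ∉ S`: unramified vanishing
        exact map_locMu_eq_zero p L (q : Nat.Primes)
          (LMU.isUnramAt_of_isUnramifiedOutside L (q : Nat.Primes) hLS hqS) xμ)
  -- conclusion at `v`
  rw [locClass_muToE] at key
  have : IsDiscrete (levelQ (q₀ : ℕ))
      (Rep.res (localGaloisToGlobal (q₀ : ℕ)) (chiRep (cycloChar p))) :=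
    LocalData.isDiscrete_res (locDataQ S) v (chiRep (cycloChar p))
  have hdict := inflBr_locMu_eq p L q₀ S c hc z hz
  have key' : groupCohomology.map (decHom (q₀ : ℕ) L)
      (locMu p L q₀) 2 xμ = 0 := key
  rw [← hxμ, key', map_zero] at hdict
  have h1 := HlcMap_muι_two_injective ℚ_[(q₀ : ℕ)]
    (PadicAlgCl (q₀ : ℕ)) (p := p)
    (hasRoots_of_isAlgClosed (PadicAlgCl (q₀ : ℕ)) hp.ne_zero)
  have h2 := h1 (hdict.symm.trans (map_zero _).symm)
  have h3 := (HlcChiMuQ p (q₀ : ℕ) 2).injective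
    (h2.trans (map_zero _).symm)
  exact h3

end Fermat.Agent.GC.Global.WRec.NCQ
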