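/-
GATE-C / C4 (NC)_ℚ CLOSED (helper83 + helper52 + helper3 + helper55 + helper1).

`hNC_Q` : the `hNC` binder of `C0.PTSha_of_arith` / `C0.S55_of_kummerK`, UNCONDITIONAL for `p ≠ 2`,
`p ∈ S`: "no class of `Hlc²(G_{ℚ,S}, 𝔽_p(χ_cyc))` is supported at exactly one place".
`hNC_Q = NCQ.hNC_of_NCFin (NCFinProof.ncFin hp2)`.
-/
import Mathlib
import Fermat.Agent.GC.Global.WRec.NCQReduce
import Fermat.Agent.GC.Global.WRec.NCFinProof

set_option autoImplicit false

open CategoryTheory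

noncomputable section

namespace Fermat.Agent.GC.Global.WRec.NCQ

open Fermat.Agent.GC.Prof Fermat.Agent.GC.Prof.Cone Fermat.Agent.GC.PT.LocDataQ ExtCitation
  Fermat.Agent.GC.C0

attribute [local instance] isDiscrete_res_locDataQ_chiRep

/-- **(NC)_ℚ**, unconditional (`p` odd, `p ∈ S`). -/
theorem hNC_Q (p : ℕ) [Fact p.Prime] (hp2 : p ≠ 2) (S : Finset Nat.Primes) (hpS : pPrime p ∈ S)
    [IsDiscrete (levelS S) (chiRep (cycloChar p))] :
    ∀ (v : (locDataQ S).ι)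
      (y : Hlc ((locDataQ S).𝒰v v) (Rep.res ((locDataQ S).r v) (chiRep (cycloChar p))) 2)
      (x : Hlc (levelS S) (chiRep (cycloChar p)) 2),
      locRes (locDataQ S) (chiRep (cycloChar p)) 2 x = Pi.single v y → y = 0 :=
  hNC_of_NCFin p (NCFinProof.ncFin p hp2) S hpS

end Fermat.Agent.GC.Global.WRec.NCQ
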