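/-
GATE-C / (NC)_ℚ step (S1), independent pieces (helper3).

* (e) `exists_dvd_finrank_locField_cycLayer` : for every prime `q` and every `a`, the local degree
  `[ℚ_q(ζ_{p^(k+1)}) : ℚ_q]` is divisible by `p^a` for `k ≥ k₀` — the degree hypothesis of
  helper83's `NCQ.NCFin`;
* (d) `extE` : the inclusion `E(L,S) ⟶ E(L,T)` of `S`-units in `T`-units (`S ⊆ T`) and
  **`locClass_extE_eq_zero`** : the local component at `q ∈ T ∖ S` of a class of `S`-units of a layer
  `L` unramified at `q` VANISHES (`H²(Gal(L_q/ℚ_q), O_{L_q}^×) = 0`, helper26 `Unram`).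
-/
import Mathlib
import Fermat.Agent.GC.Global.WRec.NCFinDef
import Fermat.Agent.GC.Global.Adapter.UnramVanish
import Fermat.Agent.GC.Global.Funct.TChangeCS
import Fermat.Agent.GC.Local.BrauerCyc
import Fermat.Agent.GC.Local.KrasnerDec

set_option autoImplicit false
set_option linter.unusedSectionVars false

open scoped Padic
open CategoryTheory IntermediateField groupCohomology
open Fermat.Agent.GC.Global Fermat.Agent.GC.Global.Adapter Fermat.Agent.GC.Global.Funct

noncomputable section

namespace Fermat.Agent.GC.Global.WRec.NCQPieces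

open Fermat.Agent.GC.Global.WRec

/-! ### (e) local degree growth of the cyclotomic layers -/

theorem exists_dvd_finrank_locField_cycLayer (p : ℕ) [Fact p.Prime] (q : ℕ) [Fact q.Prime]
    (a : ℕ) :
    ∃ k₀ : ℕ, ∀ k, k₀ ≤ k →
      p ^ a ∣ Module.finrank ℚ_[q] (locField q (cycLayer p k)) := by
  have hgal : IsGalois ℚ_[q] (PadicAlgCl q) := Fermat.Agent.GC.Local.KR.isGalois_padicAlgCl q
  obtain ⟨k₀, hk₀⟩ := Fermat.Agent.GC.Local.BrauerCyc.exists_pow_dvd_finrank_of_mem q ℚ_[q]
    (PadicAlgCl q) p a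
  refine ⟨k₀, fun k hk => ?_⟩
  have hζ : IsPrimitiveRoot (padicEmbedding q (zetaQb p k)) (p ^ (k + 1)) :=
    (zetaQb_spec p k).map_of_injective (padicEmbedding q).injective
  have hmem : padicEmbedding q (zetaQb p k) ∈ locField q (cycLayer p k) :=
    padicEmbedding_mem_locField q (cycLayer p k)
      ⟨zetaQb p k, IntermediateField.mem_adjoin_simple_self ℚ _⟩
  exact hk₀ k hk (locField q (cycLayer p k)) _ hζ hmem

/-! ### (d) UNRAM-VANISH in `locClass` language -/

section Generic

variable {k G D : Type} [CommRing k] [Group G] [Group D] (φ : D →* G) {A : Rep.{0} k G}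
  (B : Rep.{0} k D) (W : Submodule k B.V) (hW : ∀ d, W ≤ W.comap (B.ρ d))
  (f : Rep.res φ A ⟶ B) (hf : ∀ a : A.V, f.hom a ∈ W)

/-- a compatible pair with values in a subrepresentation factors through it. -/
def factorSub : Rep.res φ A ⟶ Rep.subrepresentation B W hW :=
  Rep.ofHom
    { toLinearMap :=
        { toFun := fun a => (⟨f.hom a, hf a⟩ : W)
          map_add' := fun a b => Subtype.ext (map_add f.hom a b)
          map_smul' := fun c a => Subtype.ext (map_smul f.hom c a) }
      isIntertwining' := fun d => by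
        refine LinearMap.ext fun a => Subtype.ext ?_
        exact Rep.hom_comm_apply f d a }

lemma factorSub_comp : factorSub φ B W hW f hf ≫ Rep.subtype B W hW = f := by
  ext a
  rfl

include hf in
/-- if `Hⁿ(D, W) = 0`, a compatible pair with values in `W` induces `0` on `Hⁿ`. -/
theorem map_eq_zero_of_values_mem (n : ℕ)
    (hz : Limits.IsZero (groupCohomology (Rep.subrepresentation B W hW) n)) :
    groupCohomology.map φ f n = 0 := by
  have h1 : groupCohomology.map φ f n =
      groupCohomology.map φ (factorSub φ B W hW f hf) n ≫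
        groupCohomology.map (MonoidHom.id D) (Rep.subtype B W hW) n := by
    rw [← groupCohomology.map_comp]
    apply groupCohomology.map_congr
    · rfl
    · rfl
  have h2 : groupCohomology.map φ (factorSub φ B W hW f hf) n = 0 := hz.eq_of_tgt _ _
  rw [h1, h2, Limits.zero_comp]

variable {A' : Rep.{0} k G} (B' : Rep.{0} k G) (W' : Submodule k B'.V) (hW' : ∀ g, W' ≤ W'.comap (B'.ρ g))
  (f' : A' ⟶ B') (hf' : ∀ a : A'.V, f'.hom a ∈ W')

/-- a morphism with values in a subrepresentation factors through it. -/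
def factorSubId : A' ⟶ Rep.subrepresentation B' W' hW' :=
  Rep.ofHom
    { toLinearMap :=
        { toFun := fun a => (⟨f'.hom a, hf' a⟩ : W')
          map_add' := fun a b => Subtype.ext (map_add f'.hom a b)
          map_smul' := fun c a => Subtype.ext (map_smul f'.hom c a) }
      isIntertwining' := fun d => by
        refine LinearMap.ext fun a => Subtype.ext ?_
        exact Rep.hom_comm_apply f' d a }

lemma factorSubId_comp : factorSubId B' W' hW' f' hf' ≫ Rep.subtype B' W' hW' = f' := by
  ext a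
  rfl

omit f' in
lemma subtype_hom_mem (a : (Rep.subrepresentation B' W' hW').V) :
    (Rep.subtype B' W' hW').hom a ∈ W' := a.2

end Generic

section Unram

open Fermat.Agent.GC.Global.LMU Fermat.Agent.GC.Local.Unram

variable (L : IntermediateField ℚ Qb) [FiniteDimensional ℚ L] [IsGalois ℚ L]
  (S T : Finset Nat.Primes)

/-- the localisation of an `S`-unit at `q ∉ S` is a `q`-adic unit. -/
lemma locEmbU_mem_intUnitsSub (q : Nat.Primes) (hq : q ∉ S) {x : Additive Lˣ}
    (hx : x ∈ tUnitsSub L S) : (NCQ.locEmbU L q).hom x ∈ intUnitsSub (locO L q) := by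
  have h1 : (NCQ.locEmbU L q).hom x = diagqFun (q : ℕ) L (Additive.toMul x) 1 := by
    apply Additive.toMul.injective
    apply Units.ext
    rfl
  rw [h1]
  exact diagqFun_tUnits_mem L q S hq hx 1

/-- **UNRAM-VANISH in `locClass` language**: for `q ∈ T ∖ S` with `L` unramified at `q`, the local
component at `q` of `j_* x` vanishes for every morphism `j : A ⟶ E(L,T)` with values in the
`S`-units (e.g. `A = E(L,S)`, or `A = μ_p(L)`). -/
theorem comp_locClass_eq_zero (q : T) (hq : (q : Nat.Primes) ∉ S) (hun : IsUnramAt L q)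
    {A : Rep.{0} ℤ (L ≃ₐ[ℚ] L)} (j : A ⟶ E L T)
    (hj : ∀ a : A.V, (NCQ.EtoUnits L T).hom (j.hom a) ∈ tUnitsSub L S) :
    groupCohomology.map (MonoidHom.id (L ≃ₐ[ℚ] L)) j 2 ≫ NCQ.locClass L T (q : Nat.Primes) = 0 := by
  have hz : Limits.IsZero (groupCohomology (Rep.subrepresentation (locUnits ((q : Nat.Primes) : ℕ) L)
      (intUnitsSub (locO L q)) (intUnitsSub_le_comap (locO L q) (locO_galStable L q))) 2) :=
    isZero_groupCohomology_intUnitsRep (locO L q) (locO_galStable L q) hun 1
  have hval : ∀ a : A.V,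
      ((Rep.resFunctor (decHom ((q : Nat.Primes) : ℕ) L)).map j ≫
        NCQ.locE L T (q : Nat.Primes)).hom a ∈ intUnitsSub (locO L q) := by
    intro a
    have h1 : ((Rep.resFunctor (decHom ((q : Nat.Primes) : ℕ) L)).map j ≫
        NCQ.locE L T (q : Nat.Primes)).hom a =
        (NCQ.locEmbU L (q : Nat.Primes)).hom ((NCQ.EtoUnits L T).hom (j.hom a)) := rfl
    rw [h1]
    exact locEmbU_mem_intUnitsSub L S (q : Nat.Primes) hq (hj a)
  have h0 := map_eq_zero_of_values_mem (decHom ((q : Nat.Primes) : ℕ) L)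
    (locUnits ((q : Nat.Primes) : ℕ) L) (intUnitsSub (locO L q)) (intUnitsSub_le_comap (locO L q) (locO_galStable L q))
    ((Rep.resFunctor (decHom ((q : Nat.Primes) : ℕ) L)).map j ≫ NCQ.locE L T (q : Nat.Primes))
    hval 2 hz
  unfold NCQ.locClass
  rw [← groupCohomology.map_comp]
  exact h0

theorem locClass_map_eq_zero (q : T) (hq : (q : Nat.Primes) ∉ S) (hun : IsUnramAt L q)
    {A : Rep.{0} ℤ (L ≃ₐ[ℚ] L)} (j : A ⟶ E L T)
    (hj : ∀ a : A.V, (NCQ.EtoUnits L T).hom (j.hom a) ∈ tUnitsSub L S)
    (x : groupCohomology A 2) :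
    (NCQ.locClass L T (q : Nat.Primes)).hom
      ((groupCohomology.map (MonoidHom.id (L ≃ₐ[ℚ] L)) j 2).hom x) = 0 := by
  have := congrArg (fun f => f.hom x) (comp_locClass_eq_zero L S T q hq hun j hj)
  exact this

/-- the same with the PRELUDE predicate `L.IsUnramifiedOutside S`. -/
theorem locClass_map_eq_zero_of_isUnramifiedOutside (hS : L.IsUnramifiedOutside S) (q : T)
    (hq : (q : Nat.Primes) ∉ S) {A : Rep.{0} ℤ (L ≃ₐ[ℚ] L)} (j : A ⟶ E L T)
    (hj : ∀ a : A.V, (NCQ.EtoUnits L T).hom (j.hom a) ∈ tUnitsSub L S)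
    (x : groupCohomology A 2) :
    (NCQ.locClass L T (q : Nat.Primes)).hom
      ((groupCohomology.map (MonoidHom.id (L ≃ₐ[ℚ] L)) j 2).hom x) = 0 :=
  locClass_map_eq_zero L S T q hq (isUnramAt_of_isUnramifiedOutside L q hS hq) j hj x

variable {S T}

/-- the inclusion of the `S`-units in the `T`-units, `S ⊆ T`. -/
def extE (hST : S ⊆ T) : E L S ⟶ E L T :=
  factorSubId (globUnits L) (tUnitsSub L T) (tUnitsSub_le_comap L T) (NCQ.EtoUnits L S)
    (fun a => tUnitsSub_mono L hST
      (subtype_hom_mem (globUnits L) (tUnitsSub L S) (tUnitsSub_le_comap L S) a))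

lemma extE_comp_EtoUnits (hST : S ⊆ T) : extE L hST ≫ NCQ.EtoUnits L T = NCQ.EtoUnits L S :=
  factorSubId_comp (globUnits L) (tUnitsSub L T) (tUnitsSub_le_comap L T) (NCQ.EtoUnits L S) _

lemma EtoUnits_extE (hST : S ⊆ T) (x : (E L S).V) :
    (NCQ.EtoUnits L T).hom ((extE L hST).hom x) = (NCQ.EtoUnits L S).hom x := by
  have := congrArg (fun f => f.hom x) (extE_comp_EtoUnits L hST)
  exact this

/-- **UNRAM-VANISH for `S`-unit classes**: the local component at `q ∈ T ∖ S` of (the image in
`H²(E(L,T))` of) a class of `S`-units of a layer unramified outside `S` vanishes. -/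
theorem locClass_extE_eq_zero (hS : L.IsUnramifiedOutside S) (hST : S ⊆ T) (q : T)
    (hq : (q : Nat.Primes) ∉ S) (x : groupCohomology (E L S) 2) :
    (NCQ.locClass L T (q : Nat.Primes)).hom
      ((groupCohomology.map (MonoidHom.id (L ≃ₐ[ℚ] L)) (extE L hST) 2).hom x) = 0 :=
  locClass_map_eq_zero_of_isUnramifiedOutside L S T hS q hq (extE L hST)
    (fun a => by
      rw [EtoUnits_extE]
      exact subtype_hom_mem (globUnits L) (tUnitsSub L S) (tUnitsSub_le_comap L S) a) x

end Unram

end Fermat.Agent.GC.Global.WRec.NCQPieces
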